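import Mathlib

/-!
# S20 block POINTDATA, analytic part (owner: helper46)

The normalised derivative `D f = q · dF/dq` in terms of the cusp function, the
Rankin–Cohen bracket identity `4 E₄ · D E₆ - 6 E₆ · D E₄ = -3456 Δ` (no `E₂` needed), and
simplicity of the zeros of `E₄`, `E₆` and `a E₄³ - b E₆²` on the upper half plane.
-/

set_option autoImplicit false

namespace Fermat.Agent.S20

open UpperHalfPlane hiding I
open ModularForm ModularFormClass EisensteinSeries Derivative Filter Topology Complex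
open scoped MatrixGroups Real Manifold

local notation "𝕢" => Function.Periodic.qParam

/-- `D f = q · (d/dq) F` where `F` is the cusp function of `f`. -/
theorem pa_normalizedDeriv_eq {f : ℍ → ℂ}
    (hper : Function.Periodic (f ∘ ofComplex) 1) (hhol : MDiff f)
    (hbdd : IsBoundedAtImInfty f) (z : ℍ) :
    D f z = 𝕢 1 z * deriv (cuspFunction 1 f) (𝕢 1 z) := by
  have hq : ‖𝕢 1 (z : ℂ)‖ < 1 := Function.Periodic.norm_qParam_lt_one one_pos z.im_pos
  have hF : DifferentiableAt ℂ (cuspFunction 1 f) (𝕢 1 (z : ℂ)) :=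
    differentiableAt_cuspFunction one_pos hper hhol hbdd hq
  have hqd : HasDerivAt (𝕢 1) (2 * π * I * 𝕢 1 (z : ℂ)) (z : ℂ) := by
    have h1 : HasDerivAt (fun w : ℂ => 2 * π * I * w / ((1 : ℝ) : ℂ)) (2 * π * I) (z : ℂ) := by
      simpa using ((hasDerivAt_id (z : ℂ)).const_mul (2 * π * I)).div_const ((1 : ℝ) : ℂ)
    have h2 := h1.cexp
    have h3 : (fun w : ℂ => cexp (2 * π * I * w / ((1 : ℝ) : ℂ))) = 𝕢 1 := rfl
    rw [h3] at h2
    have h4 : cexp (2 * π * I * (z : ℂ) / ((1 : ℝ) : ℂ)) * (2 * π * I) =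
        2 * π * I * 𝕢 1 (z : ℂ) := by
      show _ = 2 * π * I * cexp (2 * π * I * (z : ℂ) / ((1 : ℝ) : ℂ))
      ring
    rw [h4] at h2
    exact h2
  have hcomp : HasDerivAt (fun w : ℂ => cuspFunction 1 f (𝕢 1 w))
      (deriv (cuspFunction 1 f) (𝕢 1 (z : ℂ)) * (2 * π * I * 𝕢 1 (z : ℂ))) (z : ℂ) :=
    hF.hasDerivAt.comp (z : ℂ) hqd
  have heq : (f ∘ ofComplex) =ᶠ[𝓝 (z : ℂ)] fun w : ℂ => cuspFunction 1 f (𝕢 1 w) := by
    filter_upwards [isOpen_upperHalfPlaneSet.mem_nhds z.im_pos] with w hw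
    have := eq_cuspFunction (f := f) ⟨w, hw⟩ one_ne_zero hper
    simp only [Function.comp_apply, ofComplex_apply_of_im_pos hw]
    exact this.symm
  have hd : deriv (f ∘ ofComplex) (z : ℂ) =
      deriv (cuspFunction 1 f) (𝕢 1 (z : ℂ)) * (2 * π * I * 𝕢 1 (z : ℂ)) :=
    (hcomp.congr_of_eventuallyEq heq).deriv
  have hpi : (2 * π * I : ℂ) ≠ 0 := by
    simp [Real.pi_ne_zero, I_ne_zero]
  rw [normalizedDerivOfComplex, hd]
  field_simp

/-- `D f = q · F'(q)` for level one modular forms. -/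
theorem pa_D_eq {k : ℤ} (f : ModularForm 𝒮ℒ k) (z : ℍ) :
    D f z = 𝕢 1 z * deriv (cuspFunction 1 f) (𝕢 1 z) := by
  have : Fact (IsCusp OnePoint.infty 𝒮ℒ) :=
    ⟨(𝒮ℒ).isCusp_of_mem_strictPeriods one_pos one_mem_strictPeriods_SL⟩
  exact pa_normalizedDeriv_eq
    (SlashInvariantFormClass.periodic_comp_ofComplex f one_mem_strictPeriods_SL)
    (ModularFormClass.holo f) (ModularFormClass.bdd_at_infty f) z

theorem pa_tendsto_deriv_cusp {k : ℤ} (f : ModularForm 𝒮ℒ k) :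
    Tendsto (fun z : ℍ => deriv (cuspFunction 1 f) (𝕢 1 z)) atImInfty
      (𝓝 ((qExpansion 1 f).coeff 1)) := by
  have han : AnalyticAt ℂ (cuspFunction 1 f) 0 :=
    ModularFormClass.analyticAt_cuspFunction_zero f one_pos one_mem_strictPeriods_SL
  have hc : ContinuousAt (deriv (cuspFunction 1 f)) 0 := han.deriv.continuousAt
  have h1 : (qExpansion 1 f).coeff 1 = deriv (cuspFunction 1 f) 0 := by
    simp [qExpansion_coeff]
  rw [h1]
  exact hc.tendsto.comp (qParam_tendsto_atImInfty one_pos)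

/-- `D f → 0` at `i∞` for level one modular forms. -/
theorem pa_tendsto_D {k : ℤ} (f : ModularForm 𝒮ℒ k) : Tendsto (D f) atImInfty (𝓝 0) := by
  have := (qParam_tendsto_atImInfty one_pos).mul (pa_tendsto_deriv_cusp f)
  simp only [zero_mul] at this
  exact this.congr (fun z => (pa_D_eq f z).symm)

/-- `f → a₀(f)` at `i∞` for level one modular forms. -/
theorem pa_tendsto_coeff_zero {k : ℤ} (f : ModularForm 𝒮ℒ k) :
    Tendsto f atImInfty (𝓝 ((qExpansion 1 f).coeff 0)) := by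
  have han : AnalyticAt ℂ (cuspFunction 1 f) 0 :=
    ModularFormClass.analyticAt_cuspFunction_zero f one_pos one_mem_strictPeriods_SL
  have h1 : (qExpansion 1 f).coeff 0 = cuspFunction 1 f 0 := by
    simp [qExpansion_coeff]
  rw [h1]
  have := han.continuousAt.tendsto.comp (qParam_tendsto_atImInfty one_pos)
  refine this.congr (fun z => ?_)
  exact SlashInvariantFormClass.eq_cuspFunction f z one_mem_strictPeriods_SL one_ne_zero

/-- The (un-normalised) Rankin–Cohen bracket `4 E₄ · D E₆ - 6 E₆ · D E₄`. -/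
noncomputable def pa_bracket (z : ℍ) : ℂ := 4 * E₄ z * D E₆ z - 6 * E₆ z * D E₄ z

theorem pa_slash_E (k : ℤ) (f : ModularForm 𝒮ℒ k) (γ : SL(2, ℤ)) : (⇑f) ∣[k] γ = ⇑f := by
  have hγ : (γ : GL (Fin 2) ℝ) ∈ 𝒮ℒ := ⟨γ, rfl⟩
  rw [SL_slash]
  exact SlashInvariantForm.slash_action_eqn f _ hγ

theorem pa_apply_smul (k : ℤ) (f : ModularForm 𝒮ℒ k) (γ : SL(2, ℤ)) (z : ℍ) :
    f (γ • z) = f z * denom γ z ^ k := by
  have h := congrFun (pa_slash_E k f γ) z
  rw [SL_slash_apply] at h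
  have hd : denom γ z ≠ 0 := denom_ne_zero γ z
  rw [← h, mul_assoc, ← zpow_add₀ hd]
  simp

theorem pa_D_apply_smul (k : ℤ) (f : ModularForm 𝒮ℒ k) (γ : SL(2, ℤ)) (z : ℍ) :
    D f (γ • z) = (D f z + k * (2 * π * I)⁻¹ * (γ 1 0 / denom γ z) * f z) * denom γ z ^ (k + 2) := by
  have h := congrFun (normalizedDerivOfComplex_SL_slash (k := k) (F := f)
    (ModularFormClass.holo f) (γ := γ)) z
  rw [pa_slash_E k f γ] at h
  simp only [Pi.sub_apply, SL_slash_apply] at h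
  have hd : denom γ z ≠ 0 := denom_ne_zero γ z
  have h2 : D f (γ • z) * denom γ z ^ (-(k + 2)) =
      D f z + k * (2 * π * I)⁻¹ * (γ 1 0 / denom γ z) * f z := by
    rw [h]; ring
  rw [← h2, mul_assoc, ← zpow_add₀ hd]
  simp

theorem pa_bracket_slash (γ : SL(2, ℤ)) : pa_bracket ∣[(12 : ℤ)] γ = pa_bracket := by
  ext z
  rw [SL_slash_apply]
  have hd : denom γ z ≠ 0 := denom_ne_zero γ z
  simp only [pa_bracket]
  rw [pa_apply_smul 4 E₄ γ z, pa_apply_smul 6 E₆ γ z, pa_D_apply_smul 4 E₄ γ z,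
    pa_D_apply_smul 6 E₆ γ z]
  have e1 : denom γ z ^ (-(12 : ℤ)) = (denom γ z ^ (12 : ℕ))⁻¹ := by
    rw [zpow_neg]; norm_cast
  have e2 : denom γ z ^ ((4 : ℤ) + 2) = denom γ z ^ (6 : ℕ) := by norm_cast
  have e3 : denom γ z ^ ((6 : ℤ) + 2) = denom γ z ^ (8 : ℕ) := by norm_cast
  have e4 : denom γ z ^ (4 : ℤ) = denom γ z ^ (4 : ℕ) := by norm_cast
  have e5 : denom γ z ^ (6 : ℤ) = denom γ z ^ (6 : ℕ) := by norm_cast
  rw [e1, e2, e3, e4, e5]
  field_simp
  ring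

theorem pa_bracket_mdiff : MDiff pa_bracket := by
  have h4 : MDiff (⇑E₄) := ModularFormClass.holo E₄
  have h6 : MDiff (⇑E₆) := ModularFormClass.holo E₆
  have hD4 : MDiff (D (⇑E₄)) := normalizedDerivOfComplex_mdifferentiable h4
  have hD6 : MDiff (D (⇑E₆)) := normalizedDerivOfComplex_mdifferentiable h6
  have hc4 : MDiff (fun _ : ℍ => (4 : ℂ)) := mdifferentiable_const
  have hc6 : MDiff (fun _ : ℍ => (6 : ℂ)) := mdifferentiable_const
  exact ((hc4.mul h4).mul hD6).sub ((hc6.mul h6).mul hD4)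

theorem pa_bracket_isZeroAtImInfty : IsZeroAtImInfty pa_bracket := by
  have h4 := pa_tendsto_coeff_zero E₄
  have h6 := pa_tendsto_coeff_zero E₆
  have hD4 := pa_tendsto_D E₄
  have hD6 := pa_tendsto_D E₆
  have := ((h4.const_mul 4).mul hD6).sub ((h6.const_mul 6).mul hD4)
  simp only [mul_zero, sub_zero] at this
  exact this

/-- The bracket as a level one cusp form of weight 12. -/
noncomputable def pa_bracketForm : CuspForm 𝒮ℒ 12 where
  toFun := pa_bracket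
  slash_action_eq' A hA := by
    obtain ⟨A, rfl⟩ := hA
    exact pa_bracket_slash A
  holo' := pa_bracket_mdiff
  zero_at_cusps' hc := by
    rw [Subgroup.IsArithmetic.isCusp_iff_isCusp_SL2Z] at hc
    rw [OnePoint.isZeroAt_iff_forall_SL2Z hc]
    intro γ _
    rw [pa_bracket_slash]
    exact pa_bracket_isZeroAtImInfty

/-- **Rankin–Cohen identity**: `4 E₄ · D E₆ - 6 E₆ · D E₄ = -3456 Δ`. -/
theorem pa_bracket_eq (z : ℍ) :
    4 * E₄ z * D E₆ z - 6 * E₆ z * D E₄ z = -3456 * discriminant z := by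
  obtain ⟨c, hc⟩ := CuspForm.exists_smul_discriminant_of_weight_eq_twelve pa_bracketForm
  have hcz : ∀ w : ℍ, c * discriminant w = pa_bracket w := fun w => by
    have := congrArg (fun f : CuspForm 𝒮ℒ 12 => f w) hc
    have h2 : pa_bracketForm w = pa_bracket w := rfl
    rw [← h2]
    simpa using this
  suffices hc' : c = -3456 by
    rw [← hc', hcz z]; rfl
  -- divide by `q` and take limits at `i∞`
  set P : ℍ → ℂ := fun w => ∏' n, (1 - eta_q n w) ^ 24 with hP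
  set G : ℍ → ℂ := fun w => 4 * E₄ w * deriv (cuspFunction 1 E₆) (𝕢 1 w) -
      6 * E₆ w * deriv (cuspFunction 1 E₄) (𝕢 1 w) with hG
  have hPG : ∀ w : ℍ, c * P w = G w := fun w => by
    have hq : 𝕢 1 (w : ℂ) ≠ 0 := Complex.exp_ne_zero _
    have h1 := hcz w
    rw [discriminant_eq_q_prod] at h1
    simp only [pa_bracket, pa_D_eq] at h1
    apply mul_left_cancel₀ hq
    simp only [hP, hG]
    linear_combination h1
  have hPlim : Tendsto P atImInfty (𝓝 1) := tendsto_atImInfty_tprod_one_sub_eta_q_pow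
  have hGlim : Tendsto G atImInfty (𝓝 (4 * 1 * (-504) - 6 * 1 * 240)) := by
    have h4 := pa_tendsto_coeff_zero E₄
    have h6 := pa_tendsto_coeff_zero E₆
    rw [show (qExpansion 1 E₄).coeff 0 = 1 from E_qExpansion_coeff_zero _ ⟨2, rfl⟩] at h4
    rw [show (qExpansion 1 E₆).coeff 0 = 1 from E_qExpansion_coeff_zero _ ⟨3, rfl⟩] at h6
    have hD4 := pa_tendsto_deriv_cusp E₄
    have hD6 := pa_tendsto_deriv_cusp E₆
    rw [E₄_qExpansion_coeff_one] at hD4
    rw [E₆_qExpansion_coeff_one] at hD6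
    exact ((h4.const_mul 4).mul hD6).sub ((h6.const_mul 6).mul hD4)
  have h3 : Tendsto G atImInfty (𝓝 (c * 1)) :=
    (hPlim.const_mul c).congr hPG
  have := tendsto_nhds_unique h3 hGlim
  rw [mul_one] at this
  rw [this]; norm_num

/-- Zeros of `E₄` on `ℍ` are simple. -/
theorem pa_E4_simple (z : ℍ) (h : E₄ z = 0) : D E₄ z ≠ 0 := by
  intro hD
  have h1 := pa_bracket_eq z
  rw [h, hD] at h1
  have h2 : discriminant z = 0 := by linear_combination (1 / 3456 : ℂ) * h1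
  exact discriminant_ne_zero z h2

/-- Zeros of `E₆` on `ℍ` are simple. -/
theorem pa_E6_simple (z : ℍ) (h : E₆ z = 0) : D E₆ z ≠ 0 := by
  intro hD
  have h1 := pa_bracket_eq z
  rw [h, hD] at h1
  have h2 : discriminant z = 0 := by linear_combination (1 / 3456 : ℂ) * h1
  exact discriminant_ne_zero z h2

theorem pa_D_generic (a b : ℂ) (z : ℍ) :
    D (fun w : ℍ => a * E₄ w ^ 3 - b * E₆ w ^ 2) z =
      3 * a * E₄ z ^ 2 * D E₄ z - 2 * b * E₆ z * D E₆ z := by
  have h4 : MDiff (⇑E₄) := ModularFormClass.holo E₄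
  have h6 : MDiff (⇑E₆) := ModularFormClass.holo E₆
  have e : (fun w : ℍ => a * E₄ w ^ 3 - b * E₆ w ^ 2) = a • (⇑E₄) ^ 3 - b • (⇑E₆) ^ 2 := by
    ext w; simp
  rw [e, normalizedDerivOfComplex_sub _ _ ((h4.pow 3).const_smul a) ((h6.pow 2).const_smul b),
    normalizedDerivOfComplex_smul _ _ (h4.pow 3), normalizedDerivOfComplex_smul _ _ (h6.pow 2),
    normalizedDerivOfComplex_pow _ _ h4, normalizedDerivOfComplex_pow _ _ h6]
  simp
  ring

/-- Zeros of `a E₄³ - b E₆²` (`a, b ≠ 0`) on `ℍ` are simple. -/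
theorem pa_generic_simple (a b : ℂ) (ha : a ≠ 0) (hb : b ≠ 0) (z : ℍ)
    (h : a * E₄ z ^ 3 - b * E₆ z ^ 2 = 0) :
    D (fun w : ℍ => a * E₄ w ^ 3 - b * E₆ w ^ 2) z ≠ 0 := by
  rw [pa_D_generic]
  intro hD
  have hΔ := discriminant_eq_E₄_cube_sub_E₆_sq z
  have hne := discriminant_ne_zero z
  have hB := pa_bracket_eq z
  have h6 : E₆ z ≠ 0 := by
    intro h6
    rw [h6] at h
    have h4 : E₄ z = 0 := by
      have : a * E₄ z ^ 3 = 0 := by linear_combination h
      simpa [ha] using this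
    rw [h4, h6] at hΔ
    exact hne (by simpa using hΔ)
  -- `E₄ E₆ · Dπ = b E₆² · 1728 Δ`
  have key : E₄ z * E₆ z * (3 * a * E₄ z ^ 2 * D E₄ z - 2 * b * E₆ z * D E₆ z) =
      b * E₆ z ^ 2 * (1728 * discriminant z) := by
    linear_combination (3 * E₆ z * D E₄ z) * h - (b * E₆ z ^ 2 / 2) * hB
  rw [hD, mul_zero] at key
  have : b * E₆ z ^ 2 * (1728 * discriminant z) ≠ 0 :=
    mul_ne_zero (mul_ne_zero hb (pow_ne_zero 2 h6)) (mul_ne_zero (by norm_num) hne)
  exact this key.symm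

theorem pa_deriv_ne_zero_of_D {F : ℍ → ℂ} {z : ℍ} (h : D F z ≠ 0) :
    deriv (F ∘ ofComplex) z ≠ 0 := by
  intro h0
  apply h
  simp [normalizedDerivOfComplex, h0]

/-- Zeros of `E₄` on `ℍ` are simple (`deriv` form). -/
theorem pa_E4_simple' (z : ℍ) (h : E₄ z = 0) : deriv (⇑E₄ ∘ ofComplex) z ≠ 0 :=
  pa_deriv_ne_zero_of_D (pa_E4_simple z h)

/-- Zeros of `E₆` on `ℍ` are simple (`deriv` form). -/
theorem pa_E6_simple' (z : ℍ) (h : E₆ z = 0) : deriv (⇑E₆ ∘ ofComplex) z ≠ 0 :=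
  pa_deriv_ne_zero_of_D (pa_E6_simple z h)

/-- Zeros of `a E₄³ - b E₆²` (`a, b ≠ 0`) on `ℍ` are simple (`deriv` form). -/
theorem pa_generic_simple' (a b : ℂ) (ha : a ≠ 0) (hb : b ≠ 0) (z : ℍ)
    (h : a * E₄ z ^ 3 - b * E₆ z ^ 2 = 0) :
    deriv ((fun w : ℍ => a * E₄ w ^ 3 - b * E₆ w ^ 2) ∘ ofComplex) z ≠ 0 :=
  pa_deriv_ne_zero_of_D (pa_generic_simple a b ha hb z h)

end Fermat.Agent.S20
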