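import Mathlib
import Fermat.Prelude.Def_ModularCurve_GenusNumerics

/-!
# S20 team library: basic definitions

OWNER: helper45 (only the owner edits this file).

Function-level formalism: modular forms are handled as plain functions `ℍ → ℂ`, and the spaces
of modular forms of level `Γ₀(N)` / level one and weight `w` are `ℂ`-submodules `MF N w`, `SF N w`,
`LF w` of `ℍ → ℂ`, so that no casts between weights are ever needed.

* `Q N = SL(2, ℤ) ⧸ Γ₀(N)` (left cosets, left multiplication action of `SL(2, ℤ)`).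
* `cj N w f q = f ∣[w] (out q)⁻¹` : the conjugate of `f` attached to the coset `q`.
* `Fmat N k f z q j = cj N (k j) (f j) q z`.
* `IsFreeBasis N k f` : the `f j ∈ MF N (k j)` form a homogeneous free basis of `⊕_w MF N w`
  over `⊕_w LF w = ℂ[E₄, E₆]`.
-/

set_option autoImplicit false

namespace Fermat.Agent.S20

open UpperHalfPlane ModularForm
open scoped MatrixGroups ModularForm Manifold

/-- The coset space `SL(2, ℤ) ⧸ Γ₀(N)`. -/
abbrev Q (N : ℕ) : Type := SL(2, ℤ) ⧸ CongruenceSubgroup.Gamma0 N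

instance instFiniteQ (N : ℕ) [NeZero N] : Finite (Q N) :=
  Subgroup.finite_quotient_of_finiteIndex

noncomputable instance instFintypeQ (N : ℕ) [NeZero N] : Fintype (Q N) := Fintype.ofFinite _

noncomputable instance instDecidableEqQ (N : ℕ) : DecidableEq (Q N) := Classical.decEq _

/-- Weight `w` invariance under `Γ₀(N)` (for the `SL(2, ℤ)` slash action). -/
def IsInv (N : ℕ) (w : ℤ) (f : ℍ → ℂ) : Prop :=
  ∀ γ ∈ CongruenceSubgroup.Gamma0 N, f ∣[w] γ = f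

/-- Weight `w` invariance under `SL(2, ℤ)`. -/
def IsInvOne (w : ℤ) (f : ℍ → ℂ) : Prop := ∀ γ : SL(2, ℤ), f ∣[w] γ = f

/-- The conjugate of `f` attached to the coset `q`: `f ∣[w] g⁻¹` for `g` the chosen
representative of `q`. For `Γ₀(N)`-invariant `f` any representative gives the same function. -/
noncomputable def cj (N : ℕ) (w : ℤ) (f : ℍ → ℂ) (q : Q N) : ℍ → ℂ :=
  f ∣[w] (Quotient.out q)⁻¹

/-- Modular forms of weight `w` and level `Γ₀(N)`, as a submodule of `ℍ → ℂ`. -/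
def MF (N : ℕ) (w : ℤ) : Submodule ℂ (ℍ → ℂ) where
  carrier := {f | ∃ F : ModularForm (CongruenceSubgroup.Gamma0 N) w, (F : ℍ → ℂ) = f}
  add_mem' := by rintro _ _ ⟨F, rfl⟩ ⟨G, rfl⟩; exact ⟨F + G, rfl⟩
  zero_mem' := ⟨0, rfl⟩
  smul_mem' := by rintro c _ ⟨F, rfl⟩; exact ⟨c • F, rfl⟩

/-- Cusp forms of weight `w` and level `Γ₀(N)`, as a submodule of `ℍ → ℂ`. -/
def SF (N : ℕ) (w : ℤ) : Submodule ℂ (ℍ → ℂ) where
  carrier := {f | ∃ F : CuspForm (CongruenceSubgroup.Gamma0 N) w, (F : ℍ → ℂ) = f}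
  add_mem' := by rintro _ _ ⟨F, rfl⟩ ⟨G, rfl⟩; exact ⟨F + G, rfl⟩
  zero_mem' := ⟨0, rfl⟩
  smul_mem' := by rintro c _ ⟨F, rfl⟩; exact ⟨c • F, rfl⟩

/-- Modular forms of weight `w` and level one, as a submodule of `ℍ → ℂ`. -/
def LF (w : ℤ) : Submodule ℂ (ℍ → ℂ) where
  carrier := {f | ∃ F : ModularForm 𝒮ℒ w, (F : ℍ → ℂ) = f}
  add_mem' := by rintro _ _ ⟨F, rfl⟩ ⟨G, rfl⟩; exact ⟨F + G, rfl⟩
  zero_mem' := ⟨0, rfl⟩
  smul_mem' := by rintro c _ ⟨F, rfl⟩; exact ⟨c • F, rfl⟩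

/-- The trace of the conjugates. -/
noncomputable def trQ (N : ℕ) [NeZero N] (w : ℤ) (f : ℍ → ℂ) : ℍ → ℂ :=
  ∑ q : Q N, cj N w f q

/-- The matrix of conjugates of a family `f j` (of weights `k j`). Rows: cosets, columns: `j`. -/
noncomputable def Fmat (N : ℕ) (k : Q N → ℤ) (f : Q N → ℍ → ℂ) (z : ℍ) : Matrix (Q N) (Q N) ℂ :=
  fun q j => cj N (k j) (f j) q z

/-- `f j ∈ MF N (k j)` is a homogeneous free basis of `⊕_w MF N w` over `⊕_w LF w`. -/
structure IsFreeBasis (N : ℕ) [NeZero N] (k : Q N → ℤ) (f : Q N → ℍ → ℂ) : Prop where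
  mem : ∀ j, f j ∈ MF N (k j)
  span : ∀ (w : ℤ) (g : ℍ → ℂ), g ∈ MF N w →
    ∃ r : Q N → ℍ → ℂ, (∀ j, r j ∈ LF (w - k j)) ∧ g = ∑ j, r j * f j
  indep : ∀ (w : ℤ) (r : Q N → ℍ → ℂ), (∀ j, r j ∈ LF (w - k j)) →
    ∑ j, r j * f j = 0 → ∀ j, r j = 0

end Fermat.Agent.S20
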