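import Mathlib
import Fermat.Agent.S20.Defs

/-!
# S20 team library: level-one facts in the function-level formalism

OWNER: helper49 (only the owner edits this file).

All statements are about the submodules `LF w ⊆ (ℍ → ℂ)` of level-one modular forms of weight `w`
(see `Defs.lean`).  Every name in this file starts with `lo_`.

* membership: `lo_coe_mem`, `lo_E4_mem`, `lo_E6_mem`, `lo_one_mem`, `lo_const_mem`, `lo_disc_mem`,
  `lo_mul_mem`, `lo_mul_mem'`, `lo_pow_mem`, `lo_mem_of` (from invariance + holomorphy +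
  boundedness at `i∞`), and the converse `lo_isInvOne`, `lo_mdiff`, `lo_isBounded`;
* structure: `lo_neg_weight`, `lo_odd_weight`, `lo_weight_two`, `lo_weight_zero`,
  `lo_weight_zero'`, `lo_gen` (`LF w = E₄ · LF (w - 4) + E₆ · LF (w - 6)` for `w ≠ 0`);
* behaviour at `i∞`: `lo_tendsto`, `lo_E4_tendsto`, `lo_E6_tendsto`, `lo_disc_tendsto`,
  `lo_cusp` (a form tending to `0` is `Δ` times a form of weight `w - 12`);
* `lo_nonvanishing`: a nowhere vanishing form is `c • Δ ^ m` with `w = 12 m`;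
* `lo_E4_E6_ne_zero`: `E₄` and `E₆` have no common zero;
* `lo_equiv`, `lo_finiteDimensional`, `lo_finrank`.
-/

set_option autoImplicit false

namespace Fermat.Agent.S20

open UpperHalfPlane ModularForm ModularFormClass MatrixGroups EisensteinSeries Filter Topology
open SlashInvariantFormClass SlashInvariantForm OnePoint
open scoped Manifold

local notation "Δ" => ModularForm.discriminant

/-! ### Membership -/

theorem lo_coe_mem {w : ℤ} (F : ModularForm 𝒮ℒ w) : (F : ℍ → ℂ) ∈ LF w := ⟨F, rfl⟩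

theorem lo_E4_mem : (E₄ : ℍ → ℂ) ∈ LF 4 := ⟨E₄, rfl⟩

theorem lo_E6_mem : (E₆ : ℍ → ℂ) ∈ LF 6 := ⟨E₆, rfl⟩

theorem lo_one_mem : (1 : ℍ → ℂ) ∈ LF 0 := ⟨1, rfl⟩

theorem lo_const_mem (c : ℂ) : (Function.const ℍ c) ∈ LF 0 := by
  have h : Function.const ℍ c = c • (1 : ℍ → ℂ) := by
    ext z; simp
  rw [h]
  exact (LF 0).smul_mem c lo_one_mem

theorem lo_algebraMap_mem (c : ℂ) : algebraMap ℂ (ℍ → ℂ) c ∈ LF 0 := by
  rw [Algebra.algebraMap_eq_smul_one]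
  exact (LF 0).smul_mem c lo_one_mem

theorem lo_disc_mem : (Δ : ℍ → ℂ) ∈ LF 12 :=
  ⟨CuspForm.toModularFormₗ CuspForm.discriminant, rfl⟩

theorem lo_mul_mem {a b : ℤ} {x y : ℍ → ℂ} (hx : x ∈ LF a) (hy : y ∈ LF b) :
    x * y ∈ LF (a + b) := by
  obtain ⟨F, rfl⟩ := hx
  obtain ⟨G, rfl⟩ := hy
  exact ⟨F.mul G, rfl⟩

theorem lo_mul_mem' {a b c : ℤ} {x y : ℍ → ℂ} (hx : x ∈ LF a) (hy : y ∈ LF b) (h : a + b = c) :
    x * y ∈ LF c := h ▸ lo_mul_mem hx hy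

theorem lo_pow_mem {a : ℤ} {x : ℍ → ℂ} (hx : x ∈ LF a) (n : ℕ) : x ^ n ∈ LF ((n : ℤ) * a) := by
  induction n with
  | zero => simpa using lo_one_mem
  | succ n ih =>
    rw [pow_succ]
    exact lo_mul_mem' ih hx (by push_cast; ring)

theorem lo_isInvOne {w : ℤ} {r : ℍ → ℂ} (hr : r ∈ LF w) : IsInvOne w r := by
  obtain ⟨F, rfl⟩ := hr
  intro γ
  have hγ : (γ : GL (Fin 2) ℝ) ∈ 𝒮ℒ := ⟨γ, rfl⟩
  rw [SL_slash]
  exact slash_action_eqn F _ hγ

theorem lo_mdiff {w : ℤ} {r : ℍ → ℂ} (hr : r ∈ LF w) : MDiff r := by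
  obtain ⟨F, rfl⟩ := hr
  exact F.holo'

/-- A level-one form tends to its zeroth `q`-coefficient at `i∞`. -/
theorem lo_tendsto_coeff_zero {k : ℤ} (f : ModularForm 𝒮ℒ k) :
    Tendsto (f : ℍ → ℂ) atImInfty (𝓝 ((qExpansion 1 f).coeff 0)) := by
  have hanal := ModularFormClass.analyticAt_cuspFunction_zero f one_pos one_mem_strictPeriods_SL
  have hper := periodic_comp_ofComplex f one_mem_strictPeriods_SL
  rw [qExpansion_coeff_zero one_pos hanal hper, ← cuspFunction_apply_zero one_pos hanal hper]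
  exact (hanal.continuousAt.tendsto.comp (qParam_tendsto_atImInfty one_pos)).congr
    (fun τ ↦ SlashInvariantFormClass.eq_cuspFunction f τ one_mem_strictPeriods_SL one_ne_zero)

theorem lo_tendsto {w : ℤ} {r : ℍ → ℂ} (hr : r ∈ LF w) : ∃ c : ℂ, Tendsto r atImInfty (𝓝 c) := by
  obtain ⟨F, rfl⟩ := hr
  exact ⟨_, lo_tendsto_coeff_zero F⟩

theorem lo_isBounded {w : ℤ} {r : ℍ → ℂ} (hr : r ∈ LF w) : IsBoundedAtImInfty r := by
  obtain ⟨c, hc⟩ := lo_tendsto hr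
  rw [IsBoundedAtImInfty, BoundedAtFilter]
  exact hc.isBigO_one ℝ

/-- A function on `ℍ` which is weight `w` invariant under `SL(2, ℤ)`, holomorphic and bounded at
`i∞` is a level-one modular form of weight `w`. -/
theorem lo_mem_of {w : ℤ} {r : ℍ → ℂ} (h1 : IsInvOne w r) (h2 : MDiff r)
    (h3 : IsBoundedAtImInfty r) : r ∈ LF w := by
  refine ⟨{ toFun := r
            slash_action_eq' := fun _ ⟨γ, hγ⟩ ↦ hγ ▸ h1 γ
            holo' := h2
            bdd_at_cusps' := fun {c} hc => ?_ }, rfl⟩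
  rw [Subgroup.IsArithmetic.isCusp_iff_isCusp_SL2Z] at hc
  rw [isBoundedAt_iff_forall_SL2Z hc]
  intro γ _
  rw [h1 γ]
  exact h3

/-! ### Limits at `i∞` -/

theorem lo_E4_tendsto : Tendsto (E₄ : ℍ → ℂ) atImInfty (𝓝 1) := by
  have := lo_tendsto_coeff_zero E₄
  rwa [E_qExpansion_coeff_zero _ ⟨2, rfl⟩] at this

theorem lo_E6_tendsto : Tendsto (E₆ : ℍ → ℂ) atImInfty (𝓝 1) := by
  have := lo_tendsto_coeff_zero E₆
  rwa [E_qExpansion_coeff_zero _ ⟨3, rfl⟩] at this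

theorem lo_disc_tendsto : Tendsto (Δ : ℍ → ℂ) atImInfty (𝓝 0) := discriminant_isZeroAtImInfty

theorem lo_E4_E6_ne_zero (z : ℍ) : E₄ z ≠ 0 ∨ E₆ z ≠ 0 := by
  by_contra h
  rw [not_or, not_not, not_not] at h
  have h1 := discriminant_eq_E₄_cube_sub_E₆_sq z
  rw [h.1, h.2] at h1
  exact discriminant_ne_zero z (by simpa using h1)

/-! ### Structure of the spaces `LF w` -/

theorem lo_neg_weight {w : ℤ} (hw : w < 0) : LF w = ⊥ := by
  rw [eq_bot_iff]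
  rintro _ ⟨F, rfl⟩
  exact levelOne_neg_weight_eq_zero hw F

theorem lo_odd_weight {w : ℤ} (hw : Odd w) : LF w = ⊥ := by
  rw [eq_bot_iff]
  rintro _ ⟨F, rfl⟩
  rw [levelOne_odd_weight_eq_zero hw F]
  rfl

theorem lo_weight_two : LF 2 = ⊥ := by
  rw [eq_bot_iff]
  rintro _ ⟨F, rfl⟩
  rw [rank_zero_iff_forall_zero.mp levelOne_weight_two_rank_zero F]
  rfl

theorem lo_weight_zero {r : ℍ → ℂ} (hr : r ∈ LF 0) : ∃ c : ℂ, r = Function.const ℍ c := by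
  obtain ⟨F, rfl⟩ := hr
  exact levelOne_weight_zero_const F

theorem lo_weight_zero' {r : ℍ → ℂ} (hr : r ∈ LF 0) : ∃ c : ℂ, r = algebraMap ℂ (ℍ → ℂ) c := by
  obtain ⟨c, rfl⟩ := lo_weight_zero hr
  exact ⟨c, rfl⟩

/-- A level-one form tending to `0` at `i∞` is `Δ` times a form of weight `w - 12`. -/
theorem lo_cusp {w : ℤ} {r : ℍ → ℂ} (hr : r ∈ LF w) (h0 : Tendsto r atImInfty (𝓝 0)) :
    ∃ g ∈ LF (w - 12), r = Δ * g := by
  obtain ⟨F, rfl⟩ := hr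
  have hc : (qExpansion 1 F).coeff 0 = 0 := tendsto_nhds_unique (lo_tendsto_coeff_zero F) h0
  refine ⟨CuspForm.discriminantEquiv (toCuspForm F hc), ⟨_, rfl⟩, ?_⟩
  ext z
  rw [Pi.mul_apply, discriminant_mul_discriminantEquiv_apply, toCuspForm_apply]

/-- Decomposability of a function as `E₄ a + E₆ b`. -/
def lo_Dec (w : ℤ) (r : ℍ → ℂ) : Prop :=
  ∃ a ∈ LF (w - 4), ∃ b ∈ LF (w - 6), r = ⇑E₄ * a + ⇑E₆ * b

theorem lo_Dec.add {w : ℤ} {r s : ℍ → ℂ} (hr : lo_Dec w r) (hs : lo_Dec w s) :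
    lo_Dec w (r + s) := by
  obtain ⟨a, ha, b, hb, rfl⟩ := hr
  obtain ⟨a', ha', b', hb', rfl⟩ := hs
  exact ⟨a + a', (LF _).add_mem ha ha', b + b', (LF _).add_mem hb hb', by ring⟩

theorem lo_Dec.smul {w : ℤ} {r : ℍ → ℂ} (c : ℂ) (hr : lo_Dec w r) : lo_Dec w (c • r) := by
  obtain ⟨a, ha, b, hb, rfl⟩ := hr
  refine ⟨c • a, (LF _).smul_mem c ha, c • b, (LF _).smul_mem c hb, ?_⟩
  rw [smul_add, mul_smul_comm, mul_smul_comm]

theorem lo_dec_zero (w : ℤ) : lo_Dec w 0 :=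
  ⟨0, (LF _).zero_mem, 0, (LF _).zero_mem, by simp⟩

theorem lo_dec_of_cusp {w : ℤ} {r : ℍ → ℂ} (hr : r ∈ LF w) (h0 : Tendsto r atImInfty (𝓝 0)) :
    lo_Dec w r := by
  obtain ⟨g, hg, rfl⟩ := lo_cusp hr h0
  refine ⟨(1 / 1728 : ℂ) • (⇑E₄ * ⇑E₄ * g), (LF _).smul_mem _ ?_,
    (-1 / 1728 : ℂ) • (⇑E₆ * g), (LF _).smul_mem _ ?_, ?_⟩
  · exact lo_mul_mem' (lo_mul_mem lo_E4_mem lo_E4_mem) hg (by ring)
  · exact lo_mul_mem' lo_E6_mem hg (by ring)
  · ext z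
    simp only [Pi.mul_apply, Pi.add_apply, Pi.smul_apply, smul_eq_mul]
    rw [discriminant_eq_E₄_cube_sub_E₆_sq z]
    ring

theorem lo_dec_of_const_mul {w : ℤ} {r m : ℍ → ℂ} (hr : r ∈ LF w) (hm : m ∈ LF w)
    (hm1 : Tendsto m atImInfty (𝓝 1)) (hmd : lo_Dec w m) : lo_Dec w r := by
  obtain ⟨c, hc⟩ := lo_tendsto hr
  have h1 : r - c • m ∈ LF w := (LF w).sub_mem hr ((LF w).smul_mem c hm)
  have h2 : Tendsto (r - c • m) atImInfty (𝓝 0) := by
    have := hc.sub (hm1.const_mul c)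
    rw [mul_one, sub_self] at this
    exact this
  have h3 := (hmd.smul c).add (lo_dec_of_cusp h1 h2)
  have h4 : c • m + (r - c • m) = r := by abel
  rwa [h4] at h3

/-- `LF w = E₄ · LF (w - 4) + E₆ · LF (w - 6)` for `w ≠ 0`. -/
theorem lo_gen {w : ℤ} (hw : w ≠ 0) {r : ℍ → ℂ} (hr : r ∈ LF w) :
    ∃ a ∈ LF (w - 4), ∃ b ∈ LF (w - 6), r = ⇑E₄ * a + ⇑E₆ * b := by
  change lo_Dec w r
  rcases lt_or_gt_of_ne hw with hneg | hpos
  · rw [lo_neg_weight hneg] at hr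
    rw [(Submodule.mem_bot ℂ).mp hr]
    exact lo_dec_zero w
  rcases Int.even_or_odd w with hev | hodd
  swap
  · rw [lo_odd_weight hodd] at hr
    rw [(Submodule.mem_bot ℂ).mp hr]
    exact lo_dec_zero w
  lift w to ℕ using hpos.le
  have hev' : Even w := by exact_mod_cast hev
  have hw' : 0 < w := by exact_mod_cast hpos
  obtain ⟨j, rfl⟩ := hev'
  rcases (by omega : j = 1 ∨ j = 2 ∨ j = 3 ∨ 4 ≤ j) with rfl | rfl | rfl | hj
  · -- weight 2
    have h2 : r ∈ LF 2 := hr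
    rw [lo_weight_two] at h2
    rw [(Submodule.mem_bot ℂ).mp h2]
    exact lo_dec_zero _
  · -- weight 4
    refine lo_dec_of_const_mul hr lo_E4_mem lo_E4_tendsto ?_
    exact ⟨1, lo_one_mem, 0, (LF _).zero_mem, by simp⟩
  · -- weight 6
    refine lo_dec_of_const_mul hr lo_E6_mem lo_E6_tendsto ?_
    exact ⟨0, (LF _).zero_mem, 1, lo_one_mem, by simp⟩
  · -- weight ≥ 8
    have h3 : 3 ≤ j + j - 4 := by omega
    have hG : (⇑(E h3) : ℍ → ℂ) ∈ LF (((j + j : ℕ) : ℤ) - 4) := by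
      have hcast : ((j + j - 4 : ℕ) : ℤ) = ((j + j : ℕ) : ℤ) - 4 := by omega
      rw [← hcast]
      exact lo_coe_mem _
    have hGt : Tendsto (⇑(E h3) : ℍ → ℂ) atImInfty (𝓝 1) := by
      have := lo_tendsto_coeff_zero (E h3)
      rwa [E_qExpansion_coeff_zero h3 ⟨j - 2, by omega⟩] at this
    refine lo_dec_of_const_mul hr (m := ⇑E₄ * ⇑(E h3)) (lo_mul_mem' lo_E4_mem hG (by ring)) ?_
      ⟨_, hG, 0, (LF _).zero_mem, by simp⟩
    have := lo_E4_tendsto.mul hGt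
    rw [mul_one] at this
    exact this

/-! ### Nowhere vanishing forms -/

theorem lo_inv_slash {k : ℤ} (f : ModularForm 𝒮ℒ k) (γ : SL(2, ℤ)) :
    (fun z ↦ (f z)⁻¹) ∣[-k] γ = fun z ↦ (f z)⁻¹ := by
  have hγ : (γ : GL (Fin 2) ℝ) ∈ 𝒮ℒ := ⟨γ, rfl⟩
  have h1 : (fun z ↦ (f z)⁻¹) = (1 : ℍ → ℂ) / ⇑f := by
    ext z; simp
  rw [h1, show (-k : ℤ) = 0 - k by ring, div_slash_SL2, is_invariant_one, SL_slash,
    slash_action_eqn _ _ hγ]

/-- The inverse of a nowhere vanishing level-one form with nonzero limit at `i∞`. -/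
theorem lo_inv_mem {w : ℤ} {r : ℍ → ℂ} (hr : r ∈ LF w) (hne : ∀ z, r z ≠ 0) {c : ℂ}
    (hc : Tendsto r atImInfty (𝓝 c)) (hc0 : c ≠ 0) : (fun z ↦ (r z)⁻¹) ∈ LF (-w) := by
  refine lo_mem_of ?_ ?_ ?_
  · obtain ⟨F, rfl⟩ := hr
    exact fun γ => lo_inv_slash F γ
  · have h1 : (fun z ↦ (r z)⁻¹) = (1 : ℍ → ℂ) / r := by
      ext z; simp
    have h2 : MDiff ((1 : ℍ → ℂ) / r) :=
      (ModularForm.holo' (1 : ModularForm 𝒮ℒ 0)).div (lo_mdiff hr) hne
    rw [← h1] at h2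
    exact h2
  · rw [IsBoundedAtImInfty, BoundedAtFilter]
    exact (hc.inv₀ hc0).isBigO_one ℝ

/-- A nowhere vanishing level-one modular form is a nonzero constant times a power of `Δ`. -/
theorem lo_nonvanishing {w : ℤ} {r : ℍ → ℂ} (hr : r ∈ LF w) (hne : ∀ z, r z ≠ 0) :
    ∃ (c : ℂ) (m : ℕ), c ≠ 0 ∧ w = 12 * (m : ℤ) ∧ r = c • (Δ : ℍ → ℂ) ^ m := by
  induction' hn : w.toNat using Nat.strong_induction_on with n ih generalizing w r
  rcases lt_or_ge w 0 with hw | hw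
  · rw [lo_neg_weight hw] at hr
    exact absurd (congrFun ((Submodule.mem_bot ℂ).mp hr) I) (hne I)
  obtain ⟨c, hc⟩ := lo_tendsto hr
  by_cases h0 : c = 0
  · subst h0
    obtain ⟨g, hg, rfl⟩ := lo_cusp hr hc
    have hgne : ∀ z, g z ≠ 0 := fun z hz => hne z (by rw [Pi.mul_apply, hz, mul_zero])
    rcases lt_or_ge (w - 12) 0 with hw12 | hw12
    · rw [lo_neg_weight hw12] at hg
      exact absurd (congrFun ((Submodule.mem_bot ℂ).mp hg) I) (hgne I)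
    obtain ⟨c, m, hc0, hm, rfl⟩ := ih (w - 12).toNat (by omega) hg hgne rfl
    refine ⟨c, m + 1, hc0, by push_cast; omega, ?_⟩
    rw [pow_succ, mul_smul_comm, mul_comm]
  · have hw0 : w = 0 := by
      by_contra hne0
      have hneg : -w < 0 := by omega
      have h1 := lo_inv_mem hr hne hc h0
      rw [lo_neg_weight hneg] at h1
      have h2 := congrFun ((Submodule.mem_bot ℂ).mp h1) I
      exact hne I (inv_eq_zero.mp h2)
    subst hw0
    obtain ⟨d, rfl⟩ := lo_weight_zero hr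
    refine ⟨d, 0, ?_, by simp, ?_⟩
    · rintro rfl
      exact hne I rfl
    · ext z
      simp

/-! ### Dimensions -/

/-- The linear equivalence between `ModularForm 𝒮ℒ w` and `LF w`. -/
noncomputable def lo_equiv (w : ℤ) : ModularForm 𝒮ℒ w ≃ₗ[ℂ] LF w :=
  LinearEquiv.ofBijective
    ({ toFun := fun F => (⟨(F : ℍ → ℂ), lo_coe_mem F⟩ : LF w)
       map_add' := fun _ _ => rfl
       map_smul' := fun _ _ => rfl } : ModularForm 𝒮ℒ w →ₗ[ℂ] LF w)
    ⟨fun _ _ h => DFunLike.coe_injective (congrArg Subtype.val h),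
      fun ⟨_, F, hF⟩ => ⟨F, Subtype.ext hF⟩⟩

@[simp] theorem lo_equiv_apply (w : ℤ) (F : ModularForm 𝒮ℒ w) :
    ((lo_equiv w F : LF w) : ℍ → ℂ) = F := rfl

instance lo_finiteDimensional (w : ℤ) : FiniteDimensional ℂ (LF w) :=
  LinearEquiv.finiteDimensional (lo_equiv w)

theorem lo_finrank (w : ℤ) :
    Module.finrank ℂ (LF w) = Module.finrank ℂ (ModularForm 𝒮ℒ w) :=
  (lo_equiv w).finrank_eq.symm

end Fermat.Agent.S20
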