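import Mathlib
import Fermat.Agent.S20.Defs

/-!
# S20 team library: basic lemmas on conjugates and the spaces `MF`, `SF`, `LF`

OWNER: helper45 (only the owner edits this file).
-/

set_option autoImplicit false

namespace Fermat.Agent.S20

open UpperHalfPlane ModularForm Filter Topology
open scoped MatrixGroups ModularForm Manifold

variable {N : ℕ} {w : ℤ} {f : ℍ → ℂ}

/-! ### Conjugates -/

theorem cj_mk (hf : IsInv N w f) (g : SL(2, ℤ)) : cj N w f (g : Q N) = f ∣[w] g⁻¹ := by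
  obtain ⟨h, hh⟩ := QuotientGroup.mk_out_eq_mul (CongruenceSubgroup.Gamma0 N) g
  have h1 : (Quotient.out (g : Q N)) = g * h := hh
  unfold cj
  rw [h1, mul_inv_rev, SlashAction.slash_mul, hf _ (inv_mem h.2)]

theorem slash_eq_cj (hf : IsInv N w f) (g : SL(2, ℤ)) :
    f ∣[w] g = cj N w f ((g⁻¹ : SL(2, ℤ)) : Q N) := by
  rw [cj_mk hf, inv_inv]

theorem cj_one (hf : IsInv N w f) : cj N w f ((1 : SL(2, ℤ)) : Q N) = f := by
  rw [cj_mk hf, inv_one, SlashAction.slash_one]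

theorem cj_slash (hf : IsInv N w f) (q : Q N) (g : SL(2, ℤ)) :
    (cj N w f q) ∣[w] g = cj N w f (g⁻¹ • q) := by
  induction q using QuotientGroup.induction_on with
  | H a =>
    rw [MulAction.Quotient.smul_mk, cj_mk hf, cj_mk hf, ← SlashAction.slash_mul]
    congr 1
    simp [mul_inv_rev]

theorem cj_smul_apply (hf : IsInv N w f) (q : Q N) (g : SL(2, ℤ)) (z : ℍ) :
    cj N w f q (g • z) = denom g z ^ w * cj N w f (g⁻¹ • q) z := by
  rw [← cj_slash hf, SL_slash_apply, mul_comm, mul_assoc, ← zpow_add₀ (denom_ne_zero g z)]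
  simp

theorem cj_add (N : ℕ) (w : ℤ) (f g : ℍ → ℂ) (q : Q N) :
    cj N w (f + g) q = cj N w f q + cj N w g q := by
  simp [cj]

theorem cj_const_smul (N : ℕ) (w : ℤ) (c : ℂ) (f : ℍ → ℂ) (q : Q N) :
    cj N w (c • f) q = c • cj N w f q := by
  simp [cj]

theorem cj_sum (N : ℕ) (w : ℤ) {ι : Type*} (s : Finset ι) (f : ι → ℍ → ℂ) (q : Q N) :
    cj N w (∑ i ∈ s, f i) q = ∑ i ∈ s, cj N w (f i) q := by
  simp [cj]

theorem cj_zero (N : ℕ) (w : ℤ) (q : Q N) : cj N w 0 q = 0 := by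
  simp [cj]

theorem cj_neg (N : ℕ) (w : ℤ) (f : ℍ → ℂ) (q : Q N) : cj N w (-f) q = -cj N w f q := by
  simp [cj]

theorem cj_sub (N : ℕ) (w : ℤ) (f g : ℍ → ℂ) (q : Q N) :
    cj N w (f - g) q = cj N w f q - cj N w g q := by
  rw [sub_eq_add_neg, cj_add, cj_neg, sub_eq_add_neg]

theorem cj_mul (N : ℕ) (a b : ℤ) (f g : ℍ → ℂ) (q : Q N) :
    cj N (a + b) (f * g) q = cj N a f q * cj N b g q := by
  simp [cj, mul_slash_SL2]

theorem cj_of_isInvOne (hf : IsInvOne w f) (N : ℕ) (q : Q N) : cj N w f q = f :=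
  hf _

theorem IsInvOne.isInv (hf : IsInvOne w f) (N : ℕ) : IsInv N w f := fun γ _ => hf γ

theorem IsInv.mul {a b : ℤ} {f g : ℍ → ℂ} (hf : IsInv N a f) (hg : IsInv N b g) :
    IsInv N (a + b) (f * g) := fun γ hγ => by
  rw [mul_slash_SL2, hf γ hγ, hg γ hγ]

theorem IsInvOne.mul {a b : ℤ} {f g : ℍ → ℂ} (hf : IsInvOne a f) (hg : IsInvOne b g) :
    IsInvOne (a + b) (f * g) := fun γ => by
  rw [mul_slash_SL2, hf γ, hg γ]

theorem mdiff_cj (hf : MDiff f) (q : Q N) : MDiff (cj N w f q) :=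
  hf.slash w _

/-! ### Membership criteria -/

theorem mem_MF_iff' [NeZero N] : f ∈ MF N w ↔
    MDiff f ∧ IsInv N w f ∧ ∀ γ : SL(2, ℤ), IsBoundedAtImInfty (f ∣[w] γ) := by
  constructor
  · rintro ⟨F, rfl⟩
    refine ⟨F.holo', fun γ hγ => ?_, fun γ => ModularFormClass.bdd_at_infty_slash F γ⟩
    exact F.slash_action_eq' _ ⟨γ, hγ, rfl⟩
  · rintro ⟨h1, h2, h3⟩
    refine ⟨{ toFun := f
              slash_action_eq' := ?_
              holo' := h1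
              bdd_at_cusps' := ?_ }, rfl⟩
    · rintro _ ⟨γ, hγ, rfl⟩
      exact h2 γ hγ
    · intro c hc
      rw [Subgroup.IsArithmetic.isCusp_iff_isCusp_SL2Z] at hc
      rw [OnePoint.isBoundedAt_iff_forall_SL2Z hc]
      exact fun γ _ => h3 γ

theorem mem_SF_iff' [NeZero N] : f ∈ SF N w ↔
    MDiff f ∧ IsInv N w f ∧ ∀ γ : SL(2, ℤ), IsZeroAtImInfty (f ∣[w] γ) := by
  constructor
  · rintro ⟨F, rfl⟩
    refine ⟨F.holo', fun γ hγ => ?_, fun γ => CuspFormClass.zero_at_infty_slash F γ⟩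
    exact F.slash_action_eq' _ ⟨γ, hγ, rfl⟩
  · rintro ⟨h1, h2, h3⟩
    refine ⟨{ toFun := f
              slash_action_eq' := ?_
              holo' := h1
              zero_at_cusps' := ?_ }, rfl⟩
    · rintro _ ⟨γ, hγ, rfl⟩
      exact h2 γ hγ
    · intro c hc
      rw [Subgroup.IsArithmetic.isCusp_iff_isCusp_SL2Z] at hc
      rw [OnePoint.isZeroAt_iff_forall_SL2Z hc]
      exact fun γ _ => h3 γ

theorem mem_MF_iff [NeZero N] : f ∈ MF N w ↔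
    MDiff f ∧ IsInv N w f ∧ ∀ q : Q N, IsBoundedAtImInfty (cj N w f q) := by
  rw [mem_MF_iff']
  constructor
  · rintro ⟨h1, h2, h3⟩
    exact ⟨h1, h2, fun q => h3 _⟩
  · rintro ⟨h1, h2, h3⟩
    refine ⟨h1, h2, fun γ => ?_⟩
    rw [slash_eq_cj h2]
    exact h3 _

theorem mem_SF_iff [NeZero N] : f ∈ SF N w ↔
    MDiff f ∧ IsInv N w f ∧ ∀ q : Q N, IsZeroAtImInfty (cj N w f q) := by
  rw [mem_SF_iff']
  constructor
  · rintro ⟨h1, h2, h3⟩
    exact ⟨h1, h2, fun q => h3 _⟩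
  · rintro ⟨h1, h2, h3⟩
    refine ⟨h1, h2, fun γ => ?_⟩
    rw [slash_eq_cj h2]
    exact h3 _

theorem mem_LF_iff : f ∈ LF w ↔ MDiff f ∧ IsInvOne w f ∧ IsBoundedAtImInfty f := by
  constructor
  · rintro ⟨F, rfl⟩
    refine ⟨F.holo', fun γ => ?_, ?_⟩
    · exact F.slash_action_eq' _ ⟨γ, rfl⟩
    · have := ModularFormClass.bdd_at_infty_slash F (1 : SL(2, ℤ))
      simpa using this
  · rintro ⟨h1, h2, h3⟩
    refine ⟨{ toFun := f
              slash_action_eq' := ?_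
              holo' := h1
              bdd_at_cusps' := ?_ }, rfl⟩
    · rintro _ ⟨γ, rfl⟩
      exact h2 γ
    · intro c hc
      rw [OnePoint.isBoundedAt_iff_forall_SL2Z hc]
      intro γ _
      rw [h2 γ]
      exact h3

theorem LF_le_MF (N : ℕ) [NeZero N] (w : ℤ) : LF w ≤ MF N w := by
  intro f hf
  rw [mem_LF_iff] at hf
  rw [mem_MF_iff']
  refine ⟨hf.1, hf.2.1.isInv N, fun γ => ?_⟩
  rw [hf.2.1 γ]
  exact hf.2.2

theorem SF_le_MF (N : ℕ) [NeZero N] (w : ℤ) : SF N w ≤ MF N w := by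
  intro f hf
  rw [mem_SF_iff'] at hf
  rw [mem_MF_iff']
  exact ⟨hf.1, hf.2.1, fun γ => (hf.2.2 γ).isBoundedAtImInfty⟩

theorem mul_mem_MF [NeZero N] {a b : ℤ} {f g : ℍ → ℂ} (hf : f ∈ MF N a) (hg : g ∈ MF N b) :
    f * g ∈ MF N (a + b) := by
  rw [mem_MF_iff'] at hf hg ⊢
  refine ⟨hf.1.mul hg.1, hf.2.1.mul hg.2.1, fun γ => ?_⟩
  rw [mul_slash_SL2]
  exact (hf.2.2 γ).mul (hg.2.2 γ)

theorem mul_mem_LF {a b : ℤ} {f g : ℍ → ℂ} (hf : f ∈ LF a) (hg : g ∈ LF b) :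
    f * g ∈ LF (a + b) := by
  rw [mem_LF_iff] at hf hg ⊢
  exact ⟨hf.1.mul hg.1, hf.2.1.mul hg.2.1, hf.2.2.mul hg.2.2⟩

theorem mul_mem_SF [NeZero N] {a b : ℤ} {f g : ℍ → ℂ} (hf : f ∈ MF N a) (hg : g ∈ SF N b) :
    f * g ∈ SF N (a + b) := by
  rw [mem_MF_iff'] at hf
  rw [mem_SF_iff'] at hg ⊢
  refine ⟨hf.1.mul hg.1, hf.2.1.mul hg.2.1, fun γ => ?_⟩
  rw [mul_slash_SL2]
  exact Filter.BoundedAtFilter.mul_zeroAtFilter (hf.2.2 γ) (hg.2.2 γ)

theorem const_mem_LF (c : ℂ) : (fun _ : ℍ => c) ∈ LF 0 :=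
  ⟨ModularForm.const c, rfl⟩

theorem one_mem_LF : (1 : ℍ → ℂ) ∈ LF 0 := const_mem_LF 1

theorem pow_mem_MF [NeZero N] {a : ℤ} {f : ℍ → ℂ} (hf : f ∈ MF N a) (n : ℕ) :
    f ^ n ∈ MF N (n * a) := by
  induction n with
  | zero =>
    simp only [pow_zero, Nat.cast_zero, zero_mul]
    exact LF_le_MF N 0 one_mem_LF
  | succ n ih =>
    rw [pow_succ, show ((n + 1 : ℕ) : ℤ) * a = n * a + a by push_cast; ring]
    exact mul_mem_MF ih hf

theorem pow_mem_LF {a : ℤ} {f : ℍ → ℂ} (hf : f ∈ LF a) (n : ℕ) : f ^ n ∈ LF (n * a) := by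
  induction n with
  | zero =>
    simp only [pow_zero, Nat.cast_zero, zero_mul]
    exact one_mem_LF
  | succ n ih =>
    rw [pow_succ, show ((n + 1 : ℕ) : ℤ) * a = n * a + a by push_cast; ring]
    exact mul_mem_LF ih hf

/-! ### The matrix of conjugates -/

theorem Fmat_smul {k : Q N → ℤ} {f : Q N → ℍ → ℂ} (hf : ∀ j, IsInv N (k j) (f j))
    (g : SL(2, ℤ)) (z : ℍ) (q j : Q N) :
    Fmat N k f (g • z) q j = denom g z ^ (k j) * Fmat N k f z (g⁻¹ • q) j :=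
  cj_smul_apply (hf j) q g z

end Fermat.Agent.S20
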