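import Mathlib
import Fermat.Agent.S20.Defs

/-!
# S20 team library: division lemmas for modular forms of level `Γ₀(N)`

OWNER: helper47 (only the owner edits this file).

Function-level formalism of `Fermat.Agent.S20.Defs` (`MF N w`, `LF w`).

Main results (namespace `Fermat.Agent.S20`):

* `mem_MF_iff`, `mem_LF_iff` : membership in `MF N w` / `LF w` in terms of holomorphy, slash
  invariance and boundedness of all `SL(2, ℤ)`-translates at `i∞`.
* `div_coprime` : if `p ∈ LF v`, `q ∈ LF u` have no common zero, `p` has a nonzero limit at `i∞`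
  and `q * f = p * g` with `f ∈ MF N k`, `g ∈ MF N (k - v + u)`, then `f = p * m`, `g = q * m`
  for some `m ∈ MF N (k - v)`.
* `reg_E4_E6` : the regular sequence property of `E₄, E₆` on `⊕ MF N w`.
* `div_simple` : division by a level one form with only simple zeros.
* `div_discriminant` : division by the discriminant of a form all of whose translates decay
  like `exp (-2 π im τ)`.
-/

set_option autoImplicit false

namespace Fermat.Agent.S20

open UpperHalfPlane ModularForm CongruenceSubgroup Filter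
open scoped MatrixGroups ModularForm Manifold Topology

namespace Division

/-- Division of holomorphic functions on an open subset of `ℂ`: if `P` has only simple zeros
on `U` and `H` vanishes at every zero of `P`, then `H = P * M` with `M` holomorphic on `U`. -/
theorem exists_differentiableOn_quotient {U : Set ℂ} (hU : IsOpen U) {H P : ℂ → ℂ}
    (hH : DifferentiableOn ℂ H U) (hP : DifferentiableOn ℂ P U)
    (hz : ∀ z ∈ U, P z = 0 → H z = 0 ∧ deriv P z ≠ 0) :
    ∃ M : ℂ → ℂ, DifferentiableOn ℂ M U ∧ ∀ z ∈ U, H z = P z * M z := by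
  classical
  refine ⟨fun z => if P z = 0 then deriv H z / deriv P z else H z / P z, ?_, ?_⟩
  · intro z₀ hz₀
    have hUn : U ∈ 𝓝 z₀ := hU.mem_nhds hz₀
    refine DifferentiableAt.differentiableWithinAt ?_
    by_cases hP0 : P z₀ = 0
    · obtain ⟨hH0, hP'⟩ := hz z₀ hz₀ hP0
      have hP1 : DifferentiableOn ℂ (dslope P z₀) U := (Complex.differentiableOn_dslope hUn).2 hP
      have hH1 : DifferentiableOn ℂ (dslope H z₀) U := (Complex.differentiableOn_dslope hUn).2 hH
      have hP1ne : dslope P z₀ z₀ ≠ 0 := by rwa [dslope_same]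
      have hev : ∀ᶠ z in 𝓝 z₀, dslope P z₀ z ≠ 0 :=
        ((hP1.differentiableAt hUn).continuousAt).eventually_ne hP1ne
      have heq : (fun z => if P z = 0 then deriv H z / deriv P z else H z / P z) =ᶠ[𝓝 z₀]
          fun z => dslope H z₀ z / dslope P z₀ z := by
        filter_upwards [hev] with z hzne
        by_cases hzz : z = z₀
        · subst hzz
          simp [hP0, dslope_same]
        · have e1 : P z = (z - z₀) * dslope P z₀ z := by
            have := sub_smul_dslope P z₀ z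
            rw [hP0, sub_zero] at this
            simpa using this.symm
          have e2 : H z = (z - z₀) * dslope H z₀ z := by
            have := sub_smul_dslope H z₀ z
            rw [hH0, sub_zero] at this
            simpa using this.symm
          have hsub : z - z₀ ≠ 0 := sub_ne_zero.2 hzz
          have hPz : P z ≠ 0 := by rw [e1]; exact mul_ne_zero hsub hzne
          simp only [hPz, if_false]
          rw [e1, e2, mul_div_mul_left _ _ hsub]
      refine DifferentiableAt.congr_of_eventuallyEq ?_ heq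
      exact (hH1.differentiableAt hUn).div (hP1.differentiableAt hUn) hP1ne
    · have hev : ∀ᶠ z in 𝓝 z₀, P z ≠ 0 :=
        ((hP.differentiableAt hUn).continuousAt).eventually_ne hP0
      have heq : (fun z => if P z = 0 then deriv H z / deriv P z else H z / P z) =ᶠ[𝓝 z₀]
          fun z => H z / P z := by
        filter_upwards [hev] with z hzne
        simp [hzne]
      refine DifferentiableAt.congr_of_eventuallyEq ?_ heq
      exact (hH.differentiableAt hUn).div (hP.differentiableAt hUn) hP0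
  · intro z hzU
    by_cases hP0 : P z = 0
    · simp [hP0, (hz z hzU hP0).1]
    · simp only [hP0, if_false]
      rw [mul_div_cancel₀ _ hP0]

/-- Division of holomorphic functions on the upper half plane. -/
theorem exists_mdifferentiable_quotient {h p : ℍ → ℂ} (hh : MDiff h) (hp : MDiff p)
    (hz : ∀ z : ℍ, p z = 0 → h z = 0 ∧ deriv (p ∘ ofComplex) z ≠ 0) :
    ∃ m : ℍ → ℂ, MDiff m ∧ h = p * m := by
  rw [UpperHalfPlane.mdifferentiable_iff] at hh hp
  obtain ⟨M, hM, hMeq⟩ := exists_differentiableOn_quotient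
    (U := {z : ℂ | 0 < z.im}) UpperHalfPlane.isOpen_upperHalfPlaneSet hh hp (by
      intro z hzU hpz
      have hzz : ((ofComplex z : ℍ) : ℂ) = z := by
        rw [ofComplex_apply_of_im_pos hzU]
      have := hz (ofComplex z) (by simpa using hpz)
      rw [hzz] at this
      exact this)
  refine ⟨fun z => M z, ?_, ?_⟩
  · rw [UpperHalfPlane.mdifferentiable_iff]
    refine hM.congr ?_
    intro z hzU
    simp only [Function.comp_apply]
    rw [ofComplex_apply_of_im_pos hzU]
  · funext z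
    have := hMeq z z.im_pos
    simpa using this

/-- A holomorphic function on `ℍ` with only simple zeros is a non-zero-divisor against
continuous functions. -/
theorem eq_zero_of_mul_eq_zero_of_simple {p f : ℍ → ℂ} (hp : MDiff p) (hf : Continuous f)
    (hz : ∀ z : ℍ, p z = 0 → deriv (p ∘ ofComplex) z ≠ 0)
    (hpf : p * f = 0) : f = 0 := by
  funext z₀
  by_cases hp0 : p z₀ = 0
  · have hpd := UpperHalfPlane.mdifferentiable_iff.1 hp
    have hU : {z : ℂ | 0 < z.im} ∈ 𝓝 (z₀ : ℂ) :=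
      UpperHalfPlane.isOpen_upperHalfPlaneSet.mem_nhds z₀.im_pos
    have hd : HasDerivAt (p ∘ ofComplex) (deriv (p ∘ ofComplex) z₀) (z₀ : ℂ) :=
      (hpd.differentiableAt hU).hasDerivAt
    have hpz : (p ∘ ofComplex) (z₀ : ℂ) = 0 := by simpa using hp0
    have hne : ∀ᶠ z in 𝓝[≠] (z₀ : ℂ), (p ∘ ofComplex) z ≠ 0 := by
      have := hd.eventually_ne (c := 0) (hz z₀ hp0)
      simpa using this
    have hfz : ∀ᶠ z in 𝓝[≠] (z₀ : ℂ), (f ∘ ofComplex) z = 0 := by
      filter_upwards [hne] with z hzne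
      have := congrFun hpf (ofComplex z)
      simp only [Pi.mul_apply, Pi.zero_apply, mul_eq_zero] at this
      exact this.resolve_left hzne
    have hcont : ContinuousAt (f ∘ ofComplex) (z₀ : ℂ) := by
      have h1 : ContinuousAt ofComplex (z₀ : ℂ) :=
        (UpperHalfPlane.contMDiffAt_ofComplex (n := 0) z₀.im_pos).continuousAt
      exact hf.continuousAt.comp h1
    have h1 : Tendsto (f ∘ ofComplex) (𝓝[≠] (z₀ : ℂ)) (𝓝 ((f ∘ ofComplex) z₀)) :=
      hcont.tendsto.mono_left nhdsWithin_le_nhds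
    have h2 : Tendsto (f ∘ ofComplex) (𝓝[≠] (z₀ : ℂ)) (𝓝 0) :=
      tendsto_const_nhds.congr' (hfz.mono fun z hz => hz.symm)
    have := tendsto_nhds_unique h1 h2
    simpa using this
  · have := congrFun hpf z₀
    simp only [Pi.mul_apply, Pi.zero_apply, mul_eq_zero] at this
    exact this.resolve_left hp0

variable {N : ℕ} [NeZero N]

/-- Membership in `MF N w`: holomorphic, `Γ₀(N)`-invariant of weight `w`, and all
`SL(2, ℤ)`-translates are bounded at `i∞`. -/
theorem mem_MF_iff {w : ℤ} {f : ℍ → ℂ} :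
    f ∈ MF N w ↔ MDiff f ∧ IsInv N w f ∧ ∀ γ : SL(2, ℤ), IsBoundedAtImInfty (f ∣[w] γ) := by
  constructor
  · rintro ⟨F, rfl⟩
    refine ⟨F.holo', ?_, ?_⟩
    · intro γ hγ
      exact SlashInvariantForm.slash_action_eqn F _ (Subgroup.mem_map_of_mem _ hγ)
    · intro γ
      have hc : IsCusp (Matrix.SpecialLinearGroup.mapGL ℝ γ • OnePoint.infty) 𝒮ℒ :=
        isCusp_SL2Z_iff'.2 ⟨γ, rfl⟩
      have hc' : IsCusp (Matrix.SpecialLinearGroup.mapGL ℝ γ • OnePoint.infty)
          ((Gamma0 N : Subgroup SL(2, ℤ)) : Subgroup (GL (Fin 2) ℝ)) :=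
        (Subgroup.IsArithmetic.isCusp_iff_isCusp_SL2Z _).2 hc
      exact (OnePoint.isBoundedAt_iff_forall_SL2Z hc).1 (F.bdd_at_cusps' hc') γ rfl
  · rintro ⟨hol, hinv, hbdd⟩
    refine ⟨{ toFun := f, slash_action_eq' := ?_, holo' := hol, bdd_at_cusps' := ?_ }, rfl⟩
    · intro γ hγ
      obtain ⟨g, hg, rfl⟩ := Subgroup.mem_map.1 hγ
      exact hinv g hg
    · intro c hc
      have hc' : IsCusp c 𝒮ℒ := (Subgroup.IsArithmetic.isCusp_iff_isCusp_SL2Z _).1 hc
      exact (OnePoint.isBoundedAt_iff_forall_SL2Z hc').2 (fun γ _ => hbdd γ)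

/-- Membership in `LF w`: holomorphic, `SL(2, ℤ)`-invariant of weight `w`, bounded at `i∞`. -/
theorem mem_LF_iff {w : ℤ} {f : ℍ → ℂ} :
    f ∈ LF w ↔ MDiff f ∧ IsInvOne w f ∧ IsBoundedAtImInfty f := by
  constructor
  · rintro ⟨F, rfl⟩
    refine ⟨F.holo', ?_, ?_⟩
    · intro γ
      exact SlashInvariantForm.slash_action_eqn F _ ⟨γ, rfl⟩
    · exact ModularFormClass.bdd_at_infty F
  · rintro ⟨hol, hinv, hbdd⟩
    refine ⟨{ toFun := f, slash_action_eq' := ?_, holo' := hol, bdd_at_cusps' := ?_ }, rfl⟩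
    · rintro _ ⟨g, rfl⟩
      exact hinv g
    · intro c hc
      refine (OnePoint.isBoundedAt_iff_forall_SL2Z hc).2 (fun γ _ => ?_)
      rw [hinv γ]
      exact hbdd

/-- A level one form has a limit at `i∞`. -/
theorem LF_tendsto {w : ℤ} {f : ℍ → ℂ} (hf : f ∈ LF w) :
    Tendsto f atImInfty (𝓝 (valueAtInfty f)) := by
  obtain ⟨F, rfl⟩ := hf
  have hanal := ModularFormClass.analyticAt_cuspFunction_zero F one_pos one_mem_strictPeriods_SL
  have hper := SlashInvariantFormClass.periodic_comp_ofComplex F one_mem_strictPeriods_SL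
  rw [← cuspFunction_apply_zero one_pos hanal hper]
  exact (hanal.continuousAt.tendsto.comp (qParam_tendsto_atImInfty one_pos)).congr
    (fun τ ↦ SlashInvariantFormClass.eq_cuspFunction F τ one_mem_strictPeriods_SL one_ne_zero)


/-- The slash of a product `p * m` with `p` a level one form. -/
theorem slash_LF_mul {v w : ℤ} {p : ℍ → ℂ} (hp : p ∈ LF v) (m : ℍ → ℂ) (γ : SL(2, ℤ)) :
    (p * m) ∣[v + w] γ = p * (m ∣[w] γ) := by
  rw [mul_slash_SL2, (mem_LF_iff.1 hp).2.1 γ]

/-- Boundedness of a quotient by a function with nonzero limit. -/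
theorem isBoundedAtImInfty_of_mul {p a b : ℍ → ℂ} {c : ℂ} (hc : c ≠ 0)
    (hlim : Tendsto p atImInfty (𝓝 c)) (hb : IsBoundedAtImInfty b) (hab : b = p * a) :
    IsBoundedAtImInfty a := by
  have hpinv : IsBoundedAtImInfty (fun z => (p z)⁻¹) := by
    have : Tendsto (fun z => (p z)⁻¹) atImInfty (𝓝 c⁻¹) := hlim.inv₀ hc
    exact this.isBigO_one ℝ
  have hne : ∀ᶠ z in atImInfty, p z ≠ 0 := hlim.eventually_ne hc
  have hmul : IsBoundedAtImInfty (b * fun z => (p z)⁻¹) := BoundedAtFilter.mul hb hpinv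
  refine Asymptotics.IsBigO.congr' hmul ?_ EventuallyEq.rfl
  filter_upwards [hne] with z hz
  rw [hab]
  simp only [Pi.mul_apply]
  field_simp

/-- Regular sequence lemma, general form: if `p`, `q` are level one forms without common zero,
`p` has a nonzero limit at `i∞` and `q * f = p * g`, then `f = p * m` and `g = q * m` with `m`
a modular form of level `Γ₀(N)`. -/
theorem div_coprime {k v u : ℤ} {f g p q : ℍ → ℂ}
    (hf : f ∈ MF N k) (hg : g ∈ MF N (k - v + u)) (hp : p ∈ LF v) (hq : q ∈ LF u)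
    (hpq : ∀ z : ℍ, p z ≠ 0 ∨ q z ≠ 0) (hrel : q * f = p * g)
    {c : ℂ} (hc : c ≠ 0) (hlim : Tendsto p atImInfty (𝓝 c)) :
    ∃ m ∈ MF N (k - v), f = p * m ∧ g = q * m := by
  classical
  obtain ⟨hfhol, hfinv, hfbdd⟩ := mem_MF_iff.1 hf
  obtain ⟨hghol, hginv, hgbdd⟩ := mem_MF_iff.1 hg
  obtain ⟨hphol, hpinv, -⟩ := mem_LF_iff.1 hp
  obtain ⟨hqhol, hqinv, -⟩ := mem_LF_iff.1 hq
  have hrel' : ∀ z, q z * f z = p z * g z := fun z => congrFun hrel z
  set m : ℍ → ℂ := fun z => if p z = 0 then g z / q z else f z / p z with hm_def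
  have hfm : f = p * m := by
    funext z
    simp only [Pi.mul_apply, hm_def]
    by_cases hp0 : p z = 0
    · have hq0 : q z ≠ 0 := (hpq z).resolve_left (not_not.2 hp0)
      have := hrel' z
      rw [hp0, zero_mul, mul_eq_zero] at this
      simp [hp0, this.resolve_left hq0]
    · simp only [hp0, if_false]
      rw [mul_div_cancel₀ _ hp0]
  have hgm : g = q * m := by
    funext z
    simp only [Pi.mul_apply, hm_def]
    by_cases hp0 : p z = 0
    · have hq0 : q z ≠ 0 := (hpq z).resolve_left (not_not.2 hp0)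
      simp only [hp0, if_true]
      rw [mul_div_cancel₀ _ hq0]
    · simp only [hp0, if_false]
      have := hrel' z
      field_simp
      linear_combination -this
  -- holomorphy
  have hm : MDiff m := by
    rw [UpperHalfPlane.mdifferentiable_iff]
    have hf' := UpperHalfPlane.mdifferentiable_iff.1 hfhol
    have hg' := UpperHalfPlane.mdifferentiable_iff.1 hghol
    have hp' := UpperHalfPlane.mdifferentiable_iff.1 hphol
    have hq' := UpperHalfPlane.mdifferentiable_iff.1 hqhol
    intro z₀ hz₀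
    have hUn : {z : ℂ | 0 < z.im} ∈ 𝓝 z₀ := UpperHalfPlane.isOpen_upperHalfPlaneSet.mem_nhds hz₀
    refine DifferentiableAt.differentiableWithinAt ?_
    by_cases hp0 : p (ofComplex z₀) = 0
    · have hq0 : q (ofComplex z₀) ≠ 0 := (hpq _).resolve_left (not_not.2 hp0)
      have hev : ∀ᶠ z in 𝓝 z₀, (q ∘ ofComplex) z ≠ 0 :=
        ((hq'.differentiableAt hUn).continuousAt).eventually_ne hq0
      have heq : (m ∘ ofComplex) =ᶠ[𝓝 z₀] fun z => (g ∘ ofComplex) z / (q ∘ ofComplex) z := by
        filter_upwards [hev] with z hzne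
        have hgz := congrFun hgm (ofComplex z)
        simp only [Function.comp_apply, Pi.mul_apply] at hgz hzne ⊢
        rw [hgz, mul_div_cancel_left₀ _ hzne]
      refine DifferentiableAt.congr_of_eventuallyEq ?_ heq
      exact (hg'.differentiableAt hUn).div (hq'.differentiableAt hUn) hq0
    · have hev : ∀ᶠ z in 𝓝 z₀, (p ∘ ofComplex) z ≠ 0 :=
        ((hp'.differentiableAt hUn).continuousAt).eventually_ne hp0
      have heq : (m ∘ ofComplex) =ᶠ[𝓝 z₀] fun z => (f ∘ ofComplex) z / (p ∘ ofComplex) z := by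
        filter_upwards [hev] with z hzne
        have hfz := congrFun hfm (ofComplex z)
        simp only [Function.comp_apply, Pi.mul_apply] at hfz hzne ⊢
        rw [hfz, mul_div_cancel_left₀ _ hzne]
      refine DifferentiableAt.congr_of_eventuallyEq ?_ heq
      exact (hf'.differentiableAt hUn).div (hp'.differentiableAt hUn) hp0
  -- slash relations
  have hslashf : ∀ γ : SL(2, ℤ), f ∣[k] γ = p * (m ∣[k - v] γ) := by
    intro γ
    have h1 : f ∣[k] γ = (p * m) ∣[v + (k - v)] γ := by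
      rw [← hfm]; congr 1; ring
    rw [h1, slash_LF_mul hp]
  have hslashg : ∀ γ : SL(2, ℤ), g ∣[k - v + u] γ = q * (m ∣[k - v] γ) := by
    intro γ
    have h1 : g ∣[k - v + u] γ = (q * m) ∣[u + (k - v)] γ := by
      rw [← hgm]; congr 1; ring
    rw [h1, slash_LF_mul hq]
  have hinv : IsInv N (k - v) m := by
    intro γ hγ
    have h1 : p * (m ∣[k - v] γ) = p * m := by
      rw [← hslashf γ, ← hfm, hfinv γ hγ]
    have h2 : q * (m ∣[k - v] γ) = q * m := by
      rw [← hslashg γ, ← hgm, hginv γ hγ]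
    funext z
    rcases hpq z with hp0 | hq0
    · exact mul_left_cancel₀ hp0 (congrFun h1 z)
    · exact mul_left_cancel₀ hq0 (congrFun h2 z)
  have hbdd : ∀ γ : SL(2, ℤ), IsBoundedAtImInfty (m ∣[k - v] γ) := fun γ =>
    isBoundedAtImInfty_of_mul hc hlim (hfbdd γ) (hslashf γ)
  exact ⟨m, mem_MF_iff.2 ⟨hm, hinv, hbdd⟩, hfm, hgm⟩

/-- Division by a level one form with only simple zeros and a nonzero limit at `i∞`: a form of
level `Γ₀(N)` vanishing at all zeros of `p` is divisible by `p`. -/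
theorem div_simple {d v : ℤ} {h p : ℍ → ℂ} (hh : h ∈ MF N d) (hp : p ∈ LF v)
    (hsimple : ∀ z : ℍ, p z = 0 → deriv (p ∘ ofComplex) z ≠ 0)
    (hvan : ∀ z : ℍ, p z = 0 → h z = 0)
    {c : ℂ} (hc : c ≠ 0) (hlim : Tendsto p atImInfty (𝓝 c)) :
    ∃ m ∈ MF N (d - v), h = p * m := by
  obtain ⟨hhhol, hhinv, hhbdd⟩ := mem_MF_iff.1 hh
  obtain ⟨hphol, hpinv, -⟩ := mem_LF_iff.1 hp
  obtain ⟨m, hm, hmeq⟩ := exists_mdifferentiable_quotient hhhol hphol
    (fun z hz => ⟨hvan z hz, hsimple z hz⟩)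
  have hslash : ∀ γ : SL(2, ℤ), h ∣[d] γ = p * (m ∣[d - v] γ) := by
    intro γ
    have h1 : h ∣[d] γ = (p * m) ∣[v + (d - v)] γ := by
      rw [← hmeq]; congr 1; ring
    rw [h1, slash_LF_mul hp]
  have hcont : ∀ γ : SL(2, ℤ), Continuous (m ∣[d - v] γ) := by
    intro γ
    rw [SL_slash]
    exact (hm.slash _ _).continuous
  have hinv : IsInv N (d - v) m := by
    intro γ hγ
    have h2 : p * (m ∣[d - v] γ - m) = 0 := by
      rw [mul_sub, ← hslash γ, ← hmeq, hhinv γ hγ, sub_self]
    have := eq_zero_of_mul_eq_zero_of_simple hphol ((hcont γ).sub hm.continuous) hsimple h2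
    exact sub_eq_zero.1 this
  have hbdd : ∀ γ : SL(2, ℤ), IsBoundedAtImInfty (m ∣[d - v] γ) := fun γ =>
    isBoundedAtImInfty_of_mul hc hlim (hhbdd γ) (hslash γ)
  exact ⟨m, mem_MF_iff.2 ⟨hm, hinv, hbdd⟩, hmeq⟩

/-- Division by the discriminant: a form of level `Γ₀(N)` all of whose `SL(2, ℤ)`-translates
are `O(exp (-2 π im τ))` at `i∞` is divisible by `Δ`. -/
theorem div_discriminant {d : ℤ} {h : ℍ → ℂ} (hh : h ∈ MF N d)
    (hdecay : ∀ γ : SL(2, ℤ), (h ∣[d] γ) =O[atImInfty]
      (fun τ : ℍ => Real.exp (-2 * Real.pi * τ.im))) :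
    ∃ m ∈ MF N (d - 12), h = discriminant * m := by
  obtain ⟨hhhol, hhinv, hhbdd⟩ := mem_MF_iff.1 hh
  have hΔhol : MDiff discriminant := CuspForm.discriminant.holo'
  have hΔinv : ∀ γ : SL(2, ℤ), discriminant ∣[(12 : ℤ)] γ = discriminant := fun γ =>
    SlashInvariantForm.slash_action_eqn CuspForm.discriminant _ ⟨γ, rfl⟩
  have hslash : ∀ γ : SL(2, ℤ), (h / discriminant) ∣[d - 12] γ = (h ∣[d] γ) / discriminant := by
    intro γ
    rw [div_slash_SL2, hΔinv]
  have hm : MDiff (h / discriminant) := by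
    rw [UpperHalfPlane.mdifferentiable_iff]
    have h1 := UpperHalfPlane.mdifferentiable_iff.1 hhhol
    have h2 := UpperHalfPlane.mdifferentiable_iff.1 hΔhol
    exact h1.div h2 (fun z _ => discriminant_ne_zero _)
  have hinv : IsInv N (d - 12) (h / discriminant) := by
    intro γ hγ
    rw [hslash, hhinv γ hγ]
  have hbdd : ∀ γ : SL(2, ℤ), IsBoundedAtImInfty ((h / discriminant) ∣[d - 12] γ) := by
    intro γ
    rw [hslash]
    have h1 := (hdecay γ).trans exp_isBigO_discriminant
    obtain ⟨C, hC⟩ := h1.bound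
    refine Asymptotics.IsBigO.of_bound C ?_
    filter_upwards [hC] with z hz
    simp only [Pi.div_apply, Pi.one_apply, norm_div, norm_one, mul_one]
    exact (div_le_iff₀ (norm_pos_iff.2 (discriminant_ne_zero z))).2 hz
  refine ⟨h / discriminant, mem_MF_iff.2 ⟨hm, hinv, hbdd⟩, ?_⟩
  funext z
  simp only [Pi.mul_apply, Pi.div_apply]
  rw [mul_div_cancel₀ _ (discriminant_ne_zero z)]

omit [NeZero N] in
/-- For a `Γ₀(N)`-invariant function, every `SL(2, ℤ)`-translate is one of the conjugates `cj`. -/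
theorem slash_eq_cj {w : ℤ} {f : ℍ → ℂ} (hf : IsInv N w f) (γ : SL(2, ℤ)) :
    f ∣[w] γ = cj N w f (QuotientGroup.mk γ⁻¹ : Q N) := by
  have hmk : (QuotientGroup.mk (Quotient.out (QuotientGroup.mk γ⁻¹ : Q N)) : Q N) =
      QuotientGroup.mk γ⁻¹ := Quotient.out_eq _
  have hmem := QuotientGroup.eq.1 hmk
  set g := Quotient.out (QuotientGroup.mk γ⁻¹ : Q N) with hg
  have hg' : g⁻¹ = (g⁻¹ * γ⁻¹) * γ := by group
  rw [cj, ← hg, hg', SlashAction.slash_mul, hf _ hmem]

/-- Variant of `div_discriminant` in terms of the conjugates `cj`. -/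
theorem div_discriminant_cj {d : ℤ} {h : ℍ → ℂ} (hh : h ∈ MF N d)
    (hdecay : ∀ q : Q N, (cj N d h q) =O[atImInfty]
      (fun τ : ℍ => Real.exp (-2 * Real.pi * τ.im))) :
    ∃ m ∈ MF N (d - 12), h = discriminant * m := by
  refine div_discriminant hh (fun γ => ?_)
  rw [slash_eq_cj (mem_MF_iff.1 hh).2.1 γ]
  exact hdecay _

theorem E4_mem_LF : (E₄ : ℍ → ℂ) ∈ LF 4 := ⟨E₄, rfl⟩

theorem E6_mem_LF : (E₆ : ℍ → ℂ) ∈ LF 6 := ⟨E₆, rfl⟩

theorem discriminant_mem_LF : discriminant ∈ LF 12 := by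
  refine mem_LF_iff.2 ⟨CuspForm.discriminant.holo', fun γ => ?_, ?_⟩
  · exact SlashInvariantForm.slash_action_eqn CuspForm.discriminant _ ⟨γ, rfl⟩
  · exact discriminant_isZeroAtImInfty.isBoundedAtImInfty

/-- The value at `i∞` of a level one form is the constant coefficient of its `q`-expansion. -/
theorem valueAtInfty_eq_coeff_zero {w : ℤ} (F : ModularForm 𝒮ℒ w) :
    valueAtInfty (F : ℍ → ℂ) = (qExpansion 1 F).coeff 0 := by
  have hanal := ModularFormClass.analyticAt_cuspFunction_zero F one_pos one_mem_strictPeriods_SL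
  have hper := SlashInvariantFormClass.periodic_comp_ofComplex F one_mem_strictPeriods_SL
  exact (qExpansion_coeff_zero one_pos hanal hper).symm

theorem tendsto_E4 : Tendsto (E₄ : ℍ → ℂ) atImInfty (𝓝 1) := by
  have h := LF_tendsto E4_mem_LF
  rwa [valueAtInfty_eq_coeff_zero, EisensteinSeries.E_qExpansion_coeff_zero _ ⟨2, rfl⟩] at h

theorem tendsto_E6 : Tendsto (E₆ : ℍ → ℂ) atImInfty (𝓝 1) := by
  have h := LF_tendsto E6_mem_LF
  rwa [valueAtInfty_eq_coeff_zero, EisensteinSeries.E_qExpansion_coeff_zero _ ⟨3, rfl⟩] at h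

/-- `E₄` and `E₆` have no common zero (since `Δ = (E₄³ - E₆²) / 1728` never vanishes). -/
theorem E4_E6_no_common_zero (z : ℍ) : E₄ z ≠ 0 ∨ E₆ z ≠ 0 := by
  by_contra hcon
  obtain ⟨h1, h2⟩ := not_or.1 hcon
  rw [not_not] at h1 h2
  have := discriminant_eq_E₄_cube_sub_E₆_sq z
  rw [h1, h2] at this
  exact discriminant_ne_zero z (by simpa using this)

/-- The regular sequence property of `E₄, E₆` on `⊕ MF N w`, in the exact shape of the field
`reg` of `GradedRegData`. -/
theorem reg_E4_E6 (w : ℤ) (h1 h2 : ℍ → ℂ) (hh1 : h1 ∈ MF N (w - 4)) (hh2 : h2 ∈ MF N (w - 6))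
    (h : (E₄ : ℍ → ℂ) * h1 + (E₆ : ℍ → ℂ) * h2 = 0) :
    ∃ c ∈ MF N (w - 10), h1 = (E₆ : ℍ → ℂ) * c ∧ h2 = -((E₄ : ℍ → ℂ) * c) := by
  have hg : -h1 ∈ MF N (w - 6 - 4 + 6) := by
    have : w - 6 - 4 + 6 = w - 4 := by ring
    rw [this]
    exact (MF N _).neg_mem hh1
  have hrel : (E₆ : ℍ → ℂ) * h2 = (E₄ : ℍ → ℂ) * (-h1) := by
    rw [mul_neg]
    exact eq_neg_of_add_eq_zero_right h
  obtain ⟨m, hm, hf, hg'⟩ := div_coprime hh2 hg E4_mem_LF E6_mem_LF E4_E6_no_common_zero hrel
    one_ne_zero tendsto_E4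
  refine ⟨-m, ?_, ?_, ?_⟩
  · have : w - 10 = w - 6 - 4 := by ring
    rw [this]
    exact (MF N _).neg_mem hm
  · rw [mul_neg, ← hg', neg_neg]
  · rw [mul_neg, neg_neg, hf]

end Division

end Fermat.Agent.S20
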