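import Fermat.Agent.S20.PointAlg
import Fermat.Agent.S20.PointAnalytic

/-!
# S20 block POINTDATA (owner: helper46)

For every point `z₀ ∈ ℍ` a level one form `π` vanishing at `z₀` with only simple zeros on `ℍ`,
together with the algebraic data of `IsPointAlg` (owner of `PointAlg.lean`: helper20).
-/

set_option autoImplicit false

namespace Fermat.Agent.S20

open UpperHalfPlane hiding I
open ModularForm Filter Topology
open scoped MatrixGroups ModularForm Manifold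

/-- Point datum at `z₀`: the algebraic datum of `IsPointAlg` plus simplicity of all zeros of `π`
on the upper half plane. -/
structure IsPointDatum (z₀ : ℍ) (g v : ℤ) (π : ℍ → ℂ) : Prop where
  alg : IsPointAlg z₀ g v π
  simple : ∀ z : ℍ, π z = 0 → deriv (π ∘ ofComplex) z ≠ 0

/-- The three explicit point data. -/
theorem exists_pointDatum_cases (z₀ : ℍ) :
    (E₄ z₀ = 0 ∧ IsPointDatum z₀ 6 4 ⇑E₄) ∨ (E₆ z₀ = 0 ∧ IsPointDatum z₀ 4 6 ⇑E₆) ∨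
    (E₄ z₀ ≠ 0 ∧ E₆ z₀ ≠ 0 ∧
      IsPointDatum z₀ 2 12 (fun z => E₆ z₀ ^ 2 * E₄ z ^ 3 - E₄ z₀ ^ 3 * E₆ z ^ 2)) := by
  rcases exists_pointAlg z₀ with ⟨h4, hA⟩ | ⟨h6, hA⟩ | ⟨h4, h6, hA⟩
  · exact Or.inl ⟨h4, hA, fun z hz => pa_E4_simple' z hz⟩
  · exact Or.inr (Or.inl ⟨h6, hA, fun z hz => pa_E6_simple' z hz⟩)
  · exact Or.inr (Or.inr ⟨h4, h6, hA, fun z hz =>
      pa_generic_simple' (E₆ z₀ ^ 2) (E₄ z₀ ^ 3) (pow_ne_zero 2 h6) (pow_ne_zero 3 h4) z hz⟩)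

/-- Every point of `ℍ` has a point datum. -/
theorem exists_pointDatum (z₀ : ℍ) : ∃ (g v : ℤ) (π : ℍ → ℂ), IsPointDatum z₀ g v π := by
  rcases exists_pointDatum_cases z₀ with ⟨-, h⟩ | ⟨-, h⟩ | ⟨-, -, h⟩
  · exact ⟨_, _, _, h⟩
  · exact ⟨_, _, _, h⟩
  · exact ⟨_, _, _, h⟩

end Fermat.Agent.S20
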