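import Fermat.Agent.S20.DetCore
import Fermat.Agent.S20.PointData
import Fermat.Agent.S20.Division

/-!
# S20 team library: the determinant of the matrix of conjugates never vanishes

OWNER: helper54 (only the owner edits this file).

Main export: `Fermat.Agent.S20.det_Fmat_ne_zero` : for a homogeneous free basis `f` (weights `k`)
of `⊕ MF N w` over `⊕ LF w`, the matrix `Fmat N k f z` of conjugates is invertible at every
point `z` of the upper half plane.

The argument is in `DetCore.lean` (`Det.det_Fmat_ne_zero_of`); here the point datum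
(`PointData.lean`) and the division lemma (`Division.lean`) are plugged in.
-/

set_option autoImplicit false

namespace Fermat.Agent.S20

open UpperHalfPlane ModularForm
open scoped MatrixGroups ModularForm Manifold

theorem det_Fmat_ne_zero (N : ℕ) [NeZero N] (k : Q N → ℤ) (f : Q N → ℍ → ℂ)
    (hB : IsFreeBasis N k f) (z : ℍ) : (Fmat N k f z).det ≠ 0 := by
  obtain ⟨g, v, π, hP⟩ := exists_pointDatum z
  have hg : 0 < g := by
    rcases hP.alg.g_mem with h | h | h <;> omega
  obtain ⟨c, hc, hlim⟩ := hP.alg.lim
  exact Det.det_Fmat_ne_zero_of N k f hB z g v π hg hP.alg.zero hP.alg.mem hP.alg.dvd hP.alg.wt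
    hP.alg.one
    (fun _ _ hh hvan => Division.div_simple hh hP.alg.mem hP.simple hvan hc hlim)

/-- The matrix of conjugates of a free basis is invertible at every point. -/
theorem isUnit_Fmat (N : ℕ) [NeZero N] (k : Q N → ℤ) (f : Q N → ℍ → ℂ)
    (hB : IsFreeBasis N k f) (z : ℍ) : IsUnit (Fmat N k f z) :=
  (Matrix.isUnit_iff_isUnit_det _).2 (isUnit_iff_ne_zero.2 (det_Fmat_ne_zero N k f hB z))

end Fermat.Agent.S20
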