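import Mathlib
import Fermat.Agent.S20.Defs
import Fermat.Agent.S20.LevelOne

/-!
# S20 team library: determinants of matrices of level-one forms, nowhere vanishing forms

OWNER: helper49 (only the owner edits this file).

* `det_mem_LF`: the determinant of a matrix with entries `T i j ∈ LF (k i + k j)` lies in
  `LF (2 * ∑ j, k j)` (Leibniz formula).
* `LF_nowhere_zero`: a nowhere vanishing level-one form is `c • Δ ^ m` with `w = 12 * m`.
-/

set_option autoImplicit false

namespace Fermat.Agent.S20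

open UpperHalfPlane ModularForm
open scoped MatrixGroups ModularForm Manifold

/-- A finite product of level-one forms is a level-one form of the sum of the weights. -/
theorem dl_prod_mem {ι : Type*} (s : Finset ι) (κ : ι → ℤ) (f : ι → ℍ → ℂ)
    (h : ∀ i ∈ s, f i ∈ LF (κ i)) : ∏ i ∈ s, f i ∈ LF (∑ i ∈ s, κ i) := by
  classical
  induction s using Finset.induction_on with
  | empty => simpa using lo_one_mem
  | insert a s ha ih =>
    rw [Finset.prod_insert ha, Finset.sum_insert ha]
    exact lo_mul_mem (h a (Finset.mem_insert_self a s))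
      (ih fun i hi => h i (Finset.mem_insert_of_mem hi))

/-- Generalised Leibniz statement: entries `T i j ∈ LF (a i + b j)` give a determinant in
`LF (∑ a + ∑ b)`. -/
theorem dl_det_mem {ι : Type} [Fintype ι] [DecidableEq ι] (a b : ι → ℤ) (T : ι → ι → ℍ → ℂ)
    (hT : ∀ i j, T i j ∈ LF (a i + b j)) :
    (fun z => Matrix.det (Matrix.of fun i j => T i j z)) ∈ LF (∑ i, a i + ∑ j, b j) := by
  have key : (fun z => Matrix.det (Matrix.of fun i j => T i j z)) =
      ∑ σ : Equiv.Perm ι, (((Equiv.Perm.sign σ : ℤˣ) : ℤ) : ℂ) • ∏ i, T (σ i) i := by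
    ext z
    rw [Matrix.det_apply, Finset.sum_apply]
    refine Finset.sum_congr rfl fun σ _ => ?_
    rw [Pi.smul_apply, Finset.prod_apply, Units.smul_def, zsmul_eq_mul, smul_eq_mul]
    rfl
  rw [key]
  refine Submodule.sum_mem _ fun σ _ => Submodule.smul_mem _ _ ?_
  have h := dl_prod_mem Finset.univ (fun i => a (σ i) + b i) (fun i => T (σ i) i)
    (fun i _ => hT (σ i) i)
  have hsum : ∑ i, (a (σ i) + b i) = ∑ i, a i + ∑ j, b j := by
    rw [Finset.sum_add_distrib, Equiv.sum_comp σ a]
  rwa [hsum] at h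

/-- The determinant of a matrix with entries `T i j ∈ LF (k i + k j)` lies in
`LF (2 * ∑ j, k j)`. -/
theorem det_mem_LF {ι : Type} [Fintype ι] [DecidableEq ι] (k : ι → ℤ) (T : ι → ι → ℍ → ℂ)
    (hT : ∀ i j, T i j ∈ LF (k i + k j)) :
    (fun z => Matrix.det (Matrix.of fun i j => T i j z)) ∈ LF (2 * ∑ j, k j) := by
  have h := dl_det_mem k k T hT
  rwa [← two_mul] at h

/-- A nowhere vanishing level-one modular form is a nonzero constant times a power of `Δ`. -/
theorem LF_nowhere_zero {w : ℤ} {r : ℍ → ℂ} (hr : r ∈ LF w) (h : ∀ z, r z ≠ 0) :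
    ∃ c : ℂ, c ≠ 0 ∧ ∃ m : ℕ, w = 12 * m ∧ r = c • ModularForm.discriminant ^ m := by
  obtain ⟨c, m, hc, hw, hrm⟩ := lo_nonvanishing hr h
  exact ⟨c, hc, m, hw, hrm⟩

end Fermat.Agent.S20
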