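/-
S20 lib: growth comparison at `i∞` (for Cusp.lean).  Owner: helper79.
If `d ^ 2 = c • Δ ^ m` with `c ≠ 0` and `d z * exp (-π i e z)` has a nonzero limit at `i∞`,
then `m = e`.
-/
import Mathlib

set_option autoImplicit false

namespace Fermat.Agent.S20

open UpperHalfPlane Filter Topology Complex ModularForm
open scoped Real

namespace Growth

/-- `exp (2 π i n z) → 0` at `i∞` for a positive natural number `n`. -/
theorem tendsto_exp_nat_mul {n : ℕ} (hn : 0 < n) :
    Tendsto (fun z : ℍ => cexp (2 * π * Complex.I * (z : ℂ)) ^ n) atImInfty (𝓝 0) := by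
  have h1 : Tendsto (fun z : ℍ => cexp (2 * π * Complex.I * (z : ℂ))) atImInfty (𝓝 0) := by
    have := UpperHalfPlane.qParam_tendsto_atImInfty (h := 1) zero_lt_one
    simpa [Function.Periodic.qParam] using this
  have h2 := h1.pow n
  rwa [zero_pow hn.ne'] at h2

/-- `Δ z = exp (2 π i z) * P z` with `P → 1` at `i∞`. -/
theorem discriminant_eq_exp_mul (z : ℍ) :
    discriminant z = cexp (2 * π * Complex.I * (z : ℂ)) * ∏' n, (1 - eta_q n z) ^ 24 := by
  rw [discriminant_eq_q_prod]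
  simp [Function.Periodic.qParam]

end Growth

open Growth in
/-- Growth comparison: if `d ^ 2 = c * Δ ^ m`, `c ≠ 0`, and `d z * exp (-(π i e z))` tends to a
nonzero limit at `i∞`, then `m = e`. -/
theorem growth_compare {d : ℍ → ℂ} {c : ℂ} (hc : c ≠ 0) {m : ℕ}
    (hd : ∀ z : ℍ, d z ^ 2 = c * ModularForm.discriminant z ^ m) {e : ℤ} {L : ℂ} (hL : L ≠ 0)
    (h : Tendsto (fun z : ℍ => d z * Complex.exp (-(π * Complex.I * e * z))) atImInfty (𝓝 L)) :
    (m : ℤ) = e := by
  set P : ℍ → ℂ := fun z => ∏' n, (1 - eta_q n z) ^ 24 with hPdef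
  have hP : Tendsto P atImInfty (𝓝 1) := tendsto_atImInfty_tprod_one_sub_eta_q_pow
  set g : ℍ → ℂ := fun z => d z * Complex.exp (-(π * Complex.I * e * z)) with hgdef
  have hg2 : Tendsto (fun z => g z ^ 2) atImInfty (𝓝 (L ^ 2)) := h.pow 2
  have hPm : Tendsto (fun z => c * P z ^ m) atImInfty (𝓝 c) := by
    have := (hP.pow m).const_mul c
    simpa using this
  -- the basic identity
  have key : ∀ z : ℍ, g z ^ 2 * cexp (2 * π * Complex.I * (z : ℂ)) ^ e
      = c * P z ^ m * cexp (2 * π * Complex.I * (z : ℂ)) ^ m := by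
    intro z
    have h1 : g z ^ 2 = d z ^ 2 * cexp (-(π * Complex.I * e * z)) ^ 2 := by
      simp only [hgdef, mul_pow]
    have h2 : cexp (-(π * Complex.I * e * z)) ^ 2 * cexp (2 * π * Complex.I * (z : ℂ)) ^ e = 1 := by
      rw [← Complex.exp_nat_mul, ← Complex.exp_int_mul, ← Complex.exp_add]
      convert Complex.exp_zero using 2
      push_cast
      ring
    rw [h1, mul_assoc, h2, mul_one, hd, discriminant_eq_exp_mul, mul_pow]
    ring
  have hne : ∀ z : ℍ, cexp (2 * π * Complex.I * (z : ℂ)) ≠ 0 := fun z => Complex.exp_ne_zero _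
  rcases lt_trichotomy (m : ℤ) e with hlt | heq | hgt
  · -- `m < e`: then `c * P ^ m = g ^ 2 * q ^ n → 0`, so `c = 0`.
    exfalso
    obtain ⟨n, hn⟩ : ∃ n : ℕ, e = (m : ℤ) + n := ⟨(e - m).toNat, by omega⟩
    have hnpos : 0 < n := by omega
    have key' : ∀ z : ℍ, c * P z ^ m = g z ^ 2 * cexp (2 * π * Complex.I * (z : ℂ)) ^ n := by
      intro z
      have := key z
      rw [hn, zpow_add₀ (hne z), zpow_natCast, zpow_natCast, ← mul_assoc] at this
      have hm0 : cexp (2 * π * Complex.I * (z : ℂ)) ^ m ≠ 0 := pow_ne_zero _ (hne z)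
      have h3 : (g z ^ 2 * cexp (2 * π * Complex.I * (z : ℂ)) ^ n) * cexp (2 * π * Complex.I * (z : ℂ)) ^ m
          = (c * P z ^ m) * cexp (2 * π * Complex.I * (z : ℂ)) ^ m := by
        rw [← this]; ring
      exact (mul_right_cancel₀ hm0 h3).symm
    have h0 : Tendsto (fun z => c * P z ^ m) atImInfty (𝓝 (L ^ 2 * 0)) := by
      simp only [key']
      exact hg2.mul (tendsto_exp_nat_mul hnpos)
    rw [mul_zero] at h0
    exact hc (tendsto_nhds_unique hPm h0)
  · exact heq
  · -- `m > e`: then `g ^ 2 = c * P ^ m * q ^ n → 0`, so `L = 0`.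
    exfalso
    obtain ⟨n, hn⟩ : ∃ n : ℕ, (m : ℤ) = e + n := ⟨((m : ℤ) - e).toNat, by omega⟩
    have hnpos : 0 < n := by omega
    have key' : ∀ z : ℍ, g z ^ 2 = c * P z ^ m * cexp (2 * π * Complex.I * (z : ℂ)) ^ n := by
      intro z
      have := key z
      have hmz : cexp (2 * π * Complex.I * (z : ℂ)) ^ m
          = cexp (2 * π * Complex.I * (z : ℂ)) ^ e * cexp (2 * π * Complex.I * (z : ℂ)) ^ n := by
        rw [← zpow_natCast (cexp (2 * π * Complex.I * (z : ℂ))) m, hn, zpow_add₀ (hne z), zpow_natCast]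
      rw [hmz] at this
      have he0 : cexp (2 * π * Complex.I * (z : ℂ)) ^ e ≠ 0 := zpow_ne_zero _ (hne z)
      have h3 : g z ^ 2 * cexp (2 * π * Complex.I * (z : ℂ)) ^ e
          = (c * P z ^ m * cexp (2 * π * Complex.I * (z : ℂ)) ^ n) * cexp (2 * π * Complex.I * (z : ℂ)) ^ e := by
        rw [this]; ring
      exact mul_right_cancel₀ he0 h3
    have h0 : Tendsto (fun z => g z ^ 2) atImInfty (𝓝 (c * 0)) := by
      simp only [key']
      exact hPm.mul (tendsto_exp_nat_mul hnpos)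
    rw [mul_zero] at h0
    exact hL ((pow_eq_zero_iff (two_ne_zero)).mp (tendsto_nhds_unique hg2 h0))

end Fermat.Agent.S20
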