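import Mathlib

/-!
# S20 team library: determinant of `E + y • (1 - E)` for an idempotent matrix `E`

OWNER: helper76 (only the owner edits this file).

For an idempotent complex matrix `E` with trace `c`, `det (E + y • (1 - E)) = y ^ (n - c)`.
-/

set_option autoImplicit false

namespace Fermat.Agent.S20

open Module in
theorem det_idem_add_smul {ι : Type} [Fintype ι] [DecidableEq ι] (E : Matrix ι ι ℂ)
    (hE : E * E = E) (c : ℕ) (hc : E.trace = (c : ℂ)) (y : ℂ) :
    (E + y • (1 - E)).det = y ^ (Fintype.card ι - c) := by
  set e : (ι → ℂ) →ₗ[ℂ] (ι → ℂ) := Matrix.toLin' E with he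
  have hidem : IsIdempotentElem e := by
    show e * e = e
    rw [he, Module.End.mul_eq_comp, ← Matrix.toLin'_mul, hE]
  have hproj : LinearMap.IsProj (LinearMap.range e) e :=
    (LinearMap.isProj_range_iff_isIdempotentElem e).mpr hidem
  have htr : LinearMap.trace ℂ (ι → ℂ) e = E.trace := Matrix.trace_toLin'_eq E
  have hrank : Module.finrank ℂ (LinearMap.range e) = c := by
    have h := hproj.trace
    rw [htr, hc] at h
    exact_mod_cast h.symm
  have hker : Module.finrank ℂ (LinearMap.ker e) = Fintype.card ι - c := by
    have h := LinearMap.finrank_range_add_finrank_ker e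
    rw [hrank, Module.finrank_fintype_fun_eq_card] at h
    omega
  set φ := (LinearMap.range e).prodEquivOfIsCompl (LinearMap.ker e) hproj.isCompl with hφ
  have h1 : e = φ.conj (LinearMap.prodMap LinearMap.id 0) := hproj.eq_conj_prodMap
  have key : e + y • (1 - e) =
      φ.conj (LinearMap.prodMap LinearMap.id (y • LinearMap.id)) := by
    have h2 : (1 : Module.End ℂ (ι → ℂ)) = φ.conj 1 := by
      rw [Module.End.one_eq_id, Module.End.one_eq_id, LinearEquiv.conj_id]
    have h4 : φ.conj (LinearMap.prodMap LinearMap.id (y • LinearMap.id)) =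
        φ.conj (LinearMap.prodMap LinearMap.id 0) +
          y • (φ.conj 1 - φ.conj (LinearMap.prodMap LinearMap.id 0)) := by
      rw [← map_sub, ← map_smul, ← map_add]
      congr 1
      ext x <;> simp
    rw [h4, ← h2, ← h1]
  have hdet : LinearMap.det (Matrix.toLin' (E + y • (1 - E))) = y ^ (Fintype.card ι - c) := by
    have h3 : Matrix.toLin' (E + y • (1 - E)) = e + y • (1 - e) := by
      rw [map_add, map_smul, map_sub, Matrix.toLin'_one, he]
      rfl
    rw [h3, key, LinearEquiv.conj_apply, LinearMap.comp_assoc, LinearMap.det_conj,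
      LinearMap.det_prodMap,
      LinearMap.det_id, LinearMap.det_smul, LinearMap.det_id, hker]
    ring
  rw [← hdet, LinearMap.det_toLin']

end Fermat.Agent.S20
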