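import Mathlib

/-!
# S20 team library: abstract limit / inverse assembly lemmas for the monodromy lemma

OWNER: helper17 (only the owner edits this file).

Three elementary facts on matrix-valued functions on the upper half plane (statements fixed
with helper87, consumer: `Monodromy.lean`):

* `det_tendsto` : entrywise convergence implies convergence of determinants;
* `inv_mul_tendsto_zero` : if `G z → M₀` entrywise with `det M₀ ≠ 0` and `e^{2πiz} A z → 0`
  entrywise, then `e^{2πiz} (G z)⁻¹ A z → 0` entrywise;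
* `mulVec_isBigO_of_ker` : if `G z - M₀ = O(e^{-2π im z})` entrywise, `B` is bounded and
  `M₀ b = 0`, then `(B z * G z) b = O(e^{-2π im z})` entrywise.
-/

set_option autoImplicit false

namespace Fermat.Agent.S20.MonoAsm

open UpperHalfPlane Filter Topology Complex Asymptotics
open scoped Real

variable {ι : Type} [Fintype ι] [DecidableEq ι]

omit [Fintype ι] [DecidableEq ι] in
theorem tendsto_matrix (G : ℍ → Matrix ι ι ℂ) (M₀ : Matrix ι ι ℂ)
    (hG : ∀ q j, Tendsto (fun z : ℍ => G z q j) atImInfty (𝓝 (M₀ q j))) :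
    Tendsto G atImInfty (𝓝 M₀) :=
  tendsto_pi_nhds.mpr fun q => tendsto_pi_nhds.mpr fun j => hG q j

theorem det_tendsto (G : ℍ → Matrix ι ι ℂ) (M₀ : Matrix ι ι ℂ)
    (hG : ∀ q j, Tendsto (fun z : ℍ => G z q j) atImInfty (𝓝 (M₀ q j))) :
    Tendsto (fun z : ℍ => (G z).det) atImInfty (𝓝 M₀.det) :=
  ((continuous_id.matrix_det (A := fun A : Matrix ι ι ℂ => A)).tendsto M₀).comp
    (tendsto_matrix G M₀ hG)

theorem inv_tendsto (G : ℍ → Matrix ι ι ℂ) (M₀ : Matrix ι ι ℂ)
    (hG : ∀ q j, Tendsto (fun z : ℍ => G z q j) atImInfty (𝓝 (M₀ q j)))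
    (hdet : M₀.det ≠ 0) (j l : ι) :
    Tendsto (fun z : ℍ => (G z)⁻¹ j l) atImInfty (𝓝 (M₀⁻¹ j l)) := by
  have hcont : ContinuousAt (fun A : Matrix ι ι ℂ => A⁻¹) M₀ := by
    apply continuousAt_matrix_inv
    rw [Ring.inverse_eq_inv']
    exact continuousAt_inv₀ hdet
  have h1 : Tendsto (fun z : ℍ => (G z)⁻¹) atImInfty (𝓝 M₀⁻¹) :=
    hcont.tendsto.comp (tendsto_matrix G M₀ hG)
  exact (tendsto_pi_nhds.mp (tendsto_pi_nhds.mp h1 j) l)

theorem inv_mul_tendsto_zero (G A : ℍ → Matrix ι ι ℂ) (M₀ : Matrix ι ι ℂ)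
    (hG : ∀ q j, Tendsto (fun z : ℍ => G z q j) atImInfty (𝓝 (M₀ q j)))
    (hdet : M₀.det ≠ 0)
    (hA : ∀ q j, Tendsto (fun z : ℍ => cexp (2 * π * Complex.I * z) * A z q j)
      atImInfty (𝓝 0)) :
    ∀ j q, Tendsto (fun z : ℍ => cexp (2 * π * Complex.I * z) * ((G z)⁻¹ * A z) j q)
      atImInfty (𝓝 0) := by
  intro j q
  have h1 : ∀ l : ι, Tendsto (fun z : ℍ => (G z)⁻¹ j l *
      (cexp (2 * π * Complex.I * z) * A z l q)) atImInfty (𝓝 (M₀⁻¹ j l * 0)) :=
    fun l => (inv_tendsto G M₀ hG hdet j l).mul (hA l q)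
  have h2 : Tendsto (fun z : ℍ => ∑ l, (G z)⁻¹ j l *
      (cexp (2 * π * Complex.I * z) * A z l q)) atImInfty (𝓝 (∑ l, M₀⁻¹ j l * 0)) :=
    tendsto_finsetSum _ fun l _ => h1 l
  simp only [mul_zero, Finset.sum_const_zero] at h2
  refine h2.congr fun z => ?_
  rw [Matrix.mul_apply, Finset.mul_sum]
  refine Finset.sum_congr rfl fun l _ => ?_
  ring

theorem mulVec_isBigO_of_ker (G B : ℍ → Matrix ι ι ℂ) (M₀ : Matrix ι ι ℂ) (C : ℝ)
    (hB : ∀ z q j, ‖B z q j‖ ≤ C)
    (hG : ∀ q j, (fun z : ℍ => G z q j - M₀ q j) =O[atImInfty]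
      fun z : ℍ => Real.exp (-2 * π * z.im))
    (b : ι → ℂ) (hb : M₀.mulVec b = 0) :
    ∀ q, (fun z : ℍ => ∑ j, (B z * G z) q j * b j) =O[atImInfty]
      fun z : ℍ => Real.exp (-2 * π * z.im) := by
  intro q
  have hker : ∀ q' : ι, ∑ j, M₀ q' j * b j = 0 := fun q' => by
    have := congrFun hb q'
    simpa [Matrix.mulVec, dotProduct] using this
  have hrw : ∀ z : ℍ, ∑ j, (B z * G z) q j * b j
      = ∑ q', ∑ j, B z q q' * ((G z q' j - M₀ q' j) * b j) := by
    intro z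
    have h1 : ∑ j, (B z * G z) q j * b j = ∑ q', ∑ j, B z q q' * (G z q' j * b j) := by
      simp only [Matrix.mul_apply, Finset.sum_mul]
      rw [Finset.sum_comm]
      refine Finset.sum_congr rfl fun q' _ => Finset.sum_congr rfl fun j _ => ?_
      ring
    rw [h1]
    refine Finset.sum_congr rfl fun q' _ => ?_
    have h2 : ∑ j, B z q q' * ((G z q' j - M₀ q' j) * b j)
        = ∑ j, B z q q' * (G z q' j * b j) - B z q q' * ∑ j, M₀ q' j * b j := by
      rw [Finset.mul_sum, ← Finset.sum_sub_distrib]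
      refine Finset.sum_congr rfl fun j _ => ?_
      ring
    rw [h2, hker q', mul_zero, sub_zero]
  simp only [hrw]
  have key : ∀ q' j : ι, (fun z : ℍ => B z q q' * ((G z q' j - M₀ q' j) * b j)) =O[atImInfty]
      fun z : ℍ => Real.exp (-2 * π * z.im) := by
    intro q' j
    have hBO : (fun z : ℍ => B z q q') =O[atImInfty] fun _ : ℍ => (1 : ℝ) :=
      IsBigO.of_bound C (Eventually.of_forall fun z => by simpa using hB z q q')
    have hbO : (fun _ : ℍ => b j) =O[atImInfty] fun _ : ℍ => (1 : ℝ) :=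
      isBigO_const_const (b j) one_ne_zero _
    have h3 := (hG q' j).mul hbO
    have h4 := hBO.mul h3
    simpa using h4
  have inner : ∀ q' : ι, (fun z : ℍ => ∑ j, B z q q' * ((G z q' j - M₀ q' j) * b j))
      =O[atImInfty] fun z : ℍ => Real.exp (-2 * π * z.im) :=
    fun q' => IsBigO.fun_sum fun j _ => key q' j
  exact IsBigO.fun_sum fun q' _ => inner q'

end Fermat.Agent.S20.MonoAsm
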