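import Mathlib

/-!
# S20 team library: projector algebra for the monodromy lemma (Mathlib only)

OWNER: helper87 (only the owner edits this file).

For a permutation `σ` of a finite type `𝒬` with `σ ^ n = 1` we build the spectral projectors
`E r` (`r : ZMod n`) of the permutation matrix of `σ`, and the matrix functions
`B z = ∑ r, exp (2π i r z / n) • E r`.
-/

set_option autoImplicit false
set_option linter.unusedSectionVars false

namespace Fermat.Agent.S20.Mono

open Matrix Complex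
open scoped Real

variable {𝒬 : Type} [Fintype 𝒬] [DecidableEq 𝒬] (σ : Equiv.Perm 𝒬) (n : ℕ) [NeZero n]

/-- the permutation `σ ^ m` for `m : ZMod n` -/
def pw (m : ZMod n) : Equiv.Perm 𝒬 := σ ^ m.val

lemma pw_zero : pw σ n 0 = 1 := by simp [pw]

lemma pw_add (hσ : σ ^ n = 1) (a b : ZMod n) : pw σ n (a + b) = pw σ n a * pw σ n b := by
  unfold pw
  rw [← pow_add, ZMod.val_add]
  conv_rhs => rw [← Nat.mod_add_div (a.val + b.val) n]
  rw [pow_add, pow_mul, hσ, one_pow, mul_one]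

lemma pw_neg (hσ : σ ^ n = 1) (a : ZMod n) : pw σ n (-a) = (pw σ n a)⁻¹ := by
  rw [eq_inv_iff_mul_eq_one, ← pw_add σ n hσ, neg_add_cancel, pw_zero]

lemma pw_one (hσ : σ ^ n = 1) : pw σ n 1 = σ := by
  unfold pw
  rw [ZMod.val_one_eq_one_mod]
  conv_rhs => rw [← pow_one σ, ← Nat.mod_add_div 1 n]
  rw [pow_add, pow_mul, hσ, one_pow, mul_one]

/-- the permutation matrix of `σ ^ m` -/
noncomputable def rho (m : ZMod n) : Matrix 𝒬 𝒬 ℂ := (pw σ n m).permMatrix ℂ

lemma rho_zero : rho σ n 0 = 1 := by simp [rho, pw_zero]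

lemma rho_add (hσ : σ ^ n = 1) (a b : ZMod n) : rho σ n (a + b) = rho σ n a * rho σ n b := by
  unfold rho
  rw [add_comm, pw_add σ n hσ, Matrix.permMatrix_mul]

lemma rho_transpose (hσ : σ ^ n = 1) (a : ZMod n) : (rho σ n a)ᵀ = rho σ n (-a) := by
  unfold rho
  rw [Matrix.transpose_permMatrix, pw_neg σ n hσ]

lemma rho_one (hσ : σ ^ n = 1) : rho σ n 1 = σ.permMatrix ℂ := by
  unfold rho
  rw [pw_one σ n hσ]

/-- the standard character of `ZMod n` -/
noncomputable abbrev chi : AddChar (ZMod n) ℂ := ZMod.stdAddChar (N := n)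

lemma sum_chi_mul (b : ZMod n) :
    ∑ x : ZMod n, chi n (x * b) = if b = 0 then (n : ℂ) else 0 := by
  have := AddChar.sum_mulShift (R := ZMod n) (R' := ℂ) b (ZMod.isPrimitive_stdAddChar n)
  rw [this, ZMod.card]
  split_ifs <;> simp

/-- the spectral projector of the permutation matrix for the eigenvalue `chi r` -/
noncomputable def E (r : ZMod n) : Matrix 𝒬 𝒬 ℂ :=
  (n : ℂ)⁻¹ • ∑ m : ZMod n, chi n (-(r * m)) • rho σ n m

lemma rho_mul_E (hσ : σ ^ n = 1) (k r : ZMod n) :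
    rho σ n k * E σ n r = chi n (r * k) • E σ n r := by
  unfold E
  rw [Matrix.mul_smul, smul_comm, Finset.mul_sum]
  congr 1
  rw [Finset.smul_sum]
  refine Fintype.sum_equiv (Equiv.addLeft k) _ _ fun m => ?_
  rw [Matrix.mul_smul, ← rho_add σ n hσ, smul_smul, Equiv.coe_addLeft, ← AddChar.map_add_eq_mul]
  congr 2
  ring

lemma E_mul_rho (hσ : σ ^ n = 1) (k r : ZMod n) :
    E σ n r * rho σ n k = chi n (r * k) • E σ n r := by
  unfold E
  rw [Matrix.smul_mul, smul_comm, Finset.sum_mul]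
  congr 1
  rw [Finset.smul_sum]
  refine Fintype.sum_equiv (Equiv.addLeft k) _ _ fun m => ?_
  rw [Matrix.smul_mul, ← rho_add σ n hσ, smul_smul, Equiv.coe_addLeft, ← AddChar.map_add_eq_mul,
    add_comm m k]
  congr 2
  ring

lemma E_mul_E (hσ : σ ^ n = 1) (r s : ZMod n) :
    E σ n r * E σ n s = if r = s then E σ n r else 0 := by
  have hn : (n : ℂ) ≠ 0 := Nat.cast_ne_zero.mpr (NeZero.ne n)
  conv_lhs => rw [E]
  rw [Matrix.smul_mul, Finset.sum_mul]
  have h1 : ∀ m : ZMod n, (chi n (-(r * m)) • rho σ n m) * E σ n s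
      = chi n (m * (s - r)) • E σ n s := by
    intro m
    rw [Matrix.smul_mul, rho_mul_E σ n hσ, smul_smul, ← AddChar.map_add_eq_mul]
    congr 2
    ring
  rw [Finset.sum_congr rfl fun m _ => h1 m, ← Finset.sum_smul, sum_chi_mul, smul_smul]
  by_cases h : r = s
  · subst h
    simp [hn]
  · have : s - r ≠ 0 := fun h' => h (sub_eq_zero.mp h').symm
    simp [h, this]

lemma sum_E : ∑ r : ZMod n, E σ n r = 1 := by
  have hn : (n : ℂ) ≠ 0 := Nat.cast_ne_zero.mpr (NeZero.ne n)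
  unfold E
  rw [← Finset.smul_sum, Finset.sum_comm]
  have h1 : ∀ m : ZMod n, ∑ r : ZMod n, chi n (-(r * m)) • rho σ n m
      = (if m = 0 then (n : ℂ) else 0) • rho σ n m := by
    intro m
    rw [← Finset.sum_smul]
    congr 1
    have := sum_chi_mul n (-m)
    simp only [neg_eq_zero, mul_neg] at this
    exact this
  rw [Finset.sum_congr rfl fun m _ => h1 m]
  simp [rho_zero, hn]

lemma E_transpose (hσ : σ ^ n = 1) (r : ZMod n) : (E σ n r)ᵀ = E σ n (-r) := by
  unfold E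
  rw [Matrix.transpose_smul, Matrix.transpose_sum]
  congr 1
  refine Fintype.sum_equiv (Equiv.neg (ZMod n)) _ _ fun m => ?_
  rw [Matrix.transpose_smul, rho_transpose σ n hσ, Equiv.neg_apply]
  congr 2
  ring

/-- the exponential factor `exp (2π i r z / n)` -/
noncomputable def ex (r : ZMod n) (z : ℂ) : ℂ := cexp (2 * π * I * (r.val : ℂ) * z / n)

lemma ex_add (r : ZMod n) (z w : ℂ) : ex n r (z + w) = ex n r z * ex n r w := by
  unfold ex
  rw [← Complex.exp_add]
  congr 1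
  ring

lemma ex_zero_right (r : ZMod n) : ex n r 0 = 1 := by simp [ex]

lemma ex_neg_one (r : ZMod n) : ex n r (-1) * chi n r = 1 := by
  unfold ex
  rw [ZMod.stdAddChar_apply, ZMod.toCircle_apply, ← Complex.exp_add]
  have : 2 * π * I * (r.val : ℂ) * (-1) / n + 2 * π * I * (r.val : ℂ) / n = 0 := by ring
  rw [this, Complex.exp_zero]

/-- the matrix function `B z = ∑ r, exp (2π i r z / n) • E r` -/
noncomputable def Bm (z : ℂ) : Matrix 𝒬 𝒬 ℂ := ∑ r : ZMod n, ex n r z • E σ n r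

lemma Bm_zero : Bm σ n 0 = 1 := by
  simp [Bm, ex_zero_right, sum_E]

lemma Bm_add (hσ : σ ^ n = 1) (z w : ℂ) : Bm σ n (z + w) = Bm σ n z * Bm σ n w := by
  unfold Bm
  rw [Finset.sum_mul]
  refine Finset.sum_congr rfl fun r _ => ?_
  rw [Finset.mul_sum, Finset.sum_eq_single r]
  · rw [Matrix.smul_mul, Matrix.mul_smul, E_mul_E σ n hσ, if_pos rfl, smul_smul, ex_add, mul_comm]
  · intro s _ hs
    rw [Matrix.smul_mul, Matrix.mul_smul, E_mul_E σ n hσ, if_neg (Ne.symm hs), smul_zero, smul_zero]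
  · intro h; exact absurd (Finset.mem_univ r) h

lemma Bm_neg_mul (hσ : σ ^ n = 1) (z : ℂ) : Bm σ n (-z) * Bm σ n z = 1 := by
  rw [← Bm_add σ n hσ, neg_add_cancel, Bm_zero]

lemma Bm_mul_neg (hσ : σ ^ n = 1) (z : ℂ) : Bm σ n z * Bm σ n (-z) = 1 := by
  rw [← Bm_add σ n hσ, add_neg_cancel, Bm_zero]

lemma Bm_neg_one_mul_perm (hσ : σ ^ n = 1) : Bm σ n (-1) * σ.permMatrix ℂ = 1 := by
  rw [← rho_one σ n hσ, Bm, Finset.sum_mul, ← sum_E σ n]
  refine Finset.sum_congr rfl fun r _ => ?_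
  rw [Matrix.smul_mul, E_mul_rho σ n hσ, smul_smul, mul_one, ex_neg_one, one_smul]

/-- `A (z + 1) * P = A z` for `A z = B (-z)`. -/
lemma Bm_neg_add_one_mul_perm (hσ : σ ^ n = 1) (z : ℂ) :
    Bm σ n (-(z + 1)) * σ.permMatrix ℂ = Bm σ n (-z) := by
  rw [neg_add, Bm_add σ n hσ, Matrix.mul_assoc, Bm_neg_one_mul_perm σ n hσ, Matrix.mul_one]

lemma ex_mul_ex_neg (r : ZMod n) (z : ℂ) :
    ex n r z * ex n (-r) z = if r = 0 then 1 else cexp (2 * π * I * z) := by
  have hn : (n : ℂ) ≠ 0 := Nat.cast_ne_zero.mpr (NeZero.ne n)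
  unfold ex
  rw [← Complex.exp_add, ZMod.neg_val]
  split_ifs with h
  · subst h
    simp
  · congr 1
    have hlt : r.val ≤ n := (ZMod.val_lt r).le
    rw [Nat.cast_sub hlt]
    field_simp
    ring

lemma Bm_transpose (hσ : σ ^ n = 1) (z : ℂ) :
    (Bm σ n z)ᵀ = ∑ r : ZMod n, ex n (-r) z • E σ n r := by
  unfold Bm
  rw [Matrix.transpose_sum]
  refine Fintype.sum_equiv (Equiv.neg (ZMod n)) _ _ fun r => ?_
  rw [Matrix.transpose_smul, E_transpose σ n hσ, Equiv.neg_apply, neg_neg]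

lemma Bm_mul_transpose (hσ : σ ^ n = 1) (z : ℂ) :
    Bm σ n z * (Bm σ n z)ᵀ = E σ n 0 + cexp (2 * π * I * z) • (1 - E σ n 0) := by
  rw [Bm_transpose σ n hσ, Bm, Finset.sum_mul]
  have h1 : ∀ r : ZMod n, (ex n r z • E σ n r) * ∑ s : ZMod n, ex n (-s) z • E σ n s
      = (if r = 0 then (1 : ℂ) else cexp (2 * π * I * z)) • E σ n r := by
    intro r
    rw [Finset.mul_sum, Finset.sum_eq_single r]
    · rw [Matrix.smul_mul, Matrix.mul_smul, E_mul_E σ n hσ, if_pos rfl, smul_smul,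
        ex_mul_ex_neg]
    · intro s _ hs
      rw [Matrix.smul_mul, Matrix.mul_smul, E_mul_E σ n hσ, if_neg (Ne.symm hs), smul_zero,
        smul_zero]
    · intro h; exact absurd (Finset.mem_univ r) h
  rw [Finset.sum_congr rfl fun r _ => h1 r]
  have h2 : ∀ r : ZMod n, (if r = 0 then (1 : ℂ) else cexp (2 * π * I * z)) • E σ n r
      = cexp (2 * π * I * z) • E σ n r
        + (if r = 0 then (1 - cexp (2 * π * I * z)) • E σ n 0 else 0) := by
    intro r
    split_ifs with h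
    · subst h
      rw [← add_smul]
      congr 1
      ring
    · rw [add_zero]
  rw [Finset.sum_congr rfl fun r _ => h2 r, Finset.sum_add_distrib, ← Finset.smul_sum, sum_E,
    Finset.sum_ite_eq' Finset.univ (0 : ZMod n), if_pos (Finset.mem_univ _), sub_smul, one_smul,
    smul_sub]
  abel

lemma sum_zmod_val {M : Type*} [AddCommMonoid M] (n : ℕ) [NeZero n] (f : ℕ → M) :
    ∑ m : ZMod n, f m.val = ∑ k ∈ Finset.range n, f k := by
  cases n with
  | zero => exact absurd rfl (NeZero.ne 0)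
  | succ k => exact Fin.sum_univ_eq_sum_range f (k + 1)

lemma trace_E_zero (c : ℂ)
    (htr : ∑ k ∈ Finset.range n, ((σ ^ k).permMatrix ℂ).trace = (n : ℂ) * c) :
    (E σ n 0).trace = c := by
  have hn : (n : ℂ) ≠ 0 := Nat.cast_ne_zero.mpr (NeZero.ne n)
  unfold E
  rw [Matrix.trace_smul, Matrix.trace_sum]
  have h1 : ∀ m : ZMod n, (chi n (-(0 * m)) • rho σ n m).trace
      = ((σ ^ m.val).permMatrix ℂ).trace := by
    intro m
    simp [rho, pw]
  rw [Finset.sum_congr rfl fun m _ => h1 m,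
    sum_zmod_val n (fun k => ((σ ^ k).permMatrix ℂ).trace), htr, smul_eq_mul, ← mul_assoc,
    inv_mul_cancel₀ hn, one_mul]

lemma det_Bm (hσ : σ ^ n = 1) (c : ℕ) (hle : c ≤ Fintype.card 𝒬)
    (hidem : ∀ y : ℂ, (E σ n 0 + y • (1 - E σ n 0)).det = y ^ (Fintype.card 𝒬 - c)) (z : ℂ) :
    (Bm σ n z).det = cexp (π * I * ((Fintype.card 𝒬 : ℂ) - (c : ℂ)) * z) := by
  have h2 : Bm σ n z = Bm σ n (z / 2) * Bm σ n (z / 2) := by
    rw [← Bm_add σ n hσ, add_halves]
  have h3 : (Bm σ n (z / 2)).det * (Bm σ n (z / 2)).det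
      = (Bm σ n (z / 2) * (Bm σ n (z / 2))ᵀ).det := by
    rw [Matrix.det_mul, Matrix.det_transpose]
  rw [h2, Matrix.det_mul, h3, Bm_mul_transpose σ n hσ, hidem, ← Complex.exp_nat_mul,
    Nat.cast_sub hle]
  congr 1
  ring

lemma Bm_apply (z : ℂ) (q q' : 𝒬) :
    Bm σ n z q q' = ∑ r : ZMod n, ex n r z * E σ n r q q' := by
  simp [Bm, Matrix.sum_apply]

lemma differentiable_ex (r : ZMod n) : Differentiable ℂ (ex n r) := by
  unfold ex
  fun_prop

lemma differentiable_Bm (q q' : 𝒬) : Differentiable ℂ (fun z => Bm σ n z q q') := by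
  simp only [Bm_apply]
  exact Differentiable.fun_sum fun r _ => (differentiable_ex n r).mul_const _

lemma norm_ex (r : ZMod n) (z : ℂ) :
    ‖ex n r z‖ = Real.exp (-(2 * π * (r.val : ℝ) * z.im / n)) := by
  unfold ex
  rw [Complex.norm_exp]
  congr 1
  have : (2 * π * I * (r.val : ℂ) * z / n : ℂ) = ((2 * π * (r.val : ℝ) / n : ℝ) : ℂ) * (I * z) := by
    push_cast
    ring
  rw [this, Complex.re_ofReal_mul]
  simp
  ring

/-- a uniform bound for the entries of the projectors -/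
noncomputable def CE : ℝ := ∑ r : ZMod n, ∑ q : 𝒬, ∑ q' : 𝒬, ‖E σ n r q q'‖

lemma sum_norm_E_le (q q' : 𝒬) : ∑ r : ZMod n, ‖E σ n r q q'‖ ≤ CE σ n := by
  unfold CE
  refine Finset.sum_le_sum fun r _ => ?_
  calc ‖E σ n r q q'‖ ≤ ∑ q'' : 𝒬, ‖E σ n r q q''‖ :=
        Finset.single_le_sum (f := fun q'' => ‖E σ n r q q''‖) (fun _ _ => norm_nonneg _)
          (Finset.mem_univ q')
    _ ≤ ∑ p : 𝒬, ∑ q'' : 𝒬, ‖E σ n r p q''‖ :=
        Finset.single_le_sum (f := fun p => ∑ q'' : 𝒬, ‖E σ n r p q''‖)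
          (fun _ _ => Finset.sum_nonneg fun _ _ => norm_nonneg _) (Finset.mem_univ q)

lemma CE_nonneg : 0 ≤ CE σ n := by
  unfold CE
  positivity

/-- entries of `B z` are bounded on the closed upper half plane -/
lemma norm_Bm_le (z : ℂ) (hz : 0 ≤ z.im) (q q' : 𝒬) : ‖Bm σ n z q q'‖ ≤ CE σ n := by
  rw [Bm_apply]
  refine (norm_sum_le _ _).trans (le_trans (Finset.sum_le_sum fun r _ => ?_) (sum_norm_E_le σ n q q'))
  rw [norm_mul, norm_ex]
  have h1 : Real.exp (-(2 * π * (r.val : ℝ) * z.im / n)) ≤ 1 := by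
    rw [Real.exp_le_one_iff, neg_nonpos]
    positivity
  exact mul_le_of_le_one_left (norm_nonneg _) h1

/-- entries of `A z = B (-z)` grow at most like `exp (2π (1 - 1/n) im z)` -/
lemma norm_Bm_neg_le (z : ℂ) (hz : 0 ≤ z.im) (q q' : 𝒬) :
    ‖Bm σ n (-z) q q'‖ ≤ CE σ n * Real.exp (2 * π * (1 - 1 / (n : ℝ)) * z.im) := by
  have hn : (0 : ℝ) < n := Nat.cast_pos.mpr (NeZero.pos n)
  rw [Bm_apply]
  refine (norm_sum_le _ _).trans ?_
  have h1 : ∀ r : ZMod n, ‖ex n r (-z) * E σ n r q q'‖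
      ≤ Real.exp (2 * π * (1 - 1 / (n : ℝ)) * z.im) * ‖E σ n r q q'‖ := by
    intro r
    rw [norm_mul, norm_ex]
    refine mul_le_mul_of_nonneg_right ?_ (norm_nonneg _)
    rw [Real.exp_le_exp, Complex.neg_im]
    have hr : (r.val : ℝ) ≤ n - 1 := by
      have := ZMod.val_lt r
      have h2 : r.val + 1 ≤ n := this
      have h3 : ((r.val + 1 : ℕ) : ℝ) ≤ (n : ℝ) := Nat.cast_le.mpr h2
      push_cast at h3
      linarith
    have h4 : -(2 * π * (r.val : ℝ) * -z.im / n) = 2 * π * ((r.val : ℝ) / n) * z.im := by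
      field_simp
    rw [h4]
    have h5 : (r.val : ℝ) / n ≤ 1 - 1 / (n : ℝ) := by
      rw [div_le_iff₀ hn]
      field_simp
      linarith
    have hpi : 0 ≤ 2 * π := by positivity
    exact mul_le_mul_of_nonneg_right (mul_le_mul_of_nonneg_left h5 hpi) hz
  refine (Finset.sum_le_sum fun r _ => h1 r).trans ?_
  rw [← Finset.mul_sum, mul_comm]
  exact mul_le_mul_of_nonneg_right (sum_norm_E_le σ n q q') (Real.exp_pos _).le

end Fermat.Agent.S20.Mono
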