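/-
Team S20, block OrbitTrace (owner: helper9).

Burnside's lemma for the cyclic group generated by a permutation `σ`, phrased with traces of
permutation matrices:
`∑_{m < orderOf σ} tr (P_{σ^m}) = orderOf σ * #(orbits of ⟨σ⟩)`.
-/
import Mathlib

set_option autoImplicit false

namespace Fermat.Agent.S20

namespace OrbitTrace

/-- The trace of the permutation matrix of `τ` is the number of points fixed by `τ`, as a
`Fintype.card`. -/
theorem trace_permMatrix_eq_card {ι : Type} [Fintype ι] [DecidableEq ι] (τ : Equiv.Perm ι) :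
    (τ.permMatrix ℂ).trace = (Fintype.card {x : ι // τ x = x} : ℂ) := by
  rw [Matrix.trace_permutation, ← Nat.card_eq_fintype_card]
  rfl

end OrbitTrace

open OrbitTrace in
/-- Burnside's lemma for `⟨σ⟩`, in terms of traces of permutation matrices. -/
theorem trace_avg_permMatrix {ι : Type} [Fintype ι] [DecidableEq ι] (σ : Equiv.Perm ι) :
    (∑ m ∈ Finset.range (orderOf σ), ((σ ^ m).permMatrix ℂ).trace) =
      (orderOf σ : ℂ) *
        (Nat.card (MulAction.orbitRel.Quotient (Subgroup.zpowers σ) ι) : ℂ) := by
  classical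
  have hfin : IsOfFinOrder σ := isOfFinOrder_of_finite σ
  have hB := MulAction.sum_card_fixedBy_eq_card_orbits_mul_card_group (Subgroup.zpowers σ) ι
  rw [Fintype.card_zpowers] at hB
  have h1 : (∑ m ∈ Finset.range (orderOf σ), ((σ ^ m).permMatrix ℂ).trace) =
      ((∑ g : Subgroup.zpowers σ, Fintype.card (MulAction.fixedBy ι g) : ℕ) : ℂ) := by
    rw [← Fin.sum_univ_eq_sum_range (fun m => ((σ ^ m).permMatrix ℂ).trace) (orderOf σ),
      Nat.cast_sum]
    refine Fintype.sum_equiv (finEquivZPowers hfin) _ _ fun n => ?_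
    rw [trace_permMatrix_eq_card, finEquivZPowers_apply]
    congr 1
  rw [h1, hB, Nat.cast_mul, mul_comm, Nat.card_eq_fintype_card]

end Fermat.Agent.S20
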