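import Mathlib

/-!
# S20 team library: periodic holomorphic functions of moderate growth have a limit at `i∞`

OWNER: helper76 (only the owner edits this file).

If `g : ℍ → ℂ` is holomorphic, `1`-periodic and `O(exp (2π (1 - δ) im z))` at `i∞` for some
`δ > 0`, then `g` has a limit `c` at `i∞` and `g - c = O(exp (-2π im z))`.

(Write `g = G(e^{2πiz})`; then `q ↦ q * G q` is bounded and tends to `0` at `q = 0`, hence is
`O(q)` by the removable singularity theorem, so `G` is bounded near `0` and the removable
singularity theorem applies again.)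
-/

set_option autoImplicit false

namespace Fermat.Agent.S20

open UpperHalfPlane Filter Topology Complex Asymptotics
open scoped Real Manifold

namespace PeriodicLimit

/-- `g ∘ ofComplex` is `1`-periodic when `g` is. -/
theorem periodic_comp_ofComplex {g : ℍ → ℂ} (hper : ∀ z : ℍ, g ((1 : ℝ) +ᵥ z) = g z) :
    Function.Periodic (g ∘ ofComplex) (1 : ℝ) := by
  intro w
  by_cases hw : 0 < im w
  · have hw' : 0 < im (w + (1 : ℝ)) := by simpa using hw
    simp only [Function.comp_apply, ofComplex_apply_of_im_pos hw', ofComplex_apply_of_im_pos hw]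
    rw [← hper ⟨w, hw⟩]
    congr 1
    ext
    simp [add_comm]
  · have hw0 : im w ≤ 0 := not_lt.mp hw
    have hw' : im (w + (1 : ℝ)) ≤ 0 := by simpa using hw0
    simp only [Function.comp_apply, ofComplex_apply_of_im_nonpos hw',
      ofComplex_apply_of_im_nonpos hw0]

theorem eventually_differentiableAt_comp_ofComplex {g : ℍ → ℂ} (hg : MDiff g) :
    ∀ᶠ w in comap Complex.im atTop, DifferentiableAt ℂ (g ∘ ofComplex) w := by
  rw [UpperHalfPlane.mdifferentiable_iff] at hg
  filter_upwards [preimage_mem_comap (Ioi_mem_atTop (0 : ℝ))] with w hw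
  exact hg.differentiableAt (isOpen_upperHalfPlaneSet.mem_nhds hw)

end PeriodicLimit

open PeriodicLimit in
theorem periodic_tendsto {g : ℍ → ℂ} (hg : MDiff g)
    (hper : ∀ z : ℍ, g ((1 : ℝ) +ᵥ z) = g z) {δ : ℝ} (hδ : 0 < δ)
    (hgrow : g =O[atImInfty] fun z : ℍ => Real.exp (2 * π * (1 - δ) * z.im)) :
    ∃ c : ℂ, Tendsto g atImInfty (𝓝 c) ∧
      (fun z : ℍ => g z - c) =O[atImInfty] fun z : ℍ => Real.exp (-2 * π * z.im) := by
  set f : ℂ → ℂ := g ∘ ofComplex with hf_def
  have hfper : Function.Periodic f (1 : ℝ) := periodic_comp_ofComplex hper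
  have hfhol : ∀ᶠ w in comap Complex.im atTop, DifferentiableAt ℂ f w :=
    eventually_differentiableAt_comp_ofComplex hg
  -- growth of `f` along `I∞`
  have hfgrow : f =O[comap Complex.im atTop] fun w : ℂ => Real.exp (2 * π * (1 - δ) * w.im) := by
    refine (hgrow.comp_tendsto tendsto_comap_im_ofComplex).congr' (by rfl) ?_
    filter_upwards [preimage_mem_comap (Ioi_mem_atTop (0 : ℝ))] with w hw
    simp only [Function.comp_apply, ofComplex_apply_of_im_pos hw]
    rfl
  -- the auxiliary function `q * f`
  set f2 : ℂ → ℂ := fun w => Function.Periodic.qParam 1 w * f w with hf2_def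
  have hqper : Function.Periodic (Function.Periodic.qParam 1) (1 : ℝ) := by
    intro w
    simp only [Function.Periodic.qParam, ofReal_one, div_one]
    rw [mul_add, Complex.exp_add, mul_one, Complex.exp_two_pi_mul_I, mul_one]
  have hf2per : Function.Periodic f2 (1 : ℝ) := by
    intro w
    simp only [hf2_def]
    rw [hqper w, hfper w]
  have hf2hol : ∀ᶠ w in comap Complex.im atTop, DifferentiableAt ℂ f2 w := by
    filter_upwards [hfhol] with w hw
    exact (Function.Periodic.differentiable_qParam (h := 1) w).mul hw
  have hf2O : f2 =O[comap Complex.im atTop] fun w : ℂ => Real.exp (-(2 * π * δ) * w.im) := by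
    have h1 : (fun w : ℂ => Function.Periodic.qParam 1 w) =O[comap Complex.im atTop]
        fun w : ℂ => Real.exp (-2 * π * w.im) := by
      refine isBigO_of_le _ fun w => ?_
      rw [Function.Periodic.norm_qParam, div_one, Real.norm_eq_abs, abs_of_pos (Real.exp_pos _)]
    refine (h1.mul hfgrow).congr_right fun w => ?_
    rw [← Real.exp_add]
    congr 1
    ring
  have hf2zero : ZeroAtFilter (comap Complex.im atTop) f2 := by
    refine hf2O.trans_tendsto ?_
    refine Real.tendsto_exp_atBot.comp ?_
    exact (tendsto_comap (f := Complex.im)).const_mul_atTop_of_neg (by nlinarith [Real.pi_pos])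
  have hf2decay := Function.Periodic.exp_decay_of_zero_at_inf one_pos hf2per hf2hol hf2zero
  -- hence `f` is bounded at `I∞`
  have hfbdd : BoundedAtFilter (comap Complex.im atTop) f := by
    have h2 : (fun w : ℂ => (Function.Periodic.qParam 1 w)⁻¹) =O[comap Complex.im atTop]
        fun w : ℂ => (Real.exp (-2 * π * w.im / 1))⁻¹ := by
      refine isBigO_of_le _ fun w => ?_
      rw [norm_inv, Function.Periodic.norm_qParam, norm_inv, Real.norm_eq_abs,
        abs_of_pos (Real.exp_pos _)]
    have h3 := hf2decay.mul h2
    refine (h3.congr_left fun w => ?_).congr_right fun w => ?_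
    · simp only [hf2_def]
      field_simp [Function.Periodic.qParam_ne_zero w]
    · simp [(Real.exp_pos _).ne']
  refine ⟨Function.Periodic.cuspFunction 1 f 0, ?_, ?_⟩
  · have h := (Function.Periodic.tendsto_at_I_inf one_pos hfper hfhol hfbdd).comp
      tendsto_coe_atImInfty
    refine h.congr fun z => ?_
    simp [hf_def]
  · have h := (Function.Periodic.exp_decay_sub_of_bounded_at_inf one_pos hfper hfhol
      hfbdd).comp_tendsto tendsto_coe_atImInfty
    refine (h.congr_left fun z => ?_).congr_right fun z => ?_
    · simp [hf_def]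
    · simp

end Fermat.Agent.S20
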