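import Mathlib
import Fermat.Agent.S20.MonodromyAlg
import Fermat.Agent.S20.PeriodicLimit
import Fermat.Agent.S20.IdemDet
import Fermat.Agent.S20.OrbitTrace
import Fermat.Agent.S20.MonoAsm

/-!
# S20 team library: the monodromy lemma at the cusp (abstract, Mathlib only)

OWNER: helper87 (only the owner edits this file).

A holomorphic matrix-valued function `F` on the upper half plane, bounded at `i∞`, whose rows
are permuted by `z ↦ z + 1` according to a permutation `σ` of the row index set: then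
`det F (z) * exp (-π i (card - #orbits) z)` has a limit `L` at `i∞`; if `L = 0` some nonzero
combination of the columns is `O(exp (-2π im z))`, and if `L ≠ 0` then `exp (2π i z) • F⁻¹ → 0`.
-/

set_option autoImplicit false

namespace Fermat.Agent.S20

open UpperHalfPlane Filter Topology Complex
open scoped Real Manifold

theorem monodromy {𝒬 : Type} [Fintype 𝒬] [DecidableEq 𝒬] (σ : Equiv.Perm 𝒬)
    (F : ℍ → Matrix 𝒬 𝒬 ℂ)
    (hF : ∀ q j, MDiff (fun z => F z q j))
    (hb : ∀ q j, IsBoundedAtImInfty (fun z => F z q j))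
    (hσ : ∀ (z : ℍ) q j, F ((1 : ℝ) +ᵥ z) q j = F z (σ q) j) :
    ∃ L : ℂ,
      Tendsto (fun z : ℍ => (F z).det * cexp (-(π * Complex.I * ((Fintype.card 𝒬 : ℂ) -
        (Nat.card (MulAction.orbitRel.Quotient (Subgroup.zpowers σ) 𝒬) : ℂ)) * (z : ℂ))))
        atImInfty (𝓝 L) ∧
      (L = 0 → ∃ b : 𝒬 → ℂ, b ≠ 0 ∧ ∀ q, (fun z : ℍ => ∑ j, F z q j * b j)
        =O[atImInfty] fun z => Real.exp (-2 * π * z.im)) ∧
      (L ≠ 0 → ∀ q j, Tendsto (fun z : ℍ => cexp (2 * π * Complex.I * z) * (F z)⁻¹ j q)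
        atImInfty (𝓝 0)) := by
  classical
  -- the order of `σ` and the number of orbits
  obtain ⟨n, hn_def⟩ : ∃ n : ℕ, n = orderOf σ := ⟨_, rfl⟩
  have : NeZero n := ⟨by rw [hn_def]; exact (orderOf_pos σ).ne'⟩
  have hnpos : (0 : ℝ) < n := Nat.cast_pos.mpr (NeZero.pos n)
  have hσn : σ ^ n = 1 := by rw [hn_def]; exact pow_orderOf_eq_one σ
  obtain ⟨c, hc_def⟩ : ∃ c : ℕ,
      c = Nat.card (MulAction.orbitRel.Quotient (Subgroup.zpowers σ) 𝒬) := ⟨_, rfl⟩
  rw [← hc_def]
  have hcle : c ≤ Fintype.card 𝒬 := by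
    rw [hc_def, ← Nat.card_eq_fintype_card]
    exact Nat.card_le_card_of_surjective _ Quotient.mk''_surjective
  have htr : (Mono.E σ n 0).trace = (c : ℂ) := by
    refine Mono.trace_E_zero σ n c ?_
    rw [hn_def, hc_def]
    exact trace_avg_permMatrix σ
  have hE0 : Mono.E σ n 0 * Mono.E σ n 0 = Mono.E σ n 0 := by
    rw [Mono.E_mul_E σ n hσn, if_pos rfl]
  have hdetB : ∀ z : ℂ, (Mono.Bm σ n z).det
      = cexp (π * Complex.I * ((Fintype.card 𝒬 : ℂ) - (c : ℂ)) * z) :=
    Mono.det_Bm σ n hσn c hcle (fun y => det_idem_add_smul _ hE0 c htr y)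
  -- the matrices `A`, `B` and `G = A * F`
  obtain ⟨A, hA_def⟩ : ∃ A : ℍ → Matrix 𝒬 𝒬 ℂ, A = fun z : ℍ => Mono.Bm σ n (-(z : ℂ)) := ⟨_, rfl⟩
  obtain ⟨B, hB_def⟩ : ∃ B : ℍ → Matrix 𝒬 𝒬 ℂ, B = fun z : ℍ => Mono.Bm σ n (z : ℂ) := ⟨_, rfl⟩
  obtain ⟨G, hG_def⟩ : ∃ G : ℍ → Matrix 𝒬 𝒬 ℂ, G = fun z => A z * F z := ⟨_, rfl⟩
  have hAB : ∀ z, A z * B z = 1 := fun z => by
    rw [hA_def, hB_def]; exact Mono.Bm_neg_mul σ n hσn _
  have hBA : ∀ z, B z * A z = 1 := fun z => by
    rw [hA_def, hB_def]; exact Mono.Bm_mul_neg σ n hσn _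
  have hFBG : ∀ z, F z = B z * G z := fun z => by
    rw [hG_def]
    show F z = B z * (A z * F z)
    rw [← Matrix.mul_assoc, hBA, Matrix.one_mul]
  -- periodicity of `G`
  have hFper : ∀ z : ℍ, F ((1 : ℝ) +ᵥ z) = σ.permMatrix ℂ * F z := by
    intro z
    ext q j
    rw [hσ, PEquiv.toMatrix_toPEquiv_mul]
    rfl
  have hAper : ∀ z : ℍ, A ((1 : ℝ) +ᵥ z) * σ.permMatrix ℂ = A z := by
    intro z
    rw [hA_def]
    show Mono.Bm σ n (-(((1 : ℝ) +ᵥ z : ℍ) : ℂ)) * σ.permMatrix ℂ = Mono.Bm σ n (-(z : ℂ))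
    rw [UpperHalfPlane.coe_vadd, Complex.ofReal_one, add_comm]
    exact Mono.Bm_neg_add_one_mul_perm σ n hσn _
  have hGper : ∀ (q j : 𝒬) (z : ℍ), G ((1 : ℝ) +ᵥ z) q j = G z q j := by
    intro q j z
    have : G ((1 : ℝ) +ᵥ z) = G z := by
      rw [hG_def]
      show A ((1 : ℝ) +ᵥ z) * F ((1 : ℝ) +ᵥ z) = A z * F z
      rw [hFper, ← Matrix.mul_assoc, hAper]
    rw [this]
  -- entries of `G`
  have hG_apply : ∀ (z : ℍ) (q j : 𝒬),
      G z q j = ∑ q' : 𝒬, Mono.Bm σ n (-(z : ℂ)) q q' * F z q' j := by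
    intro z q j
    rw [hG_def, hA_def]
    exact Matrix.mul_apply
  -- holomorphy of the entries of `G`
  have hGdiff : ∀ q j, MDiff (fun z => G z q j) := by
    intro q j
    rw [UpperHalfPlane.mdifferentiable_iff]
    have h1 : DifferentiableOn ℂ (fun w : ℂ => ∑ q' : 𝒬, Mono.Bm σ n (-w) q q' *
        ((fun z => F z q' j) ∘ ofComplex) w) {w : ℂ | 0 < w.im} := by
      refine DifferentiableOn.fun_sum fun q' _ => DifferentiableOn.mul ?_ ?_
      · exact ((Mono.differentiable_Bm σ n q q').comp differentiable_neg).differentiableOn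
      · exact UpperHalfPlane.mdifferentiable_iff.mp (hF q' j)
    refine h1.congr fun w hw => ?_
    have hw' : 0 < w.im := hw
    simp only [Function.comp_apply, hG_apply]
    rw [ofComplex_apply_of_im_pos hw']
  -- growth of the entries of `G`
  have hGgrow : ∀ q j, (fun z => G z q j) =O[atImInfty]
      fun z : ℍ => Real.exp (2 * π * (1 - 1 / (n : ℝ)) * z.im) := by
    intro q j
    have h1 : ∀ q' : 𝒬, (fun z : ℍ => Mono.Bm σ n (-(z : ℂ)) q q' * F z q' j) =O[atImInfty]
        fun z : ℍ => Real.exp (2 * π * (1 - 1 / (n : ℝ)) * z.im) := by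
      intro q'
      have hA1 : (fun z : ℍ => Mono.Bm σ n (-(z : ℂ)) q q') =O[atImInfty]
          fun z : ℍ => Real.exp (2 * π * (1 - 1 / (n : ℝ)) * z.im) := by
        refine Asymptotics.IsBigO.of_bound (Mono.CE σ n) (Eventually.of_forall fun z => ?_)
        rw [Real.norm_of_nonneg (Real.exp_pos _).le]
        exact Mono.norm_Bm_neg_le σ n (z : ℂ) z.im_pos.le q q'
      have hF1 : (fun z : ℍ => F z q' j) =O[atImInfty] (1 : ℍ → ℝ) := hb q' j
      have := hA1.mul hF1
      simpa using this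
    have h2 := Asymptotics.IsBigO.sum (s := Finset.univ) fun q' _ => h1 q'
    refine h2.congr_left fun z => ?_
    rw [hG_apply, Finset.sum_apply]
  -- the limit matrix
  have hlim : ∀ q j, ∃ m : ℂ, Tendsto (fun z => G z q j) atImInfty (𝓝 m) ∧
      (fun z : ℍ => G z q j - m) =O[atImInfty] fun z : ℍ => Real.exp (-2 * π * z.im) := by
    intro q j
    have hδ : (0 : ℝ) < 1 / (n : ℝ) := by positivity
    exact periodic_tendsto (hGdiff q j) (hGper q j) hδ (hGgrow q j)
  choose M₀ hM₀ hM₀O using hlim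
  have hdetFG : ∀ z : ℍ, (F z).det * cexp (-(π * Complex.I * ((Fintype.card 𝒬 : ℂ) - (c : ℂ))
      * (z : ℂ))) = (G z).det := by
    intro z
    rw [hFBG z, Matrix.det_mul, hB_def]
    show (Mono.Bm σ n (z : ℂ)).det * (G z).det * _ = _
    rw [hdetB, mul_right_comm, ← Complex.exp_add, add_neg_cancel, Complex.exp_zero, one_mul]
  refine ⟨Matrix.det (Matrix.of M₀), ?_, ?_, ?_⟩
  · -- the limit of the determinant
    have := MonoAsm.det_tendsto G (Matrix.of M₀) hM₀
    exact this.congr fun z => (hdetFG z).symm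
  · -- `L = 0`: a decaying combination of the columns
    intro hL
    obtain ⟨b, hb0, hbker⟩ := Matrix.exists_mulVec_eq_zero_iff.mpr hL
    refine ⟨b, hb0, fun q => ?_⟩
    have hBbd : ∀ (z : ℍ) (q j : 𝒬), ‖B z q j‖ ≤ Mono.CE σ n := by
      intro z q j
      rw [hB_def]
      exact Mono.norm_Bm_le σ n (z : ℂ) z.im_pos.le q j
    have := MonoAsm.mulVec_isBigO_of_ker G B (Matrix.of M₀) (Mono.CE σ n) hBbd hM₀O b hbker q
    refine this.congr_left fun z => ?_
    rw [hFBG z]
  · -- `L ≠ 0`: the inverse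
    intro hL q j
    have hAlim : ∀ q j : 𝒬, Tendsto (fun z : ℍ => cexp (2 * π * Complex.I * z) * A z q j)
        atImInfty (𝓝 0) := by
      intro q j
      have hbound : ∀ z : ℍ, ‖cexp (2 * π * Complex.I * z) * A z q j‖
          ≤ Mono.CE σ n * Real.exp (-(2 * π / (n : ℝ)) * z.im) := by
        intro z
        rw [norm_mul, Complex.norm_exp]
        have h1 : (2 * π * Complex.I * (z : ℂ)).re = -(2 * π) * z.im := by
          have : (2 * π * Complex.I * (z : ℂ)) = ((2 * π : ℝ) : ℂ) * (Complex.I * z) := by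
            push_cast; ring
          rw [this, Complex.re_ofReal_mul]
          simp
        have h2 : ‖A z q j‖ ≤ Mono.CE σ n * Real.exp (2 * π * (1 - 1 / (n : ℝ)) * z.im) := by
          rw [hA_def]
          exact Mono.norm_Bm_neg_le σ n (z : ℂ) z.im_pos.le q j
        calc Real.exp (2 * π * Complex.I * (z : ℂ)).re * ‖A z q j‖
            ≤ Real.exp (-(2 * π) * z.im) *
              (Mono.CE σ n * Real.exp (2 * π * (1 - 1 / (n : ℝ)) * z.im)) := by
              rw [h1]
              exact mul_le_mul_of_nonneg_left h2 (Real.exp_pos _).le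
          _ = Mono.CE σ n * Real.exp (-(2 * π / (n : ℝ)) * z.im) := by
              rw [mul_left_comm, ← Real.exp_add]
              congr 2
              field_simp
              ring
      have hto : Tendsto (fun z : ℍ => Mono.CE σ n * Real.exp (-(2 * π / (n : ℝ)) * z.im))
          atImInfty (𝓝 0) := by
        have h3 : Tendsto (fun z : ℍ => (2 * π / (n : ℝ)) * z.im) atImInfty atTop := by
          have hpos : (0 : ℝ) < 2 * π / (n : ℝ) := by positivity
          exact (tendsto_comap (f := UpperHalfPlane.im) (x := atTop)).const_mul_atTop hpos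
        have h4 := (Real.tendsto_exp_neg_atTop_nhds_zero.comp h3).const_mul (Mono.CE σ n)
        simp only [mul_zero] at h4
        refine h4.congr fun z => ?_
        simp [Function.comp_apply, neg_mul]
      exact squeeze_zero_norm hbound hto
    have h5 := MonoAsm.inv_mul_tendsto_zero G A (Matrix.of M₀) hM₀ hL hAlim j q
    refine h5.congr fun z => ?_
    have hinv : (F z)⁻¹ = (G z)⁻¹ * A z := by
      rw [hFBG z, Matrix.mul_inv_rev, Matrix.inv_eq_left_inv (hAB z)]
    rw [hinv]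

end Fermat.Agent.S20
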