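import Mathlib

/-!
# Bridge between permutation matrices and orbit / fixed-point counts

Plumbing lemmas relating the permutation `MulAction.toPerm g⁻¹` of a `G`-set `X` (and its
permutation matrix) to the orbit count of `⟨g⟩` and the fixed-point count of `g`.
-/

namespace Fermat.Agent.S20

open Matrix

/-- The orbits of the cyclic group generated by the permutation `x ↦ g • x` are the orbits
of the cyclic group generated by `g`. -/
theorem orbitRel_zpowers_toPerm_iff {G X : Type*} [Group G] [MulAction G X] (g : G) (a b : X) :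
    MulAction.orbitRel (Subgroup.zpowers (MulAction.toPerm g : Equiv.Perm X)) X a b ↔
      MulAction.orbitRel (Subgroup.zpowers g) X a b := by
  rw [MulAction.orbitRel_apply, MulAction.orbitRel_apply, MulAction.mem_orbit_iff,
    MulAction.mem_orbit_iff]
  have key : ∀ k : ℤ, ((MulAction.toPerm g : Equiv.Perm X) ^ k) b = g ^ k • b := by
    intro k
    have h1 : (MulAction.toPerm g : Equiv.Perm X) ^ k = MulAction.toPermHom G X (g ^ k) := by
      rw [map_zpow]
      rfl
    rw [h1]
    rfl
  constructor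
  · rintro ⟨⟨σ, hσ⟩, h⟩
    obtain ⟨k, rfl⟩ := Subgroup.mem_zpowers_iff.mp hσ
    refine ⟨⟨g ^ k, Subgroup.zpow_mem_zpowers _ _⟩, ?_⟩
    change g ^ k • b = a
    rw [← key k]
    exact h
  · rintro ⟨⟨x, hx⟩, h⟩
    obtain ⟨k, rfl⟩ := Subgroup.mem_zpowers_iff.mp hx
    refine ⟨⟨(MulAction.toPerm g : Equiv.Perm X) ^ k, Subgroup.zpow_mem_zpowers _ _⟩, ?_⟩
    change ((MulAction.toPerm g : Equiv.Perm X) ^ k) b = a
    rw [key k]
    exact h

/-- The number of orbits of `⟨x ↦ g • x⟩` equals the number of orbits of `⟨g⟩`. -/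
theorem card_orbits_toPerm' {G X : Type*} [Group G] [MulAction G X] (g : G) :
    Nat.card (MulAction.orbitRel.Quotient
        (Subgroup.zpowers (MulAction.toPerm g : Equiv.Perm X)) X) =
      Nat.card (MulAction.orbitRel.Quotient (Subgroup.zpowers g) X) :=
  Nat.card_congr (Quotient.congr (Equiv.refl X) fun a b => orbitRel_zpowers_toPerm_iff g a b)

/-- The number of orbits of `⟨x ↦ g⁻¹ • x⟩` equals the number of orbits of `⟨g⟩`. -/
theorem card_orbits_toPerm {G X : Type*} [Group G] [MulAction G X] (g : G) :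
    Nat.card (MulAction.orbitRel.Quotient
        (Subgroup.zpowers (MulAction.toPerm g⁻¹ : Equiv.Perm X)) X) =
      Nat.card (MulAction.orbitRel.Quotient (Subgroup.zpowers g) X) := by
  rw [card_orbits_toPerm' g⁻¹, Subgroup.zpowers_inv]

/-- The fixed points of the permutation `x ↦ g • x` are counted by `MulAction.fixedBy`. -/
theorem ncard_fixedPoints_toPerm {G X : Type*} [Group G] [MulAction G X] (g : G) :
    (Function.fixedPoints (MulAction.toPerm g : Equiv.Perm X)).ncard =
      Nat.card (MulAction.fixedBy X g) := by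
  rw [← Nat.card_coe_set_eq]
  rfl

/-- Entries of the permutation matrix of `x ↦ g • x`. -/
theorem permMatrix_toPerm_apply {G X : Type*} [Group G] [MulAction G X] [DecidableEq X]
    (g : G) (q q' : X) :
    (MulAction.toPerm g : Equiv.Perm X).permMatrix ℂ q q' = if q' = g • q then 1 else 0 := by
  simp [Equiv.Perm.permMatrix, PEquiv.toMatrix_apply, Equiv.toPEquiv_apply, eq_comm]

/-- The trace of the permutation matrix of `x ↦ g • x` is the number of fixed points
of `g`. -/
theorem trace_permMatrix_toPerm' {G X : Type*} [Group G] [MulAction G X] [Fintype X]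
    [DecidableEq X] (g : G) :
    ((MulAction.toPerm g : Equiv.Perm X).permMatrix ℂ).trace =
      (Nat.card (MulAction.fixedBy X g) : ℂ) := by
  rw [Matrix.trace_permutation, ncard_fixedPoints_toPerm]

/-- The trace of the permutation matrix of `x ↦ g⁻¹ • x` is the number of fixed points
of `g`. -/
theorem trace_permMatrix_toPerm {G X : Type*} [Group G] [MulAction G X] [Fintype X]
    [DecidableEq X] (g : G) :
    ((MulAction.toPerm g⁻¹ : Equiv.Perm X).permMatrix ℂ).trace =
      (Nat.card (MulAction.fixedBy X g) : ℂ) := by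
  rw [trace_permMatrix_toPerm' g⁻¹, MulAction.fixedBy_inv]

/-- Variant: the `0/1` matrix `P q q' = [q' = g • q]`. -/
theorem trace_of_ite_smul {G X : Type*} [Group G] [MulAction G X] [Fintype X]
    [DecidableEq X] (g : G) :
    (Matrix.of fun q q' : X => if q' = g • q then (1 : ℂ) else 0).trace =
      (Nat.card (MulAction.fixedBy X g) : ℂ) := by
  rw [← trace_permMatrix_toPerm' g]
  congr 1
  ext q q'
  rw [permMatrix_toPerm_apply]
  rfl

/-- Variant: the `0/1` matrix `P q q' = [q' = g⁻¹ • q]`. -/
theorem trace_of_ite_inv_smul {G X : Type*} [Group G] [MulAction G X] [Fintype X]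
    [DecidableEq X] (g : G) :
    (Matrix.of fun q q' : X => if q' = g⁻¹ • q then (1 : ℂ) else 0).trace =
      (Nat.card (MulAction.fixedBy X g) : ℂ) := by
  rw [trace_of_ite_smul g⁻¹, MulAction.fixedBy_inv]

/-- Variant: the `0/1` matrix `P q q' = [g • q' = q]` (the transpose shape). -/
theorem trace_of_ite_smul_eq {G X : Type*} [Group G] [MulAction G X] [Fintype X]
    [DecidableEq X] (g : G) :
    (Matrix.of fun q q' : X => if g • q' = q then (1 : ℂ) else 0).trace =
      (Nat.card (MulAction.fixedBy X g) : ℂ) := by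
  rw [← trace_of_ite_smul g]
  simp only [Matrix.trace, Matrix.diag, Matrix.of_apply]
  refine Finset.sum_congr rfl fun q _ => ?_
  simp only [eq_comm]

/-- Permutation-conjugation trace lemma: if an invertible matrix `A` satisfies
`A q j = d j * A (σ q) j`, then `∑ j, (d j)⁻¹` is the number of fixed points of `σ`. -/
theorem sum_inv_eq_ncard_fixedPoints {X : Type*} [Fintype X] [DecidableEq X]
    (A : Matrix X X ℂ) (hA : A.det ≠ 0) (d : X → ℂ) (σ : Equiv.Perm X)
    (h : ∀ q j, A q j = d j * A (σ q) j) :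
    ∑ j, (d j)⁻¹ = ((Function.fixedPoints σ).ncard : ℂ) := by
  have hd : ∀ j, d j ≠ 0 := by
    intro j hj
    apply hA
    refine Matrix.det_eq_zero_of_column_eq_zero j fun q => ?_
    rw [h q j, hj, zero_mul]
  have hPA : ∀ q j, (σ.permMatrix ℂ * A) q j = A (σ q) j := by
    intro q j
    rw [Equiv.Perm.permMatrix, PEquiv.toMatrix_toPEquiv_mul]
    rfl
  have hkey : A * Matrix.diagonal (fun j => (d j)⁻¹) = σ.permMatrix ℂ * A := by
    ext q j
    rw [Matrix.mul_diagonal, hPA, h q j, mul_comm (d j), mul_assoc, mul_inv_cancel₀ (hd j),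
      mul_one]
  have hAu : IsUnit A.det := isUnit_iff_ne_zero.mpr hA
  have hdiag : Matrix.diagonal (fun j => (d j)⁻¹) = A⁻¹ * (σ.permMatrix ℂ * A) := by
    rw [← hkey, ← Matrix.mul_assoc, Matrix.nonsing_inv_mul A hAu, Matrix.one_mul]
  calc ∑ j, (d j)⁻¹ = (Matrix.diagonal (fun j => (d j)⁻¹)).trace := by
        rw [Matrix.trace_diagonal]
    _ = (A⁻¹ * (σ.permMatrix ℂ * A)).trace := by rw [hdiag]
    _ = (σ.permMatrix ℂ * A * A⁻¹).trace := by rw [Matrix.trace_mul_comm]
    _ = (σ.permMatrix ℂ).trace := by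
        rw [Matrix.mul_assoc, Matrix.mul_nonsing_inv A hAu, Matrix.mul_one]
    _ = ((Function.fixedPoints σ).ncard : ℂ) := Matrix.trace_permutation σ

/-- The permutation-conjugation trace lemma with the fixed points of `σ` counted through
`MulAction.fixedBy` (for the natural action of `Equiv.Perm X` on `X`). -/
theorem sum_inv_eq_card_fixedBy_perm {X : Type*} [Fintype X] [DecidableEq X]
    (A : Matrix X X ℂ) (hA : A.det ≠ 0) (d : X → ℂ) (σ : Equiv.Perm X)
    (h : ∀ q j, A q j = d j * A (σ q) j) :
    ∑ j, (d j)⁻¹ = (Nat.card (MulAction.fixedBy X σ) : ℂ) := by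
  rw [sum_inv_eq_ncard_fixedPoints A hA d σ h, ← Nat.card_coe_set_eq]
  rfl

/-- Group-action form of the permutation-conjugation trace lemma. -/
theorem sum_inv_eq_card_fixedBy {G X : Type*} [Group G] [MulAction G X] [Fintype X]
    [DecidableEq X] (A : Matrix X X ℂ) (hA : A.det ≠ 0) (d : X → ℂ) (g : G)
    (h : ∀ q j, A q j = d j * A (g • q) j) :
    ∑ j, (d j)⁻¹ = (Nat.card (MulAction.fixedBy X g) : ℂ) := by
  rw [sum_inv_eq_ncard_fixedPoints A hA d (MulAction.toPerm g) h, ncard_fixedPoints_toPerm]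

/-- Group-action form of the permutation-conjugation trace lemma, with `g⁻¹` acting. -/
theorem sum_inv_eq_card_fixedBy_inv {G X : Type*} [Group G] [MulAction G X] [Fintype X]
    [DecidableEq X] (A : Matrix X X ℂ) (hA : A.det ≠ 0) (d : X → ℂ) (g : G)
    (h : ∀ q j, A q j = d j * A (g⁻¹ • q) j) :
    ∑ j, (d j)⁻¹ = (Nat.card (MulAction.fixedBy X g) : ℂ) := by
  rw [sum_inv_eq_card_fixedBy A hA d g⁻¹ h, MulAction.fixedBy_inv]

end Fermat.Agent.S20
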