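import Mathlib
import Fermat.Agent.S20.Defs
import Fermat.Agent.S20.Division
import Fermat.Prelude.Thm_ModularForm_sturm_bound_Gamma0
import Fermat.Prelude.Thm_CongruenceSubgroup_one_mem_strictPeriods_Gamma0

/-!
# S20 team library: small weights, dimensions, first consequences of `IsFreeBasis`

OWNER: helper47 (only the owner edits this file).

* `mem_MF_zero_iff`, `MF_neg`, `MF_odd`, `SF_nonpos` : small / odd weights.
* `finrank_MF`, `finrank_SF`, `finrank_LF` : the function-level spaces have the same dimension as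
  the Mathlib spaces of bundled forms; finite-dimensionality instances; Sturm bound
  `finrank_MF_le`.
* `IsFreeBasis.isInv`, `IsFreeBasis.ne_zero`, `IsFreeBasis.nonneg`, `IsFreeBasis.even`,
  `IsFreeBasis.card_weight_zero`.
-/

set_option autoImplicit false

namespace Fermat.Agent.S20

open UpperHalfPlane ModularForm Filter Topology CongruenceSubgroup
open scoped MatrixGroups ModularForm Manifold

namespace SmallAux

/-- Coercion of modular forms to functions, as a linear map. -/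
def coeMF (Γ : Subgroup (GL (Fin 2) ℝ)) [Γ.HasDetOne] (w : ℤ) :
    ModularForm Γ w →ₗ[ℂ] (ℍ → ℂ) where
  toFun F := F
  map_add' _ _ := rfl
  map_smul' _ _ := rfl

theorem coeMF_injective (Γ : Subgroup (GL (Fin 2) ℝ)) [Γ.HasDetOne] (w : ℤ) :
    Function.Injective (coeMF Γ w) := fun _ _ h => DFunLike.coe_injective h

/-- Coercion of cusp forms to functions, as a linear map. -/
def coeSF (Γ : Subgroup (GL (Fin 2) ℝ)) [Γ.HasDetOne] (w : ℤ) :
    CuspForm Γ w →ₗ[ℂ] (ℍ → ℂ) where
  toFun F := F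
  map_add' _ _ := rfl
  map_smul' _ _ := rfl

theorem coeSF_injective (Γ : Subgroup (GL (Fin 2) ℝ)) [Γ.HasDetOne] (w : ℤ) :
    Function.Injective (coeSF Γ w) := fun _ _ h => DFunLike.coe_injective h

theorem MF_eq_range (N : ℕ) (w : ℤ) : MF N w = LinearMap.range (coeMF (Gamma0 N) w) := by
  ext f
  rfl

theorem SF_eq_range (N : ℕ) (w : ℤ) : SF N w = LinearMap.range (coeSF (Gamma0 N) w) := by
  ext f
  rfl

theorem LF_eq_range (w : ℤ) : LF w = LinearMap.range (coeMF 𝒮ℒ w) := by
  ext f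
  rfl

/-- The first `B + 1` q-expansion coefficients, as a linear map. -/
noncomputable def qCoeffs (N : ℕ) (w : ℤ) (B : ℕ) :
    ModularForm (Gamma0 N) w →ₗ[ℂ] (Fin (B + 1) → ℂ) where
  toFun F n := (qExpansion 1 F).coeff n
  map_add' F G := by
    funext n
    have := ModularForm.qExpansion_add one_pos (one_mem_strictPeriods_Gamma0 N) F G
    rw [FunLike.coe_add, this]
    simp
  map_smul' c F := by
    funext n
    have := ModularForm.qExpansion_smul one_pos (one_mem_strictPeriods_Gamma0 N) c F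
    rw [FunLike.coe_smul, this]
    simp

theorem qCoeffs_injective (N : ℕ) [NeZero N] (w : ℤ) :
    Function.Injective (qCoeffs N w ((w * (Gamma0 N).index).toNat / 12)) := by
  rw [← LinearMap.ker_eq_bot, LinearMap.ker_eq_bot']
  intro F hF
  refine ModularForm.sturm_bound_Gamma0 N F fun n hn => ?_
  have := congrFun hF ⟨n, Nat.lt_succ_of_le hn⟩
  simpa [qCoeffs] using this

theorem modularForm_finiteDimensional (N : ℕ) [NeZero N] (w : ℤ) :
    FiniteDimensional ℂ (ModularForm (Gamma0 N) w) :=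
  FiniteDimensional.of_injective _ (qCoeffs_injective N w)

theorem modularForm_finrank_le (N : ℕ) [NeZero N] (w : ℤ) :
    Module.finrank ℂ (ModularForm (Gamma0 N) w) ≤ (w * (Gamma0 N).index).toNat / 12 + 1 := by
  have := LinearMap.finrank_le_finrank_of_injective (qCoeffs_injective N w)
  simpa using this

theorem neg_one_mem_Gamma0 (N : ℕ) :
    (-1 : GL (Fin 2) ℝ) ∈ ((Gamma0 N : Subgroup SL(2, ℤ)) : Subgroup (GL (Fin 2) ℝ)) :=
  ⟨-1, by simp [Gamma0_mem], by ext; simp⟩

/-- Every cusp form is (the function of) a modular form. -/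
theorem SF_le_MF (N : ℕ) (w : ℤ) : SF N w ≤ MF N w := by
  rintro _ ⟨F, rfl⟩
  exact ⟨ModularFormClass.modularForm F, rfl⟩

theorem LF_neg {w : ℤ} (hw : w < 0) : LF w = ⊥ := by
  rw [eq_bot_iff]
  rintro _ ⟨F, rfl⟩
  rw [Submodule.mem_bot]
  exact ModularFormClass.levelOne_neg_weight_eq_zero hw F

theorem mem_LF_zero_iff {f : ℍ → ℂ} : f ∈ LF 0 ↔ ∃ c : ℂ, f = fun _ => c := by
  constructor
  · rintro ⟨F, rfl⟩
    obtain ⟨c, hc⟩ := ModularFormClass.levelOne_weight_zero_const F
    exact ⟨c, hc⟩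
  · rintro ⟨c, rfl⟩
    exact ⟨ModularForm.const c, rfl⟩

end SmallAux

open SmallAux

variable {N : ℕ} {w : ℤ} {f : ℍ → ℂ}

/-! ### Small weights -/

theorem mem_MF_zero_iff [NeZero N] : f ∈ MF N 0 ↔ ∃ c : ℂ, f = fun _ => c := by
  constructor
  · rintro ⟨F, rfl⟩
    obtain ⟨c, hc⟩ := ModularForm.eq_const_of_weight_zero F
    exact ⟨c, hc⟩
  · rintro ⟨c, rfl⟩
    exact ⟨ModularForm.const c, rfl⟩

theorem MF_neg (N : ℕ) [NeZero N] {w : ℤ} (hw : w < 0) : MF N w = ⊥ := by
  rw [eq_bot_iff]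
  rintro _ ⟨F, rfl⟩
  rw [ModularForm.isZero_of_neg_weight hw F]
  simp

theorem MF_odd (N : ℕ) [NeZero N] {w : ℤ} (hw : Odd w) : MF N w = ⊥ := by
  rw [eq_bot_iff]
  rintro _ ⟨F, rfl⟩
  rw [ModularForm.eq_zero_of_neg_one_mem (neg_one_mem_Gamma0 N) hw F]
  simp

theorem SF_nonpos (N : ℕ) [NeZero N] {w : ℤ} (hw : w ≤ 0) : SF N w = ⊥ := by
  rw [eq_bot_iff]
  rintro _ ⟨F, rfl⟩
  rw [Submodule.mem_bot]
  rcases hw.lt_or_eq with hneg | rfl
  · have hmem : (F : ℍ → ℂ) ∈ MF N w := SF_le_MF N w ⟨F, rfl⟩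
    rw [MF_neg N hneg] at hmem
    exact hmem
  · have hmem : (F : ℍ → ℂ) ∈ MF N 0 := SF_le_MF N 0 ⟨F, rfl⟩
    obtain ⟨c, hc⟩ := mem_MF_zero_iff.1 hmem
    have hzero : IsZeroAtImInfty (F : ℍ → ℂ) := CuspFormClass.zero_at_infty F
    rw [hc] at hzero
    have hc0 : c = 0 := tendsto_nhds_unique tendsto_const_nhds hzero
    rw [hc, hc0]
    rfl

/-! ### Dimensions -/

theorem finrank_MF (N : ℕ) (w : ℤ) :
    Module.finrank ℂ (MF N w) = Module.finrank ℂ (ModularForm (CongruenceSubgroup.Gamma0 N) w) := by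
  rw [MF_eq_range, LinearMap.finrank_range_of_inj (coeMF_injective _ w)]

theorem finrank_SF (N : ℕ) (w : ℤ) :
    Module.finrank ℂ (SF N w) = Module.finrank ℂ (CuspForm (CongruenceSubgroup.Gamma0 N) w) := by
  rw [SF_eq_range, LinearMap.finrank_range_of_inj (coeSF_injective _ w)]

theorem finrank_LF (w : ℤ) :
    Module.finrank ℂ (LF w) = Module.finrank ℂ (ModularForm 𝒮ℒ w) := by
  rw [LF_eq_range, LinearMap.finrank_range_of_inj (coeMF_injective _ w)]

instance instFiniteDimensionalMF (N : ℕ) [NeZero N] (w : ℤ) : FiniteDimensional ℂ (MF N w) := by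
  have := modularForm_finiteDimensional N w
  rw [MF_eq_range]
  infer_instance

instance instFiniteDimensionalSF (N : ℕ) [NeZero N] (w : ℤ) : FiniteDimensional ℂ (SF N w) :=
  Submodule.finiteDimensional_of_le (SF_le_MF N w)

instance instFiniteDimensionalLF (w : ℤ) : FiniteDimensional ℂ (LF w) := by
  rw [LF_eq_range]
  infer_instance

/-- Sturm bound: `dim M_w(Γ₀(N)) ≤ w * [SL₂(ℤ) : Γ₀(N)] / 12 + 1`. -/
theorem finrank_MF_le (N : ℕ) [NeZero N] {w : ℤ} (hw : 0 ≤ w) :
    (Module.finrank ℂ (MF N w) : ℤ) ≤ w * (Fintype.card (Q N) : ℤ) / 12 + 1 := by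
  have h1 := modularForm_finrank_le N w
  rw [← finrank_MF] at h1
  have hidx : (Gamma0 N).index = Fintype.card (Q N) := by
    rw [Subgroup.index, Nat.card_eq_fintype_card]
  rw [hidx] at h1
  have h2 : (((w * (Fintype.card (Q N) : ℤ)).toNat / 12 : ℕ) : ℤ) =
      w * (Fintype.card (Q N) : ℤ) / 12 := by
    rw [Int.natCast_div, Int.toNat_of_nonneg (mul_nonneg hw (Int.natCast_nonneg _))]
    rfl
  rw [← h2]
  exact_mod_cast h1

/-! ### First consequences of `IsFreeBasis` -/

theorem IsFreeBasis.isInv [NeZero N] {k : Q N → ℤ} {f : Q N → ℍ → ℂ} (hB : IsFreeBasis N k f)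
    (j : Q N) : IsInv N (k j) (f j) :=
  (Division.mem_MF_iff.1 (hB.mem j)).2.1

theorem IsFreeBasis.ne_zero [NeZero N] {k : Q N → ℤ} {f : Q N → ℍ → ℂ} (hB : IsFreeBasis N k f)
    (j : Q N) : f j ≠ 0 := by
  classical
  intro hj
  have h := hB.indep (k j) (fun i => if i = j then (1 : ℍ → ℂ) else 0) (fun i => by
    by_cases hi : i = j
    · subst hi
      simp only [if_true, sub_self]
      exact mem_LF_zero_iff.2 ⟨1, rfl⟩
    · simp only [hi, if_false]
      exact zero_mem _) (by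
    rw [Finset.sum_eq_single j]
    · simp [hj]
    · intro i _ hi
      simp [hi]
    · intro hj'
      exact absurd (Finset.mem_univ j) hj') j
  simp only [if_true] at h
  exact one_ne_zero h

theorem IsFreeBasis.nonneg [NeZero N] {k : Q N → ℤ} {f : Q N → ℍ → ℂ} (hB : IsFreeBasis N k f)
    (j : Q N) : 0 ≤ k j := by
  by_contra hneg
  have hmem := hB.mem j
  rw [MF_neg N (not_le.1 hneg), Submodule.mem_bot] at hmem
  exact hB.ne_zero j hmem

theorem IsFreeBasis.even [NeZero N] {k : Q N → ℤ} {f : Q N → ℍ → ℂ} (hB : IsFreeBasis N k f)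
    (j : Q N) : Even (k j) := by
  by_contra hodd
  have hmem := hB.mem j
  rw [MF_odd N (Int.not_even_iff_odd.1 hodd), Submodule.mem_bot] at hmem
  exact hB.ne_zero j hmem

theorem IsFreeBasis.card_weight_zero [NeZero N] {k : Q N → ℤ} {f : Q N → ℍ → ℂ}
    (hB : IsFreeBasis N k f) : (Finset.univ.filter fun j : Q N => k j = 0).card = 1 := by
  classical
  -- existence
  have hex : ∃ j : Q N, k j = 0 := by
    by_contra hno
    have hno' : ∀ j, k j ≠ 0 := fun j hj => hno ⟨j, hj⟩
    obtain ⟨r, hr, hsum⟩ := hB.span 0 (fun _ => (1 : ℂ)) (mem_MF_zero_iff.2 ⟨1, rfl⟩)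
    have hr0 : ∀ j, r j = 0 := by
      intro j
      have hpos : 0 < k j := lt_of_le_of_ne (hB.nonneg j) (Ne.symm (hno' j))
      have := hr j
      rw [LF_neg (by omega), Submodule.mem_bot] at this
      exact this
    have h10 : (fun _ : ℍ => (1 : ℂ)) = 0 := by
      rw [hsum]
      exact Finset.sum_eq_zero fun j _ => by rw [hr0 j, zero_mul]
    exact one_ne_zero (congrFun h10 UpperHalfPlane.I)
  -- uniqueness
  have huniq : ∀ j₁ j₂ : Q N, k j₁ = 0 → k j₂ = 0 → j₁ = j₂ := by
    intro j₁ j₂ h1 h2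
    by_contra hne
    have hm1 := hB.mem j₁
    have hm2 := hB.mem j₂
    rw [h1] at hm1
    rw [h2] at hm2
    obtain ⟨c₁, hc₁⟩ := mem_MF_zero_iff.1 hm1
    obtain ⟨c₂, hc₂⟩ := mem_MF_zero_iff.1 hm2
    have h := hB.indep 0
      (fun i => if i = j₁ then (fun _ => c₂) else if i = j₂ then (fun _ => -c₁) else 0)
      (fun i => by
        by_cases hi1 : i = j₁
        · subst hi1
          simp only [if_true, h1, sub_zero]
          exact mem_LF_zero_iff.2 ⟨c₂, rfl⟩
        · by_cases hi2 : i = j₂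
          · subst hi2
            simp only [hi1, if_false, if_true, h2, sub_zero]
            exact mem_LF_zero_iff.2 ⟨-c₁, rfl⟩
          · simp only [hi1, hi2, if_false]
            exact zero_mem _)
      (by
        rw [Finset.sum_eq_add_of_mem j₁ j₂ (Finset.mem_univ _) (Finset.mem_univ _) hne]
        · have hne' : ¬ j₂ = j₁ := fun h => hne h.symm
          simp only [if_true, hne', if_false, hc₁, hc₂]
          funext z
          simp only [Pi.add_apply, Pi.mul_apply, Pi.zero_apply]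
          ring
        · intro i _ hi
          simp [hi.1, hi.2]) j₁
    simp only [if_true] at h
    have hc20 : c₂ = 0 := congrFun h UpperHalfPlane.I
    apply hB.ne_zero j₂
    rw [hc₂, hc20]
    rfl
  obtain ⟨a, ha⟩ := hex
  refine Finset.card_eq_one.2 ⟨a, Finset.eq_singleton_iff_unique_mem.2 ⟨by simp [ha], ?_⟩⟩
  intro x hx
  exact huniq x a (by simpa using hx) ha

end Fermat.Agent.S20
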