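import Mathlib
import Fermat.Agent.S20.Defs
import Fermat.Agent.S20.Basic

/-!
# S20 team library: symmetric functions of the conjugates

OWNER: helper80 (only the owner edits this file).

* `trQ_mem_LF` : the trace of a level `Γ₀(N)` form is a level one form.
* `trQ_tendsto_zero` : the trace of a cusp form tends to `0` at `i∞`.
* `esymQ N w f n` : the `n`-th elementary symmetric function of the conjugates of `f`.
* `esymQ_mem_LF` : it is a level one form of weight `n * w`.
* `esymQ_eq_zero_of_psum` : Newton's identities at a point.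
* `eq_zero_of_esymQ` : if all `esymQ N w f n z` (`n ≥ 1`) vanish, then `f z = 0`.
-/

set_option autoImplicit false

namespace Fermat.Agent.S20

open UpperHalfPlane ModularForm Filter Topology
open scoped MatrixGroups ModularForm Manifold

variable {N : ℕ} {w : ℤ} {f : ℍ → ℂ}

namespace Sym

/-- Reindexing a sum over the cosets by the action of an element of `SL(2, ℤ)`. -/
theorem sum_smul_Q [NeZero N] {M : Type*} [AddCommMonoid M] (g : SL(2, ℤ)) (F : Q N → M) :
    ∑ q : Q N, F (g • q) = ∑ q : Q N, F q :=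
  Equiv.sum_comp (MulAction.toPerm g) F

/-- Reindexing the multiset of values over the cosets by the action of an element of
`SL(2, ℤ)`. -/
theorem map_smul_Q [NeZero N] {M : Type*} (g : SL(2, ℤ)) (F : Q N → M) :
    (Finset.univ.val.map fun q : Q N => F (g • q)) = Finset.univ.val.map F := by
  conv_rhs => rw [← Multiset.map_univ_val_equiv (MulAction.toPerm g), Multiset.map_map]
  rfl

end Sym

/-- The trace of a modular form of level `Γ₀(N)` is a modular form of level one. -/
theorem trQ_mem_LF [NeZero N] (hf : f ∈ MF N w) : trQ N w f ∈ LF w := by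
  obtain ⟨hd, hi, hb⟩ := mem_MF_iff.mp hf
  refine mem_LF_iff.mpr ⟨?_, ?_, ?_⟩
  · exact MDifferentiable.sum fun q _ => mdiff_cj hd q
  · intro γ
    unfold trQ
    rw [SlashAction.sum_slash]
    simp_rw [cj_slash hi]
    exact Sym.sum_smul_Q γ⁻¹ (cj N w f)
  · exact (Filter.boundedFilterSubalgebra ℂ atImInfty).sum_mem fun q _ => hb q

/-- The trace of a cusp form tends to zero at `i∞`. -/
theorem trQ_tendsto_zero [NeZero N] (hf : f ∈ SF N w) :
    Tendsto (trQ N w f) atImInfty (𝓝 0) := by
  obtain ⟨-, -, hz⟩ := mem_SF_iff.mp hf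
  have h : Tendsto (fun z => ∑ q : Q N, cj N w f q z) atImInfty (𝓝 (∑ _q : Q N, (0 : ℂ))) :=
    tendsto_finsetSum _ fun q _ => hz q
  have e : trQ N w f = fun z => ∑ q : Q N, cj N w f q z := by
    funext z
    simp [trQ, Finset.sum_apply]
  rw [e]
  simpa using h

/-- The `n`-th elementary symmetric function of the conjugates of `f`. -/
noncomputable def esymQ (N : ℕ) [NeZero N] (w : ℤ) (f : ℍ → ℂ) (n : ℕ) : ℍ → ℂ :=
  fun z => (Finset.univ.val.map fun q : Q N => cj N w f q z).esymm n

namespace Sym

/-- `esymQ` as a sum of products of conjugates. -/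
theorem esymQ_eq_sum [NeZero N] (w : ℤ) (f : ℍ → ℂ) (n : ℕ) :
    esymQ N w f n =
      ∑ s ∈ Finset.powersetCard n (Finset.univ : Finset (Q N)), ∏ q ∈ s, cj N w f q := by
  funext z
  simp [esymQ, Finset.esymm_map_val, Finset.sum_apply, Finset.prod_apply]

/-- Transformation of `esymQ` under `SL(2, ℤ)`. -/
theorem esymQ_smul_apply [NeZero N] (hf : IsInv N w f) (n : ℕ) (g : SL(2, ℤ)) (z : ℍ) :
    esymQ N w f n (g • z) = (denom g z ^ w) ^ n * esymQ N w f n z := by
  have h1 : (Finset.univ.val.map fun q : Q N => cj N w f q (g • z)) =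
      (Finset.univ.val.map fun q : Q N => cj N w f q z).map (fun x => denom g z ^ w • x) := by
    rw [← Sym.map_smul_Q g⁻¹ (fun q : Q N => cj N w f q z), Multiset.map_map]
    refine Multiset.map_congr rfl fun q _ => ?_
    exact cj_smul_apply hf q g z
  simp only [esymQ]
  rw [h1, ← Multiset.pow_smul_esymm, smul_eq_mul]

end Sym

/-- The elementary symmetric functions of the conjugates of a modular form of level `Γ₀(N)`
are modular forms of level one. -/
theorem esymQ_mem_LF [NeZero N] (hf : f ∈ MF N w) (n : ℕ) : esymQ N w f n ∈ LF (n * w) := by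
  obtain ⟨hd, hi, hb⟩ := mem_MF_iff.mp hf
  refine mem_LF_iff.mpr ⟨?_, ?_, ?_⟩
  · rw [Sym.esymQ_eq_sum]
    exact MDifferentiable.sum fun s _ => MDifferentiable.prod fun q _ => mdiff_cj hd q
  · intro γ
    funext z
    rw [SL_slash_apply, Sym.esymQ_smul_apply hi]
    have hd0 : denom γ z ≠ 0 := denom_ne_zero γ z
    rw [mul_right_comm, ← zpow_natCast, ← zpow_mul, ← zpow_add₀ hd0]
    have : w * (n : ℤ) + -((n : ℤ) * w) = 0 := by ring
    rw [this, zpow_zero, one_mul]
  · rw [Sym.esymQ_eq_sum]
    refine (Filter.boundedFilterSubalgebra ℂ atImInfty).sum_mem fun s _ => ?_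
    exact prod_mem (S := Filter.boundedFilterSubalgebra ℂ atImInfty) fun q _ => hb q

/-- Newton's identities at a point: if all the power sums of the conjugates vanish at `z`,
then so do all the elementary symmetric functions. -/
theorem esymQ_eq_zero_of_psum [NeZero N] (z : ℍ)
    (h : ∀ n : ℕ, 1 ≤ n → ∑ q : Q N, cj N w f q z ^ n = 0) :
    ∀ n : ℕ, 1 ≤ n → esymQ N w f n z = 0 := by
  intro n hn
  have key := congrArg (MvPolynomial.aeval (R := ℂ) (fun q : Q N => cj N w f q z))
    (MvPolynomial.mul_esymm_eq_sum (Q N) ℂ n)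
  simp only [map_mul, map_natCast, map_pow, map_neg, map_one, map_sum,
    MvPolynomial.aeval_esymm_eq_multiset_esymm] at key
  have hn0 : (n : ℂ) ≠ 0 := by
    have : n ≠ 0 := by omega
    exact_mod_cast this
  rw [Finset.sum_eq_zero, mul_zero] at key
  · exact (mul_eq_zero.mp key).resolve_left hn0
  · intro a ha
    rw [Finset.mem_filter, Finset.HasAntidiagonal.mem_antidiagonal] at ha
    have h2 : 1 ≤ a.2 := by omega
    have : (MvPolynomial.aeval (R := ℂ) (fun q : Q N => cj N w f q z))
        (MvPolynomial.psum (Q N) ℂ a.2) = ∑ q : Q N, cj N w f q z ^ a.2 := by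
      simp [MvPolynomial.psum]
    rw [this, h a.2 h2, mul_zero]

/-- If all the elementary symmetric functions of the conjugates of `f` vanish at `z`,
then `f z = 0`. -/
theorem eq_zero_of_esymQ [NeZero N] (hf : IsInv N w f) (z : ℍ)
    (h : ∀ n : ℕ, 1 ≤ n → esymQ N w f n z = 0) : f z = 0 := by
  classical
  set s : Multiset ℂ := Finset.univ.val.map fun q : Q N => cj N w f q z with hs
  have hprod : (s.map fun t => Polynomial.X - Polynomial.C t).prod =
      Polynomial.X ^ Multiset.card s := by
    rw [Multiset.prod_X_sub_X_eq_sum_esymm, Finset.sum_eq_single 0]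
    · simp [Multiset.esymm]
    · intro j _ hj
      have : s.esymm j = 0 := h j (Nat.one_le_iff_ne_zero.mpr hj)
      simp [this]
    · intro h0
      exact absurd (Finset.mem_range.mpr (Nat.succ_pos _)) h0
  have hmem : f z ∈ s := by
    rw [hs, Multiset.mem_map]
    exact ⟨((1 : SL(2, ℤ)) : Q N), Finset.mem_univ_val _, by rw [cj_one hf]⟩
  have hdvd : (Polynomial.X - Polynomial.C (f z)) ∣ (Polynomial.X ^ Multiset.card s : Polynomial ℂ) := by
    rw [← hprod]
    exact Multiset.dvd_prod (Multiset.mem_map.mpr ⟨f z, hmem, rfl⟩)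
  have hroot : Polynomial.eval (f z) (Polynomial.X ^ Multiset.card s : Polynomial ℂ) = 0 := by
    obtain ⟨g, hg⟩ := hdvd
    rw [hg]
    simp
  rw [Polynomial.eval_pow, Polynomial.eval_X] at hroot
  exact (pow_eq_zero_iff (Multiset.card_pos_iff_exists_mem.mpr ⟨_, hmem⟩).ne').mp hroot

end Fermat.Agent.S20
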