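import Mathlib
import Fermat.Agent.S20.Defs
import Fermat.Agent.S20.Basic
import Fermat.Agent.S20.LevelOne
import Fermat.Agent.S20.Division
import Fermat.Agent.S20.Small
import Fermat.Agent.S20.Sym
import Fermat.Agent.S20.Det
import Fermat.Agent.S20.DetLF
import Fermat.Agent.S20.Growth
import Fermat.Agent.S20.OrbitBridge
import Fermat.Agent.S20.Monodromy

/-!
# S20 team library: the cusp at `i∞` — sum of the weights of a free basis

OWNER: helper68 (only the owner edits this file).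

For a homogeneous free basis `f j ∈ MF N (k j)` of `⊕_w MF N w` over `⊕_w LF w`:
* `sum_weights` : `∑ j, k j = 6 * (card (Q N) - #T-orbits on Q N)`;
* `inv_Fmat_decay` : `exp (2πiz) • (Fmat z)⁻¹ → 0` at `i∞`.

Private helpers live in the namespace `Fermat.Agent.S20.Cusp`.
-/

set_option autoImplicit false

namespace Fermat.Agent.S20

open UpperHalfPlane ModularForm Filter Topology Complex
open scoped MatrixGroups ModularForm Manifold Real

local notation "Δ" => ModularForm.discriminant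

namespace Cusp

variable {N : ℕ} [NeZero N] {k : Q N → ℤ} {f : Q N → ℍ → ℂ}

theorem denom_T (z : ℍ) : denom (ModularGroup.T : SL(2, ℤ)) z = 1 := by
  rw [ModularGroup.denom_apply]
  simp [ModularGroup.coe_T]

theorem Fmat_vadd (hB : IsFreeBasis N k f) (z : ℍ) (q j : Q N) :
    Fmat N k f ((1 : ℝ) +ᵥ z) q j =
      Fmat N k f z (MulAction.toPerm (ModularGroup.T⁻¹ : SL(2, ℤ)) q) j := by
  have := Fmat_smul (fun j => (mem_MF_iff.mp (hB.mem j)).2.1) ModularGroup.T z q j
  rw [modular_T_smul, denom_T, one_zpow, one_mul] at this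
  rw [this]
  rfl

theorem mdiff_entry (hB : IsFreeBasis N k f) (q j : Q N) :
    MDiff (fun z => Fmat N k f z q j) := by
  have h := (mem_MF_iff.mp (hB.mem j)).1
  exact mdiff_cj h q

theorem bdd_entry (hB : IsFreeBasis N k f) (q j : Q N) :
    IsBoundedAtImInfty (fun z => Fmat N k f z q j) :=
  (mem_MF_iff.mp (hB.mem j)).2.2 q

/-- Every even weight `≥ 4` is the weight of a monomial `E₄ ^ a * E₆ ^ b`. -/
theorem exists_monomial_weight {w : ℤ} (hw : Even w) (h4 : 4 ≤ w) :
    ∃ a b : ℕ, (4 * a + 6 * b : ℤ) = w := by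
  obtain ⟨t, ht⟩ := hw
  rcases Int.emod_two_eq_zero_or_one t with h | h
  · refine ⟨(t / 2).toNat, 0, ?_⟩
    have : ((t / 2).toNat : ℤ) = t / 2 := Int.toNat_of_nonneg (by omega)
    rw [this]; omega
  · refine ⟨((t - 3) / 2).toNat, 1, ?_⟩
    have : (((t - 3) / 2).toNat : ℤ) = (t - 3) / 2 := Int.toNat_of_nonneg (by omega)
    rw [this]; omega

theorem monomial_mem (a b : ℕ) : (⇑E₄ : ℍ → ℂ) ^ a * (⇑E₆ : ℍ → ℂ) ^ b ∈ LF (4 * a + 6 * b) := by
  have h4 : (⇑E₄ : ℍ → ℂ) ∈ LF 4 := ⟨E₄, rfl⟩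
  have h6 : (⇑E₆ : ℍ → ℂ) ∈ LF 6 := ⟨E₆, rfl⟩
  have := mul_mem_LF (pow_mem_LF h4 a) (pow_mem_LF h6 b)
  have e : (a : ℤ) * 4 + (b : ℤ) * 6 = 4 * a + 6 * b := by ring
  rwa [e] at this

/-- A level-one form converges exponentially fast to its value at `i∞`. -/
theorem sub_isBigO_of_mem_LF {w : ℤ} {r : ℍ → ℂ} (hr : r ∈ LF w) {c : ℂ}
    (hc : Tendsto r atImInfty (𝓝 c)) :
    (fun z : ℍ => r z - c) =O[atImInfty] fun z => Real.exp (-2 * π * z.im) := by
  obtain ⟨F, rfl⟩ := hr
  have h1 := UpperHalfPlane.exp_decay_sub_atImInfty (f := (F : ℍ → ℂ)) (h := 1) one_pos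
    (SlashInvariantFormClass.periodic_comp_ofComplex F one_mem_strictPeriods_SL)
    (ModularFormClass.holo F) (ModularFormClass.bdd_at_infty F)
  have hv : valueAtInfty (F : ℍ → ℂ) = c := hc.limUnder_eq
  rw [hv] at h1
  simpa using h1

/-- No nonzero combination of the columns of `Fmat` decays like `exp (-2π im z)` at `i∞`. -/
theorem no_decay_vector (hB : IsFreeBasis N k f) (b : Q N → ℂ)
    (hb : ∀ q, (fun z : ℍ => ∑ j, Fmat N k f z q j * b j)
      =O[atImInfty] fun z => Real.exp (-2 * π * z.im)) :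
    b = 0 := by
  classical
  -- a common weight `W` with `W - k j` even and `≥ 4`
  obtain ⟨W, hW⟩ : ∃ W : ℤ, W = 4 + ∑ j, k j := ⟨_, rfl⟩
  have hk0 : ∀ j, 0 ≤ k j := hB.nonneg
  have hke : ∀ j, Even (k j) := hB.even
  have hle : ∀ j, k j ≤ ∑ i, k i := fun j =>
    Finset.single_le_sum (fun i _ => hk0 i) (Finset.mem_univ j)
  have h4 : ∀ j, 4 ≤ W - k j := fun j => by have := hle j; omega
  have hWe : ∀ j, Even (W - k j) := fun j => by
    have h1 : Even (∑ i, k i) := Finset.even_sum _ (fun i _ => hke i)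
    have h2 : Even (4 : ℤ) := by decide
    rw [hW]
    exact (h2.add h1).sub (hke j)
  choose a c hac using fun j => exists_monomial_weight (hWe j) (h4 j)
  -- the level-one monomials `P j` of weight `W - k j`, with `P j → 1`
  obtain ⟨P, hP⟩ : ∃ P : Q N → ℍ → ℂ, P = fun j => ⇑E₄ ^ a j * ⇑E₆ ^ c j := ⟨_, rfl⟩
  have hPmem : ∀ j, P j ∈ LF (W - k j) := fun j => by
    have := monomial_mem (a j) (c j)
    rw [hac j] at this
    rw [hP]; exact this
  have hPlim : ∀ j, Tendsto (P j) atImInfty (𝓝 1) := fun j => by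
    have := (lo_E4_tendsto.pow (a j)).mul (lo_E6_tendsto.pow (c j))
    rw [one_pow, one_pow, one_mul] at this
    rw [hP]
    exact this
  have hPO : ∀ j, (fun z : ℍ => P j z - 1) =O[atImInfty] fun z => Real.exp (-2 * π * z.im) :=
    fun j => sub_isBigO_of_mem_LF (hPmem j) (hPlim j)
  -- the homogenised combination
  obtain ⟨h, hh⟩ : ∃ h : ℍ → ℂ, h = ∑ j, b j • (P j * f j) := ⟨_, rfl⟩
  have hterm : ∀ j, P j * f j ∈ MF N W := fun j => by
    have := mul_mem_MF (LF_le_MF N _ (hPmem j)) (hB.mem j)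
    rwa [sub_add_cancel] at this
  have hhmem : h ∈ MF N W := by
    rw [hh]
    exact Submodule.sum_mem _ fun j _ => Submodule.smul_mem _ _ (hterm j)
  have hcj : ∀ q, cj N W h q = ∑ j, b j • (P j * cj N (k j) (f j) q) := fun q => by
    rw [hh, cj_sum]
    refine Finset.sum_congr rfl fun j _ => ?_
    rw [cj_const_smul]
    congr 1
    have hinv : IsInvOne (W - k j) (P j) := (mem_LF_iff.mp (hPmem j)).2.1
    have := cj_mul N (W - k j) (k j) (P j) (f j) q
    rw [sub_add_cancel, cj_of_isInvOne hinv] at this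
    exact this
  have hdecay : ∀ q, cj N W h q =O[atImInfty] fun z => Real.exp (-2 * π * z.im) := fun q => by
    have h1 := hb q
    have h2 : (fun z : ℍ => ∑ j, b j * ((P j z - 1) * Fmat N k f z q j))
        =O[atImInfty] fun z => Real.exp (-2 * π * z.im) := by
      refine Asymptotics.IsBigO.fun_sum fun j _ => ?_
      refine Asymptotics.IsBigO.const_mul_left ?_ _
      have hm := (hPO j).mul (bdd_entry hB q j)
      simpa using hm
    refine (h1.add h2).congr_left fun z => ?_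
    rw [hcj q, ← Finset.sum_add_distrib, Finset.sum_apply]
    refine Finset.sum_congr rfl fun j _ => ?_
    simp only [Pi.smul_apply, Pi.mul_apply, smul_eq_mul, Fmat]
    ring
  -- divide by `Δ` and expand in the basis
  obtain ⟨m, hm, hhm⟩ := Division.div_discriminant_cj hhmem hdecay
  obtain ⟨s, hs, hms⟩ := hB.span (W - 12) m hm
  obtain ⟨r, hr⟩ : ∃ r : Q N → ℍ → ℂ, r = fun j => b j • P j - Δ * s j := ⟨_, rfl⟩
  have hrmem : ∀ j, r j ∈ LF (W - k j) := fun j => by
    rw [hr]
    refine Submodule.sub_mem _ (Submodule.smul_mem _ _ (hPmem j)) ?_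
    have := mul_mem_LF lo_disc_mem (hs j)
    have e : (12 : ℤ) + (W - 12 - k j) = W - k j := by ring
    rwa [e] at this
  have hsum : ∑ j, r j * f j = 0 := by
    have : ∑ j, r j * f j = h - Δ * m := by
      rw [hh, hms, Finset.mul_sum, ← Finset.sum_sub_distrib]
      refine Finset.sum_congr rfl fun j _ => ?_
      rw [hr]
      simp only [sub_mul, smul_mul_assoc, mul_assoc]
    rw [this, hhm, sub_self]
  have hr0 := hB.indep W r hrmem hsum
  -- pass to the limit at `i∞`
  funext j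
  obtain ⟨l, hl⟩ := lo_tendsto (hs j)
  have hΔlim : Tendsto Δ atImInfty (𝓝 0) := discriminant_isZeroAtImInfty
  have hlim : Tendsto (fun z => b j * P j z - Δ z * s j z) atImInfty (𝓝 (b j * 1 - 0 * l)) :=
    ((hPlim j).const_mul (b j)).sub (hΔlim.mul hl)
  have hzero : (fun z => b j * P j z - Δ z * s j z) = fun _ => 0 := by
    funext z
    have := congrFun (hr0 j) z
    rw [hr] at this
    simpa using this
  rw [hzero] at hlim
  have := tendsto_nhds_unique hlim tendsto_const_nhds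
  simpa using this

/-- The monodromy lemma applied to `Fmat`: the limit is nonzero. -/
theorem monodromy_Fmat (hB : IsFreeBasis N k f) :
    ∃ L : ℂ, L ≠ 0 ∧
      Tendsto (fun z : ℍ => (Fmat N k f z).det * cexp (-(π * Complex.I *
        ((Fintype.card (Q N) : ℂ) - (Nat.card (MulAction.orbitRel.Quotient
          (Subgroup.zpowers (MulAction.toPerm (ModularGroup.T⁻¹ : SL(2, ℤ)) :
            Equiv.Perm (Q N))) (Q N)) : ℂ)) * (z : ℂ)))) atImInfty (𝓝 L) ∧
      ∀ q j, Tendsto (fun z : ℍ => cexp (2 * π * Complex.I * z) * (Fmat N k f z)⁻¹ j q)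
        atImInfty (𝓝 0) := by
  obtain ⟨L, hL, h0, hne⟩ := monodromy (MulAction.toPerm (ModularGroup.T⁻¹ : SL(2, ℤ)))
    (Fmat N k f) (mdiff_entry hB) (bdd_entry hB) (Fmat_vadd hB)
  have hL0 : L ≠ 0 := by
    intro hL0
    obtain ⟨b, hb0, hb⟩ := h0 hL0
    exact hb0 (no_decay_vector hB b hb)
  exact ⟨L, hL0, hL, hne hL0⟩

end Cusp

/-- `exp (2πiz) • (Fmat z)⁻¹ → 0` at `i∞`. -/
theorem inv_Fmat_decay {N : ℕ} [NeZero N] {k : Q N → ℤ} {f : Q N → ℍ → ℂ}
    (hB : IsFreeBasis N k f) (q j : Q N) :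
    Tendsto (fun z : ℍ => cexp (2 * π * Complex.I * z) * (Fmat N k f z)⁻¹ j q)
      atImInfty (𝓝 0) := by
  obtain ⟨L, -, -, h⟩ := Cusp.monodromy_Fmat hB
  exact h q j

/-- The sum of the weights of a free basis: `∑ k j = 6 (μ - c)` with `μ = card (Q N)` and `c` the
number of `T`-orbits on `Q N`. -/
theorem sum_weights (N : ℕ) [NeZero N] (k : Q N → ℤ) (f : Q N → ℍ → ℂ) (hB : IsFreeBasis N k f) :
    ∑ j, k j = 6 * ((Fintype.card (Q N) : ℤ) -
      (Nat.card (MulAction.orbitRel.Quotient (Subgroup.zpowers ModularGroup.T) (Q N)) : ℤ)) := by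
  classical
  -- the Gram matrix of traces
  obtain ⟨T, hTdef⟩ : ∃ T : Q N → Q N → ℍ → ℂ,
    T = fun i j => trQ N (k i + k j) (f i * f j) := ⟨_, rfl⟩
  have hT : ∀ i j, T i j ∈ LF (k i + k j) := fun i j => by
    rw [hTdef]; exact trQ_mem_LF (mul_mem_MF (hB.mem i) (hB.mem j))
  have hdetmem := det_mem_LF k T hT
  have hmat : ∀ z, (Matrix.of fun i j => T i j z) =
      (Fmat N k f z).transpose * Fmat N k f z := by
    intro z
    ext i j
    rw [hTdef]
    simp only [Matrix.of_apply, Matrix.mul_apply, Matrix.transpose_apply, trQ, Finset.sum_apply,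
      Fmat]
    refine Finset.sum_congr rfl fun q _ => ?_
    rw [cj_mul]
    rfl
  have hdet : ∀ z, Matrix.det (Matrix.of fun i j => T i j z) = (Fmat N k f z).det ^ 2 := by
    intro z
    rw [hmat, Matrix.det_mul, Matrix.det_transpose, sq]
  obtain ⟨c, hc, m, hm, hr⟩ := LF_nowhere_zero hdetmem (fun z => by
    rw [hdet]; exact pow_ne_zero _ (det_Fmat_ne_zero N k f hB z))
  have hd : ∀ z : ℍ, (Fmat N k f z).det ^ 2 = c * Δ z ^ m := fun z => by
    rw [← hdet]
    have := congrFun hr z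
    simpa using this
  obtain ⟨L, hL, hlim, -⟩ := Cusp.monodromy_Fmat hB
  have hcmp := growth_compare hc hd (e := (Fintype.card (Q N) : ℤ) -
    (Nat.card (MulAction.orbitRel.Quotient
      (Subgroup.zpowers (MulAction.toPerm (ModularGroup.T⁻¹ : SL(2, ℤ)) :
        Equiv.Perm (Q N))) (Q N)) : ℤ)) hL (by
    refine hlim.congr fun z => ?_
    push_cast
    ring_nf)
  rw [card_orbits_toPerm] at hcmp
  have key : ∑ j, k j = 6 * (m : ℤ) := by linarith
  rw [key]
  exact congrArg (fun x : ℤ => 6 * x) hcmp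

end Fermat.Agent.S20
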