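import Mathlib
import Fermat.Agent.S20.Defs
import Fermat.Agent.S20.Basic
import Fermat.Agent.S20.LevelOne
import Fermat.Agent.S20.Sym
import Fermat.Agent.S22.Trivial

/-!
# S20 team library: duality (core)

OWNER: helper25 (only the owner edits this file).

Given a homogeneous free basis `f j ∈ MF N (k j)` of `⊕ MF N w` over `⊕ LF w`, the matrix
`G = Δ • (Fmat)⁻¹ᵀ` has first row `g j ∈ SF N (12 - k j)`, and the `g j` form a homogeneous free
basis of the module of cusp forms `⊕ SF N w` over `⊕ LF w`.  Consequences: `k j ≤ 10` and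
`dim SF N 2 = #{j | k j = 10}`.
-/

set_option autoImplicit false

namespace Fermat.Agent.S20

open UpperHalfPlane ModularForm Filter Topology Complex
open scoped MatrixGroups ModularForm Manifold Real

namespace Dual

local notation "Δ" => ModularForm.discriminant

/-! ### Generalities -/

/-- `Δ(σ z) = (cz+d)^12 Δ(z)`. -/
theorem discriminant_smul (σ : SL(2, ℤ)) (z : ℍ) :
    Δ (σ • z) = denom σ z ^ (12 : ℤ) * Δ z := by
  have hσ : (σ : GL (Fin 2) ℝ) ∈ 𝒮ℒ := ⟨σ, rfl⟩
  have h := SlashInvariantForm.slash_action_eqn'' CuspForm.discriminant hσ z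
  simpa using h

theorem mdiff_det {ι : Type} [Fintype ι] [DecidableEq ι] (M : ℍ → Matrix ι ι ℂ)
    (hM : ∀ q j, MDifferentiable 𝓘(ℂ) 𝓘(ℂ) (fun z => M z q j)) :
    MDifferentiable 𝓘(ℂ) 𝓘(ℂ) (fun z => (M z).det) := by
  have : (fun z => (M z).det) =
      ∑ σ : Equiv.Perm ι, (fun z => ((Equiv.Perm.sign σ : ℤ) : ℂ) * ∏ i, M z (σ i) i) := by
    ext z
    rw [Matrix.det_apply, Finset.sum_apply]
    refine Finset.sum_congr rfl fun σ _ => ?_
    simp [Units.smul_def, zsmul_eq_mul]
  rw [this]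
  refine MDifferentiable.sum fun σ _ => ?_
  refine MDifferentiable.mul mdifferentiable_const ?_
  have h2 : (fun z => ∏ i, M z (σ i) i) = ∏ i, (fun z => M z (σ i) i) := by
    ext z; simp
  rw [h2]
  exact MDifferentiable.prod fun i _ => hM (σ i) i

theorem mdiff_inv_apply {ι : Type} [Fintype ι] [DecidableEq ι] (F : ℍ → Matrix ι ι ℂ)
    (hF : ∀ q j, MDifferentiable 𝓘(ℂ) 𝓘(ℂ) (fun z => F z q j)) (hdet : ∀ z, (F z).det ≠ 0)
    (j q : ι) :
    MDifferentiable 𝓘(ℂ) 𝓘(ℂ) (fun z => (F z)⁻¹ j q) := by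
  have h1 : (fun z => (F z)⁻¹ j q) =
      fun z => ((F z).updateRow q (Pi.single j 1)).det / (F z).det := by
    ext z
    rw [Matrix.inv_def, Matrix.smul_apply, Matrix.adjugate_apply, Ring.inverse_eq_inv',
      smul_eq_mul, div_eq_inv_mul]
  rw [h1]
  refine MDifferentiable.div (mdiff_det _ fun a b => ?_) (mdiff_det _ hF) hdet
  by_cases ha : a = q
  · subst ha
    simp only [Matrix.updateRow_self]
    exact mdifferentiable_const
  · simp only [Matrix.updateRow_ne ha]
    exact hF a b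

/-! ### The hypotheses -/

/-- The hypotheses of the duality argument: a homogeneous free basis whose matrix of conjugates
is everywhere invertible, with inverse of controlled growth at `i∞`. -/
structure Hyp (N : ℕ) [NeZero N] (k : Q N → ℤ) (f : Q N → ℍ → ℂ) : Prop where
  basis : IsFreeBasis N k f
  det : ∀ z : ℍ, (Fmat N k f z).det ≠ 0
  decay : ∀ q j : Q N,
    Tendsto (fun z : ℍ => cexp (2 * π * Complex.I * z) * (Fmat N k f z)⁻¹ j q) atImInfty (𝓝 0)

/-! ### The dual matrix -/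

variable {N : ℕ} [NeZero N] {k : Q N → ℤ} {f : Q N → ℍ → ℂ}

/-- The dual matrix `G = Δ • (Fmat)⁻¹ᵀ`. -/
noncomputable def gmat (N : ℕ) [NeZero N] (k : Q N → ℤ) (f : Q N → ℍ → ℂ) (z : ℍ) :
    Matrix (Q N) (Q N) ℂ :=
  fun q j => Δ z * (Fmat N k f z)⁻¹ j q

/-- The dual generators: first row of the dual matrix. -/
noncomputable def gfun (N : ℕ) [NeZero N] (k : Q N → ℤ) (f : Q N → ℍ → ℂ) (j : Q N) : ℍ → ℂ :=
  fun z => gmat N k f z ((1 : SL(2, ℤ)) : Q N) j

theorem isUnit_det (hB : Hyp N k f) (z : ℍ) : IsUnit (Fmat N k f z).det :=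
  isUnit_iff_ne_zero.mpr (hB.det z)

theorem inv_smul_apply (hB : Hyp N k f) (σ : SL(2, ℤ)) (z : ℍ) (j q : Q N) :
    (Fmat N k f (σ • z))⁻¹ j q = denom σ z ^ (-(k j)) * (Fmat N k f z)⁻¹ j (σ⁻¹ • q) := by
  have hd : denom σ z ≠ 0 := denom_ne_zero σ z
  have key : (Fmat N k f (σ • z))⁻¹ =
      (Matrix.of fun j q => denom σ z ^ (-(k j)) * (Fmat N k f z)⁻¹ j (σ⁻¹ • q)) := by
    apply Matrix.inv_eq_left_inv
    ext j j'
    rw [Matrix.mul_apply]
    have h1 : ∀ q, (Matrix.of fun j q => denom σ z ^ (-(k j)) *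
        (Fmat N k f z)⁻¹ j (σ⁻¹ • q)) j q * Fmat N k f (σ • z) q j' =
        denom σ z ^ (-(k j)) * denom σ z ^ (k j') *
          ((Fmat N k f z)⁻¹ j (σ⁻¹ • q) * Fmat N k f z (σ⁻¹ • q) j') := by
      intro q
      rw [Matrix.of_apply, Fmat_smul (fun j => (mem_MF_iff.mp (hB.basis.mem j)).2.1) σ z q j']
      ring
    rw [Finset.sum_congr rfl fun q _ => h1 q, ← Finset.mul_sum]
    have h2 : ∑ q, (Fmat N k f z)⁻¹ j (σ⁻¹ • q) * Fmat N k f z (σ⁻¹ • q) j' =
        ((Fmat N k f z)⁻¹ * Fmat N k f z) j j' := by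
      rw [Matrix.mul_apply]
      exact Equiv.sum_comp (MulAction.toPerm (σ⁻¹ : SL(2, ℤ)))
        fun q => (Fmat N k f z)⁻¹ j q * Fmat N k f z q j'
    rw [h2, Matrix.nonsing_inv_mul _ (isUnit_det hB z)]
    by_cases hj : j = j'
    · subst hj
      rw [Matrix.one_apply_eq, mul_one, ← zpow_add₀ hd]
      simp
    · rw [Matrix.one_apply_ne hj, mul_zero]
  rw [key, Matrix.of_apply]

theorem gmat_smul (hB : Hyp N k f) (σ : SL(2, ℤ)) (z : ℍ) (q j : Q N) :
    gmat N k f (σ • z) q j = denom σ z ^ (12 - k j) * gmat N k f z (σ⁻¹ • q) j := by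
  have hd : denom σ z ≠ 0 := denom_ne_zero σ z
  simp only [gmat]
  rw [inv_smul_apply hB, discriminant_smul, sub_eq_add_neg, zpow_add₀ hd]
  ring

theorem mdiff_Fmat (hB : Hyp N k f) (q j : Q N) :
    MDifferentiable 𝓘(ℂ) 𝓘(ℂ) (fun z => Fmat N k f z q j) :=
  mdiff_cj (mem_MF_iff.mp (hB.basis.mem j)).1 q

theorem mdiff_gmat (hB : Hyp N k f) (q j : Q N) :
    MDifferentiable 𝓘(ℂ) 𝓘(ℂ) (fun z => gmat N k f z q j) := by
  have h1 : MDifferentiable 𝓘(ℂ) 𝓘(ℂ) (fun z => (Fmat N k f z)⁻¹ j q) :=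
    mdiff_inv_apply _ (fun q j => mdiff_Fmat hB q j) hB.det j q
  exact MDifferentiable.mul CuspForm.discriminant.holo' h1

theorem gmat_tendsto_zero (hB : Hyp N k f) (q j : Q N) :
    Tendsto (fun z => gmat N k f z q j) atImInfty (𝓝 0) := by
  have h1 := hB.decay q j
  have h2 := ModularForm.tendsto_atImInfty_tprod_one_sub_eta_q_pow
  have h3 := h1.mul h2
  rw [zero_mul] at h3
  refine h3.congr fun z => ?_
  simp only [gmat]
  rw [ModularForm.discriminant_eq_q_prod]
  simp only [Function.Periodic.qParam, ofReal_one, div_one]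
  ring

omit [NeZero N] in
theorem smul_one_coset_of_mem {γ : SL(2, ℤ)} (hγ : γ ∈ CongruenceSubgroup.Gamma0 N) :
    (γ⁻¹ • ((1 : SL(2, ℤ)) : Q N)) = ((1 : SL(2, ℤ)) : Q N) := by
  rw [MulAction.Quotient.smul_mk, smul_eq_mul, mul_one, QuotientGroup.eq, inv_inv, mul_one]
  exact hγ

theorem gfun_isInv (hB : Hyp N k f) (j : Q N) : IsInv N (12 - k j) (gfun N k f j) := by
  intro γ hγ
  ext z
  rw [SL_slash_apply]
  simp only [gfun]
  rw [gmat_smul hB, smul_one_coset_of_mem hγ, mul_comm, ← mul_assoc,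
    ← zpow_add₀ (denom_ne_zero γ z)]
  simp

theorem cj_gfun (hB : Hyp N k f) (j q : Q N) :
    cj N (12 - k j) (gfun N k f j) q = fun z => gmat N k f z q j := by
  ext z
  simp only [cj]
  rw [SL_slash_apply]
  simp only [gfun]
  rw [gmat_smul hB, inv_inv, MulAction.Quotient.smul_mk, smul_eq_mul, mul_one]
  have hq : ((Quotient.out q : SL(2, ℤ)) : Q N) = q := QuotientGroup.out_eq' q
  rw [hq, mul_comm, ← mul_assoc, ← zpow_add₀ (denom_ne_zero _ z)]
  simp

theorem gfun_mem_SF (hB : Hyp N k f) (j : Q N) : gfun N k f j ∈ SF N (12 - k j) := by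
  rw [mem_SF_iff]
  refine ⟨mdiff_gmat hB _ j, gfun_isInv hB j, fun q => ?_⟩
  rw [cj_gfun hB]
  exact gmat_tendsto_zero hB q j

theorem sum_Fmat_mul_gmat (hB : Hyp N k f) (z : ℍ) (j j' : Q N) :
    ∑ q, Fmat N k f z q j' * gmat N k f z q j = if j = j' then Δ z else 0 := by
  have h1 : ∑ q, Fmat N k f z q j' * gmat N k f z q j =
      Δ z * ((Fmat N k f z)⁻¹ * Fmat N k f z) j j' := by
    rw [Matrix.mul_apply, Finset.mul_sum]
    refine Finset.sum_congr rfl fun q _ => ?_
    simp only [gmat]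
    ring
  rw [h1, Matrix.nonsing_inv_mul _ (isUnit_det hB z), Matrix.one_apply]
  split_ifs <;> simp

theorem sum_gmat_mul_Fmat (hB : Hyp N k f) (z : ℍ) (q q' : Q N) :
    ∑ j, Fmat N k f z q j * gmat N k f z q' j = if q = q' then Δ z else 0 := by
  have h1 : ∑ j, Fmat N k f z q j * gmat N k f z q' j =
      Δ z * (Fmat N k f z * (Fmat N k f z)⁻¹) q q' := by
    rw [Matrix.mul_apply, Finset.mul_sum]
    refine Finset.sum_congr rfl fun j _ => ?_
    simp only [gmat]
    ring
  rw [h1, Matrix.mul_nonsing_inv _ (isUnit_det hB z), Matrix.one_apply]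
  split_ifs <;> simp

theorem gfun_ne_zero (hB : Hyp N k f) (j : Q N) : gfun N k f j ≠ 0 := by
  intro h0
  have hz : ∀ q z, gmat N k f z q j = 0 := by
    intro q z
    have h1 := congrFun (cj_gfun hB j q) z
    rw [h0] at h1
    simp only [cj] at h1
    rw [SlashAction.zero_slash] at h1
    simpa using h1.symm
  have h2 := sum_Fmat_mul_gmat hB UpperHalfPlane.I j j
  rw [if_pos rfl] at h2
  have h3 : ∑ q, Fmat N k f UpperHalfPlane.I q j * gmat N k f UpperHalfPlane.I q j = 0 :=
    Finset.sum_eq_zero fun q _ => by rw [hz q, mul_zero]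
  exact ModularForm.discriminant_ne_zero _ (h2.symm.trans h3)

/-- The weights of a homogeneous free basis are at most `10`. -/
theorem weight_le_ten_of (hB : Hyp N k f) (j : Q N) : k j ≤ 10 := by
  by_contra hlt
  have h12 : 12 - k j ≤ 1 := by omega
  obtain ⟨G, hG⟩ := gfun_mem_SF hB j
  have hG0 : G = 0 := Fermat.Agent.S22.cuspForm_eq_zero_of_le_one N h12 G
  apply gfun_ne_zero hB j
  rw [← hG, hG0]
  rfl

/-- Spanning: every cusp form is an `LF`-combination of the dual generators. -/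
theorem span_gfun (hB : Hyp N k f) (w : ℤ) (h : ℍ → ℂ) (hh : h ∈ SF N w) :
    ∃ r : Q N → ℍ → ℂ, (∀ j, r j ∈ LF (w - (12 - k j))) ∧ h = ∑ j, r j * gfun N k f j := by
  have hex : ∀ j, ∃ s ∈ LF (w - (12 - k j)), trQ N (k j + w) (f j * h) = Δ * s := by
    intro j
    have h1 : f j * h ∈ SF N (k j + w) := mul_mem_SF (hB.basis.mem j) hh
    have h2 : trQ N (k j + w) (f j * h) ∈ LF (k j + w) := trQ_mem_LF (SF_le_MF N _ h1)
    obtain ⟨s, hs, hs'⟩ := lo_cusp h2 (trQ_tendsto_zero h1)
    refine ⟨s, ?_, hs'⟩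
    have : w - (12 - k j) = k j + w - 12 := by ring
    rw [this]
    exact hs
  choose r hr hr' using hex
  refine ⟨r, hr, ?_⟩
  have hinv : IsInv N w h := (mem_SF_iff.mp hh).2.1
  ext z
  rw [Finset.sum_apply]
  have h3 : ∀ j, (r j * gfun N k f j) z =
      ∑ q, cj N w h q z * (Fmat N k f z q j * (Fmat N k f z)⁻¹ j ((1 : SL(2, ℤ)) : Q N)) := by
    intro j
    have h4 := congrFun (hr' j) z
    simp only [trQ, Finset.sum_apply, Pi.mul_apply] at h4
    rw [Pi.mul_apply]
    simp only [gfun, gmat]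
    rw [← mul_assoc, mul_comm (r j z), ← h4, Finset.sum_mul]
    refine Finset.sum_congr rfl fun q _ => ?_
    rw [cj_mul]
    simp only [Pi.mul_apply, Fmat]
    ring
  rw [Finset.sum_congr rfl fun j _ => h3 j, Finset.sum_comm]
  have h5 : ∀ q, ∑ j, cj N w h q z *
      (Fmat N k f z q j * (Fmat N k f z)⁻¹ j ((1 : SL(2, ℤ)) : Q N)) =
      cj N w h q z * (if q = ((1 : SL(2, ℤ)) : Q N) then 1 else 0) := by
    intro q
    rw [← Finset.mul_sum]
    congr 1
    have := Matrix.mul_nonsing_inv _ (isUnit_det hB z)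
    have h6 := congrFun (congrFun this q) ((1 : SL(2, ℤ)) : Q N)
    rw [Matrix.mul_apply, Matrix.one_apply] at h6
    exact h6
  rw [Finset.sum_congr rfl fun q _ => h5 q]
  simp only [mul_ite, mul_one, mul_zero, Finset.sum_ite_eq', Finset.mem_univ, if_true]
  rw [cj_one hinv]

/-- Independence of the dual generators over `LF`. -/
theorem indep_gfun (hB : Hyp N k f) (w : ℤ) (r : Q N → ℍ → ℂ)
    (hr : ∀ j, r j ∈ LF (w - (12 - k j))) (h0 : ∑ j, r j * gfun N k f j = 0) :
    ∀ j, r j = 0 := by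
  have hq : ∀ q z, ∑ j, r j z * gmat N k f z q j = 0 := by
    intro q z
    have h1 : cj N w (∑ j, r j * gfun N k f j) q = 0 := by
      rw [h0]
      simp only [cj]
      rw [SlashAction.zero_slash]
    rw [cj_sum] at h1
    have h2 : ∀ j, cj N w (r j * gfun N k f j) q = r j * fun z => gmat N k f z q j := by
      intro j
      have hw : w = (w - (12 - k j)) + (12 - k j) := by ring
      have h3 : cj N w (r j * gfun N k f j) q =
          cj N ((w - (12 - k j)) + (12 - k j)) (r j * gfun N k f j) q := by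
        rw [← hw]
      rw [h3, cj_mul, cj_gfun hB, cj_of_isInvOne (mem_LF_iff.mp (hr j)).2.1]
    rw [Finset.sum_congr rfl fun j _ => h2 j] at h1
    have h4 := congrFun h1 z
    simpa [Finset.sum_apply] using h4
  intro j'
  ext z
  have h5 : ∑ q, Fmat N k f z q j' * ∑ j, r j z * gmat N k f z q j = 0 :=
    Finset.sum_eq_zero fun q _ => by rw [hq q z, mul_zero]
  have h6 : ∑ q, Fmat N k f z q j' * ∑ j, r j z * gmat N k f z q j =
      ∑ j, r j z * ∑ q, Fmat N k f z q j' * gmat N k f z q j := by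
    simp_rw [Finset.mul_sum]
    rw [Finset.sum_comm]
    refine Finset.sum_congr rfl fun j _ => Finset.sum_congr rfl fun q _ => ?_
    ring
  rw [h6] at h5
  simp_rw [sum_Fmat_mul_gmat hB] at h5
  simp only [mul_ite, mul_zero, Finset.sum_ite_eq', Finset.mem_univ, if_true] at h5
  rcases mul_eq_zero.mp h5 with h7 | h7
  · simpa using h7
  · exact absurd h7 (ModularForm.discriminant_ne_zero z)

/-- For `k j ≠ 10` the coefficient of a weight two cusp form along `gfun j` vanishes, and for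
`k j = 10` it is a constant. -/
theorem coeff_const (hB : Hyp N k f) (r : Q N → ℍ → ℂ)
    (hr : ∀ j, r j ∈ LF (2 - (12 - k j))) (j : Q N) :
    r j = fun _ => (if k j = 10 then r j UpperHalfPlane.I else 0) := by
  by_cases hj : k j = 10
  · have h0 : (2 : ℤ) - (12 - k j) = 0 := by omega
    have h1 := hr j
    rw [h0] at h1
    obtain ⟨c, hc⟩ := lo_weight_zero h1
    rw [if_pos hj, hc]
    rfl
  · have hle := weight_le_ten_of hB j
    have hlt : (2 : ℤ) - (12 - k j) < 0 := by omega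
    have h1 := hr j
    rw [lo_neg_weight hlt, Submodule.mem_bot] at h1
    rw [if_neg hj, h1]
    rfl

/-- The linear map `c ↦ ∑_{k j = 10} c j • gfun j`. -/
noncomputable def combo (N : ℕ) [NeZero N] (k : Q N → ℤ) (f : Q N → ℍ → ℂ) :
    ({j : Q N // k j = 10} → ℂ) →ₗ[ℂ] (ℍ → ℂ) :=
  Fintype.linearCombination ℂ (fun j : {j : Q N // k j = 10} => gfun N k f j.1)

theorem combo_apply (c : {j : Q N // k j = 10} → ℂ) :
    combo N k f c = ∑ j : {j : Q N // k j = 10}, c j • gfun N k f j.1 := by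
  simp [combo, Fintype.linearCombination_apply]

theorem combo_mem (hB : Hyp N k f) (c : {j : Q N // k j = 10} → ℂ) :
    combo N k f c ∈ SF N 2 := by
  rw [combo_apply]
  refine Submodule.sum_mem _ fun j _ => Submodule.smul_mem _ _ ?_
  have h1 := gfun_mem_SF hB j.1
  have h2 : (12 : ℤ) - k j.1 = 2 := by rw [j.2]; norm_num
  rw [h2] at h1
  exact h1

/-- Conversion between a sum over all indices with coefficients supported on `k j = 10` and the
sum over the subtype. -/
theorem sum_eq_combo (c : Q N → ℂ) :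
    ∑ j, (fun _ : ℍ => (if k j = 10 then c j else 0)) * gfun N k f j =
      combo N k f (fun j => c j.1) := by
  rw [combo_apply]
  have h1 : ∑ j, (fun _ : ℍ => (if k j = 10 then c j else 0)) * gfun N k f j =
      ∑ j ∈ Finset.univ.filter (fun j : Q N => k j = 10), c j • gfun N k f j := by
    rw [Finset.sum_filter]
    refine Finset.sum_congr rfl fun j _ => ?_
    split_ifs with hj
    · ext z
      simp
    · ext z
      simp
  rw [h1]
  exact Finset.sum_subtype (Finset.univ.filter (fun j : Q N => k j = 10)) (by simp)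
    (fun j => c j • gfun N k f j)

theorem combo_injective (hB : Hyp N k f) : Function.Injective (combo N k f) := by
  rw [← LinearMap.ker_eq_bot, LinearMap.ker_eq_bot']
  intro c hc
  classical
  let c' : Q N → ℂ := fun j => if h : k j = 10 then c ⟨j, h⟩ else 0
  have hc' : (fun j : {j : Q N // k j = 10} => c' j.1) = c := by
    ext j
    simp only [c']
    rw [dif_pos j.2]
  have h1 := sum_eq_combo (N := N) (k := k) (f := f) c'
  rw [hc', hc] at h1
  have h2 := indep_gfun hB 2 (fun j => fun _ : ℍ => (if k j = 10 then c' j else 0)) (fun j => by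
    by_cases hj : k j = 10
    · have h0 : (2 : ℤ) - (12 - k j) = 0 := by omega
      rw [h0]
      exact const_mem_LF _
    · simp only [if_neg hj]
      exact Submodule.zero_mem _) h1
  ext j
  have h3 := congrFun (h2 j.1) UpperHalfPlane.I
  simp only [if_pos j.2, Pi.zero_apply] at h3
  simp only [c', dif_pos j.2] at h3
  simpa using h3

theorem combo_surjective (hB : Hyp N k f) (h : ℍ → ℂ) (hh : h ∈ SF N 2) :
    ∃ c, combo N k f c = h := by
  obtain ⟨r, hr, hr'⟩ := span_gfun hB 2 h hh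
  refine ⟨fun j => r j.1 UpperHalfPlane.I, ?_⟩
  rw [← sum_eq_combo (N := N) (k := k) (f := f) (fun j => r j UpperHalfPlane.I), hr']
  refine Finset.sum_congr rfl fun j _ => ?_
  rw [← coeff_const hB r hr j]

/-- Duality: `dim S₂(Γ₀(N))` is the number of basis elements of weight `10`. -/
theorem finrank_S2_of (hB : Hyp N k f) :
    Module.finrank ℂ (SF N 2) = (Finset.univ.filter fun j : Q N => k j = 10).card := by
  classical
  let Ψ : ({j : Q N // k j = 10} → ℂ) →ₗ[ℂ] SF N 2 :=
    LinearMap.codRestrict (SF N 2) (combo N k f) (combo_mem hB)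
  have hinj : Function.Injective Ψ := by
    intro a b hab
    apply combo_injective hB
    have := congrArg Subtype.val hab
    simpa [Ψ] using this
  have hsurj : Function.Surjective Ψ := by
    rintro ⟨h, hh⟩
    obtain ⟨c, hc⟩ := combo_surjective hB h hh
    exact ⟨c, Subtype.ext (by simpa [Ψ] using hc)⟩
  have e := LinearEquiv.ofBijective Ψ ⟨hinj, hsurj⟩
  rw [← e.finrank_eq, Module.finrank_fintype_fun_eq_card, Fintype.card_subtype]

end Dual

end Fermat.Agent.S20
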