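import Fermat.Agent.S20.Defs

/-!
# S20 team library: the elliptic points `i` and `ρ`  (OWNER: helper58)

For a homogeneous free basis `f j ∈ MF N (k j)` whose matrix of conjugates `Fmat N k f z` is
invertible at every point of `ℍ`, evaluating the equivariance
`Fmat z (γ⁻¹ • q) j = Fmat z q j * (denom γ z) ^ (-k j)` at a fixed point `z` of `γ` shows that
the permutation matrix of `γ⁻¹` on `Q N` is conjugate to `diag ((denom γ z) ^ (-k j))`; taking
traces gives `∑ j, (denom γ z) ^ (-k j) = #Fix(γ)`.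

* `γ = S`, `z = i`, `denom = i`:  `#{k j ≡ 0 mod 4} - #{k j ≡ 2 mod 4} = #Fix(S)`;
* `γ = S * T`, `z = ρ`, `denom = ρ + 1 = e^{πi/3}`:
  `#{k j ≡ 2 mod 6} = #{k j ≡ 4 mod 6}` and `#{k j ≡ 0 mod 6} - #{k j ≡ 2 mod 6} = #Fix(S * T)`.

All auxiliary declarations carry the prefix `ell`.
-/

set_option autoImplicit false

namespace Fermat.Agent.S20

open UpperHalfPlane ModularGroup ModularForm
open scoped MatrixGroups ModularForm

/-! ### Abstract linear algebra -/

/-- Abstract trace identity: if an invertible matrix `F` satisfies `F (σ q) j = F q j * d j`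
for a permutation `σ` of the row index, then `∑ j, d j` is the number of fixed points of `σ`. -/
theorem ell_sum_eq_card_fixed {ι : Type*} [Fintype ι] [DecidableEq ι]
    (F : Matrix ι ι ℂ) (hF : F.det ≠ 0) (σ : Equiv.Perm ι) (d : ι → ℂ)
    (h : ∀ q j, F (σ q) j = F q j * d j) :
    ∑ j, d j = ((Function.fixedPoints σ).ncard : ℂ) := by
  have hmul : σ.permMatrix ℂ * F = F * Matrix.diagonal d := by
    ext q j
    rw [PEquiv.toMatrix_toPEquiv_mul, Matrix.mul_diagonal]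
    simpa using h q j
  have hunit : IsUnit F.det := isUnit_iff_ne_zero.mpr hF
  have hP : σ.permMatrix ℂ = F * Matrix.diagonal d * F⁻¹ := by
    rw [← hmul, Matrix.mul_assoc, Matrix.mul_nonsing_inv _ hunit, Matrix.mul_one]
  have htr : Matrix.trace (σ.permMatrix ℂ) = ∑ j, d j := by
    rw [hP, Matrix.trace_mul_comm, ← Matrix.mul_assoc, Matrix.nonsing_inv_mul _ hunit,
      Matrix.one_mul, Matrix.trace_diagonal]
  rw [← htr, Matrix.trace_permutation]

/-! ### Roots of unity bookkeeping -/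

/-- `I ^ (-k)` for even `k`, by residue of `k` mod 4. -/
theorem ell_I_zpow_neg (k : ℤ) (hk : Even k) :
    (Complex.I : ℂ) ^ (-k) = if k % 4 = 0 then 1 else -1 := by
  obtain ⟨m, rfl⟩ := hk
  have hI2 : (Complex.I : ℂ) ^ (2 : ℤ) = -1 := by
    rw [zpow_ofNat, Complex.I_sq]
  have h1 : (Complex.I : ℂ) ^ (-(m + m)) = (-1 : ℂ) ^ (-m) := by
    have : -(m + m) = 2 * (-m) := by ring
    rw [this, zpow_mul, hI2]
  rw [h1]
  rcases Int.even_or_odd m with ⟨t, rfl⟩ | ⟨t, rfl⟩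
  · have h4 : (t + t + (t + t)) % 4 = 0 := by omega
    rw [if_pos h4]
    have : -(t + t) = 2 * (-t) := by ring
    rw [this, zpow_mul]
    norm_num
  · have h4 : ¬ ((2 * t + 1 + (2 * t + 1)) % 4 = 0) := by omega
    rw [if_neg h4]
    have : -(2 * t + 1) = 2 * (-t - 1) + 1 := by ring
    rw [this, zpow_add₀ (by norm_num : (-1 : ℂ) ≠ 0), zpow_mul]
    norm_num

/-- `ζ ^ (-k)` for even `k` and a primitive sixth root of unity `ζ` (`ζ² = ζ - 1`),
by residue of `k` mod 6. -/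
theorem ell_zeta_zpow_neg (ζ : ℂ) (hζ : ζ ^ 2 = ζ - 1) (k : ℤ) (hk : Even k) :
    ζ ^ (-k) = if k % 6 = 0 then 1 else if k % 6 = 2 then -ζ else ζ - 1 := by
  have h3 : ζ ^ 3 = -1 := by linear_combination (ζ + 1) * hζ
  have h6 : ζ ^ 6 = 1 := by linear_combination (ζ ^ 3 - 1) * h3
  have hζ0 : ζ ≠ 0 := by
    rintro rfl
    norm_num at h6
  have h6z : ζ ^ (6 : ℤ) = 1 := by
    rw [zpow_ofNat, h6]
  obtain ⟨m, rfl⟩ := hk
  have key : ∀ (q r : ℤ), ζ ^ (-(6 * q + r)) = ζ ^ (-r) := by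
    intro q r
    have : -(6 * q + r) = 6 * (-q) + (-r) := by ring
    rw [this, zpow_add₀ hζ0, zpow_mul, h6z, one_zpow, one_mul]
  have hm : (m + m) % 6 = 0 ∨ (m + m) % 6 = 2 ∨ (m + m) % 6 = 4 := by omega
  have hdecomp : m + m = 6 * ((m + m) / 6) + (m + m) % 6 := by omega
  have h6' : ζ ^ (-6 : ℤ) = 1 := by
    rw [zpow_neg, h6z, inv_one]
  rcases hm with h | h | h
  · rw [if_pos h, hdecomp, key, h]; simp
  · rw [if_neg (by omega), if_pos h, hdecomp, key, h]
    have : ζ ^ (-2 : ℤ) = ζ ^ (-6 : ℤ) * ζ ^ (4 : ℤ) := by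
      rw [← zpow_add₀ hζ0]; norm_num
    rw [this, h6', one_mul, zpow_ofNat]
    linear_combination ζ * h3
  · rw [if_neg (by omega), if_neg (by omega), hdecomp, key, h]
    have : ζ ^ (-4 : ℤ) = ζ ^ (-6 : ℤ) * ζ ^ (2 : ℤ) := by
      rw [← zpow_add₀ hζ0]; norm_num
    rw [this, h6', one_mul, zpow_ofNat, hζ]

/-- Counting consequence of `∑ I ^ (-k j) = n` for even weights. -/
theorem ell_S_count {ι : Type*} [Fintype ι] (k : ι → ℤ) (hk : ∀ j, Even (k j)) (n : ℕ)
    (h : ∑ j, (Complex.I : ℂ) ^ (-(k j)) = n) :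
    ((Finset.univ.filter fun j => k j % 4 = 0).card : ℤ) -
      (Finset.univ.filter fun j => k j % 4 = 2).card = n := by
  classical
  have h2 : ∀ j, ¬ k j % 4 = 0 ↔ k j % 4 = 2 := by
    intro j
    obtain ⟨m, hm⟩ := hk j
    omega
  have hsum : ∑ j, (Complex.I : ℂ) ^ (-(k j)) =
      ((Finset.univ.filter fun j => k j % 4 = 0).card : ℂ) -
        (Finset.univ.filter fun j => k j % 4 = 2).card := by
    simp_rw [fun j => ell_I_zpow_neg (k j) (hk j)]
    rw [Finset.sum_ite, Finset.sum_const, Finset.sum_const]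
    simp only [h2, nsmul_eq_mul, mul_one, mul_neg]
    ring
  rw [hsum] at h
  exact_mod_cast h

/-- Counting consequence of `∑ ζ ^ (-k j) = n` for even weights and a non-real `ζ` with
`ζ² = ζ - 1`. -/
theorem ell_ST_count {ι : Type*} [Fintype ι] (ζ : ℂ) (hζ : ζ ^ 2 = ζ - 1) (hζim : ζ.im ≠ 0)
    (k : ι → ℤ) (hk : ∀ j, Even (k j)) (n : ℕ)
    (h : ∑ j, ζ ^ (-(k j)) = n) :
    (Finset.univ.filter fun j => k j % 6 = 2).card =
        (Finset.univ.filter fun j => k j % 6 = 4).card ∧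
      ((Finset.univ.filter fun j => k j % 6 = 0).card : ℤ) -
        (Finset.univ.filter fun j => k j % 6 = 2).card = n := by
  classical
  set a0 := (Finset.univ.filter fun j => k j % 6 = 0).card with ha0
  set a2 := (Finset.univ.filter fun j => k j % 6 = 2).card with ha2
  set a4 := (Finset.univ.filter fun j => k j % 6 = 4).card with ha4
  have hsum : ∑ j, ζ ^ (-(k j)) = (a0 : ℂ) + a2 * (-ζ) + a4 * (ζ - 1) := by
    have hterm : ∀ j, ζ ^ (-(k j)) =
        (if k j % 6 = 0 then (1 : ℂ) else 0) + (if k j % 6 = 2 then -ζ else 0) +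
          (if k j % 6 = 4 then ζ - 1 else 0) := by
      intro j
      rw [ell_zeta_zpow_neg ζ hζ (k j) (hk j)]
      obtain ⟨m, hm⟩ := hk j
      have hm' : k j % 6 = 0 ∨ k j % 6 = 2 ∨ k j % 6 = 4 := by omega
      rcases hm' with h' | h' | h' <;> simp [h']
    simp_rw [hterm]
    rw [Finset.sum_add_distrib, Finset.sum_add_distrib, ← Finset.sum_filter, ← Finset.sum_filter,
      ← Finset.sum_filter, Finset.sum_const, Finset.sum_const, Finset.sum_const]
    simp only [nsmul_eq_mul, mul_one]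
    rfl
  rw [hsum] at h
  have him := congrArg Complex.im h
  have hre := congrArg Complex.re h
  simp only [Complex.add_im, Complex.mul_im, Complex.natCast_im, Complex.natCast_re,
    Complex.neg_im, Complex.neg_re, Complex.sub_im, Complex.sub_re, Complex.one_im,
    Complex.one_re, Complex.add_re, Complex.mul_re] at him hre
  have h24 : (a4 : ℝ) = a2 := by
    have : ((a4 : ℝ) - a2) * ζ.im = 0 := by linarith
    rcases mul_eq_zero.mp this with h' | h'
    · linarith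
    · exact absurd h' hζim
  have h24' : a4 = a2 := by exact_mod_cast h24
  refine ⟨h24'.symm, ?_⟩
  have : (a0 : ℝ) - a2 = n := by
    rw [h24] at hre
    nlinarith
  exact_mod_cast this

/-! ### The two elliptic points -/

/-- The elliptic point `ρ = e^{2πi/3}` of order 3. -/
noncomputable def ellRho : ℍ :=
  ⟨-1 / 2 + (Real.sqrt 3 / 2) * Complex.I, by
    simp⟩

theorem ellRho_coe : (ellRho : ℂ) = -1 / 2 + (Real.sqrt 3 / 2) * Complex.I := rfl

/-- `ζ = ρ + 1 = e^{πi/3}` satisfies `ζ² = ζ - 1`. -/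
theorem ell_zeta_sq : ((ellRho : ℂ) + 1) ^ 2 = ((ellRho : ℂ) + 1) - 1 := by
  rw [ellRho_coe]
  have h3 : ((Real.sqrt 3 : ℝ) : ℂ) ^ 2 = 3 := by
    norm_cast
    exact Real.sq_sqrt (by norm_num)
  linear_combination (-(1 : ℂ) / 4) * h3 + (((Real.sqrt 3 : ℝ) : ℂ) ^ 2 / 4) * Complex.I_sq

theorem ell_zeta_im : (((ellRho : ℂ) + 1)).im ≠ 0 := by
  rw [ellRho_coe]
  simp

theorem ell_S_smul_I : S • UpperHalfPlane.I = UpperHalfPlane.I := by
  rw [UpperHalfPlane.ext_iff, modular_S_smul]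
  simp [UpperHalfPlane.I]

theorem ell_denom_S_I : denom (S : SL(2, ℤ)) (UpperHalfPlane.I : ℍ) = Complex.I := by
  rw [ModularGroup.denom_S]
  rfl

theorem ell_denom_ST (z : ℍ) : denom ((S * T : SL(2, ℤ))) z = (z : ℂ) + 1 := by
  have h10 : ((S * T : SL(2, ℤ)) 1 0 : ℤ) = 1 := by
    rw [Matrix.SpecialLinearGroup.coe_mul, ModularGroup.coe_S, ModularGroup.coe_T]
    simp [Matrix.mul_apply, Fin.sum_univ_two]
  have h11 : ((S * T : SL(2, ℤ)) 1 1 : ℤ) = 1 := by
    rw [Matrix.SpecialLinearGroup.coe_mul, ModularGroup.coe_S, ModularGroup.coe_T]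
    simp [Matrix.mul_apply, Fin.sum_univ_two]
  simp only [denom, Matrix.SpecialLinearGroup.coe_GL_coe_matrix,
    Matrix.SpecialLinearGroup.map_apply_coe, RingHom.mapMatrix_apply, Int.coe_castRingHom,
    Matrix.map_apply]
  rw [h10, h11]
  simp

theorem ell_ST_smul_rho : (S * T) • ellRho = ellRho := by
  rw [mul_smul, modular_T_smul, UpperHalfPlane.ext_iff, modular_S_smul]
  simp only [UpperHalfPlane.coe_vadd]
  have h := ell_zeta_sq
  have hne : (1 : ℂ) + (ellRho : ℂ) ≠ 0 := by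
    intro h0
    have := ell_zeta_im
    rw [add_comm] at h0
    rw [h0] at this
    simp at this
  push_cast
  rw [inv_eq_iff_eq_inv, eq_comm, inv_eq_iff_eq_inv, ← one_div, eq_div_iff (by
    intro h0
    apply hne
    linear_combination -h0)]
  linear_combination -h

/-! ### Equivariance of the conjugates -/

/-- Members of `MF N w` are `Γ₀(N)`-invariant of weight `w`. -/
theorem ell_isInv_of_mem_MF (N : ℕ) (w : ℤ) (f : ℍ → ℂ) (hf : f ∈ MF N w) : IsInv N w f := by
  obtain ⟨F, rfl⟩ := hf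
  intro γ hγ
  exact SlashInvariantForm.slash_action_eqn F _ (Subgroup.mem_map_of_mem _ hγ)

/-- Conjugates are permuted by the slash action: `(cj f q) ∣ γ = cj f (γ⁻¹ • q)`. -/
theorem ell_cj_slash (N : ℕ) (w : ℤ) (f : ℍ → ℂ) (hf : IsInv N w f) (q : Q N) (γ : SL(2, ℤ)) :
    cj N w f q ∣[w] γ = cj N w f (γ⁻¹ • q) := by
  unfold cj
  set g : SL(2, ℤ) := Quotient.out q with hg
  set g' : SL(2, ℤ) := Quotient.out (γ⁻¹ • q) with hg'
  have hq : (QuotientGroup.mk g : Q N) = q := Quotient.out_eq q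
  have hq' : (QuotientGroup.mk g' : Q N) = γ⁻¹ • q := Quotient.out_eq _
  have hmem : g'⁻¹ * (γ⁻¹ * g) ∈ CongruenceSubgroup.Gamma0 N := by
    rw [← QuotientGroup.eq, hq', ← hq]
    rfl
  have hmem' : (g'⁻¹ * (γ⁻¹ * g))⁻¹ ∈ CongruenceSubgroup.Gamma0 N := inv_mem hmem
  have hprod : g⁻¹ * γ = (g'⁻¹ * (γ⁻¹ * g))⁻¹ * g'⁻¹ := by
    group
  rw [← SlashAction.slash_mul, hprod, SlashAction.slash_mul, hf _ hmem']

/-- At a fixed point `z` of `γ`, the rows of `Fmat` are permuted up to the automorphy factor. -/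
theorem ell_Fmat_fixed (N : ℕ) (k : Q N → ℤ) (f : Q N → ℍ → ℂ)
    (hf : ∀ j, IsInv N (k j) (f j)) (γ : SL(2, ℤ)) (z : ℍ) (hz : γ • z = z) (q j : Q N) :
    Fmat N k f z (γ⁻¹ • q) j = Fmat N k f z q j * denom γ z ^ (-(k j)) := by
  unfold Fmat
  rw [← ell_cj_slash N (k j) (f j) (hf j) q γ, ModularForm.SL_slash_apply, hz]

/-- The trace identity at a fixed point: `∑ j, (denom γ z) ^ (-k j) = #Fix(γ on Q N)`. -/
theorem ell_sum_denom (N : ℕ) [NeZero N] (k : Q N → ℤ) (f : Q N → ℍ → ℂ)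
    (hf : ∀ j, IsInv N (k j) (f j)) (γ : SL(2, ℤ)) (z : ℍ) (hz : γ • z = z)
    (hdet : (Fmat N k f z).det ≠ 0) :
    ∑ j, denom γ z ^ (-(k j)) = (Nat.card (MulAction.fixedBy (Q N) γ) : ℂ) := by
  have h := ell_sum_eq_card_fixed (Fmat N k f z) hdet (MulAction.toPerm γ⁻¹)
    (fun j => denom γ z ^ (-(k j))) (fun q j => ell_Fmat_fixed N k f hf γ z hz q j)
  rw [h]
  congr 1
  have hset : Function.fixedPoints (MulAction.toPerm γ⁻¹ : Equiv.Perm (Q N)) =
      MulAction.fixedBy (Q N) γ := by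
    ext q
    simp only [Function.mem_fixedPoints, Function.IsFixedPt, MulAction.toPerm_apply,
      MulAction.mem_fixedBy]
    rw [inv_smul_eq_iff, eq_comm]
  rw [hset, Nat.card_coe_set_eq]

/-- The weights of a family with invertible matrix of conjugates are even. -/
theorem ell_even (N : ℕ) [NeZero N] (k : Q N → ℤ) (f : Q N → ℍ → ℂ)
    (hmem : ∀ j, f j ∈ MF N (k j)) (z : ℍ) (hdet : (Fmat N k f z).det ≠ 0) (j : Q N) :
    Even (k j) := by
  by_contra hodd
  rw [Int.not_even_iff_odd] at hodd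
  apply hdet
  obtain ⟨F, hF⟩ := hmem j
  have hneg : (-1 : GL (Fin 2) ℝ) ∈
      ((CongruenceSubgroup.Gamma0 N : Subgroup SL(2, ℤ)) : Subgroup (GL (Fin 2) ℝ)) := by
    refine ⟨-1, ?_, by ext; simp⟩
    simp [CongruenceSubgroup.Gamma0_mem]
  have hF0 : F = 0 := ModularForm.eq_zero_of_neg_one_mem hneg hodd F
  have hfj : f j = 0 := by
    rw [← hF, hF0]
    rfl
  apply Matrix.det_eq_zero_of_column_eq_zero j
  intro q
  unfold Fmat cj
  rw [hfj, SlashAction.zero_slash]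
  rfl

/-! ### Main statements -/

/-- Elliptic point `i`: `#{j | k j ≡ 0 mod 4} - #{j | k j ≡ 2 mod 4} = #Fix(S)`. -/
theorem elliptic_S (N : ℕ) [NeZero N] (k : Q N → ℤ) (f : Q N → ℍ → ℂ)
    (hmem : ∀ j, f j ∈ MF N (k j)) (hdet : ∀ z : ℍ, (Fmat N k f z).det ≠ 0) :
    ((Finset.univ.filter fun j => k j % 4 = 0).card : ℤ) -
        (Finset.univ.filter fun j => k j % 4 = 2).card =
      Nat.card (MulAction.fixedBy (Q N) ModularGroup.S) := by
  have hinv : ∀ j, IsInv N (k j) (f j) := fun j => ell_isInv_of_mem_MF N (k j) (f j) (hmem j)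
  have heven : ∀ j, Even (k j) := fun j => ell_even N k f hmem UpperHalfPlane.I (hdet _) j
  have h := ell_sum_denom N k f hinv S UpperHalfPlane.I ell_S_smul_I (hdet _)
  rw [ell_denom_S_I] at h
  exact ell_S_count k heven _ h

/-- Elliptic point `ρ`: `#{j | k j ≡ 2 mod 6} = #{j | k j ≡ 4 mod 6}` and
`#{j | k j ≡ 0 mod 6} - #{j | k j ≡ 2 mod 6} = #Fix(S * T)`. -/
theorem elliptic_ST (N : ℕ) [NeZero N] (k : Q N → ℤ) (f : Q N → ℍ → ℂ)
    (hmem : ∀ j, f j ∈ MF N (k j)) (hdet : ∀ z : ℍ, (Fmat N k f z).det ≠ 0) :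
    (Finset.univ.filter fun j => k j % 6 = 2).card =
        (Finset.univ.filter fun j => k j % 6 = 4).card ∧
      ((Finset.univ.filter fun j => k j % 6 = 0).card : ℤ) -
          (Finset.univ.filter fun j => k j % 6 = 2).card =
        Nat.card (MulAction.fixedBy (Q N) (ModularGroup.S * ModularGroup.T)) := by
  have hinv : ∀ j, IsInv N (k j) (f j) := fun j => ell_isInv_of_mem_MF N (k j) (f j) (hmem j)
  have heven : ∀ j, Even (k j) := fun j => ell_even N k f hmem UpperHalfPlane.I (hdet _) j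
  have h := ell_sum_denom N k f hinv (S * T) ellRho ell_ST_smul_rho (hdet _)
  rw [ell_denom_ST] at h
  exact ell_ST_count _ ell_zeta_sq ell_zeta_im k heven _ h

end Fermat.Agent.S20
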