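import Mathlib
import Fermat.Prelude.Def_ModularCurve_GenusNumerics

/-!
# First-column model of `SL(2, ℤ) ⧸ Γ₀(N)`

Left cosets `g Γ₀(N)` are determined by the first column `(a, c) = (g 0 0, g 1 0)` of `g`
up to the relation `N ∣ a * c₁ - c * a₁`.  All statements are phrased with integer
divisibility so that the later counting arguments are elementary.
-/

namespace Fermat.Agent.S20.CosetModel

open Matrix MatrixGroups CongruenceSubgroup

/-- First column of a product in `SL(2, ℤ)`. -/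
theorem mul_apply_col0 (x g : SL(2, ℤ)) (i : Fin 2) :
    (x * g) i 0 = x i 0 * g 0 0 + x i 1 * g 1 0 := by
  simp [Matrix.SpecialLinearGroup.coe_mul, Matrix.mul_apply, Fin.sum_univ_two]

/-- `(g⁻¹ * h) 1 0` in terms of the first columns. -/
theorem inv_mul_apply_one_zero (g h : SL(2, ℤ)) :
    (g⁻¹ * h) 1 0 = g 0 0 * h 1 0 - g 1 0 * h 0 0 := by
  rw [mul_apply_col0, Matrix.SpecialLinearGroup.SL2_inv_expl g]
  simp
  ring

/-- Coset equality in `SL(2, ℤ) ⧸ Γ₀(N)` in terms of the first columns. -/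
theorem mk_eq_mk_iff (N : ℕ) (g h : SL(2, ℤ)) :
    (QuotientGroup.mk g : SL(2, ℤ) ⧸ Gamma0 N) = QuotientGroup.mk h ↔
      (N : ℤ) ∣ g 0 0 * h 1 0 - g 1 0 * h 0 0 := by
  rw [QuotientGroup.eq, Gamma0_mem, ZMod.intCast_zmod_eq_zero_iff_dvd, inv_mul_apply_one_zero]

theorem smul_mk (N : ℕ) (x g : SL(2, ℤ)) :
    x • (QuotientGroup.mk g : SL(2, ℤ) ⧸ Gamma0 N) = QuotientGroup.mk (x * g) := rfl

theorem T_zpow_mul_apply_zero_zero (k : ℤ) (g : SL(2, ℤ)) :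
    (ModularGroup.T ^ k * g) 0 0 = g 0 0 + k * g 1 0 := by
  rw [mul_apply_col0, ModularGroup.coe_T_zpow]
  simp

theorem T_zpow_mul_apply_one_zero (k : ℤ) (g : SL(2, ℤ)) :
    (ModularGroup.T ^ k * g) 1 0 = g 1 0 := by
  rw [mul_apply_col0, ModularGroup.coe_T_zpow]
  simp

theorem S_mul_apply_zero_zero (g : SL(2, ℤ)) : (ModularGroup.S * g) 0 0 = - g 1 0 := by
  rw [mul_apply_col0, ModularGroup.coe_S]
  simp

theorem S_mul_apply_one_zero (g : SL(2, ℤ)) : (ModularGroup.S * g) 1 0 = g 0 0 := by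
  rw [mul_apply_col0, ModularGroup.coe_S]
  simp

theorem T_mul_apply_zero_zero (g : SL(2, ℤ)) : (ModularGroup.T * g) 0 0 = g 0 0 + g 1 0 := by
  rw [mul_apply_col0, ModularGroup.coe_T]
  simp

theorem T_mul_apply_one_zero (g : SL(2, ℤ)) : (ModularGroup.T * g) 1 0 = g 1 0 := by
  rw [mul_apply_col0, ModularGroup.coe_T]
  simp

/-- `T ^ k • gΓ₀(N) = hΓ₀(N)` in terms of first columns. -/
theorem T_zpow_smul_mk_eq_iff (N : ℕ) (k : ℤ) (g h : SL(2, ℤ)) :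
    ModularGroup.T ^ k • (QuotientGroup.mk g : SL(2, ℤ) ⧸ Gamma0 N) = QuotientGroup.mk h ↔
      (N : ℤ) ∣ (g 0 0 + k * g 1 0) * h 1 0 - g 1 0 * h 0 0 := by
  rw [smul_mk, mk_eq_mk_iff, T_zpow_mul_apply_zero_zero, T_zpow_mul_apply_one_zero]

/-- `S • gΓ₀(N) = hΓ₀(N)` in terms of first columns. -/
theorem S_smul_mk_eq_iff (N : ℕ) (g h : SL(2, ℤ)) :
    ModularGroup.S • (QuotientGroup.mk g : SL(2, ℤ) ⧸ Gamma0 N) = QuotientGroup.mk h ↔
      (N : ℤ) ∣ g 1 0 * h 1 0 + g 0 0 * h 0 0 := by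
  rw [smul_mk, mk_eq_mk_iff, S_mul_apply_zero_zero, S_mul_apply_one_zero, ← dvd_neg]
  ring_nf

/-- `(S * T) • gΓ₀(N) = hΓ₀(N)` in terms of first columns. -/
theorem ST_smul_mk_eq_iff (N : ℕ) (g h : SL(2, ℤ)) :
    (ModularGroup.S * ModularGroup.T) • (QuotientGroup.mk g : SL(2, ℤ) ⧸ Gamma0 N) =
        QuotientGroup.mk h ↔
      (N : ℤ) ∣ g 1 0 * h 1 0 + (g 0 0 + g 1 0) * h 0 0 := by
  rw [smul_mk, mk_eq_mk_iff, mul_assoc, S_mul_apply_zero_zero, S_mul_apply_one_zero,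
    T_mul_apply_zero_zero, T_mul_apply_one_zero, ← dvd_neg]
  ring_nf

/-- The first column of an element of `SL(2, ℤ)` is primitive. -/
theorem isCoprime_col0 (g : SL(2, ℤ)) : IsCoprime (g 0 0) (g 1 0) :=
  Matrix.SpecialLinearGroup.isCoprime_col g 0

/-- Every primitive integer vector is the first column of an element of `SL(2, ℤ)`. -/
theorem exists_col0 {a c : ℤ} (h : IsCoprime a c) : ∃ g : SL(2, ℤ), g 0 0 = a ∧ g 1 0 = c :=
  h.exists_SL2_col 0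

/-- Elements of the orbit quotient by `⟨T⟩`: two cosets have the same class iff they differ
by a power of `T`. -/
theorem orbit_T_mk_eq_iff (N : ℕ) (g h : SL(2, ℤ)) :
    (Quotient.mk (MulAction.orbitRel (Subgroup.zpowers ModularGroup.T) (SL(2, ℤ) ⧸ Gamma0 N))
        (QuotientGroup.mk g) =
      Quotient.mk (MulAction.orbitRel (Subgroup.zpowers ModularGroup.T) (SL(2, ℤ) ⧸ Gamma0 N))
        (QuotientGroup.mk h)) ↔
      ∃ k : ℤ, (N : ℤ) ∣ (g 0 0 + k * g 1 0) * h 1 0 - g 1 0 * h 0 0 := by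
  rw [Quotient.eq, MulAction.orbitRel_apply, MulAction.mem_orbit_iff]
  constructor
  · rintro ⟨⟨x, hx⟩, hxe⟩
    obtain ⟨k, rfl⟩ := Subgroup.mem_zpowers_iff.mp hx
    have h1 : ModularGroup.T ^ k • (QuotientGroup.mk h : SL(2, ℤ) ⧸ Gamma0 N) =
        QuotientGroup.mk g := hxe
    have h2 : ModularGroup.T ^ (-k) • (QuotientGroup.mk g : SL(2, ℤ) ⧸ Gamma0 N) =
        QuotientGroup.mk h := by
      rw [← h1, ← mul_smul, ← _root_.zpow_add]
      simp
    exact ⟨-k, (T_zpow_smul_mk_eq_iff N (-k) g h).mp h2⟩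
  · rintro ⟨k, hk⟩
    have h2 := (T_zpow_smul_mk_eq_iff N k g h).mpr hk
    refine ⟨⟨ModularGroup.T ^ (-k), Subgroup.zpow_mem_zpowers _ _⟩, ?_⟩
    change ModularGroup.T ^ (-k) • (QuotientGroup.mk h : SL(2, ℤ) ⧸ Gamma0 N) =
        QuotientGroup.mk g
    rw [← h2, ← mul_smul, ← _root_.zpow_add]
    simp

end Fermat.Agent.S20.CosetModel
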