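import Mathlib
import Fermat.Prelude.Def_ModularCurve_GenusNumerics
import Fermat.Agent.S20.CosetModel

/-!
# Fixed points of `S` and `S * T` on `SL(2, ℤ) ⧸ Γ₀(N)`

The fixed points of `S` (resp. `S * T`) on the left cosets of `Γ₀(N)` are in bijection with
the roots of `x ^ 2 + 1` (resp. `x ^ 2 + x + 1`) in `ZMod N`, through the affine chart
`x ↦ [[x, x - 1], [1, 1]] Γ₀(N)`.
-/

namespace Fermat.Agent.S20

open Matrix MatrixGroups CongruenceSubgroup

namespace CosetModel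

/-- The matrix `[[n, n - 1], [1, 1]]`, with first column `(n, 1)`. -/
def chartMat (n : ℤ) : SL(2, ℤ) :=
  ⟨!![n, n - 1; 1, 1], by rw [Matrix.det_fin_two_of]; ring⟩

@[simp] theorem chartMat_apply_zero_zero (n : ℤ) : chartMat n 0 0 = n := rfl

@[simp] theorem chartMat_apply_one_zero (n : ℤ) : chartMat n 1 0 = 1 := rfl

/-- The affine chart `ZMod N → SL(2, ℤ) ⧸ Γ₀(N)`. -/
def chart (N : ℕ) (x : ZMod N) : SL(2, ℤ) ⧸ Gamma0 N :=
  QuotientGroup.mk (chartMat (x.val : ℤ))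

theorem intCast_val_eq (N : ℕ) [NeZero N] (x : ZMod N) : (((x.val : ℕ) : ℤ) : ZMod N) = x := by
  rw [Int.cast_natCast, ZMod.natCast_zmod_val]

theorem dvd_iff_cast_eq_zero (N : ℕ) (z : ℤ) : (N : ℤ) ∣ z ↔ ((z : ℤ) : ZMod N) = 0 :=
  (ZMod.intCast_zmod_eq_zero_iff_dvd z N).symm

theorem chart_injective (N : ℕ) [NeZero N] : Function.Injective (chart N) := by
  intro x y hxy
  rw [chart, chart, mk_eq_mk_iff, dvd_iff_cast_eq_zero] at hxy
  simp only [chartMat_apply_zero_zero, chartMat_apply_one_zero] at hxy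
  push_cast at hxy
  rw [ZMod.natCast_zmod_val, ZMod.natCast_zmod_val] at hxy
  linear_combination hxy

/-- A coset whose first column `(a, c)` satisfies `x * c = a` in `ZMod N` is `chart N x`. -/
theorem mk_eq_chart (N : ℕ) [NeZero N] (g : SL(2, ℤ)) (x : ZMod N)
    (h : x * ((g 1 0 : ℤ) : ZMod N) = ((g 0 0 : ℤ) : ZMod N)) :
    (QuotientGroup.mk g : SL(2, ℤ) ⧸ Gamma0 N) = chart N x := by
  rw [chart, mk_eq_mk_iff, dvd_iff_cast_eq_zero]
  simp only [chartMat_apply_zero_zero, chartMat_apply_one_zero]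
  push_cast
  rw [ZMod.natCast_zmod_val]
  linear_combination -h

theorem S_smul_chart_iff (N : ℕ) [NeZero N] (x : ZMod N) :
    ModularGroup.S • chart N x = chart N x ↔ x ^ 2 + 1 = 0 := by
  rw [chart, S_smul_mk_eq_iff, dvd_iff_cast_eq_zero]
  simp only [chartMat_apply_zero_zero, chartMat_apply_one_zero]
  push_cast
  rw [ZMod.natCast_zmod_val]
  constructor <;> intro h <;> linear_combination h

theorem ST_smul_chart_iff (N : ℕ) [NeZero N] (x : ZMod N) :
    (ModularGroup.S * ModularGroup.T) • chart N x = chart N x ↔ x ^ 2 + x + 1 = 0 := by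
  rw [chart, ST_smul_mk_eq_iff, dvd_iff_cast_eq_zero]
  simp only [chartMat_apply_zero_zero, chartMat_apply_one_zero]
  push_cast
  rw [ZMod.natCast_zmod_val]
  constructor <;> intro h <;> linear_combination h

/-- An `S`-fixed coset lies in the affine chart, at a root of `x ^ 2 + 1`. -/
theorem exists_chart_of_S_fixed (N : ℕ) [NeZero N] (g : SL(2, ℤ))
    (h : ModularGroup.S • (QuotientGroup.mk g : SL(2, ℤ) ⧸ Gamma0 N) = QuotientGroup.mk g) :
    ∃ x : ZMod N, x ^ 2 + 1 = 0 ∧ (QuotientGroup.mk g : SL(2, ℤ) ⧸ Gamma0 N) = chart N x := by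
  rw [S_smul_mk_eq_iff, dvd_iff_cast_eq_zero] at h
  push_cast at h
  obtain ⟨u, v, huv⟩ := isCoprime_col0 g
  have huv' : ((u : ℤ) : ZMod N) * ((g 0 0 : ℤ) : ZMod N) +
      ((v : ℤ) : ZMod N) * ((g 1 0 : ℤ) : ZMod N) = 1 := by
    have := congrArg (fun z : ℤ => (z : ZMod N)) huv
    simpa using this
  set A : ZMod N := ((g 0 0 : ℤ) : ZMod N) with hA
  set C : ZMod N := ((g 1 0 : ℤ) : ZMod N) with hC
  set U : ZMod N := ((u : ℤ) : ZMod N) with hU
  set V : ZMod N := ((v : ℤ) : ZMod N) with hV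
  set W : ZMod N := -U ^ 2 * C + 2 * U * V * A + V ^ 2 * C with hW
  have hCW : C * W = 1 := by
    linear_combination (U * A + V * C + 1) * huv' - U ^ 2 * h
  refine ⟨A * W, ?_, mk_eq_chart N g (A * W) ?_⟩
  · linear_combination W ^ 2 * h - (C * W + 1) * hCW
  · linear_combination A * hCW

/-- An `S * T`-fixed coset lies in the affine chart, at a root of `x ^ 2 + x + 1`. -/
theorem exists_chart_of_ST_fixed (N : ℕ) [NeZero N] (g : SL(2, ℤ))
    (h : (ModularGroup.S * ModularGroup.T) • (QuotientGroup.mk g : SL(2, ℤ) ⧸ Gamma0 N) =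
      QuotientGroup.mk g) :
    ∃ x : ZMod N, x ^ 2 + x + 1 = 0 ∧
      (QuotientGroup.mk g : SL(2, ℤ) ⧸ Gamma0 N) = chart N x := by
  rw [ST_smul_mk_eq_iff, dvd_iff_cast_eq_zero] at h
  push_cast at h
  obtain ⟨u, v, huv⟩ := isCoprime_col0 g
  have huv' : ((u : ℤ) : ZMod N) * ((g 0 0 : ℤ) : ZMod N) +
      ((v : ℤ) : ZMod N) * ((g 1 0 : ℤ) : ZMod N) = 1 := by
    have := congrArg (fun z : ℤ => (z : ZMod N)) huv
    simpa using this
  set A : ZMod N := ((g 0 0 : ℤ) : ZMod N) with hA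
  set C : ZMod N := ((g 1 0 : ℤ) : ZMod N) with hC
  set U : ZMod N := ((u : ℤ) : ZMod N) with hU
  set V : ZMod N := ((v : ℤ) : ZMod N) with hV
  set W : ZMod N := -U ^ 2 * A - U ^ 2 * C + 2 * U * V * A + V ^ 2 * C with hW
  have hCW : C * W = 1 := by
    linear_combination (U * A + V * C + 1) * huv' - U ^ 2 * h
  refine ⟨A * W, ?_, mk_eq_chart N g (A * W) ?_⟩
  · linear_combination W ^ 2 * h - (A * W + C * W + 1) * hCW
  · linear_combination A * hCW

end CosetModel

open CosetModel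

/-- The number of fixed points of `S` on `SL(2, ℤ) ⧸ Γ₀(N)` is `ν₂(N)`. -/
theorem card_fixedBy_S (N : ℕ) [NeZero N] :
    Nat.card (MulAction.fixedBy (SL(2, ℤ) ⧸ CongruenceSubgroup.Gamma0 N) ModularGroup.S) =
      ModularCurve.nuTwo N := by
  unfold ModularCurve.nuTwo
  symm
  refine Nat.card_congr (Equiv.ofBijective
    (fun x : {x : ZMod N // x ^ 2 + 1 = 0} =>
      (⟨chart N x.1, (S_smul_chart_iff N x.1).mpr x.2⟩ :
        MulAction.fixedBy (SL(2, ℤ) ⧸ CongruenceSubgroup.Gamma0 N) ModularGroup.S)) ⟨?_, ?_⟩)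
  · intro x y hxy
    exact Subtype.ext (chart_injective N (congrArg Subtype.val hxy))
  · rintro ⟨q, hq⟩
    induction q using QuotientGroup.induction_on with
    | H g =>
      obtain ⟨x, hx, hgx⟩ := exists_chart_of_S_fixed N g hq
      exact ⟨⟨x, hx⟩, Subtype.ext hgx.symm⟩

/-- The number of fixed points of `S * T` on `SL(2, ℤ) ⧸ Γ₀(N)` is `ν₃(N)`. -/
theorem card_fixedBy_ST (N : ℕ) [NeZero N] :
    Nat.card (MulAction.fixedBy (SL(2, ℤ) ⧸ CongruenceSubgroup.Gamma0 N)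
      (ModularGroup.S * ModularGroup.T)) = ModularCurve.nuThree N := by
  unfold ModularCurve.nuThree
  symm
  refine Nat.card_congr (Equiv.ofBijective
    (fun x : {x : ZMod N // x ^ 2 + x + 1 = 0} =>
      (⟨chart N x.1, (ST_smul_chart_iff N x.1).mpr x.2⟩ :
        MulAction.fixedBy (SL(2, ℤ) ⧸ CongruenceSubgroup.Gamma0 N)
          (ModularGroup.S * ModularGroup.T))) ⟨?_, ?_⟩)
  · intro x y hxy
    exact Subtype.ext (chart_injective N (congrArg Subtype.val hxy))
  · rintro ⟨q, hq⟩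
    induction q using QuotientGroup.induction_on with
    | H g =>
      obtain ⟨x, hx, hgx⟩ := exists_chart_of_ST_fixed N g hq
      exact ⟨⟨x, hx⟩, Subtype.ext hgx.symm⟩

end Fermat.Agent.S20
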