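import Mathlib
import Fermat.Prelude.Def_ModularCurve_GenusNumerics
import Fermat.Agent.S20.CosetModel
import Fermat.Agent.S20.CosetsFixed

/-!
# The index of `Γ₀(N)` in `SL(2, ℤ)` is `ψ(N)`

Induction on the prime factorisation of `N`: for a prime `p`, the index of `Γ₀(pN)` in
`Γ₀(N)` is `p` if `p ∣ N` and `p + 1` otherwise, with explicit coset representatives
`[[1, 0], [N j, 1]]` (`j` mod `p`) and, when `p ∤ N`, one more matrix with first column
`(p, N)`.
-/

namespace Fermat.Agent.S20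

open Matrix MatrixGroups CongruenceSubgroup

namespace CosetModel

theorem Gamma0_mem_iff_dvd (N : ℕ) (g : SL(2, ℤ)) : g ∈ Gamma0 N ↔ (N : ℤ) ∣ g 1 0 := by
  rw [Gamma0_mem, ZMod.intCast_zmod_eq_zero_iff_dvd]

theorem Gamma0_mul_le (p N : ℕ) : Gamma0 (p * N) ≤ Gamma0 N := by
  intro g hg
  rw [Gamma0_mem_iff_dvd] at hg ⊢
  exact dvd_trans (by push_cast; exact dvd_mul_left _ _) hg

theorem Gamma0_one_eq_top : Gamma0 1 = ⊤ := by
  ext g
  rw [Gamma0_mem_iff_dvd]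
  simp

/-- The matrix `[[1, 0], [m, 1]]`, with first column `(1, m)`. -/
def lowMat (m : ℤ) : SL(2, ℤ) :=
  ⟨!![1, 0; m, 1], by rw [Matrix.det_fin_two_of]; ring⟩

@[simp] theorem lowMat_apply_zero_zero (m : ℤ) : lowMat m 0 0 = 1 := rfl

@[simp] theorem lowMat_apply_one_zero (m : ℤ) : lowMat m 1 0 = m := rfl

/-- `[[1, 0], [N j, 1]]` as an element of `Γ₀(N)`. -/
def lowElt (N : ℕ) (j : ℤ) : Gamma0 N :=
  ⟨lowMat ((N : ℤ) * j), by rw [Gamma0_mem_iff_dvd]; exact dvd_mul_right _ _⟩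

/-- Coset equality in `Γ₀(N) ⧸ Γ₀(M)` in terms of first columns. -/
theorem sub_mk_eq_mk_iff (M N : ℕ) (a b : Gamma0 N) :
    (QuotientGroup.mk a : Gamma0 N ⧸ (Gamma0 M).subgroupOf (Gamma0 N)) = QuotientGroup.mk b ↔
      (M : ℤ) ∣ a.1 0 0 * b.1 1 0 - a.1 1 0 * b.1 0 0 := by
  rw [QuotientGroup.eq, Subgroup.mem_subgroupOf, Gamma0_mem_iff_dvd]
  simp only [Subgroup.coe_mul, InvMemClass.coe_inv]
  rw [inv_mul_apply_one_zero]

theorem lowElt_injective (p N : ℕ) [NeZero p] (hN : N ≠ 0) (j j' : ZMod p)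
    (h : (QuotientGroup.mk (lowElt N (j.val : ℤ)) :
        Gamma0 N ⧸ (Gamma0 (p * N)).subgroupOf (Gamma0 N)) =
      QuotientGroup.mk (lowElt N (j'.val : ℤ))) : j = j' := by
  rw [sub_mk_eq_mk_iff] at h
  simp only [lowElt, lowMat_apply_zero_zero, lowMat_apply_one_zero] at h
  have h2 : ((p * N : ℕ) : ℤ) ∣ (N : ℤ) * ((j'.val : ℤ) - (j.val : ℤ)) := by
    convert h using 1; ring
  have h3 : (p : ℤ) ∣ (j'.val : ℤ) - (j.val : ℤ) := by
    have hN' : (N : ℤ) ≠ 0 := by exact_mod_cast hN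
    rw [Nat.cast_mul, mul_comm (p : ℤ)] at h2
    exact (mul_dvd_mul_iff_left hN').mp h2
  rw [dvd_iff_cast_eq_zero] at h3
  push_cast at h3
  rw [ZMod.natCast_zmod_val, ZMod.natCast_zmod_val] at h3
  exact (sub_eq_zero.mp h3).symm

/-- An element of `Γ₀(N)` whose top-left entry is prime to `p` is in the class of some
`[[1, 0], [N j, 1]]` modulo `Γ₀(pN)`. -/
theorem exists_lowElt (p N : ℕ) (hp : p.Prime) (γ : Gamma0 N)
    (hpa : ¬ (p : ℤ) ∣ γ.1 0 0) :
    ∃ j : ZMod p, (QuotientGroup.mk (lowElt N (j.val : ℤ)) :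
        Gamma0 N ⧸ (Gamma0 (p * N)).subgroupOf (Gamma0 N)) = QuotientGroup.mk γ := by
  have : Fact p.Prime := ⟨hp⟩
  obtain ⟨c₀, hc₀⟩ := (Gamma0_mem_iff_dvd N γ.1).mp γ.2
  have ha : ((γ.1 0 0 : ℤ) : ZMod p) ≠ 0 := by
    rwa [Ne, ZMod.intCast_zmod_eq_zero_iff_dvd]
  refine ⟨(c₀ : ZMod p) * ((γ.1 0 0 : ℤ) : ZMod p)⁻¹, ?_⟩
  rw [sub_mk_eq_mk_iff]
  simp only [lowElt, lowMat_apply_zero_zero, lowMat_apply_one_zero]
  rw [hc₀]
  have h3 : (p : ℤ) ∣ c₀ -
      ((((c₀ : ZMod p) * ((γ.1 0 0 : ℤ) : ZMod p)⁻¹).val : ℕ) : ℤ) * γ.1 0 0 := by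
    rw [dvd_iff_cast_eq_zero]
    push_cast
    rw [ZMod.natCast_zmod_val, mul_assoc, inv_mul_cancel₀ ha, mul_one, sub_self]
  obtain ⟨t, ht⟩ := h3
  refine ⟨t, ?_⟩
  push_cast
  linear_combination (N : ℤ) * ht

theorem not_dvd_of_dvd (p N : ℕ) (hp : p.Prime) (hpN : p ∣ N) (γ : Gamma0 N) :
    ¬ (p : ℤ) ∣ γ.1 0 0 := by
  intro hpa
  obtain ⟨u, v, huv⟩ := isCoprime_col0 γ.1
  have hc : (p : ℤ) ∣ γ.1 1 0 :=
    dvd_trans (Int.natCast_dvd_natCast.mpr hpN) ((Gamma0_mem_iff_dvd N γ.1).mp γ.2)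
  have h1 : (p : ℤ) ∣ 1 := by
    rw [← huv]
    exact dvd_add (dvd_mul_of_dvd_right hpa _) (dvd_mul_of_dvd_right hc _)
  have h2 := Int.le_of_dvd one_pos h1
  have h3 := hp.two_le
  omega

theorem relIndex_Gamma0_of_dvd (p N : ℕ) (hp : p.Prime) (hN : N ≠ 0) (hpN : p ∣ N) :
    (Gamma0 (p * N)).relIndex (Gamma0 N) = p := by
  have : Fact p.Prime := ⟨hp⟩
  rw [Subgroup.relIndex, Subgroup.index_eq_card]
  have hcard : Nat.card (ZMod p) = p := by
    rw [Nat.card_eq_fintype_card, ZMod.card]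
  refine Eq.trans (Nat.card_congr (Equiv.ofBijective
    (fun j : ZMod p => (QuotientGroup.mk (lowElt N (j.val : ℤ)) :
        Gamma0 N ⧸ (Gamma0 (p * N)).subgroupOf (Gamma0 N))) ⟨?_, ?_⟩)).symm hcard
  · intro j j' h
    exact lowElt_injective p N hN j j' h
  · intro q
    induction q using QuotientGroup.induction_on with
    | H γ => exact exists_lowElt p N hp γ (not_dvd_of_dvd p N hp hpN γ)

theorem relIndex_Gamma0_of_not_dvd (p N : ℕ) (hp : p.Prime) (hN : N ≠ 0) (hpN : ¬ p ∣ N) :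
    (Gamma0 (p * N)).relIndex (Gamma0 N) = p + 1 := by
  have : Fact p.Prime := ⟨hp⟩
  rw [Subgroup.relIndex, Subgroup.index_eq_card]
  have hcard : Nat.card (Option (ZMod p)) = p + 1 := by
    rw [Nat.card_eq_fintype_card, Fintype.card_option, ZMod.card]
  have hcop : IsCoprime (p : ℤ) (N : ℤ) :=
    Nat.isCoprime_iff_coprime.mpr ((Nat.Prime.coprime_iff_not_dvd hp).mpr hpN)
  obtain ⟨W, hW0, hW1⟩ := exists_col0 hcop
  have hWmem : W ∈ Gamma0 N := by
    rw [Gamma0_mem_iff_dvd, hW1]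
  have hN' : (N : ℤ) ≠ 0 := by exact_mod_cast hN
  have hp1 : ¬ (p : ℤ) ∣ 1 := by
    intro h1
    have h2 := Int.le_of_dvd one_pos h1
    have h3 := hp.two_le
    omega
  have hWj : ∀ j : ZMod p, (QuotientGroup.mk (lowElt N (j.val : ℤ)) :
      Gamma0 N ⧸ (Gamma0 (p * N)).subgroupOf (Gamma0 N)) ≠ QuotientGroup.mk ⟨W, hWmem⟩ := by
    intro j h
    rw [sub_mk_eq_mk_iff] at h
    simp only [lowElt, lowMat_apply_zero_zero, lowMat_apply_one_zero, hW0, hW1] at h
    have h2 : ((p * N : ℕ) : ℤ) ∣ (N : ℤ) * (1 - (j.val : ℤ) * p) := by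
      convert h using 1; ring
    rw [Nat.cast_mul, mul_comm (p : ℤ)] at h2
    have h3 : (p : ℤ) ∣ 1 - (j.val : ℤ) * p := (mul_dvd_mul_iff_left hN').mp h2
    exact hp1 ((dvd_sub_left (dvd_mul_left _ _)).mp h3)
  refine Eq.trans (Nat.card_congr (Equiv.ofBijective
    (fun j : Option (ZMod p) => (Option.elim j (QuotientGroup.mk ⟨W, hWmem⟩)
      (fun j => QuotientGroup.mk (lowElt N (j.val : ℤ))) :
        Gamma0 N ⧸ (Gamma0 (p * N)).subgroupOf (Gamma0 N))) ⟨?_, ?_⟩)).symm hcard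
  · intro j j' h
    cases j with
    | none =>
      cases j' with
      | none => rfl
      | some j' => exact absurd h.symm (hWj j')
    | some j =>
      cases j' with
      | none => exact absurd h (hWj j)
      | some j' => exact congrArg some (lowElt_injective p N hN j j' h)
  · intro q
    induction q using QuotientGroup.induction_on with
    | H γ =>
      by_cases hpa : (p : ℤ) ∣ γ.1 0 0
      · refine ⟨none, ?_⟩
        change (QuotientGroup.mk ⟨W, hWmem⟩ :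
          Gamma0 N ⧸ (Gamma0 (p * N)).subgroupOf (Gamma0 N)) = QuotientGroup.mk γ
        rw [sub_mk_eq_mk_iff]
        simp only [hW0, hW1]
        obtain ⟨c₀, hc₀⟩ := (Gamma0_mem_iff_dvd N γ.1).mp γ.2
        obtain ⟨a₀, ha₀⟩ := hpa
        refine ⟨c₀ - a₀, ?_⟩
        rw [hc₀, ha₀]
        push_cast
        ring
      · obtain ⟨j, hj⟩ := exists_lowElt p N hp γ hpa
        exact ⟨some j, hj⟩

/-- Recursion for the Dedekind `ψ` function, case `p ∣ N`. -/
theorem dedekindPsi_prime_mul_of_dvd (p N : ℕ) (hp : p.Prime) (hN : N ≠ 0) (hpN : p ∣ N) :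
    ModularCurve.dedekindPsi (p * N) = p * ModularCurve.dedekindPsi N := by
  unfold ModularCurve.dedekindPsi
  have hset : (p * N).divisors.filter Squarefree = N.divisors.filter Squarefree := by
    ext d
    simp only [Finset.mem_filter, Nat.mem_divisors]
    constructor
    · rintro ⟨⟨hd, -⟩, hsq⟩
      refine ⟨⟨?_, hN⟩, hsq⟩
      by_cases hpd : p ∣ d
      · obtain ⟨d', rfl⟩ := hpd
        have hcop : p.Coprime d' := (Nat.squarefree_mul_iff.mp hsq).1
        have hd' : d' ∣ N := Nat.dvd_of_mul_dvd_mul_left hp.pos hd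
        exact Nat.Coprime.mul_dvd_of_dvd_of_dvd hcop hpN hd'
      · have hcop : d.Coprime p := ((Nat.Prime.coprime_iff_not_dvd hp).mpr hpd).symm
        exact hcop.dvd_of_dvd_mul_left hd
    · rintro ⟨⟨hd, -⟩, hsq⟩
      exact ⟨⟨dvd_mul_of_dvd_right hd _, mul_ne_zero hp.ne_zero hN⟩, hsq⟩
  rw [hset, Finset.mul_sum]
  refine Finset.sum_congr rfl fun d hd => ?_
  rw [Finset.mem_filter, Nat.mem_divisors] at hd
  exact Nat.mul_div_assoc p hd.1.1

/-- Recursion for the Dedekind `ψ` function, case `p ∤ N`. -/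
theorem dedekindPsi_prime_mul_of_not_dvd (p N : ℕ) (hp : p.Prime) (hN : N ≠ 0)
    (hpN : ¬ p ∣ N) :
    ModularCurve.dedekindPsi (p * N) = (p + 1) * ModularCurve.dedekindPsi N := by
  unfold ModularCurve.dedekindPsi
  set S := N.divisors.filter Squarefree with hS
  have hpS : ∀ d ∈ S, ¬ p ∣ d := by
    intro d hd hpd
    rw [hS, Finset.mem_filter, Nat.mem_divisors] at hd
    exact hpN (dvd_trans hpd hd.1.1)
  have hset : (p * N).divisors.filter Squarefree = S ∪ S.image (fun d => p * d) := by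
    ext d
    simp only [Finset.mem_filter, Nat.mem_divisors, Finset.mem_union, Finset.mem_image, hS]
    constructor
    · rintro ⟨⟨hd, -⟩, hsq⟩
      by_cases hpd : p ∣ d
      · right
        obtain ⟨d', rfl⟩ := hpd
        exact ⟨d', ⟨⟨Nat.dvd_of_mul_dvd_mul_left hp.pos hd, hN⟩,
          (Nat.squarefree_mul_iff.mp hsq).2.2⟩, rfl⟩
      · left
        have hcop : d.Coprime p := ((Nat.Prime.coprime_iff_not_dvd hp).mpr hpd).symm
        exact ⟨⟨hcop.dvd_of_dvd_mul_left hd, hN⟩, hsq⟩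
    · rintro (⟨⟨hd, -⟩, hsq⟩ | ⟨d', ⟨⟨hd', -⟩, hsq'⟩, rfl⟩)
      · exact ⟨⟨dvd_mul_of_dvd_right hd _, mul_ne_zero hp.ne_zero hN⟩, hsq⟩
      · refine ⟨⟨mul_dvd_mul_left p hd', mul_ne_zero hp.ne_zero hN⟩, ?_⟩
        refine Nat.squarefree_mul_iff.mpr ⟨?_, hp.prime.squarefree, hsq'⟩
        exact (Nat.Prime.coprime_iff_not_dvd hp).mpr fun hpd' => hpN (dvd_trans hpd' hd')
  have hdisj : Disjoint S (S.image (fun d => p * d)) := by
    rw [Finset.disjoint_left]
    intro d hd hd'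
    obtain ⟨d', -, rfl⟩ := Finset.mem_image.mp hd'
    exact hpS _ hd (dvd_mul_right p d')
  rw [hset, Finset.sum_union hdisj, Finset.sum_image
    (fun x _ y _ h => Nat.eq_of_mul_eq_mul_left hp.pos h), add_mul, one_mul, Finset.mul_sum]
  congr 1
  · refine Finset.sum_congr rfl fun d hd => ?_
    rw [hS, Finset.mem_filter, Nat.mem_divisors] at hd
    exact Nat.mul_div_assoc p hd.1.1
  · refine Finset.sum_congr rfl fun d _ => ?_
    exact Nat.mul_div_mul_left N d hp.pos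

theorem index_Gamma0_eq_dedekindPsi (N : ℕ) (hN : N ≠ 0) :
    (Gamma0 N).index = ModularCurve.dedekindPsi N := by
  induction N using induction_on_primes with
  | zero => exact absurd rfl hN
  | one => rw [Gamma0_one_eq_top, Subgroup.index_top, ModularCurve.dedekindPsi_one]
  | prime_mul p N hp ih =>
    have hN' : N ≠ 0 := fun h => hN (by rw [h, mul_zero])
    rw [← Subgroup.relIndex_mul_index (Gamma0_mul_le p N), ih hN']
    by_cases hpN : p ∣ N
    · rw [relIndex_Gamma0_of_dvd p N hp hN' hpN, dedekindPsi_prime_mul_of_dvd p N hp hN' hpN]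
    · rw [relIndex_Gamma0_of_not_dvd p N hp hN' hpN,
        dedekindPsi_prime_mul_of_not_dvd p N hp hN' hpN]

end CosetModel

/-- The number of left cosets of `Γ₀(N)` in `SL(2, ℤ)` is the Dedekind `ψ` function of `N`. -/
theorem card_Q (N : ℕ) [NeZero N] :
    Nat.card (SL(2, ℤ) ⧸ CongruenceSubgroup.Gamma0 N) = ModularCurve.dedekindPsi N := by
  rw [← Subgroup.index_eq_card]
  exact CosetModel.index_Gamma0_eq_dedekindPsi N (NeZero.ne N)

end Fermat.Agent.S20
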