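import Mathlib

set_option autoImplicit false

namespace Fermat.Agent.S20.CuspArith

/-- forward direction, divisibility part -/
theorem gcd_dvd_of_rel {N a c a' c' m : ℤ} (h : IsCoprime a c)
    (hrel : N ∣ (a + m * c) * c' - a' * c) : (Int.gcd c N : ℤ) ∣ c' := by
  have h1 : (Int.gcd c N : ℤ) ∣ c := Int.gcd_dvd_left c N
  have h2 : (Int.gcd c N : ℤ) ∣ N := Int.gcd_dvd_right c N
  have h3 : (Int.gcd c N : ℤ) ∣ a * c' := by
    have h4 : (Int.gcd c N : ℤ) ∣ (a + m * c) * c' - a' * c := h2.trans hrel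
    have h5 : a * c' = ((a + m * c) * c' - a' * c) - c * (m * c' - a') := by ring
    rw [h5]
    exact dvd_sub h4 (h1.mul_right _)
  have hcop : IsCoprime (Int.gcd c N : ℤ) a := (h.symm.of_isCoprime_of_dvd_left h1)
  exact hcop.dvd_of_dvd_mul_left h3

theorem gcd_eq_of_rel {N a c a' c' m : ℤ} (h : IsCoprime a c) (h' : IsCoprime a' c')
    (hrel : N ∣ (a + m * c) * c' - a' * c) : Int.gcd c N = Int.gcd c' N := by
  have hrel' : N ∣ (a' + (-m) * c') * c - a * c' := by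
    have : (a' + (-m) * c') * c - a * c' = -((a + m * c) * c' - a' * c) := by ring
    rw [this]; exact (dvd_neg).mpr hrel
  have h1 := gcd_dvd_of_rel h hrel
  have h2 := gcd_dvd_of_rel h' hrel'
  apply Nat.dvd_antisymm
  · exact Int.natCast_dvd_natCast.mp (Int.dvd_coe_gcd h1 (Int.gcd_dvd_right c N))
  · exact Int.natCast_dvd_natCast.mp (Int.dvd_coe_gcd h2 (Int.gcd_dvd_right c' N))

/-- core equivalence with the common gcd `δ` factored out -/
theorem rel_iff_core {δ N' a a' γ γ' : ℤ} (hδ : δ ≠ 0) (hγ : IsCoprime γ N')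
    (hγ' : IsCoprime γ' N') :
    (∃ m : ℤ, δ * N' ∣ (a + m * (δ * γ)) * (δ * γ') - a' * (δ * γ)) ↔
      (Int.gcd δ N' : ℤ) ∣ a * γ' - a' * γ := by
  constructor
  · rintro ⟨m, hm⟩
    have h1 : (a + m * (δ * γ)) * (δ * γ') - a' * (δ * γ)
        = δ * (a * γ' - a' * γ + m * δ * γ * γ') := by ring
    rw [h1] at hm
    have h2 : N' ∣ a * γ' - a' * γ + m * δ * γ * γ' := (mul_dvd_mul_iff_left hδ).mp hm
    have h3 : (Int.gcd δ N' : ℤ) ∣ a * γ' - a' * γ + m * δ * γ * γ' :=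
      (Int.gcd_dvd_right δ N').trans h2
    have h4 : (Int.gcd δ N' : ℤ) ∣ m * δ * γ * γ' := by
      have : m * δ * γ * γ' = δ * (m * γ * γ') := by ring
      rw [this]; exact (Int.gcd_dvd_left δ N').mul_right _
    exact (Int.dvd_add_left h4).mp h3
  · rintro ⟨t, ht⟩
    obtain ⟨w, z, hwz⟩ := (hγ.mul_left hγ')
    have hb := Int.gcd_eq_gcd_ab δ N'
    set x := Int.gcdA δ N'
    set y := Int.gcdB δ N'
    refine ⟨-t * x * w, ⟨x * δ * t * z + y * t, ?_⟩⟩
    have h1 : a * γ' = a' * γ + (δ * x + N' * y) * t := by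
      rw [← hb]; linear_combination ht
    have h2 : (a + -t * x * w * (δ * γ)) * (δ * γ') - a' * (δ * γ)
        = δ * (a * γ' - a' * γ - t * x * δ * (w * (γ * γ'))) := by ring
    rw [h2, h1]
    have h3 : w * (γ * γ') = 1 - z * N' := by linear_combination hwz
    rw [h3]; ring

/-- Orbit criterion: two coprime columns `(a,c)`, `(a',c')` are in the same orbit of
`(a,c) ↦ (a + c, c)` modulo proportionality mod `N` iff they have the same invariants. -/
theorem rel_iff {N : ℤ} (hN : N ≠ 0) {a c a' c' : ℤ} (h : IsCoprime a c) (h' : IsCoprime a' c') :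
    (∃ m : ℤ, N ∣ (a + m * c) * c' - a' * c) ↔
      (Int.gcd c N = Int.gcd c' N ∧
        ((Int.gcd (Int.gcd c N) (N / Int.gcd c N) : ℕ) : ℤ) ∣
          a * (c' / Int.gcd c N) - a' * (c / Int.gcd c N)) := by
  have hδ0 : (Int.gcd c N : ℤ) ≠ 0 := by
    intro h0
    have : Int.gcd c N = 0 := by exact_mod_cast h0
    rw [Int.gcd_eq_zero_iff] at this
    exact hN this.2
  have hcop : ∀ {x : ℤ}, Int.gcd x N = Int.gcd c N →
      IsCoprime (x / (Int.gcd c N : ℤ)) (N / (Int.gcd c N : ℤ)) := by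
    intro x hx
    rw [← hx]
    have hpos : 0 < Int.gcd x N := by
      rw [hx]; exact Nat.pos_of_ne_zero (by exact_mod_cast hδ0)
    rw [Int.isCoprime_iff_gcd_eq_one]
    exact Int.gcd_div_gcd_div_gcd hpos
  have hfac : ∀ {x : ℤ}, Int.gcd x N = Int.gcd c N →
      x = (Int.gcd c N : ℤ) * (x / (Int.gcd c N : ℤ)) := by
    intro x hx
    rw [← hx]
    exact (Int.mul_ediv_cancel' (Int.gcd_dvd_left x N)).symm
  have hNfac : N = (Int.gcd c N : ℤ) * (N / (Int.gcd c N : ℤ)) :=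
    (Int.mul_ediv_cancel' (Int.gcd_dvd_right c N)).symm
  constructor
  · rintro ⟨m, hm⟩
    have hg := gcd_eq_of_rel h h' hm
    refine ⟨hg, ?_⟩
    have hc := hfac (x := c) rfl
    have hc' := hfac (x := c') hg.symm
    have key := (rel_iff_core (a := a) (a' := a') hδ0 (hcop (x := c) rfl) (hcop (x := c') hg.symm)).mp
      ⟨m, by rw [← hc, ← hc', ← hNfac]; exact hm⟩
    exact key
  · rintro ⟨hg, hdiv⟩
    have hc := hfac (x := c) rfl
    have hc' := hfac (x := c') hg.symm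
    obtain ⟨m, hm⟩ := (rel_iff_core (a := a) (a' := a') hδ0 (hcop (x := c) rfl)
      (hcop (x := c') hg.symm)).mpr hdiv
    refine ⟨m, ?_⟩
    rw [← hc, ← hc', ← hNfac] at hm
    exact hm

/-- Orbit criterion in the shape used by `CosetsCusp` (cross-product form, `N : ℕ`). -/
theorem orbit_iff (N : ℕ) [NeZero N] (a c a' c' : ℤ) (h : IsCoprime a c) (h' : IsCoprime a' c') :
    (∃ k : ℤ, (N : ℤ) ∣ (a + k * c) * c' - c * a') ↔
      Int.gcd c N = Int.gcd c' N ∧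
        ((Nat.gcd (Int.gcd c N) (N / Int.gcd c N) : ℕ) : ℤ) ∣
          a * (c' / (Int.gcd c N : ℤ)) - a' * (c / (Int.gcd c N : ℤ)) := by
  have hN : (N : ℤ) ≠ 0 := by exact_mod_cast NeZero.ne N
  have key := rel_iff hN h h'
  have e1 : Int.gcd (Int.gcd c N : ℤ) ((N : ℤ) / (Int.gcd c N : ℤ))
      = Nat.gcd (Int.gcd c N) (N / Int.gcd c N) := by
    rw [← Int.natCast_div, Int.gcd_natCast_natCast]
  rw [e1] at key
  rw [← key]
  refine exists_congr fun k => ?_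
  rw [mul_comm c a']

/-- `c / gcd(c,N)` is a unit modulo `gcd(δ, N/δ)`, `δ = gcd(c,N)`. -/
theorem gcd_div_eq_one (N : ℕ) [NeZero N] (c : ℤ) :
    Int.gcd (c / (Int.gcd c N : ℤ)) (Nat.gcd (Int.gcd c N) (N / Int.gcd c N) : ℕ) = 1 := by
  have hpos : 0 < Int.gcd c N :=
    Int.gcd_pos_of_ne_zero_right c (by exact_mod_cast NeZero.ne N)
  have h1 : Int.gcd (c / (Int.gcd c N : ℤ)) ((N : ℤ) / (Int.gcd c N : ℤ)) = 1 :=
    Int.gcd_div_gcd_div_gcd hpos
  rw [← Int.natCast_div] at h1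
  have h2 : ((Nat.gcd (Int.gcd c N) (N / Int.gcd c N) : ℕ) : ℤ) ∣ ((N / Int.gcd c N : ℕ) : ℤ) :=
    Int.natCast_dvd_natCast.mpr (Nat.gcd_dvd_right _ _)
  have h3 : IsCoprime (c / (Int.gcd c N : ℤ)) ((N / Int.gcd c N : ℕ) : ℤ) :=
    Int.isCoprime_iff_gcd_eq_one.mpr h1
  exact Int.isCoprime_iff_gcd_eq_one.mp (h3.of_isCoprime_of_dvd_right h2)

/-- `a` is a unit modulo `gcd(δ, N/δ)`, `δ = gcd(c,N)`, when `(a,c)` is a coprime pair. -/
theorem gcd_left_eq_one (N : ℕ) [NeZero N] {a c : ℤ} (h : IsCoprime a c) :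
    Int.gcd a (Nat.gcd (Int.gcd c N) (N / Int.gcd c N) : ℕ) = 1 := by
  have h2 : ((Nat.gcd (Int.gcd c N) (N / Int.gcd c N) : ℕ) : ℤ) ∣ c :=
    (Int.natCast_dvd_natCast.mpr (Nat.gcd_dvd_left _ _)).trans (Int.gcd_dvd_left c N)
  exact Int.isCoprime_iff_gcd_eq_one.mp (h.of_isCoprime_of_dvd_right h2)

end Fermat.Agent.S20.CuspArith
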