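/-
Team S20 (shared with S21 / S24), block CosetsCusp (owner: helper9).

The number of orbits of `⟨T⟩` on the left coset space `SL(2, ℤ) ⧸ Γ₀(N)` (i.e. the number of
cusps of `Γ₀(N)`) equals `ModularCurve.cuspCount N = ∑_{d ∣ N} φ(gcd(d, N / d))`.

Method: a coset `g Γ₀(N)` is determined by the first column `(a, c)` of `g` up to the relation
`a c' ≡ c a' (mod N)`, and `T` acts by `(a, c) ↦ (a + c, c)`.  The complete invariant of the
`⟨T⟩`-orbit is the pair `(δ, r)` with `δ = gcd(c, N)` and `r = a * (c / δ)⁻¹ mod gcd(δ, N / δ)`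
(arithmetic core: `CuspArith.orbit_iff`, by helper44; first-column model: `CosetModel`, by
helper31).
-/
import Mathlib
import Fermat.Prelude.Def_ModularCurve_GenusNumerics
import Fermat.Agent.S20.CosetModel
import Fermat.Agent.S20.CuspArith

set_option autoImplicit false

open scoped MatrixGroups
open CongruenceSubgroup

namespace Fermat.Agent.S20

namespace CosetsCusp

/-- Two surjections out of the same type with the same fibres have targets of equal size. -/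
theorem card_eq_of_surj {α β γ : Type*} (π : α → β) (f : α → γ) (hπ : Function.Surjective π)
    (hf : Function.Surjective f) (h : ∀ x y, π x = π y ↔ f x = f y) :
    Nat.card β = Nat.card γ := by
  have hg : Function.Bijective (fun b => f (Function.surjInv hπ b)) := by
    constructor
    · intro b b' hbb
      have := (h _ _).mpr hbb
      rwa [Function.surjInv_eq hπ, Function.surjInv_eq hπ] at this
    · intro c
      obtain ⟨x, rfl⟩ := hf c
      exact ⟨π x, (h _ _).mp (Function.surjInv_eq hπ (π x))⟩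
  exact Nat.card_congr (Equiv.ofBijective _ hg)

/-- Comparison of the residues `a * c₁⁻¹` modulo `e`. -/
theorem val_eq_iff (e : ℕ) [NeZero e] (a a' c₁ c₁' : ℤ) (h₁ : Int.gcd c₁ e = 1)
    (h₁' : Int.gcd c₁' e = 1) :
    ((a : ZMod e) * (c₁ : ZMod e)⁻¹).val = ((a' : ZMod e) * (c₁' : ZMod e)⁻¹).val ↔
      (e : ℤ) ∣ a * c₁' - a' * c₁ := by
  have hu : IsUnit (c₁ : ZMod e) := by
    rw [ZMod.coe_int_isUnit_iff_isCoprime, isCoprime_comm, Int.isCoprime_iff_gcd_eq_one]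
    exact h₁
  have hu' : IsUnit (c₁' : ZMod e) := by
    rw [ZMod.coe_int_isUnit_iff_isCoprime, isCoprime_comm, Int.isCoprime_iff_gcd_eq_one]
    exact h₁'
  obtain ⟨u, hu⟩ := hu
  obtain ⟨u', hu'⟩ := hu'
  rw [(ZMod.val_injective e).eq_iff, ← ZMod.intCast_zmod_eq_zero_iff_dvd]
  push_cast
  rw [← hu, ← hu', ZMod.inv_coe_unit, ZMod.inv_coe_unit, sub_eq_zero,
    Units.mul_inv_eq_iff_eq_mul, mul_assoc, mul_comm _ (u : ZMod e), ← mul_assoc,
    Units.eq_mul_inv_iff_mul_eq]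

variable (N : ℕ) [NeZero N]

/-- The invariant `(δ, r)` of the `⟨T⟩`-orbit of the coset `g Γ₀(N)`. -/
noncomputable def cuspInv (g : SL(2, ℤ)) : (_ : ℕ) × ℕ :=
  ⟨Int.gcd (g 1 0) N,
    (((g 0 0 : ℤ) : ZMod (Nat.gcd (Int.gcd (g 1 0) N) (N / Int.gcd (g 1 0) N))) *
      (((g 1 0 / (Int.gcd (g 1 0) N : ℤ) : ℤ) :
        ZMod (Nat.gcd (Int.gcd (g 1 0) N) (N / Int.gcd (g 1 0) N))))⁻¹).val⟩

omit [NeZero N] in
theorem cuspInv_eq (g : SL(2, ℤ)) (δ : ℕ) (hδ : Int.gcd (g 1 0) N = δ) :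
    cuspInv N g = ⟨δ, (((g 0 0 : ℤ) : ZMod (Nat.gcd δ (N / δ))) *
      (((g 1 0 / (δ : ℤ) : ℤ) : ZMod (Nat.gcd δ (N / δ))))⁻¹).val⟩ := by
  subst hδ
  rfl

/-- The set of values of the invariant. -/
def cuspSet : Finset ((_ : ℕ) × ℕ) :=
  N.divisors.sigma fun d => (Finset.range (Nat.gcd d (N / d))).filter (Nat.gcd d (N / d)).Coprime

omit [NeZero N] in
theorem card_cuspSet : (cuspSet N).card = ModularCurve.cuspCount N := by
  rw [cuspSet, Finset.card_sigma, ModularCurve.cuspCount]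
  rfl

theorem gcd_pos_aux (c : ℤ) : 0 < Int.gcd c N :=
  Int.gcd_pos_of_ne_zero_right c (by exact_mod_cast NeZero.ne N)

omit [NeZero N] in
theorem neZero_e (δ : ℕ) (hδ : δ ≠ 0) : NeZero (Nat.gcd δ (N / δ)) :=
  ⟨Nat.gcd_ne_zero_left hδ⟩

theorem cuspInv_mem (g : SL(2, ℤ)) : cuspInv N g ∈ cuspSet N := by
  have hpos := gcd_pos_aux N (g 1 0)
  have := neZero_e N (Int.gcd (g 1 0) N) hpos.ne'
  rw [cuspSet, Finset.mem_sigma]
  refine ⟨?_, ?_⟩
  · rw [Nat.mem_divisors]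
    exact ⟨Int.natCast_dvd_natCast.mp (Int.gcd_dvd_right (g 1 0) N), NeZero.ne N⟩
  · rw [Finset.mem_filter, Finset.mem_range]
    refine ⟨ZMod.val_lt _, ?_⟩
    have hu : IsUnit ((g 0 0 : ℤ) : ZMod (Nat.gcd (Int.gcd (g 1 0) N) (N / Int.gcd (g 1 0) N))) := by
      rw [ZMod.coe_int_isUnit_iff_isCoprime, isCoprime_comm, Int.isCoprime_iff_gcd_eq_one]
      exact CuspArith.gcd_left_eq_one N (CosetModel.isCoprime_col0 g)
    have hu' : IsUnit (((g 1 0 / (Int.gcd (g 1 0) N : ℤ) : ℤ) :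
        ZMod (Nat.gcd (Int.gcd (g 1 0) N) (N / Int.gcd (g 1 0) N)))) := by
      rw [ZMod.coe_int_isUnit_iff_isCoprime, isCoprime_comm, Int.isCoprime_iff_gcd_eq_one]
      exact CuspArith.gcd_div_eq_one N (g 1 0)
    obtain ⟨u, hu⟩ := hu
    obtain ⟨u', hu'⟩ := hu'
    have := ZMod.val_coe_unit_coprime (u * u'⁻¹)
    rw [Units.val_mul, ← ZMod.inv_coe_unit, hu, hu'] at this
    exact this.symm

theorem cuspInv_eq_iff (g h : SL(2, ℤ)) :
    cuspInv N g = cuspInv N h ↔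
      ∃ k : ℤ, (N : ℤ) ∣ (g 0 0 + k * g 1 0) * h 1 0 - g 1 0 * h 0 0 := by
  rw [CuspArith.orbit_iff N _ _ _ _ (CosetModel.isCoprime_col0 g) (CosetModel.isCoprime_col0 h)]
  have hpos := gcd_pos_aux N (g 1 0)
  have := neZero_e N (Int.gcd (g 1 0) N) hpos.ne'
  constructor
  · intro hinv
    have hδ : Int.gcd (g 1 0) N = Int.gcd (h 1 0) N := congrArg Sigma.fst hinv
    refine ⟨hδ, ?_⟩
    rw [cuspInv_eq N g _ rfl, cuspInv_eq N h _ hδ.symm] at hinv
    have hr := eq_of_heq (Sigma.mk.inj hinv).2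
    refine (val_eq_iff _ _ _ _ _ (CuspArith.gcd_div_eq_one N (g 1 0)) ?_).mp hr
    have := CuspArith.gcd_div_eq_one N (h 1 0)
    rwa [← hδ] at this
  · rintro ⟨hδ, hdiv⟩
    rw [cuspInv_eq N g _ rfl, cuspInv_eq N h _ hδ.symm]
    congr 1
    refine (val_eq_iff _ _ _ _ _ (CuspArith.gcd_div_eq_one N (g 1 0)) ?_).mpr hdiv
    have := CuspArith.gcd_div_eq_one N (h 1 0)
    rwa [← hδ] at this

theorem cuspInv_surj (x : (_ : ℕ) × ℕ) (hx : x ∈ cuspSet N) : ∃ g : SL(2, ℤ), cuspInv N g = x := by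
  obtain ⟨d, r⟩ := x
  rw [cuspSet, Finset.mem_sigma, Nat.mem_divisors, Finset.mem_filter, Finset.mem_range] at hx
  obtain ⟨⟨hdN, -⟩, hr, hcop⟩ := hx
  have hd0 : d ≠ 0 := by
    rintro rfl
    exact NeZero.ne N (Nat.eq_zero_of_zero_dvd hdN)
  have : NeZero d := ⟨hd0⟩
  have := neZero_e N d hd0
  have hed : Nat.gcd d (N / d) ∣ d := Nat.gcd_dvd_left _ _
  obtain ⟨u, hu⟩ := ZMod.unitsMap_surjective hed (ZMod.unitOfCoprime r hcop.symm)
  have hcopa : IsCoprime (((u : ZMod d).val : ℕ) : ℤ) (d : ℤ) :=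
    Nat.isCoprime_iff_coprime.mpr (ZMod.val_coe_unit_coprime u)
  obtain ⟨g, hg0, hg1⟩ := CosetModel.exists_col0 hcopa
  refine ⟨g, ?_⟩
  have hδ : Int.gcd (g 1 0) N = d := by
    rw [hg1, Int.gcd_natCast_natCast]
    exact Nat.gcd_eq_left hdN
  rw [cuspInv_eq N g d hδ, hg0, hg1]
  congr 1
  have h1 : ((d : ℤ) / (d : ℤ)) = 1 := Int.ediv_self (by exact_mod_cast hd0)
  rw [h1]
  have h2 : (((u : ZMod d).val : ℕ) : ZMod (Nat.gcd d (N / d))) = (r : ZMod (Nat.gcd d (N / d))) := by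
    have := congrArg (fun v : (ZMod (Nat.gcd d (N / d)))ˣ => (v : ZMod (Nat.gcd d (N / d)))) hu
    simp only [ZMod.unitsMap, Units.coe_map, MonoidHom.coe_coe, ZMod.castHom_apply,
      ZMod.coe_unitOfCoprime] at this
    rw [← this, ZMod.natCast_val]
  push_cast
  rw [h2, ZMod.inv_one, mul_one, ZMod.val_cast_of_lt hr]

end CosetsCusp

open CosetsCusp in
/-- **Number of cusps of `Γ₀(N)`**: the number of `⟨T⟩`-orbits on the left coset space
`SL(2, ℤ) ⧸ Γ₀(N)` equals `ModularCurve.cuspCount N`. -/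
theorem card_orbits_T (N : ℕ) [NeZero N] :
    Nat.card (MulAction.orbitRel.Quotient (Subgroup.zpowers ModularGroup.T)
      (SL(2, ℤ) ⧸ CongruenceSubgroup.Gamma0 N)) = ModularCurve.cuspCount N := by
  rw [← card_cuspSet N, ← Nat.card_eq_finsetCard]
  refine card_eq_of_surj
    (fun g : SL(2, ℤ) => (Quotient.mk (MulAction.orbitRel (Subgroup.zpowers ModularGroup.T)
      (SL(2, ℤ) ⧸ Gamma0 N)) (QuotientGroup.mk g)))
    (fun g : SL(2, ℤ) => (⟨cuspInv N g, cuspInv_mem N g⟩ : cuspSet N)) ?_ ?_ ?_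
  · intro q
    induction q using Quotient.inductionOn with
    | _ x =>
      induction x using QuotientGroup.induction_on with
      | _ g => exact ⟨g, rfl⟩
  · rintro ⟨x, hx⟩
    obtain ⟨g, hg⟩ := cuspInv_surj N x hx
    exact ⟨g, Subtype.ext hg⟩
  · intro g h
    rw [CosetModel.orbit_T_mk_eq_iff, Subtype.mk.injEq, cuspInv_eq_iff]

end Fermat.Agent.S20
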