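import Mathlib
import Fermat.Agent.S20.Defs
import Fermat.Agent.S20.Cosets
import Fermat.Agent.S20.CosetsCusp

/-!
# S20 team library: the final counting identity

OWNER: helper81. `genus_count` is pure arithmetic; `genus_of_counts` specialises it to `Q N` and
the coset counts (`card_Q`, `card_fixedBy_S`, `card_fixedBy_ST`, `card_orbits_T`).

If `k : ι → ℤ` are the weights of a homogeneous free basis, with the blueprint facts
(E0)–(E4) as hypotheses, then `#{j | k j = 10} = 1 + μ/12 − ν₂/4 − ν₃/3 − c/2`.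
-/

set_option autoImplicit false

namespace Fermat.Agent.S20

open Finset in
/-- The counting identity behind the genus formula. -/
theorem genus_count {ι : Type*} [Fintype ι] (k : ι → ℤ)
    (heven : ∀ j, Even (k j)) (hnonneg : ∀ j, 0 ≤ k j) (hle : ∀ j, k j ≤ 10)
    (h0 : (univ.filter fun j => k j = 0).card = 1)
    (c ν₂ ν₃ : ℕ)
    (hsum : ∑ j, k j = 6 * ((Fintype.card ι : ℤ) - (c : ℤ)))
    (hS : ∑ j, (if k j % 4 = 0 then (1 : ℤ) else -1) = (ν₂ : ℤ))
    (hST_eq : (univ.filter fun j => k j % 6 = 2).card = (univ.filter fun j => k j % 6 = 4).card)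
    (hST : ((univ.filter fun j => k j % 6 = 0).card : ℤ) - (univ.filter fun j => k j % 6 = 2).card
      = (ν₃ : ℤ)) :
    (((univ.filter fun j => k j = 10).card : ℕ) : ℚ)
      = 1 + (Fintype.card ι : ℚ) / 12 - (ν₂ : ℚ) / 4 - (ν₃ : ℚ) / 3 - (c : ℚ) / 2 := by
  classical
  -- indicator functions
  set s : ι → ℤ := fun j => if k j % 4 = 0 then (1 : ℤ) else -1 with hs
  set a : ι → ℤ := fun j => if k j % 6 = 0 then (1 : ℤ) else 0 with ha
  set b : ι → ℤ := fun j => if k j % 6 = 2 then (1 : ℤ) else 0 with hb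
  set e : ι → ℤ := fun j => if k j % 6 = 4 then (1 : ℤ) else 0 with he
  set t : ι → ℤ := fun j => if k j = 10 then (1 : ℤ) else 0 with ht
  set z : ι → ℤ := fun j => if k j = 0 then (1 : ℤ) else 0 with hz
  have hcases : ∀ j, k j = 0 ∨ k j = 2 ∨ k j = 4 ∨ k j = 6 ∨ k j = 8 ∨ k j = 10 := by
    intro j
    obtain ⟨m, hm⟩ := heven j
    have h1 := hnonneg j
    have h2 := hle j
    omega
  have hpt : ∀ j, 12 - k j = 3 * (1 - s j) + 8 * e j + 4 * b j - 12 * t j + 12 * z j := by
    intro j
    simp only [hs, he, hb, ht, hz]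
    rcases hcases j with h | h | h | h | h | h <;> rw [h] <;> norm_num
  have habe : ∀ j, a j + b j + e j = 1 := by
    intro j
    simp only [ha, hb, he]
    rcases hcases j with h | h | h | h | h | h <;> rw [h] <;> norm_num
  -- sums
  have Hpt : ∑ j, (12 - k j) = ∑ j, (3 * (1 - s j) + 8 * e j + 4 * b j - 12 * t j + 12 * z j) :=
    Finset.sum_congr rfl (fun j _ => hpt j)
  have Habe : ∑ j, (a j + b j + e j) = ∑ j : ι, (1 : ℤ) :=
    Finset.sum_congr rfl (fun j _ => habe j)
  simp only [Finset.sum_add_distrib, Finset.sum_sub_distrib, ← Finset.mul_sum, Finset.sum_const,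
    Finset.card_univ, nsmul_eq_mul, mul_one] at Hpt Habe
  -- translate the hypotheses
  have hz1 : ∑ j, z j = 1 := by
    have : ((univ.filter fun j => k j = 0).card : ℤ) = ∑ j, z j := by
      rw [Finset.card_filter]; push_cast; rfl
    rw [← this, h0]; rfl
  have hbe : ∑ j, b j = ∑ j, e j := by
    have h1 : ((univ.filter fun j => k j % 6 = 2).card : ℤ) = ∑ j, b j := by
      rw [Finset.card_filter]; push_cast; rfl
    have h2 : ((univ.filter fun j => k j % 6 = 4).card : ℤ) = ∑ j, e j := by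
      rw [Finset.card_filter]; push_cast; rfl
    rw [← h1, ← h2, hST_eq]
  have hab : ∑ j, a j - ∑ j, b j = (ν₃ : ℤ) := by
    have h1 : ((univ.filter fun j => k j % 6 = 0).card : ℤ) = ∑ j, a j := by
      rw [Finset.card_filter]; push_cast; rfl
    have h2 : ((univ.filter fun j => k j % 6 = 2).card : ℤ) = ∑ j, b j := by
      rw [Finset.card_filter]; push_cast; rfl
    rw [← h1, ← h2]; exact hST
  have ht10 : ((univ.filter fun j => k j = 10).card : ℤ) = ∑ j, t j := by
    rw [Finset.card_filter]; push_cast; rfl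
  have hS' : ∑ j, s j = (ν₂ : ℤ) := hS
  -- the integer identity
  have key : 12 * ((univ.filter fun j => k j = 10).card : ℤ)
      = 12 + (Fintype.card ι : ℤ) - 3 * (ν₂ : ℤ) - 4 * (ν₃ : ℤ) - 6 * (c : ℤ) := by
    rw [ht10]
    linarith
  have keyQ : 12 * (((univ.filter fun j => k j = 10).card : ℕ) : ℚ)
      = 12 + (Fintype.card ι : ℚ) - 3 * (ν₂ : ℚ) - 4 * (ν₃ : ℚ) - 6 * (c : ℚ) := by
    exact_mod_cast key
  linarith

open Finset in
/-- The genus formula from the counts of the weights of a free basis (hypotheses are exactly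
`IsFreeBasis.nonneg`, `weight_le_ten`, `IsFreeBasis.even`, `IsFreeBasis.card_weight_zero`,
`elliptic_S`, `elliptic_ST`, `sum_weights`). -/
theorem genus_of_counts (N : ℕ) [NeZero N] (k : Q N → ℤ) (h0 : ∀ j, 0 ≤ k j)
    (h10 : ∀ j, k j ≤ 10) (hev : ∀ j, Even (k j))
    (hz : (univ.filter fun j : Q N => k j = 0).card = 1)
    (hS : ((univ.filter fun j : Q N => k j % 4 = 0).card : ℤ)
        - (univ.filter fun j : Q N => k j % 4 = 2).card
      = Nat.card (MulAction.fixedBy (Q N) ModularGroup.S))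
    (hST1 : (univ.filter fun j : Q N => k j % 6 = 2).card
      = (univ.filter fun j : Q N => k j % 6 = 4).card)
    (hST2 : ((univ.filter fun j : Q N => k j % 6 = 0).card : ℤ)
        - (univ.filter fun j : Q N => k j % 6 = 2).card
      = Nat.card (MulAction.fixedBy (Q N) (ModularGroup.S * ModularGroup.T)))
    (hsum : ∑ j, k j = 6 * ((Fintype.card (Q N) : ℤ)
      - (Nat.card (MulAction.orbitRel.Quotient (Subgroup.zpowers ModularGroup.T) (Q N)) : ℤ))) :
    ((univ.filter fun j : Q N => k j = 10).card : ℚ) = ModularCurve.genusFormula N := by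
  have hS' : ∑ j, (if k j % 4 = 0 then (1 : ℤ) else -1) = ((ModularCurve.nuTwo N : ℕ) : ℤ) := by
    rw [← card_fixedBy_S N, ← hS, Finset.card_filter, Finset.card_filter]
    push_cast
    rw [← Finset.sum_sub_distrib]
    refine Finset.sum_congr rfl (fun j _ => ?_)
    obtain ⟨m, hm⟩ := hev j
    have hmod : k j % 4 = 0 ∨ k j % 4 = 2 := by omega
    rcases hmod with h | h <;> simp [h]
  have hST' : ((univ.filter fun j : Q N => k j % 6 = 0).card : ℤ)
      - (univ.filter fun j : Q N => k j % 6 = 2).card = ((ModularCurve.nuThree N : ℕ) : ℤ) := by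
    rw [hST2, card_fixedBy_ST N]
  have hsum' : ∑ j, k j = 6 * ((Fintype.card (Q N) : ℤ) - ((ModularCurve.cuspCount N : ℕ) : ℤ)) := by
    rw [hsum, card_orbits_T N]
  have h := genus_count k hev h0 h10 hz (ModularCurve.cuspCount N) (ModularCurve.nuTwo N)
    (ModularCurve.nuThree N) hsum' hS' hST1 hST'
  rw [h]
  unfold ModularCurve.genusFormula
  rw [← card_Q N, Nat.card_eq_fintype_card]

end Fermat.Agent.S20
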