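import Mathlib
import Fermat.Agent.S20.Defs

/-!
# S20 team library: basic closure properties of `MF N w`, `LF w` and of the conjugates `cj`

OWNER: helper50 (only the owner edits this file).

All names live in the namespace `Fermat.Agent.S20.Base`.
-/

set_option autoImplicit false

namespace Fermat.Agent.S20

open UpperHalfPlane ModularForm
open scoped MatrixGroups ModularForm Manifold

namespace Base

variable {N : ℕ}

theorem mem_MF_iff {w : ℤ} {f : ℍ → ℂ} :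
    f ∈ MF N w ↔ ∃ F : ModularForm (CongruenceSubgroup.Gamma0 N) w, (F : ℍ → ℂ) = f := Iff.rfl

theorem mem_LF_iff {w : ℤ} {f : ℍ → ℂ} :
    f ∈ LF w ↔ ∃ F : ModularForm 𝒮ℒ w, (F : ℍ → ℂ) = f := Iff.rfl

theorem mem_SF_iff {w : ℤ} {f : ℍ → ℂ} :
    f ∈ SF N w ↔ ∃ F : CuspForm (CongruenceSubgroup.Gamma0 N) w, (F : ℍ → ℂ) = f := Iff.rfl

theorem coe_mem_MF {w : ℤ} (F : ModularForm (CongruenceSubgroup.Gamma0 N) w) :
    (F : ℍ → ℂ) ∈ MF N w := ⟨F, rfl⟩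

theorem coe_mem_LF {w : ℤ} (F : ModularForm 𝒮ℒ w) : (F : ℍ → ℂ) ∈ LF w := ⟨F, rfl⟩

/-- `Γ₀(N) ≤ SL(2, ℤ)` inside `GL(2, ℝ)`. -/
theorem Gamma0_le_SL (N : ℕ) :
    ((CongruenceSubgroup.Gamma0 N : Subgroup SL(2, ℤ)) : Subgroup (GL (Fin 2) ℝ)) ≤ 𝒮ℒ := by
  rintro _ ⟨γ, -, rfl⟩
  exact ⟨γ, rfl⟩

/-- Restriction of a level one form to `Γ₀(N)`. -/
def restr (N : ℕ) {w : ℤ} (F : ModularForm 𝒮ℒ w) :
    ModularForm (CongruenceSubgroup.Gamma0 N) w where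
  toFun := F
  slash_action_eq' γ hγ := F.slash_action_eq' γ (Gamma0_le_SL N hγ)
  holo' := F.holo'
  bdd_at_cusps' hc := F.bdd_at_cusps' (hc.mono (Gamma0_le_SL N))

theorem coe_restr (N : ℕ) {w : ℤ} (F : ModularForm 𝒮ℒ w) : (restr N F : ℍ → ℂ) = F := rfl

theorem LF_le_MF (N : ℕ) (w : ℤ) : LF w ≤ MF N w := by
  rintro _ ⟨F, rfl⟩
  exact ⟨restr N F, rfl⟩

theorem cast_mem_MF {a b : ℤ} {x : ℍ → ℂ} (h : a = b) (hx : x ∈ MF N a) : x ∈ MF N b := h ▸ hx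

theorem cast_mem_LF {a b : ℤ} {x : ℍ → ℂ} (h : a = b) (hx : x ∈ LF a) : x ∈ LF b := h ▸ hx

theorem mul_mem_MF {a b : ℤ} {x y : ℍ → ℂ} (hx : x ∈ MF N a) (hy : y ∈ MF N b) :
    x * y ∈ MF N (a + b) := by
  obtain ⟨F, rfl⟩ := hx
  obtain ⟨G, rfl⟩ := hy
  exact ⟨F.mul G, rfl⟩

theorem mul_mem_LF {a b : ℤ} {x y : ℍ → ℂ} (hx : x ∈ LF a) (hy : y ∈ LF b) :
    x * y ∈ LF (a + b) := by
  obtain ⟨F, rfl⟩ := hx
  obtain ⟨G, rfl⟩ := hy
  exact ⟨F.mul G, rfl⟩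

theorem LF_mul_MF {a b : ℤ} {x y : ℍ → ℂ} (hx : x ∈ LF a) (hy : y ∈ MF N b) :
    x * y ∈ MF N (a + b) := mul_mem_MF (LF_le_MF N a hx) hy

theorem one_mem_LF : (1 : ℍ → ℂ) ∈ LF 0 := ⟨1, rfl⟩

theorem one_mem_MF (N : ℕ) : (1 : ℍ → ℂ) ∈ MF N 0 := LF_le_MF N 0 one_mem_LF

theorem pow_mem_MF {a : ℤ} {x : ℍ → ℂ} (hx : x ∈ MF N a) (n : ℕ) : x ^ n ∈ MF N (n * a) := by
  induction n with
  | zero => simpa using one_mem_MF N
  | succ n ih =>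
    rw [pow_succ]
    exact cast_mem_MF (by push_cast; ring) (mul_mem_MF ih hx)

theorem pow_mem_LF {a : ℤ} {x : ℍ → ℂ} (hx : x ∈ LF a) (n : ℕ) : x ^ n ∈ LF (n * a) := by
  induction n with
  | zero => simpa using one_mem_LF
  | succ n ih =>
    rw [pow_succ]
    exact cast_mem_LF (by push_cast; ring) (mul_mem_LF ih hx)

theorem E4_mem_LF : (E₄ : ℍ → ℂ) ∈ LF 4 := ⟨E₄, rfl⟩

theorem E6_mem_LF : (E₆ : ℍ → ℂ) ∈ LF 6 := ⟨E₆, rfl⟩

theorem discriminant_mem_LF : (ModularForm.discriminant : ℍ → ℂ) ∈ LF 12 :=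
  ⟨CuspForm.discriminant, rfl⟩

theorem mdiff_of_mem_MF {w : ℤ} {f : ℍ → ℂ} (hf : f ∈ MF N w) : MDiff f := by
  obtain ⟨F, rfl⟩ := hf
  exact F.holo'

theorem mdiff_of_mem_LF {w : ℤ} {f : ℍ → ℂ} (hf : f ∈ LF w) : MDiff f := by
  obtain ⟨F, rfl⟩ := hf
  exact F.holo'

theorem MF_neg [NeZero N] {w : ℤ} (hw : w < 0) : MF N w = ⊥ := by
  rw [eq_bot_iff]
  rintro _ ⟨F, rfl⟩
  rw [ModularForm.isZero_of_neg_weight hw F]
  exact zero_mem _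

theorem LF_neg {w : ℤ} (hw : w < 0) : LF w = ⊥ := by
  rw [eq_bot_iff]
  rintro _ ⟨F, rfl⟩
  rw [ModularFormClass.levelOne_neg_weight_eq_zero hw F]
  exact zero_mem _

theorem LF_zero {r : ℍ → ℂ} (hr : r ∈ LF 0) : ∃ c : ℂ, r = algebraMap ℂ (ℍ → ℂ) c := by
  obtain ⟨F, rfl⟩ := hr
  obtain ⟨c, hc⟩ := ModularFormClass.levelOne_weight_zero_const F
  exact ⟨c, hc⟩

theorem MF_zero [NeZero N] {r : ℍ → ℂ} (hr : r ∈ MF N 0) :
    ∃ c : ℂ, r = algebraMap ℂ (ℍ → ℂ) c := by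
  obtain ⟨F, rfl⟩ := hr
  obtain ⟨c, hc⟩ := ModularForm.eq_const_of_weight_zero F
  exact ⟨c, hc⟩

/-- Level one forms are invariant under the slash action of `SL(2, ℤ)`. -/
theorem slash_of_mem_LF {w : ℤ} {r : ℍ → ℂ} (hr : r ∈ LF w) (γ : SL(2, ℤ)) : r ∣[w] γ = r := by
  obtain ⟨F, rfl⟩ := hr
  rw [ModularForm.SL_slash]
  exact F.slash_action_eq' _ ⟨γ, rfl⟩

/-- Forms of level `Γ₀(N)` are invariant under the slash action of `Γ₀(N)`. -/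
theorem slash_of_mem_MF {w : ℤ} {f : ℍ → ℂ} (hf : f ∈ MF N w) (γ : SL(2, ℤ))
    (hγ : γ ∈ CongruenceSubgroup.Gamma0 N) : f ∣[w] γ = f := by
  obtain ⟨F, rfl⟩ := hf
  rw [ModularForm.SL_slash]
  exact F.slash_action_eq' _ ⟨γ, hγ, rfl⟩

/-! ### Conjugates -/

theorem cj_def (N : ℕ) (w : ℤ) (f : ℍ → ℂ) (q : Q N) :
    cj N w f q = f ∣[w] (Quotient.out q)⁻¹ := rfl

theorem cj_add (N : ℕ) (w : ℤ) (f g : ℍ → ℂ) (q : Q N) :
    cj N w (f + g) q = cj N w f q + cj N w g q := by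
  simp only [cj_def, SlashAction.add_slash]

theorem cj_zero (N : ℕ) (w : ℤ) (q : Q N) : cj N w 0 q = 0 := by
  simp only [cj_def, SlashAction.zero_slash]

theorem cj_sum (N : ℕ) (w : ℤ) {ι : Type*} (s : Finset ι) (f : ι → ℍ → ℂ) (q : Q N) :
    cj N w (∑ i ∈ s, f i) q = ∑ i ∈ s, cj N w (f i) q := by
  simp only [cj_def, SlashAction.sum_slash]

theorem cj_mul (N : ℕ) (a b : ℤ) (f g : ℍ → ℂ) (q : Q N) :
    cj N (a + b) (f * g) q = cj N a f q * cj N b g q := by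
  simp only [cj_def, ModularForm.mul_slash_SL2]

theorem cj_of_mem_LF (N : ℕ) {w : ℤ} {r : ℍ → ℂ} (hr : r ∈ LF w) (q : Q N) :
    cj N w r q = r := slash_of_mem_LF hr _

/-- Conjugate of a product of a level one form with an arbitrary function. -/
theorem cj_LF_mul (N : ℕ) {a : ℤ} (w b : ℤ) {r : ℍ → ℂ} (hr : r ∈ LF a) (h : a + b = w)
    (g : ℍ → ℂ) (q : Q N) : cj N w (r * g) q = r * cj N b g q := by
  subst h
  rw [cj_mul, cj_of_mem_LF N hr]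

theorem cj_pow (N : ℕ) (a : ℤ) (f : ℍ → ℂ) (n : ℕ) (q : Q N) :
    cj N (n * a) (f ^ n) q = (cj N a f q) ^ n := by
  induction n with
  | zero =>
    simp only [Nat.cast_zero, zero_mul, pow_zero]
    exact cj_of_mem_LF N one_mem_LF q
  | succ n ih =>
    rw [pow_succ, pow_succ, ← ih, ← cj_mul]
    congr 1
    push_cast
    ring

theorem mdiff_cj (N : ℕ) {w : ℤ} {f : ℍ → ℂ} (hf : MDiff f) (q : Q N) : MDiff (cj N w f q) := by
  rw [cj_def, ModularForm.SL_slash]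
  exact hf.slash w _

/-- The conjugate attached to a coset can be computed with any representative. -/
theorem cj_eq_slash_inv {w : ℤ} {f : ℍ → ℂ} (hf : f ∈ MF N w) (g : SL(2, ℤ)) :
    cj N w f (QuotientGroup.mk g) = f ∣[w] g⁻¹ := by
  rw [cj_def]
  have h1 : (Quotient.out (QuotientGroup.mk g : Q N))⁻¹ * g ∈ CongruenceSubgroup.Gamma0 N :=
    QuotientGroup.leftRel_apply.mp (Quotient.exact (Quotient.out_eq _))
  have h2 : f ∣[w] ((Quotient.out (QuotientGroup.mk g : Q N))⁻¹ * g) = f :=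
    slash_of_mem_MF hf _ h1
  calc f ∣[w] (Quotient.out (QuotientGroup.mk g : Q N))⁻¹
      = (f ∣[w] ((Quotient.out (QuotientGroup.mk g : Q N))⁻¹ * g)) ∣[w] g⁻¹ := by
        rw [← SlashAction.slash_mul, mul_inv_cancel_right]
    _ = f ∣[w] g⁻¹ := by rw [h2]

/-- Slash action on conjugates permutes the cosets. -/
theorem cj_slash {w : ℤ} {f : ℍ → ℂ} (hf : f ∈ MF N w) (q : Q N) (γ : SL(2, ℤ)) :
    (cj N w f q) ∣[w] γ = cj N w f (γ⁻¹ • q) := by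
  obtain ⟨g, rfl⟩ := QuotientGroup.mk_surjective q
  have : γ⁻¹ • (QuotientGroup.mk g : Q N) = QuotientGroup.mk (γ⁻¹ * g) := rfl
  rw [this, cj_eq_slash_inv hf, cj_eq_slash_inv hf, ← SlashAction.slash_mul, mul_inv_rev, inv_inv]

end Base

end Fermat.Agent.S20
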