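import Mathlib

/-!
# S20 library: abstract graded freeness from a regular sequence

OWNER: helper17 (only the owner edits this file).

Setting: `A` a commutative `ℂ`-algebra (later `ℍ → ℂ`), `M L : ℤ → Submodule ℂ A`
(later: modular forms of level `Γ₀(N)` and of level one, as functions), `e4 ∈ L 4`, `e6 ∈ L 6`.
If `L` is generated by `e4, e6` over the constants and `e4, e6` is a regular sequence on `M`
(hypothesis `reg`), then `M` is a graded free `L`-module: there are homogeneous generators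
`f j ∈ M (k j)` such that every `h ∈ M w` is a finite combination `∑ r j * f j` with
`r j ∈ L (w - k j)`, and such a combination vanishes only if all `r j` vanish.
The index type may be infinite at this stage.

Main export: `Fermat.Agent.S20.GradedRegData.exists_free_basis`.
-/

set_option autoImplicit false

universe u

namespace Fermat.Agent.S20

/-- Generators of a vector space modulo a subspace. -/
theorem exists_gens_mod (V : Type u) [AddCommGroup V] [Module ℂ V] (I : Submodule ℂ V) :
    ∃ (κ : Type u) (g : κ → V),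
      (∀ h : V, ∃ c : κ →₀ ℂ, h - Finsupp.linearCombination ℂ g c ∈ I) ∧
      (∀ c : κ →₀ ℂ, Finsupp.linearCombination ℂ g c ∈ I → c = 0) := by
  classical
  let b := Module.Free.chooseBasis ℂ (V ⧸ I)
  choose g hg using fun i => I.mkQ_surjective (b i)
  have hgb : (I.mkQ ∘ g) = b := funext hg
  refine ⟨_, g, ?_, ?_⟩
  · intro h
    refine ⟨b.repr (I.mkQ h), ?_⟩
    rw [← Submodule.Quotient.mk_eq_zero, Submodule.Quotient.mk_sub, sub_eq_zero,
      ← Submodule.mkQ_apply, ← Submodule.mkQ_apply, Finsupp.apply_linearCombination, hgb,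
      Module.Basis.linearCombination_repr]
  · intro c hc
    have h2 : Finsupp.linearCombination ℂ b c = 0 := by
      rw [← hgb, ← Finsupp.apply_linearCombination, Submodule.mkQ_apply,
        Submodule.Quotient.mk_eq_zero]
      exact hc
    exact linearIndependent_iff.mp b.linearIndependent c h2

/-- Abstract regular-sequence data for a graded module `M` over a graded ring `L` generated by
`e4` (degree 4) and `e6` (degree 6). -/
structure GradedRegData {A : Type u} [CommRing A] [Algebra ℂ A]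
    (M L : ℤ → Submodule ℂ A) (e4 e6 : A) : Prop where
  e4_mem : e4 ∈ L 4
  e6_mem : e6 ∈ L 6
  one_mem : (1 : A) ∈ L 0
  L_mul_M : ∀ {a b : ℤ} {x y : A}, x ∈ L a → y ∈ M b → x * y ∈ M (a + b)
  L_mul_L : ∀ {a b : ℤ} {x y : A}, x ∈ L a → y ∈ L b → x * y ∈ L (a + b)
  M_neg : ∀ w : ℤ, w < 0 → M w = ⊥
  L_neg : ∀ w : ℤ, w < 0 → L w = ⊥
  L_zero : ∀ r ∈ L 0, ∃ c : ℂ, r = algebraMap ℂ A c
  L_gen : ∀ w : ℤ, w ≠ 0 → ∀ r ∈ L w, ∃ a ∈ L (w - 4), ∃ b ∈ L (w - 6), r = e4 * a + e6 * b
  reg : ∀ (w : ℤ) (h1 h2 : A), h1 ∈ M (w - 4) → h2 ∈ M (w - 6) → e4 * h1 + e6 * h2 = 0 →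
    ∃ c ∈ M (w - 10), h1 = e6 * c ∧ h2 = -(e4 * c)

namespace GradedRegData

variable {A : Type u} [CommRing A] [Algebra ℂ A] {M L : ℤ → Submodule ℂ A} {e4 e6 : A}

theorem L_mul_M' (H : GradedRegData M L e4 e6) {a b c : ℤ} {x y : A} (hx : x ∈ L a)
    (hy : y ∈ M b) (h : a + b = c) : x * y ∈ M c := h ▸ H.L_mul_M hx hy

theorem L_mul_L' (H : GradedRegData M L e4 e6) {a b c : ℤ} {x y : A} (hx : x ∈ L a)
    (hy : y ∈ L b) (h : a + b = c) : x * y ∈ L c := h ▸ H.L_mul_L hx hy

theorem algebraMap_mem (H : GradedRegData M L e4 e6) (c : ℂ) : algebraMap ℂ A c ∈ L 0 := by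
  rw [Algebra.algebraMap_eq_smul_one]
  exact (L 0).smul_mem c H.one_mem

/-- The "irrelevant" part of `M w`: `e4 * M (w - 4) + e6 * M (w - 6)`, as a subspace of `M w`. -/
def irr (M : ℤ → Submodule ℂ A) (e4 e6 : A) (w : ℤ) : Submodule ℂ (M w) :=
  Submodule.comap (M w).subtype
    (Submodule.map (LinearMap.mulLeft ℂ e4) (M (w - 4)) ⊔
      Submodule.map (LinearMap.mulLeft ℂ e6) (M (w - 6)))

theorem mem_irr_iff {w : ℤ} (h : M w) :
    h ∈ irr M e4 e6 w ↔ ∃ a ∈ M (w - 4), ∃ b ∈ M (w - 6), (h : A) = e4 * a + e6 * b := by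
  simp only [irr, Submodule.mem_comap, Submodule.subtype_apply, Submodule.mem_sup,
    Submodule.mem_map, LinearMap.mulLeft_apply]
  constructor
  · rintro ⟨y, ⟨a, ha, rfl⟩, z, ⟨b, hb, rfl⟩, hyz⟩
    exact ⟨a, ha, b, hb, hyz.symm⟩
  · rintro ⟨a, ha, b, hb, hab⟩
    exact ⟨_, ⟨a, ha, rfl⟩, _, ⟨b, hb, rfl⟩, hab.symm⟩

/-- Constant coefficients: compatibility of the two kinds of linear combinations. -/
theorem lc_mapRange (V : Submodule ℂ A) {κ : Type u} (g : κ → V) (c : κ →₀ ℂ) :
    Finsupp.linearCombination A (fun i => (g i : A))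
        (c.mapRange (algebraMap ℂ A) (map_zero _)) =
      ((Finsupp.linearCombination ℂ g c : V) : A) := by
  induction c using Finsupp.induction_linear with
  | zero => simp
  | add c d hc hd => simp [Finsupp.mapRange_add, map_add, hc, hd]
  | single i a => simp [Finsupp.mapRange_single, Algebra.smul_def]

section main

variable (H : GradedRegData M L e4 e6)
  (κ : ℤ → Type u) (g : ∀ w : ℤ, κ w → M w)

/-- The generators, indexed by the sigma type. -/
def gen (j : Σ w : ℤ, κ w) : A := (g j.1 j.2 : A)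

/-- the embedding of weight-`w` constant coefficients into all coefficients -/
noncomputable def emb (w : ℤ) (c : κ w →₀ ℂ) : (Σ w : ℤ, κ w) →₀ A :=
  Finsupp.mapDomain (Sigma.mk w) (c.mapRange (algebraMap ℂ A) (map_zero _))

theorem emb_zero (w : ℤ) : emb (A := A) κ w 0 = 0 := by
  simp [emb]

theorem emb_add (w : ℤ) (c d : κ w →₀ ℂ) :
    emb (A := A) κ w (c + d) = emb κ w c + emb κ w d := by
  rw [emb, emb, emb, Finsupp.mapRange_add (map_add _), Finsupp.mapDomain_add]

theorem emb_single (w : ℤ) (i : κ w) (c : ℂ) :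
    emb (A := A) κ w (Finsupp.single i c) = Finsupp.single ⟨w, i⟩ (algebraMap ℂ A c) := by
  rw [emb, Finsupp.mapRange_single, Finsupp.mapDomain_single]

theorem lc_emb (w : ℤ) (c : κ w →₀ ℂ) :
    Finsupp.linearCombination A (gen κ g) (emb κ w c) =
      ((Finsupp.linearCombination ℂ (g w) c : M w) : A) := by
  rw [emb, Finsupp.linearCombination_mapDomain]
  exact lc_mapRange (M w) (g w) c

include H in
theorem emb_mem (w : ℤ) (c : κ w →₀ ℂ) (j : Σ w : ℤ, κ w) :
    emb (A := A) κ w c j ∈ L (w - j.1) := by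
  obtain ⟨w', i⟩ := j
  by_cases hw : w' = w
  · subst hw
    rw [emb, Finsupp.mapDomain_apply sigma_mk_injective, Finsupp.mapRange_apply, sub_self]
    exact H.algebraMap_mem _
  · rw [emb, Finsupp.mapDomain_of_notMem_range]
    · exact zero_mem _
    · rintro ⟨i', hi'⟩
      exact hw (congrArg Sigma.fst hi').symm

include H in
theorem lc_mem (v : ℤ) (r : (Σ w : ℤ, κ w) →₀ A) (hr : ∀ j, r j ∈ L (v - j.1)) :
    Finsupp.linearCombination A (gen κ g) r ∈ M v := by
  rw [Finsupp.linearCombination_apply]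
  refine Submodule.sum_mem _ fun j _ => ?_
  exact H.L_mul_M' (hr j) (g j.1 j.2).2 (by ring)

include H in
/-- Spanning. -/
theorem span_aux
    (hg1 : ∀ (w : ℤ) (h : M w), ∃ c : κ w →₀ ℂ,
      h - Finsupp.linearCombination ℂ (g w) c ∈ irr M e4 e6 w) :
    ∀ n : ℕ, ∀ w : ℤ, w < n → ∀ h ∈ M w, ∃ r : (Σ w : ℤ, κ w) →₀ A,
      (∀ j, r j ∈ L (w - j.1)) ∧ h = Finsupp.linearCombination A (gen κ g) r := by
  intro n
  induction n with
  | zero =>
    intro w hw h hh
    rw [H.M_neg w (by simpa using hw)] at hh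
    refine ⟨0, fun j => by simp, ?_⟩
    simpa using hh
  | succ n ih =>
    intro w hw h hh
    by_cases hwn : w < n
    · exact ih w hwn h hh
    obtain ⟨c, hc⟩ := hg1 w ⟨h, hh⟩
    rw [mem_irr_iff] at hc
    obtain ⟨a, ha, b, hb, hab⟩ := hc
    obtain ⟨ra, hra, rfl⟩ := ih (w - 4) (by push_cast at hw; omega) a ha
    obtain ⟨rb, hrb, rfl⟩ := ih (w - 6) (by push_cast at hw; omega) b hb
    refine ⟨emb κ w c + e4 • ra + e6 • rb, fun j => ?_, ?_⟩
    · simp only [Finsupp.add_apply, Finsupp.smul_apply, smul_eq_mul]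
      refine add_mem (add_mem (emb_mem H κ w c j) ?_) ?_
      · exact H.L_mul_L' H.e4_mem (hra j) (by ring)
      · exact H.L_mul_L' H.e6_mem (hrb j) (by ring)
    · rw [map_add, map_add, map_smul, map_smul, lc_emb, smul_eq_mul, smul_eq_mul]
      rw [Submodule.coe_sub] at hab
      linear_combination hab

include H in
/-- Decomposition of a coefficient family of degree `w`. -/
theorem decomp (w : ℤ) (r : (Σ w : ℤ, κ w) →₀ A) (hr : ∀ j, r j ∈ L (w - j.1)) :
    ∃ (c0 : κ w →₀ ℂ) (ra rb : (Σ w : ℤ, κ w) →₀ A),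
      (∀ j, ra j ∈ L (w - 4 - j.1)) ∧ (∀ j, rb j ∈ L (w - 6 - j.1)) ∧
      r = emb κ w c0 + e4 • ra + e6 • rb := by
  classical
  induction r using Finsupp.induction with
  | zero => exact ⟨0, 0, 0, fun j => by simp, fun j => by simp, by simp [emb_zero]⟩
  | single_add j x r hj hx ih =>
    have hxj : x ∈ L (w - j.1) := by
      have := hr j
      rwa [Finsupp.add_apply, Finsupp.single_eq_same,
        Finsupp.notMem_support_iff.mp hj, add_zero] at this
    have hr' : ∀ j', r j' ∈ L (w - j'.1) := by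
      intro j'
      by_cases hjj : j' = j
      · subst hjj
        rw [Finsupp.notMem_support_iff.mp hj]
        exact zero_mem _
      · have := hr j'
        rwa [Finsupp.add_apply, Finsupp.single_eq_of_ne hjj, zero_add] at this
    obtain ⟨c0, ra, rb, hra, hrb, rfl⟩ := ih hr'
    obtain ⟨w', i⟩ := j
    by_cases hw : w' = w
    · subst hw
      obtain ⟨c, rfl⟩ := H.L_zero x (by simpa using hxj)
      refine ⟨Finsupp.single i c + c0, ra, rb, hra, hrb, ?_⟩
      rw [emb_add, emb_single]
      abel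
    · obtain ⟨a, ha, b, hb, rfl⟩ := H.L_gen (w - w') (sub_ne_zero.mpr (Ne.symm hw)) x hxj
      refine ⟨c0, Finsupp.single ⟨w', i⟩ a + ra, Finsupp.single ⟨w', i⟩ b + rb, ?_, ?_, ?_⟩
      · intro j'
        refine add_mem ?_ (hra j')
        by_cases hjj : j' = ⟨w', i⟩
        · subst hjj
          rw [Finsupp.single_eq_same]
          exact (show w - w' - 4 = w - 4 - w' by ring) ▸ ha
        · rw [Finsupp.single_eq_of_ne hjj]
          exact zero_mem _
      · intro j'
        refine add_mem ?_ (hrb j')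
        by_cases hjj : j' = ⟨w', i⟩
        · subst hjj
          rw [Finsupp.single_eq_same]
          exact (show w - w' - 6 = w - 6 - w' by ring) ▸ hb
        · rw [Finsupp.single_eq_of_ne hjj]
          exact zero_mem _
      · simp only [smul_add, Finsupp.smul_single, smul_eq_mul, Finsupp.single_add]
        abel

include H in
/-- Independence. -/
theorem indep_aux
    (hg1 : ∀ (w : ℤ) (h : M w), ∃ c : κ w →₀ ℂ,
      h - Finsupp.linearCombination ℂ (g w) c ∈ irr M e4 e6 w)
    (hg2 : ∀ (w : ℤ) (c : κ w →₀ ℂ),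
      Finsupp.linearCombination ℂ (g w) c ∈ irr M e4 e6 w → c = 0)
    (hκ : ∀ j : Σ w : ℤ, κ w, 0 ≤ j.1) :
    ∀ n : ℕ, ∀ w : ℤ, w < n → ∀ r : (Σ w : ℤ, κ w) →₀ A,
      (∀ j, r j ∈ L (w - j.1)) → Finsupp.linearCombination A (gen κ g) r = 0 → r = 0 := by
  intro n
  induction n with
  | zero =>
    intro w hw r hr _
    ext j
    have h1 := hr j
    rw [H.L_neg _ (by have := hκ j; simp at hw; omega)] at h1
    simpa using h1
  | succ n ih =>
    intro w hw r hr hr0
    by_cases hwn : w < n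
    · exact ih w hwn r hr hr0
    obtain ⟨c0, ra, rb, hra, hrb, rfl⟩ := decomp H κ w r hr
    have hx := lc_mem H κ g (w - 4) ra hra
    have hy := lc_mem H κ g (w - 6) rb hrb
    set x := Finsupp.linearCombination A (gen κ g) ra with hxdef
    set y := Finsupp.linearCombination A (gen κ g) rb with hydef
    rw [map_add, map_add, map_smul, map_smul, lc_emb, smul_eq_mul, smul_eq_mul, ← hxdef,
      ← hydef] at hr0
    -- the constant part vanishes
    have hc0 : c0 = 0 := by
      apply hg2 w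
      rw [mem_irr_iff]
      refine ⟨-x, neg_mem hx, -y, neg_mem hy, ?_⟩
      linear_combination hr0
    subst hc0
    simp only [map_zero, ZeroMemClass.coe_zero, zero_add] at hr0
    obtain ⟨c, hc, hxc, hyc⟩ := H.reg w x y hx hy hr0
    obtain ⟨s, hs, rfl⟩ := span_aux H κ g hg1 (w - 10 + 1).toNat (w - 10) (by omega) c hc
    have h4 : ra - e6 • s = 0 := by
      apply ih (w - 4) (by push_cast at hw; omega)
      · intro j
        simp only [Finsupp.sub_apply, Finsupp.smul_apply, smul_eq_mul]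
        exact sub_mem (hra j) (H.L_mul_L' H.e6_mem (hs j) (by ring))
      · rw [map_sub, map_smul, smul_eq_mul, ← hxdef, hxc, sub_self]
    have h6 : rb + e4 • s = 0 := by
      apply ih (w - 6) (by push_cast at hw; omega)
      · intro j
        simp only [Finsupp.add_apply, Finsupp.smul_apply, smul_eq_mul]
        exact add_mem (hrb j) (H.L_mul_L' H.e4_mem (hs j) (by ring))
      · rw [map_add, map_smul, smul_eq_mul, ← hydef, hyc, neg_add_cancel]
    have hra' : ra = e6 • s := sub_eq_zero.mp h4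
    have hrb' : rb = -(e4 • s) := eq_neg_of_add_eq_zero_left h6
    rw [hra', hrb']
    simp only [emb_zero, zero_add, smul_neg, smul_smul, mul_comm e4 e6, add_neg_cancel]

end main

/-- **Graded freeness.** Under `GradedRegData`, `M` has a homogeneous `L`-basis. -/
theorem exists_free_basis (H : GradedRegData M L e4 e6) :
    ∃ (ι : Type u) (k : ι → ℤ) (f : ι → A),
      (∀ j, f j ∈ M (k j)) ∧ (∀ j, 0 ≤ k j) ∧
      (∀ (w : ℤ) (h : A), h ∈ M w → ∃ r : ι →₀ A,
        (∀ j, r j ∈ L (w - k j)) ∧ h = Finsupp.linearCombination A f r) ∧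
      (∀ (w : ℤ) (r : ι →₀ A), (∀ j, r j ∈ L (w - k j)) →
        Finsupp.linearCombination A f r = 0 → r = 0) := by
  classical
  choose κ g hg1 hg2 using fun w : ℤ => exists_gens_mod (M w) (irr M e4 e6 w)
  have hκ : ∀ j : Σ w : ℤ, κ w, 0 ≤ j.1 := by
    rintro ⟨w, i⟩
    by_contra hw
    have hbot : M w = ⊥ := H.M_neg w (by simpa using hw)
    have hsub : ∀ x : M w, x = 0 := by
      rintro ⟨x, hx⟩
      rw [hbot] at hx
      exact Subtype.ext (by simpa using hx)
    have := hg2 w (Finsupp.single i 1) (by rw [hsub (Finsupp.linearCombination ℂ (g w) _)]; exact zero_mem _)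
    have h1 := congrArg (fun c => c i) this
    simp at h1
  refine ⟨Σ w : ℤ, κ w, Sigma.fst, gen κ g, fun j => (g j.1 j.2).2, hκ, ?_, ?_⟩
  · intro w h hh
    exact span_aux H κ g hg1 (w + 1).toNat w (by omega) h hh
  · intro w r hr hr0
    exact indep_aux H κ g hg1 hg2 hκ (w + 1).toNat w (by omega) r hr hr0

end GradedRegData

end Fermat.Agent.S20
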