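import Mathlib
import Fermat.Agent.S20.Defs
import Fermat.Agent.S20.FreeBase
import Fermat.Agent.S20.GradedFree
import Fermat.Agent.S20.LevelOne
import Fermat.Agent.S20.Division

/-!
# S20 team library: `⊕_w MF N w` is graded free over `⊕_w LF w = ℂ[E₄, E₆]`

OWNER: helper50 (only the owner edits this file).

Instantiation of the abstract graded freeness theorem (`GradedFree.lean`, helper17) with the
regular sequence property of `E₄, E₆` (`Division.lean`, helper47) and the structure of level
one forms (`LevelOne.lean`, helper49). The index type may be infinite at this stage; see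
`Rank.lean` for the final statement indexed by `Q N`.
-/

set_option autoImplicit false

namespace Fermat.Agent.S20

open UpperHalfPlane ModularForm
open scoped MatrixGroups ModularForm Manifold

namespace Free

/-- The abstract regular-sequence data for `MF N` over `LF` with `E₄`, `E₆`. -/
theorem gradedRegData (N : ℕ) [NeZero N] :
    GradedRegData (MF N) LF (E₄ : ℍ → ℂ) (E₆ : ℍ → ℂ) where
  e4_mem := Base.E4_mem_LF
  e6_mem := Base.E6_mem_LF
  one_mem := Base.one_mem_LF
  L_mul_M := fun hx hy => Base.LF_mul_MF hx hy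
  L_mul_L := fun hx hy => Base.mul_mem_LF hx hy
  M_neg := fun _ hw => Base.MF_neg hw
  L_neg := fun _ hw => Base.LF_neg hw
  L_zero := fun _ hr => Base.LF_zero hr
  L_gen := fun _ hw _ hr => lo_gen hw hr
  reg := fun w h1 h2 hh1 hh2 h => Division.reg_E4_E6 w h1 h2 hh1 hh2 h

/-- Graded freeness of `⊕_w MF N w` over `⊕_w LF w`, with finitely supported coefficients
(the index type is not yet known to be finite). -/
theorem exists_free_basis_finsupp (N : ℕ) [NeZero N] :
    ∃ (ι : Type) (k : ι → ℤ) (f : ι → ℍ → ℂ),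
      (∀ j, f j ∈ MF N (k j)) ∧ (∀ j, 0 ≤ k j) ∧
      (∀ (w : ℤ) (h : ℍ → ℂ), h ∈ MF N w → ∃ r : ι →₀ (ℍ → ℂ),
        (∀ j, r j ∈ LF (w - k j)) ∧ h = Finsupp.linearCombination (ℍ → ℂ) f r) ∧
      (∀ (w : ℤ) (r : ι →₀ (ℍ → ℂ)), (∀ j, r j ∈ LF (w - k j)) →
        Finsupp.linearCombination (ℍ → ℂ) f r = 0 → r = 0) :=
  (gradedRegData N).exists_free_basis

end Free

end Fermat.Agent.S20
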