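import Mathlib
import Fermat.Agent.S20.Defs
import Fermat.Agent.S20.FreeBase
import Fermat.Agent.S23.Distinct
import Fermat.Agent.S23.LevelN

/-!
# S20 team library: a homogeneous generating family has at least `card (Q N)` elements

OWNER: helper50 (only the owner edits this file).

Pointwise Vandermonde argument on the conjugates of `u = Δ(N ·) ∈ MF N 12`: the conjugates
`cj N 12 u q` (`q : Q N`) are pairwise distinct holomorphic functions, so at some point `z` the
Vandermonde matrix `((cj N 12 u q z) ^ a)_{q, a}` is invertible; but if `f j` (`j : ι`) generate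
`⊕_w MF N w` over `⊕_w LF w`, this matrix factors through `ι`.

Main export: `Fermat.Agent.S20.RankLower.card_le_card`.
-/

set_option autoImplicit false

namespace Fermat.Agent.S20

open UpperHalfPlane ModularForm
open scoped MatrixGroups ModularForm Manifold

namespace RankLower

/-- If a square matrix factors through a smaller index type, its determinant vanishes. -/
theorem det_mul_eq_zero_of_card_lt {n J : Type*} [Fintype n] [DecidableEq n] [Fintype J]
    (A : Matrix n J ℂ) (B : Matrix J n ℂ) (h : Fintype.card J < Fintype.card n) :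
    (A * B).det = 0 := by
  classical
  have hker : LinearMap.ker (Matrix.mulVecLin B) ≠ ⊥ := by
    apply LinearMap.ker_ne_bot_of_finrank_lt
    simpa using h
  obtain ⟨v, hv, hv0⟩ := (Submodule.ne_bot_iff _).mp hker
  rw [LinearMap.mem_ker, Matrix.mulVecLin_apply] at hv
  refine Matrix.exists_mulVec_eq_zero_iff.mp ⟨v, hv0, ?_⟩
  rw [← Matrix.mulVec_mulVec, hv, Matrix.mulVec_zero]

/-- Pointwise Vandermonde argument: if the powers `uq q ^ a` (`a < card Q`) of pairwise distinct
holomorphic functions factor pointwise through a family indexed by `J`, then `card Q ≤ card J`. -/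
theorem card_le_of_vandermonde_factor {Q J : Type*} [Fintype Q] [Fintype J]
    (uq : Q → ℍ → ℂ) (hu : Function.Injective uq) (hmd : ∀ q, MDiff (uq q))
    (Φ : Q → J → ℍ → ℂ) (r : ℕ → J → ℍ → ℂ)
    (h : ∀ (q : Q) (a : ℕ) (z : ℍ), a < Fintype.card Q → uq q z ^ a = ∑ j, r a j z * Φ q j z) :
    Fintype.card Q ≤ Fintype.card J := by
  classical
  by_contra hlt
  rw [not_le] at hlt
  set n := Fintype.card Q with hn
  let e : Q ≃ Fin n := Fintype.equivFin Q
  let x : Fin n → ℍ → ℂ := fun i => uq (e.symm i)
  have hx : Function.Injective x := hu.comp e.symm.injective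
  have hxmd : ∀ i, MDiff (x i) := fun i => hmd _
  -- the product of the differences is a nonzero function
  have hD : (∏ i : Fin n, ∏ j ∈ Finset.Ioi i, (x j - x i)) ≠ 0 := by
    intro h0
    rw [UpperHalfPlane.prod_eq_zero_iff] at h0
    · obtain ⟨i, -, hi⟩ := h0
      rw [UpperHalfPlane.prod_eq_zero_iff] at hi
      · obtain ⟨j, hj, hij⟩ := hi
        have : x j = x i := sub_eq_zero.mp hij
        have hji : j = i := hx this
        rw [Finset.mem_Ioi] at hj
        exact (ne_of_gt hj) hji
      · intro j _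
        exact (hxmd j).sub (hxmd i)
    · intro i _
      exact MDifferentiable.prod fun j _ => (hxmd j).sub (hxmd i)
  obtain ⟨z, hz⟩ : ∃ z, (∏ i : Fin n, ∏ j ∈ Finset.Ioi i, (x j - x i)) z ≠ 0 := by
    by_contra hall
    exact hD (funext fun z => not_not.mp (not_exists.mp hall z))
  have hdet : (Matrix.vandermonde (fun i => x i z)).det ≠ 0 := by
    rw [Matrix.det_vandermonde]
    simpa [Finset.prod_apply] using hz
  let A : Matrix (Fin n) J ℂ := fun i j => Φ (e.symm i) j z
  let B : Matrix J (Fin n) ℂ := fun j a => r a j z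
  have hAB : Matrix.vandermonde (fun i => x i z) = A * B := by
    ext i a
    rw [Matrix.vandermonde_apply, Matrix.mul_apply]
    rw [h (e.symm i) a z a.2]
    exact Finset.sum_congr rfl fun j _ => mul_comm _ _
  apply hdet
  rw [hAB]
  exact det_mul_eq_zero_of_card_lt A B (by simpa using hlt)

/-- `u = Δ(N ·)` is a modular form of weight 12 and level `Γ₀(N)`. -/
theorem uFun_mem_MF (N : ℕ) [NeZero N] : S23.uFun N ∈ MF N 12 :=
  ⟨S23.uN N, S23.coe_uN N⟩

/-- The conjugates of `u = Δ(N ·)` are pairwise distinct. -/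
theorem cj_uFun_injective (N : ℕ) [NeZero N] :
    Function.Injective (fun q : Q N => cj N 12 (S23.uFun N) q) := by
  intro q q' h
  obtain ⟨g, rfl⟩ := QuotientGroup.mk_surjective q
  obtain ⟨g', rfl⟩ := QuotientGroup.mk_surjective q'
  simp only [Base.cj_eq_slash_inv (uFun_mem_MF N)] at h
  have h2 : (S23.uFun N) ∣[(12 : ℤ)] (g⁻¹ * g') = S23.uFun N := by
    have h3 := congrArg (fun F : ℍ → ℂ => F ∣[(12 : ℤ)] g') h
    simp only [← SlashAction.slash_mul] at h3
    rw [inv_mul_cancel, SlashAction.slash_one] at h3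
    exact h3
  have h4 := S23.mem_Gamma0_of_slash_uFun_eq N (g⁻¹ * g') h2
  exact QuotientGroup.eq.mpr h4

/-- **Lower bound for the number of generators.** A finite homogeneous family generating
`⊕_w MF N w` over `⊕_w LF w` has at least `card (Q N)` elements. -/
theorem card_le_card {ι : Type*} [Fintype ι] (N : ℕ) [NeZero N] (k : ι → ℤ) (f : ι → ℍ → ℂ)
    (hspan : ∀ (w : ℤ) (h : ℍ → ℂ), h ∈ MF N w → ∃ r : ι → ℍ → ℂ,
      (∀ j, r j ∈ LF (w - k j)) ∧ h = ∑ j, r j * f j) :
    Fintype.card (Q N) ≤ Fintype.card ι := by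
  have hu : ∀ a : ℕ, (S23.uFun N) ^ a ∈ MF N (a * 12) := fun a =>
    Base.pow_mem_MF (uFun_mem_MF N) a
  choose r hr hur using fun a : ℕ => hspan _ _ (hu a)
  refine card_le_of_vandermonde_factor (fun q : Q N => cj N 12 (S23.uFun N) q)
    (cj_uFun_injective N) (fun q => Base.mdiff_cj N (Base.mdiff_of_mem_MF (uFun_mem_MF N)) q)
    (fun q j => cj N (k j) (f j) q) r ?_
  intro q a z _
  have h1 : (cj N 12 (S23.uFun N) q) ^ a = ∑ j, r a j * cj N (k j) (f j) q := by
    rw [← Base.cj_pow, hur a, Base.cj_sum]
    refine Finset.sum_congr rfl fun j _ => ?_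
    exact Base.cj_LF_mul N _ (k j) (hr a j) (by ring) (f j) q
  have h2 := congrFun h1 z
  simpa [Finset.sum_apply] using h2

end RankLower

end Fermat.Agent.S20
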