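import Mathlib
import Fermat.Agent.S20.Defs
import Fermat.Prelude.Thm_ModularForm_sturm_bound_Gamma0
import Fermat.Prelude.Thm_CongruenceSubgroup_one_mem_strictPeriods_Gamma0

/-!
# S20 library: the number of homogeneous free generators is at most the index

OWNER: helper17 (only the owner edits this file).

Main exports (namespace `Fermat.Agent.S20`):
* `rankUpper_card_le_index` : a finite subfamily of an `LF`-independent homogeneous family in
  `⊕ MF N w` has at most `index Γ₀(N)` elements;
* `rankUpper_finite_and_card_le` : hence the index type of such a family is finite of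
  cardinality at most `index Γ₀(N) = card (Q N)`.

Auxiliary results live in the namespace `Fermat.Agent.S20.RankUpper` (self-contained, so that
this file only depends on `Defs`): finite-dimensionality and the Sturm dimension bound for
`MF N w`, the lower bound `v / 12 ≤ dim LF v`, vanishing in odd weight, products.
-/

set_option autoImplicit false

namespace Fermat.Agent.S20

open UpperHalfPlane ModularForm CongruenceSubgroup
open scoped MatrixGroups ModularForm Manifold

namespace RankUpper

/-- Coercion of modular forms to functions, as a linear map. -/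
def coeL (Γ : Subgroup (GL (Fin 2) ℝ)) [Γ.HasDetOne] (w : ℤ) :
    ModularForm Γ w →ₗ[ℂ] (ℍ → ℂ) where
  toFun F := F
  map_add' _ _ := rfl
  map_smul' _ _ := rfl

theorem coeL_injective (Γ : Subgroup (GL (Fin 2) ℝ)) [Γ.HasDetOne] (w : ℤ) :
    Function.Injective (coeL Γ w) := fun _ _ h => DFunLike.coe_injective h

theorem MF_eq_range (N : ℕ) (w : ℤ) : MF N w = LinearMap.range (coeL (Gamma0 N) w) := by
  ext f
  rfl

theorem LF_eq_range (w : ℤ) : LF w = LinearMap.range (coeL 𝒮ℒ w) := by
  ext f
  rfl

/-- The first `B + 1` q-expansion coefficients, as a linear map. -/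
noncomputable def qCoeffsL (N : ℕ) (w : ℤ) (B : ℕ) :
    ModularForm (Gamma0 N) w →ₗ[ℂ] (Fin (B + 1) → ℂ) where
  toFun F n := (qExpansion 1 F).coeff n
  map_add' F G := by
    funext n
    have := ModularForm.qExpansion_add one_pos (one_mem_strictPeriods_Gamma0 N) F G
    rw [FunLike.coe_add, this]
    simp
  map_smul' c F := by
    funext n
    have := ModularForm.qExpansion_smul one_pos (one_mem_strictPeriods_Gamma0 N) c F
    rw [FunLike.coe_smul, this]
    simp

theorem qCoeffsL_injective (N : ℕ) [NeZero N] (w : ℤ) :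
    Function.Injective (qCoeffsL N w ((w * (Gamma0 N).index).toNat / 12)) := by
  rw [← LinearMap.ker_eq_bot, LinearMap.ker_eq_bot']
  intro F hF
  refine ModularForm.sturm_bound_Gamma0 N F fun n hn => ?_
  have := congrFun hF ⟨n, Nat.lt_succ_of_le hn⟩
  simpa [qCoeffsL] using this

theorem modularForm_finiteDimensional (N : ℕ) [NeZero N] (w : ℤ) :
    FiniteDimensional ℂ (ModularForm (Gamma0 N) w) :=
  FiniteDimensional.of_injective _ (qCoeffsL_injective N w)

theorem modularForm_finrank_le (N : ℕ) [NeZero N] (w : ℤ) :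
    Module.finrank ℂ (ModularForm (Gamma0 N) w) ≤ (w * (Gamma0 N).index).toNat / 12 + 1 := by
  have := LinearMap.finrank_le_finrank_of_injective (qCoeffsL_injective N w)
  simpa using this

theorem MF_finiteDimensional (N : ℕ) [NeZero N] (w : ℤ) : FiniteDimensional ℂ (MF N w) := by
  have := modularForm_finiteDimensional N w
  rw [MF_eq_range]
  infer_instance

theorem MF_finrank_le (N : ℕ) [NeZero N] (w : ℤ) :
    Module.finrank ℂ (MF N w) ≤ (w * (Gamma0 N).index).toNat / 12 + 1 := by
  rw [MF_eq_range, LinearMap.finrank_range_of_inj (coeL_injective _ w)]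
  exact modularForm_finrank_le N w

theorem LF_finiteDimensional (w : ℤ) : FiniteDimensional ℂ (LF w) := by
  rw [LF_eq_range]
  infer_instance

theorem LF_finrank_ge (v : ℕ) (hv : Even v) : v / 12 ≤ Module.finrank ℂ (LF (v : ℤ)) := by
  rw [LF_eq_range, LinearMap.finrank_range_of_inj (coeL_injective _ _)]
  have h := ModularForm.dimension_level_one v hv
  split_ifs at h
  · rw [Module.finrank_eq_of_rank_eq h]
  · rw [Module.finrank_eq_of_rank_eq (n := v / 12 + 1) (by rw [h])]
    omega

theorem neg_one_mem_Gamma0 (N : ℕ) :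
    (-1 : GL (Fin 2) ℝ) ∈ ((Gamma0 N : Subgroup SL(2, ℤ)) : Subgroup (GL (Fin 2) ℝ)) :=
  ⟨-1, by simp [Gamma0_mem], by ext; simp⟩

/-- Odd weight forms for `Γ₀(N)` vanish. -/
theorem MF_odd (N : ℕ) (w : ℤ) (hw : Odd w) : MF N w = ⊥ := by
  rw [eq_bot_iff]
  rintro _ ⟨F, rfl⟩
  rw [ModularForm.eq_zero_of_neg_one_mem (neg_one_mem_Gamma0 N) hw F]
  simp

/-- Restriction of a level-one form to `Γ₀(N)`. -/
def restr (N : ℕ) {a : ℤ} (F : ModularForm 𝒮ℒ a) : ModularForm (Gamma0 N) a where
  toFun := F
  slash_action_eq' A hA := F.slash_action_eq' A (by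
    obtain ⟨γ, -, rfl⟩ := hA
    exact ⟨γ, rfl⟩)
  holo' := F.holo'
  bdd_at_cusps' hc := F.bdd_at_cusps' (hc.mono (by
    rintro _ ⟨γ, -, rfl⟩
    exact ⟨γ, rfl⟩))

theorem LF_mul_MF (N : ℕ) {a b : ℤ} {x y : ℍ → ℂ} (hx : x ∈ LF a) (hy : y ∈ MF N b) :
    x * y ∈ MF N (a + b) := by
  obtain ⟨F, rfl⟩ := hx
  obtain ⟨G, rfl⟩ := hy
  exact ⟨(restr N F).mul G, rfl⟩

theorem one_mem_LF : (1 : ℍ → ℂ) ∈ LF 0 := ⟨1, rfl⟩

end RankUpper

open RankUpper

/-- **Upper bound for the number of free generators.** A finite subfamily of a family of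
homogeneous elements of `⊕ MF N w` that is independent over `⊕ LF w` has at most
`index Γ₀(N)` elements. -/
theorem rankUpper_card_le_index (N : ℕ) [NeZero N] {ι : Type*} (k : ι → ℤ) (f : ι → ℍ → ℂ)
    (hf : ∀ j, f j ∈ MF N (k j))
    (hindep : ∀ (w : ℤ) (r : ι →₀ (ℍ → ℂ)), (∀ j, r j ∈ LF (w - k j)) →
      Finsupp.linearCombination (ℍ → ℂ) f r = 0 → r = 0)
    (J : Finset ι) : J.card ≤ (Gamma0 N).index := by
  classical
  -- all weights are even
  have hev : ∀ j, Even (k j) := by
    intro j
    by_contra hodd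
    rw [Int.not_even_iff_odd] at hodd
    have h0 : f j = 0 := by
      have := hf j
      rw [MF_odd N _ hodd] at this
      simpa using this
    have := hindep (k j) (Finsupp.single j 1) (fun j' => by
      by_cases hj : j' = j
      · subst hj
        simpa using one_mem_LF
      · rw [Finsupp.single_eq_of_ne hj]
        exact zero_mem _) (by simp [h0])
    have h1 := congrArg (fun r => r j) this
    simp at h1
  set μ := (Gamma0 N).index with hμ
  set K : ℕ := J.sup fun j => (k j).toNat with hK
  by_contra hcard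
  rw [not_le] at hcard
  -- the weight `w = 12 t`
  set t : ℕ := (μ + 1) * K + 2 with ht
  set w : ℤ := 12 * (t : ℤ) with hw
  have hKj : ∀ j ∈ J, k j ≤ K := fun j hj =>
    (Int.self_le_toNat (k j)).trans (by exact_mod_cast Finset.le_sup (f := fun j => (k j).toNat) hj)
  have hKt : K ≤ t := by nlinarith [Nat.zero_le μ, Nat.zero_le K]
  -- dimension of each coefficient space
  have hdim : ∀ j : J, t - K ≤ Module.finrank ℂ (LF (w - k j)) := by
    rintro ⟨j, hj⟩
    have h1 : k j ≤ K := hKj j hj
    have h2 : 0 ≤ w - k j := by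
      have : (K : ℤ) ≤ t := by exact_mod_cast hKt
      omega
    obtain ⟨v, hv⟩ := Int.eq_ofNat_of_zero_le h2
    have hve : Even v := by
      have h3 : Even (w - k j) := Even.sub ⟨6 * (t : ℤ), by rw [hw]; ring⟩ (hev j)
      rw [hv] at h3
      exact_mod_cast h3
    have h4 := LF_finrank_ge v hve
    rw [← hv] at h4
    refine le_trans ?_ h4
    have h5 : (12 * t : ℤ) - K ≤ v := by rw [← hv, hw]; omega
    have h6 : 12 * t ≤ v + K := by
      have : (12 * t : ℤ) ≤ v + K := by linarith
      exact_mod_cast this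
    omega
  -- the injective map
  have hfd : ∀ j : J, FiniteDimensional ℂ (LF (w - k j)) := fun j => LF_finiteDimensional _
  have hMfd := MF_finiteDimensional N w
  let Φ : (∀ j : J, LF (w - k j)) →ₗ[ℂ] MF N w :=
    { toFun := fun r => ⟨∑ j : J, (r j : ℍ → ℂ) * f j,
        Submodule.sum_mem _ fun j _ => by
          have := LF_mul_MF N (r j).2 (hf j)
          rwa [sub_add_cancel] at this⟩
      map_add' := fun r s => by
        apply Subtype.ext
        simp [add_mul, Finset.sum_add_distrib]
      map_smul' := fun c r => by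
        apply Subtype.ext
        simp [Finset.smul_sum] }
  have hΦ : Function.Injective Φ := by
    rw [← LinearMap.ker_eq_bot, LinearMap.ker_eq_bot']
    intro r hr
    have hr' : ∑ j : J, (r j : ℍ → ℂ) * f j = 0 := congrArg Subtype.val hr
    -- extend `r` by zero to a finitely supported family on `ι`
    let r' : ι →₀ (ℍ → ℂ) :=
      Finsupp.onFinset J (fun j => if h : j ∈ J then (r ⟨j, h⟩ : ℍ → ℂ) else 0) (by
        intro j hj
        by_contra hjJ
        simp [hjJ] at hj)
    have hr'mem : ∀ j, r' j ∈ LF (w - k j) := by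
      intro j
      simp only [r', Finsupp.onFinset_apply]
      split_ifs with h
      · exact (r ⟨j, h⟩).2
      · exact zero_mem _
    have hr'lc : Finsupp.linearCombination (ℍ → ℂ) f r' = 0 := by
      rw [Finsupp.linearCombination_apply, Finsupp.sum_of_support_subset r'
        (Finsupp.support_onFinset_subset) _ (fun j _ => by simp)]
      rw [← hr', ← Finset.sum_coe_sort J]
      refine Finset.sum_congr rfl fun j _ => ?_
      simp [r', smul_eq_mul]
    have hzero := hindep w r' hr'mem hr'lc
    funext j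
    apply Subtype.ext
    have := congrArg (fun s => s (j : ι)) hzero
    simpa [r'] using this
  have h1 := LinearMap.finrank_le_finrank_of_injective hΦ
  rw [Module.finrank_pi_fintype] at h1
  have h2 : J.card * (t - K) ≤ ∑ j : J, Module.finrank ℂ (LF (w - k j)) := by
    calc J.card * (t - K) = ∑ _j : J, (t - K) := by simp
      _ ≤ _ := Finset.sum_le_sum fun j _ => hdim j
  have h3 := MF_finrank_le N w
  have h4 : (w * (μ : ℤ)).toNat / 12 = t * μ := by
    have : w * (μ : ℤ) = ((12 * (t * μ) : ℕ) : ℤ) := by rw [hw]; push_cast; ring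
    rw [this, Int.toNat_natCast]
    omega
  rw [← hμ, h4] at h3
  have h5 : J.card * (t - K) ≤ t * μ + 1 := h2.trans (h1.trans h3)
  have h6 : (μ + 1) * (t - K) ≤ t * μ + 1 :=
    (Nat.mul_le_mul_right _ hcard).trans h5
  have h7 : t - K = (μ + 1) * K + 2 - K := by rw [ht]
  have h8 : K ≤ (μ + 1) * K := Nat.le_mul_of_pos_left K (Nat.succ_pos μ)
  zify [hKt] at h6
  rw [ht] at h6
  push_cast at h6
  nlinarith [Nat.zero_le μ, Nat.zero_le K]

/-- The index type of an `LF`-independent homogeneous family in `⊕ MF N w` is finite, with at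
most `index Γ₀(N) = card (Q N)` elements. -/
theorem rankUpper_finite_and_card_le (N : ℕ) [NeZero N] {ι : Type*} (k : ι → ℤ)
    (f : ι → ℍ → ℂ) (hf : ∀ j, f j ∈ MF N (k j))
    (hindep : ∀ (w : ℤ) (r : ι →₀ (ℍ → ℂ)), (∀ j, r j ∈ LF (w - k j)) →
      Finsupp.linearCombination (ℍ → ℂ) f r = 0 → r = 0) :
    Finite ι ∧ Nat.card ι ≤ Nat.card (Q N) := by
  classical
  have hb : ∀ J : Finset ι, J.card ≤ (Gamma0 N).index :=
    rankUpper_card_le_index N k f hf hindep
  have hfin : Finite ι := by
    by_contra hinf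
    rw [not_finite_iff_infinite] at hinf
    obtain ⟨J, hJ⟩ := Infinite.exists_subset_card_eq ι ((Gamma0 N).index + 1)
    have := hb J
    omega
  refine ⟨hfin, ?_⟩
  have := Fintype.ofFinite ι
  have := hb Finset.univ
  rw [Nat.card_eq_fintype_card, ← Finset.card_univ]
  exact this.trans (le_of_eq (Subgroup.index_eq_card _))

end Fermat.Agent.S20
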