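import Mathlib
import Fermat.Agent.S20.Defs
import Fermat.Agent.S20.FreeBase
import Fermat.Agent.S20.Free
import Fermat.Agent.S20.RankUpper
import Fermat.Agent.S20.RankLower

/-!
# S20 team library: existence of a homogeneous free basis indexed by `Q N`

OWNER: helper50 (only the owner edits this file).

Main export: `Fermat.Agent.S20.exists_freeBasis`.
-/

set_option autoImplicit false

namespace Fermat.Agent.S20

open UpperHalfPlane ModularForm
open scoped MatrixGroups ModularForm Manifold

/-- **Graded freeness with the right rank.** `⊕_w MF N w` has a homogeneous free basis over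
`⊕_w LF w = ℂ[E₄, E₆]` with exactly `card (Q N) = [SL(2, ℤ) : Γ₀(N)]` elements. -/
theorem exists_freeBasis (N : ℕ) [NeZero N] :
    ∃ (k : Q N → ℤ) (f : Q N → ℍ → ℂ), IsFreeBasis N k f := by
  classical
  obtain ⟨ι, k, f, hmem, -, hspan, hindep⟩ := Free.exists_free_basis_finsupp N
  obtain ⟨hfin, hle⟩ := rankUpper_finite_and_card_le N k f hmem hindep
  have : Fintype ι := Fintype.ofFinite ι
  have hlc : ∀ r : ι →₀ (ℍ → ℂ),
      Finsupp.linearCombination (ℍ → ℂ) f r = ∑ j, r j * f j := by
    intro r
    rw [Finsupp.linearCombination_apply, Finsupp.sum_fintype]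
    · simp
    · intro i
      simp
  have hspan' : ∀ (w : ℤ) (h : ℍ → ℂ), h ∈ MF N w → ∃ r : ι → ℍ → ℂ,
      (∀ j, r j ∈ LF (w - k j)) ∧ h = ∑ j, r j * f j := by
    intro w h hh
    obtain ⟨r, hr, rfl⟩ := hspan w h hh
    exact ⟨r, hr, hlc r⟩
  have hge : Fintype.card (Q N) ≤ Fintype.card ι := RankLower.card_le_card N k f hspan'
  have hle' : Fintype.card ι ≤ Fintype.card (Q N) := by
    simpa [Nat.card_eq_fintype_card] using hle
  have hcard : Fintype.card (Q N) = Fintype.card ι := le_antisymm hge hle'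
  let e : Q N ≃ ι := Fintype.equivOfCardEq hcard
  refine ⟨k ∘ e, f ∘ e, ⟨fun j => hmem (e j), ?_, ?_⟩⟩
  · intro w g hg
    obtain ⟨r, hr, rfl⟩ := hspan' w g hg
    exact ⟨r ∘ e, fun j => hr (e j), (Equiv.sum_comp e (fun i => r i * f i)).symm⟩
  · intro w r hr h0 j
    let r' : ι →₀ (ℍ → ℂ) := Finsupp.equivFunOnFinite.symm (r ∘ e.symm)
    have hr'apply : ∀ i, r' i = r (e.symm i) := fun i => rfl
    have hr' : ∀ i, r' i ∈ LF (w - k i) := by
      intro i
      rw [hr'apply]
      have := hr (e.symm i)
      simpa using this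
    have hsum : Finsupp.linearCombination (ℍ → ℂ) f r' = 0 := by
      rw [hlc r', ← Equiv.sum_comp e]
      simpa [hr'apply] using h0
    have hzero : r' = 0 := hindep w r' hr' hsum
    have := hr'apply (e j)
    rw [hzero, Equiv.symm_apply_apply] at this
    simpa using this.symm

end Fermat.Agent.S20
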