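import Fermat.Agent.S20.Defs

/-!
# S20 team library: auxiliary lemmas for `Det.lean`

OWNER: helper54 (only the owner edits this file).

Self-contained helper lemmas (imports `Defs` only) used by `DetCore.lean`.  Everything lives in
the sub-namespace `Fermat.Agent.S20.Det`, so that nothing clashes with `Basic.lean` / `Sym.lean`.
-/

set_option autoImplicit false

namespace Fermat.Agent.S20.Det

open UpperHalfPlane ModularForm CongruenceSubgroup Matrix.SpecialLinearGroup
open scoped MatrixGroups ModularForm Manifold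

/-! ### Pure algebra -/

/-- If all positive power sums of finitely many complex numbers vanish, the numbers vanish. -/
theorem eq_zero_of_forall_sum_pow_eq_zero {ι : Type*} [Fintype ι] (a : ι → ℂ)
    (h : ∀ n : ℕ, 0 < n → ∑ i, a i ^ n = 0) : ∀ i, a i = 0 := by
  classical
  intro i0
  by_contra hi0
  set S : Finset ℂ := ((Finset.univ.image a).erase 0).erase (a i0) with hS
  set P : Polynomial ℂ := Polynomial.X * ∏ b ∈ S, (Polynomial.X - Polynomial.C b) with hP
  have hsum : ∑ i, P.eval (a i) = 0 := by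
    have : ∀ i, P.eval (a i) = ∑ n ∈ Finset.range (P.natDegree + 1), P.coeff n * a i ^ n :=
      fun i => Polynomial.eval_eq_sum_range (a i)
    simp_rw [this]
    rw [Finset.sum_comm]
    apply Finset.sum_eq_zero
    intro n _
    rw [← Finset.mul_sum]
    rcases Nat.eq_zero_or_pos n with rfl | hn
    · have : P.coeff 0 = 0 := by
        rw [hP, Polynomial.mul_coeff_zero, Polynomial.coeff_X_zero, zero_mul]
      rw [this, zero_mul]
    · rw [h n hn, mul_zero]
  have hval : ∀ i, P.eval (a i) = if a i = a i0 then P.eval (a i0) else 0 := by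
    intro i
    split_ifs with hi
    · rw [hi]
    · rw [hP, Polynomial.eval_mul, Polynomial.eval_X, Polynomial.eval_prod]
      by_cases h0 : a i = 0
      · rw [h0, zero_mul]
      · have hmem : a i ∈ S := by
          rw [hS]
          exact Finset.mem_erase.mpr ⟨hi, Finset.mem_erase.mpr
            ⟨h0, Finset.mem_image_of_mem a (Finset.mem_univ i)⟩⟩
        rw [Finset.prod_eq_zero hmem (by simp), mul_zero]
  have hne : P.eval (a i0) ≠ 0 := by
    rw [hP, Polynomial.eval_mul, Polynomial.eval_X, Polynomial.eval_prod]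
    refine mul_ne_zero hi0 (Finset.prod_ne_zero_iff.mpr fun b hb => ?_)
    simp only [Polynomial.eval_sub, Polynomial.eval_X, Polynomial.eval_C]
    rw [sub_ne_zero]
    exact fun heq => (Finset.mem_erase.mp hb).1 heq.symm
  rw [Finset.sum_congr rfl (fun i _ => hval i)] at hsum
  rw [Finset.sum_ite, Finset.sum_const_zero, add_zero, Finset.sum_const, nsmul_eq_mul] at hsum
  rcases mul_eq_zero.mp hsum with h1 | h1
  · have : (Finset.univ.filter fun i => a i = a i0).card ≠ 0 :=
      Finset.card_ne_zero.mpr ⟨i0, by simp⟩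
    exact this (by exact_mod_cast h1)
  · exact hne h1

/-- A singular matrix whose nonzero entries `T i j` all satisfy `g ∣ k i + k j` has a nonzero
kernel vector supported in a single residue class of `k` modulo `g`. -/
theorem exists_graded_kernel_vec {ι : Type*} [Fintype ι] [DecidableEq ι] (T : Matrix ι ι ℂ)
    (k : ι → ℤ) (g : ℤ) (hT : ∀ i j, T i j ≠ 0 → g ∣ k i + k j) (hdet : T.det = 0) :
    ∃ (v : ι → ℂ) (a : ℤ), v ≠ 0 ∧ T.mulVec v = 0 ∧ ∀ j, v j ≠ 0 → g ∣ k j - a := by
  classical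
  obtain ⟨v, hv0, hTv⟩ := Matrix.exists_mulVec_eq_zero_iff.mpr hdet
  obtain ⟨j0, hj0⟩ : ∃ j0, v j0 ≠ 0 := by
    by_contra hcon
    push Not at hcon
    exact hv0 (funext hcon)
  refine ⟨fun j => if g ∣ k j - k j0 then v j else 0, k j0, ?_, ?_, ?_⟩
  · intro h
    have := congrFun h j0
    simp only [sub_self, dvd_zero, if_true, Pi.zero_apply] at this
    exact hj0 this
  · funext i
    simp only [Matrix.mulVec, dotProduct, Pi.zero_apply]
    by_cases hi : g ∣ k i + k j0
    · have : ∀ j, T i j * (if g ∣ k j - k j0 then v j else 0) = T i j * v j := by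
        intro j
        split_ifs with hj
        · rfl
        · by_cases hTij : T i j = 0
          · rw [hTij, zero_mul, zero_mul]
          · exfalso
            apply hj
            have h1 := hT i j hTij
            have : k j - k j0 = (k i + k j) - (k i + k j0) := by ring
            rw [this]
            exact dvd_sub h1 hi
      rw [Finset.sum_congr rfl (fun j _ => this j)]
      have := congrFun hTv i
      simpa [Matrix.mulVec, dotProduct] using this
    · apply Finset.sum_eq_zero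
      intro j _
      split_ifs with hj
      · by_cases hTij : T i j = 0
        · rw [hTij, zero_mul]
        · exfalso
          apply hi
          have h1 := hT i j hTij
          have : k i + k j0 = (k i + k j) - (k j - k j0) := by ring
          rw [this]
          exact dvd_sub h1 hj
      · rw [mul_zero]
  · intro j hj
    by_contra hcon
    simp only [hcon, if_false, ne_eq, not_true_eq_false] at hj

/-! ### The two coset spaces -/

/-- Comparison map between `SL(2, ℤ) ⧸ Γ` and the coset space used by Mathlib's trace. -/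
def quotCompare (Γ : Subgroup SL(2, ℤ)) :
    SL(2, ℤ) ⧸ Γ → 𝒮ℒ ⧸ ((Γ : Subgroup (GL (Fin 2) ℝ)).subgroupOf 𝒮ℒ) :=
  Quotient.map' (fun γ => (⟨mapGL ℝ γ, ⟨γ, rfl⟩⟩ : 𝒮ℒ)) (by
    intro a b hab
    rw [QuotientGroup.leftRel_apply] at hab ⊢
    rw [Subgroup.mem_subgroupOf]
    refine ⟨a⁻¹ * b, hab, ?_⟩
    simp)

theorem quotCompare_mk (Γ : Subgroup SL(2, ℤ)) (γ : SL(2, ℤ)) :
    quotCompare Γ (QuotientGroup.mk γ) = QuotientGroup.mk (⟨mapGL ℝ γ, ⟨γ, rfl⟩⟩ : 𝒮ℒ) := rfl

theorem quotCompare_bijective (Γ : Subgroup SL(2, ℤ)) : Function.Bijective (quotCompare Γ) := by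
  constructor
  · intro a b
    induction a using QuotientGroup.induction_on with
    | H a =>
      induction b using QuotientGroup.induction_on with
      | H b =>
        intro h
        rw [quotCompare_mk, quotCompare_mk, QuotientGroup.eq, Subgroup.mem_subgroupOf] at h
        rw [QuotientGroup.eq]
        obtain ⟨c, hc, hc'⟩ := h
        have : c = a⁻¹ * b := by
          apply mapGL_injective (R := ℤ) (S := ℝ)
          rw [hc']
          simp
        rw [← this]
        exact hc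
  · intro q
    induction q using QuotientGroup.induction_on with
    | H q =>
      obtain ⟨q, γ, rfl⟩ := q
      exact ⟨QuotientGroup.mk γ, rfl⟩

/-- The trace of a level `N` form, written with explicit coset representatives in `SL(2, ℤ)`,
is a level one form. -/
theorem exists_levelOne_eq_sum_slash_out (N : ℕ) [NeZero N] (w : ℤ)
    (F : ModularForm (Gamma0 N) w) :
    ∃ G : ModularForm 𝒮ℒ w, ∀ z : ℍ,
      G z = ∑ q : SL(2, ℤ) ⧸ Gamma0 N, ((F : ℍ → ℂ) ∣[w] (Quotient.out q)⁻¹) z := by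
  classical
  refine ⟨ModularForm.trace 𝒮ℒ F, fun z => ?_⟩
  rw [ModularForm.coe_trace]
  let _ : Fintype (𝒮ℒ ⧸ ((Gamma0 N : Subgroup (GL (Fin 2) ℝ)).subgroupOf 𝒮ℒ)) := Fintype.ofFinite _
  rw [Finset.sum_apply]
  rw [← (quotCompare_bijective (Gamma0 N)).sum_comp]
  refine Finset.sum_congr rfl fun q _ => ?_
  conv_lhs => rw [← QuotientGroup.out_eq' q, quotCompare_mk]
  rw [show (QuotientGroup.mk (⟨mapGL ℝ (Quotient.out q), ⟨Quotient.out q, rfl⟩⟩ : 𝒮ℒ) :
    𝒮ℒ ⧸ ((Gamma0 N : Subgroup (GL (Fin 2) ℝ)).subgroupOf 𝒮ℒ)) = ⟦_⟧ from rfl,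
    SlashInvariantForm.quotientFunc_mk, ModularForm.SL_slash]
  simp only [map_inv]
  rfl

/-! ### Basic facts on `cj`, `MF`, `LF`, `trQ` -/

theorem trQ_mem_LF (N : ℕ) [NeZero N] {w : ℤ} {f : ℍ → ℂ} (hf : f ∈ MF N w) :
    trQ N w f ∈ LF w := by
  obtain ⟨F, rfl⟩ := hf
  obtain ⟨G, hG⟩ := exists_levelOne_eq_sum_slash_out N w F
  refine ⟨G, funext fun z => ?_⟩
  rw [hG z, trQ, Finset.sum_apply]
  exact Finset.sum_congr (by congr 1) fun q _ => rfl

theorem isInvOne_of_mem_LF {w : ℤ} {r : ℍ → ℂ} (hr : r ∈ LF w) : IsInvOne w r := by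
  obtain ⟨F, rfl⟩ := hr
  intro γ
  rw [ModularForm.SL_slash]
  exact SlashInvariantFormClass.slash_action_eq F _ ⟨γ, rfl⟩

theorem isInv_of_mem_MF {N : ℕ} {w : ℤ} {f : ℍ → ℂ} (hf : f ∈ MF N w) : IsInv N w f := by
  obtain ⟨F, rfl⟩ := hf
  intro γ hγ
  rw [ModularForm.SL_slash]
  exact SlashInvariantFormClass.slash_action_eq F _ (Subgroup.mem_map_of_mem _ hγ)

theorem cj_mul (N : ℕ) (a b : ℤ) (f g : ℍ → ℂ) (q : Q N) :
    cj N (a + b) (f * g) q = cj N a f q * cj N b g q := by
  unfold cj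
  exact ModularForm.mul_slash_SL2 a b _ f g

theorem cj_add (N : ℕ) (w : ℤ) (f g : ℍ → ℂ) (q : Q N) :
    cj N w (f + g) q = cj N w f q + cj N w g q := by
  unfold cj
  exact SlashAction.add_slash _ _ _ _

theorem cj_zero (N : ℕ) (w : ℤ) (q : Q N) : cj N w (0 : ℍ → ℂ) q = 0 := by
  unfold cj
  exact SlashAction.zero_slash _ _

theorem cj_sum (N : ℕ) (w : ℤ) {ι : Type*} (s : Finset ι) (f : ι → ℍ → ℂ) (q : Q N) :
    cj N w (∑ i ∈ s, f i) q = ∑ i ∈ s, cj N w (f i) q := by
  classical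
  induction s using Finset.induction_on with
  | empty => simp [cj_zero]
  | insert i s hi ih => rw [Finset.sum_insert hi, Finset.sum_insert hi, cj_add, ih]

theorem cj_of_mem_LF (N : ℕ) {w : ℤ} {r : ℍ → ℂ} (hr : r ∈ LF w) (q : Q N) :
    cj N w r q = r :=
  isInvOne_of_mem_LF hr _

theorem cj_one_coset {N : ℕ} {w : ℤ} {f : ℍ → ℂ} (hf : f ∈ MF N w) :
    cj N w f ((1 : SL(2, ℤ)) : Q N) = f := by
  unfold cj
  apply isInv_of_mem_MF hf
  apply inv_mem
  have h := QuotientGroup.mk_out_eq_mul (CongruenceSubgroup.Gamma0 N) (1 : SL(2, ℤ))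
  obtain ⟨⟨c, hc⟩, h⟩ := h
  rw [h, one_mul]
  exact hc

theorem cj_LF_mul (N : ℕ) {a : ℤ} (b : ℤ) {r : ℍ → ℂ} (hr : r ∈ LF a) (f : ℍ → ℂ) (q : Q N) :
    cj N (a + b) (r * f) q = r * cj N b f q := by
  rw [cj_mul, cj_of_mem_LF N hr]

theorem mul_mem_MF {N : ℕ} [NeZero N] {a b : ℤ} {f g : ℍ → ℂ} (hf : f ∈ MF N a) (hg : g ∈ MF N b) :
    f * g ∈ MF N (a + b) := by
  obtain ⟨F, rfl⟩ := hf
  obtain ⟨G, rfl⟩ := hg
  exact ⟨F.mul G, rfl⟩

theorem mul_mem_LF {a b : ℤ} {f g : ℍ → ℂ} (hf : f ∈ LF a) (hg : g ∈ LF b) :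
    f * g ∈ LF (a + b) := by
  obtain ⟨F, rfl⟩ := hf
  obtain ⟨G, rfl⟩ := hg
  exact ⟨F.mul G, rfl⟩

theorem LF_le_MF (N : ℕ) [NeZero N] (w : ℤ) : LF w ≤ MF N w := by
  rintro _ ⟨F, rfl⟩
  have hle : ((CongruenceSubgroup.Gamma0 N : Subgroup SL(2, ℤ)) : Subgroup (GL (Fin 2) ℝ)) ≤ 𝒮ℒ := by
    rintro _ ⟨γ, -, rfl⟩
    exact ⟨γ, rfl⟩
  exact ⟨{ toFun := F
           slash_action_eq' := fun γ hγ => F.slash_action_eq' γ (hle hγ)
           holo' := F.holo'
           bdd_at_cusps' := fun hc => F.bdd_at_cusps' (hc.mono hle) }, rfl⟩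

theorem one_mem_MF (N : ℕ) [NeZero N] : (1 : ℍ → ℂ) ∈ MF N 0 :=
  ⟨1, ModularForm.one_coe_eq_one⟩

theorem pow_mem_MF {N : ℕ} [NeZero N] {w : ℤ} {f : ℍ → ℂ} (hf : f ∈ MF N w) (n : ℕ) :
    f ^ n ∈ MF N (n * w) := by
  induction n with
  | zero => simpa using one_mem_MF N
  | succ n ih =>
    have := mul_mem_MF ih hf
    rw [pow_succ]
    convert this using 2
    push_cast
    ring

theorem cj_pow (N : ℕ) (w : ℤ) (f : ℍ → ℂ) (q : Q N) (n : ℕ) :
    cj N (n * w) (f ^ n) q = cj N w f q ^ n := by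
  induction n with
  | zero =>
    simp only [Nat.cast_zero, zero_mul, pow_zero]
    unfold cj
    exact ModularForm.is_invariant_one _
  | succ n ih =>
    rw [pow_succ, pow_succ, ← ih, ← cj_mul]
    congr 1
    push_cast
    ring

end Fermat.Agent.S20.Det
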