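import Fermat.Agent.S20.DetAux

/-!
# S20 team library: the determinant of the matrix of conjugates never vanishes (core)

OWNER: helper54 (only the owner edits this file).

`Det.det_Fmat_ne_zero_of` : for a homogeneous free basis `f` of `⊕ MF N w` over `⊕ LF w`, the
matrix `Fmat N k f z₀` is invertible, given the "point datum" at `z₀` as explicit hypotheses
(a level one form `π` vanishing at `z₀` together with the divisibility statements).
-/

set_option autoImplicit false

namespace Fermat.Agent.S20.Det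

open UpperHalfPlane ModularForm
open scoped MatrixGroups ModularForm Manifold

theorem det_Fmat_ne_zero_of (N : ℕ) [NeZero N] (k : Q N → ℤ) (f : Q N → ℍ → ℂ)
    (hB : IsFreeBasis N k f) (z₀ : ℍ) (g v : ℤ) (π : ℍ → ℂ) (hg : 0 < g)
    (hzero : π z₀ = 0)
    (hπ : π ∈ LF v)
    (hdvd : ∀ (w : ℤ) (r : ℍ → ℂ), r ∈ LF w → r z₀ = 0 → ∃ s ∈ LF (w - v), r = π * s)
    (hwt : ∀ (w : ℤ) (r : ℍ → ℂ), r ∈ LF w → r z₀ ≠ 0 → g ∣ w)
    (hone : ∀ w : ℤ, g ∣ w → 4 ≤ w → ∃ r ∈ LF w, r z₀ = 1)
    (hdiv : ∀ (d : ℤ) (h : ℍ → ℂ), h ∈ MF N d → (∀ z : ℍ, π z = 0 → h z = 0) →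
      ∃ m ∈ MF N (d - v), h = π * m) :
    (Fmat N k f z₀).det ≠ 0 := by
  classical
  intro hdet
  set F0 : Matrix (Q N) (Q N) ℂ := Fmat N k f z₀ with hF0
  set T0 : Matrix (Q N) (Q N) ℂ := F0.transpose * F0 with hT0
  have hT0det : T0.det = 0 := by rw [hT0, Matrix.det_mul, hdet, mul_zero]
  -- entries of `T0` are values of level one forms
  have hT0entry : ∀ j l, T0 j l = trQ N (k j + k l) (f j * f l) z₀ := by
    intro j l
    rw [hT0, Matrix.mul_apply, trQ, Finset.sum_apply]
    refine Finset.sum_congr rfl fun q _ => ?_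
    rw [cj_mul, Pi.mul_apply]
    rfl
  have hT : ∀ j l, T0 j l ≠ 0 → g ∣ k j + k l := by
    intro j l h
    rw [hT0entry] at h
    exact hwt _ _ (trQ_mem_LF N (mul_mem_MF (hB.mem j) (hB.mem l))) h
  obtain ⟨lam, a, hlam0, hlamker, hlamcls⟩ := exists_graded_kernel_vec T0 k g hT hT0det
  -- the weight `K`
  set K : ℤ := a + g * (∑ j, |k j| + |a| + 4) with hK
  have hKge : ∀ j, 4 ≤ K - k j := by
    intro j
    have h1 : |k j| ≤ ∑ j, |k j| :=
      Finset.single_le_sum (fun i _ => abs_nonneg (k i)) (Finset.mem_univ j)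
    have h2 : k j ≤ |k j| := le_abs_self _
    have h3 : -|a| ≤ a := neg_abs_le a
    have h5 : 0 ≤ ∑ j, |k j| := Finset.sum_nonneg fun i _ => abs_nonneg (k i)
    have h6 : 0 ≤ |a| := abs_nonneg a
    have h4 : (∑ j, |k j| + |a| + 4) ≤ g * (∑ j, |k j| + |a| + 4) := by
      nlinarith
    rw [hK]; linarith
  have hKcls : ∀ j, g ∣ k j - a → g ∣ K - k j := by
    intro j hj
    have : K - k j = g * (∑ j, |k j| + |a| + 4) - (k j - a) := by rw [hK]; ring
    rw [this]
    exact dvd_sub (dvd_mul_right _ _) hj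
  -- the homogenising level one forms
  have hr : ∀ j, ∃ r ∈ LF (K - k j), lam j ≠ 0 → r z₀ = 1 := by
    intro j
    by_cases hj : g ∣ k j - a
    · obtain ⟨r, hr, hr1⟩ := hone (K - k j) (hKcls j hj) (hKge j)
      exact ⟨r, hr, fun _ => hr1⟩
    · exact ⟨0, Submodule.zero_mem _, fun h => absurd (hlamcls j h) hj⟩
  choose r hrmem hr1 using hr
  set c : Q N → ℍ → ℂ := fun j => lam j • r j with hc
  have hcmem : ∀ j, c j ∈ LF (K - k j) := fun j => Submodule.smul_mem _ _ (hrmem j)
  have hcz : ∀ j, c j z₀ = lam j := by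
    intro j
    simp only [hc, Pi.smul_apply, smul_eq_mul]
    by_cases h : lam j = 0
    · rw [h, zero_mul]
    · rw [hr1 j h, mul_one]
  set G : ℍ → ℂ := ∑ j, c j * f j with hG
  have hGmem : G ∈ MF N K := by
    rw [hG]
    refine Submodule.sum_mem _ fun j _ => ?_
    have := mul_mem_MF (LF_le_MF N _ (hcmem j)) (hB.mem j)
    rwa [sub_add_cancel] at this
  -- conjugates of `G` at `z₀`
  have hcjG : ∀ q, cj N K G q z₀ = (F0.mulVec lam) q := by
    intro q
    rw [hG, cj_sum, Finset.sum_apply, Matrix.mulVec, dotProduct]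
    refine Finset.sum_congr rfl fun j _ => ?_
    have : cj N K (c j * f j) q = c j * cj N (k j) (f j) q := by
      have := cj_LF_mul N (k j) (hcmem j) (f j) q
      rwa [sub_add_cancel] at this
    rw [this, Pi.mul_apply, hcz, mul_comm]
    rfl
  -- Claim A : the trace of `G * h` vanishes at `z₀` for every form `h`
  have hA : ∀ (w : ℤ) (h : ℍ → ℂ), h ∈ MF N w → trQ N (K + w) (G * h) z₀ = 0 := by
    intro w h hh
    obtain ⟨s, hs, rfl⟩ := hB.span w h hh
    rw [trQ, Finset.sum_apply]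
    have hcjh : ∀ q, cj N w (∑ j, s j * f j) q z₀ = (F0.mulVec fun j => s j z₀) q := by
      intro q
      rw [cj_sum, Finset.sum_apply, Matrix.mulVec, dotProduct]
      refine Finset.sum_congr rfl fun j _ => ?_
      have : cj N w (s j * f j) q = s j * cj N (k j) (f j) q := by
        have := cj_LF_mul N (k j) (hs j) (f j) q
        rwa [sub_add_cancel] at this
      rw [this, Pi.mul_apply, mul_comm]
      rfl
    have hprod : ∀ q, cj N (K + w) (G * ∑ j, s j * f j) q z₀
        = (F0.mulVec fun j => s j z₀) q * (F0.mulVec lam) q := by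
      intro q
      rw [cj_mul, Pi.mul_apply, hcjG, hcjh, mul_comm]
    rw [Finset.sum_congr rfl fun q _ => hprod q]
    have h2 : ∑ q, (F0.mulVec fun j => s j z₀) q * (F0.mulVec lam) q
        = dotProduct (fun j => s j z₀) (T0.mulVec lam) := by
      rw [hT0, ← Matrix.mulVec_mulVec, Matrix.dotProduct_mulVec, Matrix.vecMul_transpose]
      rfl
    rw [h2, hlamker, dotProduct_zero]
  -- Claim C : power sums of the conjugates of `G` vanish at every zero of `π`
  have hC : ∀ z : ℍ, π z = 0 → ∀ n : ℕ, 0 < n → ∑ q, cj N K G q z ^ n = 0 := by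
    intro z hz n hn
    obtain ⟨m, rfl⟩ : ∃ m, n = m + 1 := ⟨n - 1, by omega⟩
    have hmem : trQ N (K + m * K) (G * G ^ m) ∈ LF (K + m * K) :=
      trQ_mem_LF N (mul_mem_MF hGmem (pow_mem_MF hGmem m))
    obtain ⟨s, -, hs⟩ := hdvd _ _ hmem (hA _ _ (pow_mem_MF hGmem m))
    have h0 : trQ N (K + m * K) (G * G ^ m) z = 0 := by
      rw [hs, Pi.mul_apply, hz, zero_mul]
    rw [trQ, Finset.sum_apply] at h0
    rw [← h0]
    refine Finset.sum_congr rfl fun q _ => ?_
    rw [cj_mul, cj_pow, Pi.mul_apply, Pi.pow_apply, pow_succ, mul_comm]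
  -- Claim D : `G` vanishes at every zero of `π`
  have hD : ∀ z : ℍ, π z = 0 → G z = 0 := by
    intro z hz
    have := eq_zero_of_forall_sum_pow_eq_zero (fun q => cj N K G q z) (hC z hz)
      ((1 : SL(2, ℤ)) : Q N)
    rwa [cj_one_coset hGmem] at this
  -- Claim E : divide and compare coefficients
  obtain ⟨m, hm, hGm⟩ := hdiv K G hGmem hD
  obtain ⟨s, hs, hms⟩ := hB.span (K - v) m hm
  have hmem' : ∀ j, c j - π * s j ∈ LF (K - k j) := by
    intro j
    refine Submodule.sub_mem _ (hcmem j) ?_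
    have := mul_mem_LF hπ (hs j)
    have e : v + (K - v - k j) = K - k j := by ring
    rwa [e] at this
  have hsum : ∑ j, (c j - π * s j) * f j = 0 := by
    have : ∑ j, (c j - π * s j) * f j = G - π * m := by
      rw [hG, hms, Finset.mul_sum, ← Finset.sum_sub_distrib]
      refine Finset.sum_congr rfl fun j _ => ?_
      ring
    rw [this, hGm, sub_self]
  have hzero' := hB.indep K (fun j => c j - π * s j) hmem' hsum
  apply hlam0
  funext j
  have := congrFun (hzero' j) z₀
  simp only [Pi.sub_apply, Pi.mul_apply, hzero, zero_mul, sub_zero, Pi.zero_apply] at this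
  rw [← hcz j, this]
  rfl

end Fermat.Agent.S20.Det
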