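import Fermat.Agent.S20.DetAux

/-!
# S20 team library: the determinant of a matrix of level one forms is a level one form

OWNER: helper54 (only the owner edits this file).

`DetLFa.det_mem_LF` : if `T i j ∈ LF (k i + k j)` then `z ↦ det (T i j z)` lies in
`LF (2 * ∑ j, k j)` (Leibniz formula).
-/

set_option autoImplicit false

namespace Fermat.Agent.S20.DetLFa

open UpperHalfPlane ModularForm
open scoped MatrixGroups ModularForm Manifold

theorem one_mem_LF : (1 : ℍ → ℂ) ∈ LF 0 :=
  ⟨1, ModularForm.one_coe_eq_one⟩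

theorem prod_mem_LF {ι : Type*} (s : Finset ι) (w : ι → ℤ) (t : ι → ℍ → ℂ)
    (h : ∀ i ∈ s, t i ∈ LF (w i)) : ∏ i ∈ s, t i ∈ LF (∑ i ∈ s, w i) := by
  classical
  induction s using Finset.induction_on with
  | empty => simpa using one_mem_LF
  | insert i s hi ih =>
    rw [Finset.prod_insert hi, Finset.sum_insert hi]
    exact Det.mul_mem_LF (h i (Finset.mem_insert_self i s))
      (ih fun j hj => h j (Finset.mem_insert_of_mem hj))

theorem det_mem_LF {ι : Type} [Fintype ι] [DecidableEq ι] (k : ι → ℤ) (T : ι → ι → ℍ → ℂ)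
    (hT : ∀ i j, T i j ∈ LF (k i + k j)) :
    (fun z => Matrix.det (Matrix.of fun i j => T i j z)) ∈ LF (2 * ∑ j, k j) := by
  have hfun : (fun z => Matrix.det (Matrix.of fun i j => T i j z))
      = ∑ σ : Equiv.Perm ι, ((Equiv.Perm.sign σ : ℤ) : ℂ) • ∏ i, T (σ i) i := by
    funext z
    rw [Matrix.det_apply, Finset.sum_apply]
    refine Finset.sum_congr rfl fun σ _ => ?_
    rw [Pi.smul_apply, Finset.prod_apply, Units.smul_def, zsmul_eq_mul, smul_eq_mul]
    rfl
  rw [hfun]
  refine Submodule.sum_mem _ fun σ _ => Submodule.smul_mem _ _ ?_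
  have h := prod_mem_LF Finset.univ (fun i => k (σ i) + k i) (fun i => T (σ i) i)
    (fun i _ => hT (σ i) i)
  have hw : ∑ i, (k (σ i) + k i) = 2 * ∑ j, k j := by
    rw [Finset.sum_add_distrib, Equiv.sum_comp σ k, two_mul]
  rwa [hw] at h

end Fermat.Agent.S20.DetLFa
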