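import Fermat.Agent.S20.LevelOne

/-!
# S20 library: nowhere vanishing level-one forms (blueprint shape)

OWNER: helper20 (only the owner edits this file).

`Fermat.Agent.S20.DetLFb.LF_nowhere_zero`: a nowhere vanishing level-one form of weight `w` is a
nonzero constant times a power `Δ ^ m` of the discriminant, and `w = 12 * m`.
This is `lo_nonvanishing` of `LevelOne.lean` (helper49) restated with the exact
blueprint signature.
-/

set_option autoImplicit false

namespace Fermat.Agent.S20

open UpperHalfPlane ModularForm
open scoped MatrixGroups ModularForm Manifold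

namespace DetLFb

/-- A nowhere vanishing level-one modular form is a nonzero constant times a power of `Δ`. -/
theorem LF_nowhere_zero {w : ℤ} {r : ℍ → ℂ} (hr : r ∈ LF w) (h : ∀ z, r z ≠ 0) :
    ∃ c : ℂ, c ≠ 0 ∧ ∃ m : ℕ, w = 12 * m ∧ r = c • ModularForm.discriminant ^ m := by
  obtain ⟨c, m, hc, hw, hrm⟩ := lo_nonvanishing hr h
  exact ⟨c, hc, m, hw, hrm⟩

end DetLFb

end Fermat.Agent.S20
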