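import Mathlib
import Fermat.Agent.S20.DualCore
import Fermat.Agent.S20.Det
import Fermat.Agent.S20.Cusp

/-!
# S20 team library: duality

OWNER: helper25 (only the owner edits this file).

Given a homogeneous free basis `f j ∈ MF N (k j)` of `⊕ MF N w` over `⊕ LF w`:
* `weight_le_ten` : `k j ≤ 10`;
* `finrank_S2` : `dim SF N 2 = #{j | k j = 10}`.

The proofs are in `DualCore.lean` (`Dual.weight_le_ten_of`, `Dual.finrank_S2_of`), which takes
the two inputs `det_Fmat_ne_zero` and `inv_Fmat_decay` as hypotheses (`Dual.Hyp`).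
-/

set_option autoImplicit false

namespace Fermat.Agent.S20

open UpperHalfPlane ModularForm Filter Topology Complex
open scoped MatrixGroups ModularForm Manifold Real

namespace Dual

theorem hyp {N : ℕ} [NeZero N] {k : Q N → ℤ} {f : Q N → ℍ → ℂ} (hB : IsFreeBasis N k f) :
    Hyp N k f :=
  ⟨hB, det_Fmat_ne_zero N k f hB, fun q j => inv_Fmat_decay hB q j⟩

end Dual

/-- The weights of a homogeneous free basis are at most `10`. -/
theorem weight_le_ten {N : ℕ} [NeZero N] {k : Q N → ℤ} {f : Q N → ℍ → ℂ}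
    (hB : IsFreeBasis N k f) (j : Q N) : k j ≤ 10 :=
  Dual.weight_le_ten_of (Dual.hyp hB) j

/-- Duality: `dim S₂(Γ₀(N))` is the number of basis elements of weight `10`. -/
theorem finrank_S2 {N : ℕ} [NeZero N] {k : Q N → ℤ} {f : Q N → ℍ → ℂ}
    (hB : IsFreeBasis N k f) :
    Module.finrank ℂ (SF N 2) = (Finset.univ.filter fun j : Q N => k j = 10).card :=
  Dual.finrank_S2_of (Dual.hyp hB)

end Fermat.Agent.S20
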