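import Mathlib
import Fermat.Agent.S20.Defs
import Fermat.Agent.S20.LevelOne

/-!
# S20 team library: level-one facts under the blueprint names

OWNER: helper49 (only the owner edits this file).

`LevelOne.lean` exports the level-one facts under `lo_*` names; this file adds the names used in
the S20 blueprint: `E4_mem_LF`, `E6_mem_LF`, `Delta_mem_LF`, `tendsto_E4`, `tendsto_E6`,
`E4_sub_one_isBigO`, `E6_sub_one_isBigO`, `Delta_isBigO`, `LF_tendsto`, `LF_neg`, `LF_odd`,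
`LF_two`, `mem_LF_zero_iff`, `LF_decomp`, `LF_cusp`, `monomial_mem_LF`, `monomial_tendsto`,
`monomial_sub_one_isBigO`, `exists_monomial_weight`, `finrank_LF_eq_ite`, `finrank_LF_ge`,
`finrank_LF_le`, `finrank_LF_sub_twelve`, plus `lo_finrank_nat` and `lo_sub_isBigO`.
-/

set_option autoImplicit false

namespace Fermat.Agent.S20

open UpperHalfPlane ModularForm ModularFormClass MatrixGroups EisensteinSeries Filter Topology
open SlashInvariantFormClass SlashInvariantForm OnePoint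
open scoped Manifold Real

local notation "Δ" => ModularForm.discriminant

theorem lo_finrank_nat (k : ℕ) (hk : Even k) :
    Module.finrank ℂ (LF (k : ℤ)) = if k % 12 = 2 then k / 12 else k / 12 + 1 := by
  rw [lo_finrank, Module.finrank_eq_of_rank_eq (dimension_level_one k hk)]
  simp only [Nat.ModEq, Nat.reduceMod]
  congr

/-- The difference between a level-one form and its limit at `i∞` decays exponentially. -/
theorem lo_sub_isBigO {w : ℤ} {r : ℍ → ℂ} (hr : r ∈ LF w) {c : ℂ}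
    (hc : Tendsto r atImInfty (𝓝 c)) :
    (fun z => r z - c) =O[atImInfty] fun z : ℍ => Real.exp (-2 * π * z.im) := by
  obtain ⟨F, rfl⟩ := hr
  have h := UpperHalfPlane.exp_decay_sub_atImInfty (h := 1) one_pos
    (periodic_comp_ofComplex F one_mem_strictPeriods_SL) F.holo' (lo_isBounded (lo_coe_mem F))
  have hv : valueAtInfty (F : ℍ → ℂ) = c := hc.limUnder_eq
  rw [hv] at h
  simpa using h


/-! ### Blueprint names -/

theorem E4_mem_LF : (E₄ : ℍ → ℂ) ∈ LF 4 := lo_E4_mem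

theorem E6_mem_LF : (E₆ : ℍ → ℂ) ∈ LF 6 := lo_E6_mem

theorem Delta_mem_LF : (Δ : ℍ → ℂ) ∈ LF 12 := lo_disc_mem

theorem tendsto_E4 : Tendsto (E₄ : ℍ → ℂ) atImInfty (𝓝 1) := lo_E4_tendsto

theorem tendsto_E6 : Tendsto (E₆ : ℍ → ℂ) atImInfty (𝓝 1) := lo_E6_tendsto

theorem E4_sub_one_isBigO :
    (fun z : ℍ => E₄ z - 1) =O[atImInfty] fun z : ℍ => Real.exp (-2 * π * z.im) :=
  lo_sub_isBigO lo_E4_mem lo_E4_tendsto

theorem E6_sub_one_isBigO :
    (fun z : ℍ => E₆ z - 1) =O[atImInfty] fun z : ℍ => Real.exp (-2 * π * z.im) :=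
  lo_sub_isBigO lo_E6_mem lo_E6_tendsto

theorem Delta_isBigO :
    (Δ : ℍ → ℂ) =O[atImInfty] fun z : ℍ => Real.exp (-2 * π * z.im) := by
  have h := lo_sub_isBigO lo_disc_mem lo_disc_tendsto
  simpa using h

theorem LF_tendsto {w : ℤ} {r : ℍ → ℂ} (hr : r ∈ LF w) :
    ∃ c : ℂ, Tendsto r atImInfty (𝓝 c) := lo_tendsto hr

theorem LF_neg {w : ℤ} (hw : w < 0) : LF w = ⊥ := lo_neg_weight hw

theorem LF_odd {w : ℤ} (hw : Odd w) : LF w = ⊥ := lo_odd_weight hw

theorem LF_two : LF 2 = ⊥ := lo_weight_two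

theorem mem_LF_zero_iff {r : ℍ → ℂ} : r ∈ LF 0 ↔ ∃ c : ℂ, r = fun _ => c := by
  constructor
  · intro hr
    obtain ⟨c, rfl⟩ := lo_weight_zero hr
    exact ⟨c, rfl⟩
  · rintro ⟨c, rfl⟩
    exact lo_const_mem c

theorem LF_decomp {w : ℤ} (hw : 0 < w) {r : ℍ → ℂ} (hr : r ∈ LF w) :
    ∃ a ∈ LF (w - 4), ∃ b ∈ LF (w - 6), r = ⇑E₄ * a + ⇑E₆ * b :=
  lo_gen hw.ne' hr

theorem LF_cusp {w : ℤ} {r : ℍ → ℂ} (hr : r ∈ LF w) (h0 : Tendsto r atImInfty (𝓝 0)) :
    ∃ s ∈ LF (w - 12), r = Δ * s := lo_cusp hr h0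

theorem monomial_mem_LF (a b : ℕ) :
    (⇑E₄ : ℍ → ℂ) ^ a * (⇑E₆ : ℍ → ℂ) ^ b ∈ LF (4 * a + 6 * b) :=
  lo_mul_mem' (lo_pow_mem lo_E4_mem a) (lo_pow_mem lo_E6_mem b) (by ring)

theorem monomial_tendsto (a b : ℕ) :
    Tendsto ((⇑E₄ : ℍ → ℂ) ^ a * (⇑E₆ : ℍ → ℂ) ^ b) atImInfty (𝓝 1) := by
  have h := (lo_E4_tendsto.pow a).mul (lo_E6_tendsto.pow b)
  rw [one_pow, one_pow, mul_one] at h
  exact h

theorem monomial_sub_one_isBigO (a b : ℕ) :
    (fun z : ℍ => E₄ z ^ a * E₆ z ^ b - 1) =O[atImInfty]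
      fun z : ℍ => Real.exp (-2 * π * z.im) :=
  lo_sub_isBigO (monomial_mem_LF a b) (monomial_tendsto a b)

theorem exists_monomial_weight {w : ℤ} (hw : Even w) (h4 : 4 ≤ w) :
    ∃ a b : ℕ, (4 * a + 6 * b : ℤ) = w := by
  obtain ⟨j, rfl⟩ := hw
  rcases Int.emod_two_eq_zero_or_one j with h | h
  · exact ⟨(j / 2).toNat, 0, by omega⟩
  · exact ⟨((j - 3) / 2).toNat, 1, by omega⟩

theorem finrank_LF_eq_ite (k : ℕ) (hk : Even k) :
    Module.finrank ℂ (LF (k : ℤ)) = if k % 12 = 2 then k / 12 else k / 12 + 1 :=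
  lo_finrank_nat k hk

theorem finrank_LF_ge {w : ℤ} (hw : Even w) (h0 : 0 ≤ w) :
    w / 12 ≤ (Module.finrank ℂ (LF w) : ℤ) := by
  lift w to ℕ using h0
  rw [lo_finrank_nat w (by exact_mod_cast hw)]
  split_ifs <;> omega

theorem finrank_LF_le {w : ℤ} (h0 : 0 ≤ w) :
    (Module.finrank ℂ (LF w) : ℤ) ≤ w / 12 + 1 := by
  rcases Int.even_or_odd w with hev | hodd
  · lift w to ℕ using h0
    rw [lo_finrank_nat w (by exact_mod_cast hev)]
    split_ifs <;> omega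
  · rw [lo_odd_weight hodd, finrank_bot]
    have : 0 ≤ w / 12 := Int.ediv_nonneg h0 (by norm_num)
    push_cast
    omega

theorem finrank_LF_sub_twelve {w : ℤ} (hw : Even w) (h0 : 0 ≤ w) (h2 : w ≠ 2) :
    Module.finrank ℂ (LF w) = Module.finrank ℂ (LF (w - 12)) + 1 := by
  lift w to ℕ using h0
  have hev : Even w := by exact_mod_cast hw
  rw [lo_finrank_nat w hev]
  rcases lt_or_ge w 12 with h12 | h12
  · rw [lo_neg_weight (by omega), finrank_bot]
    have hw2 : w ≠ 2 := by rintro rfl; exact h2 rfl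
    obtain ⟨j, rfl⟩ := hev
    split_ifs <;> omega
  · have hcast : ((w : ℤ) - 12) = ((w - 12 : ℕ) : ℤ) := by omega
    have hev' : Even (w - 12) := by
      obtain ⟨j, rfl⟩ := hev
      exact ⟨j - 6, by omega⟩
    rw [hcast, lo_finrank_nat (w - 12) hev']
    split_ifs <;> omega

end Fermat.Agent.S20
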