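import Mathlib

/-!
# S20 team library: matrix auxiliaries (for `Dual.lean`)

OWNER: helper62.

* `inv_perm_diag`: inverse of a matrix obtained by permuting rows and scaling columns.
* `mdiff_det`: the determinant of a matrix of holomorphic functions on `ℍ` is holomorphic.
* `mdiff_inv_entry`: entries of the inverse of an everywhere invertible matrix of holomorphic
  functions on `ℍ` are holomorphic.
-/

set_option autoImplicit false

namespace Fermat.Agent.S20

open UpperHalfPlane
open scoped Manifold

namespace MatAux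

theorem inv_perm_diag_of_isUnit {ι : Type*} [Fintype ι] [DecidableEq ι] (A B : Matrix ι ι ℂ)
    (σ : Equiv.Perm ι) (d : ι → ℂ) (hd : ∀ j, d j ≠ 0) (h : ∀ q j, A q j = d j * B (σ q) j)
    (hB : IsUnit B.det) :
    IsUnit A.det ∧ ∀ j q, A⁻¹ j q = (d j)⁻¹ * B⁻¹ j (σ q) := by
  have hMA : (Matrix.of fun j q => (d j)⁻¹ * B⁻¹ j (σ q)) * A = 1 := by
    ext j j'
    rw [Matrix.mul_apply]
    have h1 : ∀ q, (Matrix.of fun j q => (d j)⁻¹ * B⁻¹ j (σ q)) j q * A q j' =
        (d j)⁻¹ * d j' * (B⁻¹ j (σ q) * B (σ q) j') := by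
      intro q
      rw [h, Matrix.of_apply]
      ring
    simp_rw [h1]
    rw [← Finset.mul_sum, Equiv.sum_comp σ (fun q => B⁻¹ j q * B q j'), ← Matrix.mul_apply,
      Matrix.nonsing_inv_mul _ hB]
    by_cases hjj : j = j'
    · subst hjj; simp [hd j]
    · simp [Matrix.one_apply_ne hjj]
  refine ⟨Matrix.isUnit_det_of_left_inverse hMA, fun j q => ?_⟩
  rw [Matrix.inv_eq_left_inv hMA, Matrix.of_apply]

theorem differentiableOn_det {ι : Type*} [Fintype ι] [DecidableEq ι] (G : ℂ → Matrix ι ι ℂ)
    (s : Set ℂ) (hG : ∀ q j, DifferentiableOn ℂ (fun w => G w q j) s) :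
    DifferentiableOn ℂ (fun w => (G w).det) s := by
  simp_rw [Matrix.det_apply']
  refine DifferentiableOn.fun_sum fun σ _ => ?_
  refine DifferentiableOn.const_mul ?_ _
  exact DifferentiableOn.fun_finsetProd fun i _ => hG (σ i) i

end MatAux

/-- Inverse of a matrix obtained from `B` by permuting the rows by `σ` and scaling the columns
by nonzero scalars `d j`. (Valid also for singular `B`, both sides being `0`.) -/
theorem inv_perm_diag {ι : Type*} [Fintype ι] [DecidableEq ι] (A B : Matrix ι ι ℂ)
    (σ : Equiv.Perm ι) (d : ι → ℂ) (hd : ∀ j, d j ≠ 0) (h : ∀ q j, A q j = d j * B (σ q) j) :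
    ∀ j q, A⁻¹ j q = (d j)⁻¹ * B⁻¹ j (σ q) := by
  by_cases hB : IsUnit B.det
  · exact (MatAux.inv_perm_diag_of_isUnit A B σ d hd h hB).2
  · have hA : ¬ IsUnit A.det := by
      intro hA
      apply hB
      refine (MatAux.inv_perm_diag_of_isUnit B A σ⁻¹ (fun j => (d j)⁻¹)
        (fun j => inv_ne_zero (hd j)) ?_ hA).1
      intro q j
      rw [h]
      simp [hd j]
    intro j q
    rw [Matrix.nonsing_inv_apply_not_isUnit A hA, Matrix.nonsing_inv_apply_not_isUnit B hB]
    simp

/-- The determinant of a matrix of holomorphic functions on `ℍ` is holomorphic. -/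
theorem mdiff_det {ι : Type*} [Fintype ι] [DecidableEq ι] (F : ℍ → Matrix ι ι ℂ)
    (hF : ∀ q j, MDiff fun z => F z q j) : MDiff fun z => (F z).det := by
  rw [UpperHalfPlane.mdifferentiable_iff]
  exact MatAux.differentiableOn_det (fun w => F (ofComplex w)) _
    fun q j => UpperHalfPlane.mdifferentiable_iff.mp (hF q j)

/-- Entries of the inverse of an everywhere invertible matrix of holomorphic functions on `ℍ`
are holomorphic. -/
theorem mdiff_inv_entry {ι : Type*} [Fintype ι] [DecidableEq ι] (F : ℍ → Matrix ι ι ℂ)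
    (hF : ∀ q j, MDiff fun z => F z q j) (hdet : ∀ z, (F z).det ≠ 0) (j q : ι) :
    MDiff fun z => (F z)⁻¹ j q := by
  have hadj : MDiff fun z => (F z).adjugate j q := by
    simp_rw [Matrix.adjugate_apply]
    refine mdiff_det (fun z => (F z).updateRow q (Pi.single j 1)) fun a b => ?_
    by_cases ha : a = q
    · subst ha
      simp only [Matrix.updateRow_self]
      exact mdifferentiable_const
    · simp only [Matrix.updateRow_ne ha]
      exact hF a b
  have hdet' := mdiff_det F hF
  rw [UpperHalfPlane.mdifferentiable_iff] at hadj hdet' ⊢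
  have heq : ((fun z => (F z)⁻¹ j q) ∘ ofComplex) =
      fun w => (((fun z => (F z).det) ∘ ofComplex) w)⁻¹ *
        ((fun z => (F z).adjugate j q) ∘ ofComplex) w := by
    funext w
    simp [Matrix.inv_def, Ring.inverse_eq_inv']
  rw [heq]
  exact (hdet'.inv fun w _ => hdet _).mul hadj

end Fermat.Agent.S20
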