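import Fermat.Agent.S20.Defs

/-!
# S20 library: the local algebra of level-one forms at a point of `ℍ`

OWNER: helper20 (only the owner edits this file).

For `z₀ : ℍ` we produce a level-one form `π` of weight `v` vanishing at `z₀` which generates the
ideal of level-one forms vanishing at `z₀`, together with the integer `g` such that level-one
forms not vanishing at `z₀` exist exactly in weights divisible by `g`:

* `E₄ z₀ = 0` : `π = E₄`, `v = 4`, `g = 6`;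
* `E₆ z₀ = 0` : `π = E₆`, `v = 6`, `g = 4`;
* otherwise : `π = E₆(z₀)² E₄³ - E₄(z₀)³ E₆²`, `v = 12`, `g = 2`.

The proof is a dimension count: `π * LF (w - v)` is contained in the space of forms of weight `w`
vanishing at `z₀`, and the dimension formula for level-one forms shows that the two spaces have
the same dimension.

Main export: `Fermat.Agent.S20.exists_pointAlg`. All auxiliary lemmas live in the sub-namespace
`Fermat.Agent.S20.PointAlg`.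
-/

set_option autoImplicit false

namespace Fermat.Agent.S20

open UpperHalfPlane ModularForm Filter Topology
open scoped MatrixGroups ModularForm Manifold

/-- The local algebraic datum of level-one forms at `z₀`. -/
structure IsPointAlg (z₀ : ℍ) (g v : ℤ) (π : ℍ → ℂ) : Prop where
  g_mem : g = 2 ∨ g = 4 ∨ g = 6
  mem : π ∈ LF v
  zero : π z₀ = 0
  lim : ∃ c : ℂ, c ≠ 0 ∧ Tendsto π atImInfty (𝓝 c)
  dvd : ∀ (w : ℤ) (r : ℍ → ℂ), r ∈ LF w → r z₀ = 0 → ∃ s ∈ LF (w - v), r = π * s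
  wt : ∀ (w : ℤ) (r : ℍ → ℂ), r ∈ LF w → r z₀ ≠ 0 → g ∣ w
  one : ∀ w : ℤ, g ∣ w → 4 ≤ w → ∃ r ∈ LF w, r z₀ = 1

namespace PointAlg

/-- Coercion of level-one modular forms to functions, as a linear map. -/
noncomputable def coeLM (w : ℤ) : ModularForm 𝒮ℒ w →ₗ[ℂ] (ℍ → ℂ) where
  toFun F := ⇑F
  map_add' _ _ := rfl
  map_smul' _ _ := rfl

theorem coeLM_injective (w : ℤ) : Function.Injective (coeLM w) := fun _ _ h =>
  DFunLike.coe_injective h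

theorem range_coeLM (w : ℤ) : LinearMap.range (coeLM w) = LF w := by
  ext f
  rfl

theorem coe_mem (w : ℤ) (F : ModularForm 𝒮ℒ w) : (⇑F : ℍ → ℂ) ∈ LF w := ⟨F, rfl⟩

theorem finrank_LF (w : ℤ) :
    Module.finrank ℂ (LF w) = Module.finrank ℂ (ModularForm 𝒮ℒ w) := by
  rw [← range_coeLM]
  exact LinearMap.finrank_range_of_inj (coeLM_injective w)

instance instFiniteDimensionalLF (w : ℤ) : FiniteDimensional ℂ (LF w) := by
  rw [← range_coeLM]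
  infer_instance

/-- The dimension of the space of level-one forms of weight `w`. -/
def dLO (w : ℤ) : ℕ :=
  if w < 0 ∨ w % 2 = 1 then 0 else if w % 12 = 2 then (w / 12).toNat else (w / 12).toNat + 1

theorem finrank_LF_eq (w : ℤ) : Module.finrank ℂ (LF w) = dLO w := by
  rw [finrank_LF]
  rcases lt_or_ge w 0 with hw | hw
  · rw [Module.finrank_eq_of_rank_eq (n := 0)
      (by simpa using ModularForm.levelOne_neg_weight_rank_zero hw)]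
    simp [dLO, hw]
  rcases Int.even_or_odd w with he | ho
  · lift w to ℕ using hw
    have he' : Even w := by exact_mod_cast he
    have h := ModularForm.dimension_level_one w he'
    have h2 : (w : ℤ) % 2 = 0 := Int.even_iff.mp he
    by_cases h12 : w ≡ 2 [MOD 12]
    · rw [if_pos h12] at h
      rw [Module.finrank_eq_of_rank_eq (n := w / 12) (by exact_mod_cast h)]
      have : (w : ℤ) % 12 = 2 := by
        have := h12
        unfold Nat.ModEq at this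
        omega
      unfold dLO
      rw [if_neg (by omega), if_pos this]
      omega
    · rw [if_neg h12] at h
      rw [Module.finrank_eq_of_rank_eq (n := w / 12 + 1) (by exact_mod_cast h)]
      have : ¬ (w : ℤ) % 12 = 2 := by
        intro h'
        apply h12
        unfold Nat.ModEq
        omega
      unfold dLO
      rw [if_neg (by omega), if_neg this]
      omega
  · rw [Module.finrank_eq_of_rank_eq (n := 0)
      (by simpa using ModularForm.levelOne_odd_weight_rank_zero ho)]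
    have : w % 2 = 1 := Int.odd_iff.mp ho
    simp [dLO, this]

theorem dLO_sub_twelve (w : ℤ) :
    dLO w = dLO (w - 12) + if (w % 2 = 0 ∧ 0 ≤ w ∧ w ≠ 2) then 1 else 0 := by
  unfold dLO
  split_ifs <;> omega

theorem dLO_sub_four (w : ℤ) :
    dLO w = dLO (w - 4) + if (w % 6 = 0 ∧ 0 ≤ w) then 1 else 0 := by
  unfold dLO
  split_ifs <;> omega

theorem dLO_sub_six (w : ℤ) :
    dLO w = dLO (w - 6) + if (w % 4 = 0 ∧ 0 ≤ w) then 1 else 0 := by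
  unfold dLO
  split_ifs <;> omega

theorem mdiff_of_mem {w : ℤ} {f : ℍ → ℂ} (hf : f ∈ LF w) : MDiff f := by
  obtain ⟨F, rfl⟩ := hf
  exact F.holo'

theorem mul_mem {a b : ℤ} {f g : ℍ → ℂ} (hf : f ∈ LF a) (hg : g ∈ LF b) : f * g ∈ LF (a + b) := by
  obtain ⟨F, rfl⟩ := hf
  obtain ⟨G, rfl⟩ := hg
  exact ⟨F.mul G, rfl⟩

theorem mul_mem' {a b c : ℤ} {f g : ℍ → ℂ} (hf : f ∈ LF a) (hg : g ∈ LF b) (h : a + b = c) :
    f * g ∈ LF c := h ▸ mul_mem hf hg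

theorem one_mem : (1 : ℍ → ℂ) ∈ LF 0 := ⟨1, rfl⟩

theorem pow_mem {a : ℤ} {f : ℍ → ℂ} (hf : f ∈ LF a) (n : ℕ) : f ^ n ∈ LF (n * a) := by
  induction n with
  | zero => simpa using one_mem
  | succ n ih =>
    rw [pow_succ]
    exact mul_mem' ih hf (by push_cast; ring)

theorem tendsto_coeff_zero {k : ℤ} (f : ModularForm 𝒮ℒ k) :
    Tendsto (⇑f) atImInfty (𝓝 ((qExpansion 1 f).coeff 0)) := by
  have hanal := ModularFormClass.analyticAt_cuspFunction_zero f one_pos one_mem_strictPeriods_SL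
  have hper := SlashInvariantFormClass.periodic_comp_ofComplex f one_mem_strictPeriods_SL
  rw [qExpansion_coeff_zero one_pos hanal hper, ← cuspFunction_apply_zero one_pos hanal hper]
  exact (hanal.continuousAt.tendsto.comp (qParam_tendsto_atImInfty one_pos)).congr
    (fun τ ↦ SlashInvariantFormClass.eq_cuspFunction f τ one_mem_strictPeriods_SL one_ne_zero)

theorem tendsto_E4 : Tendsto (⇑E₄) atImInfty (𝓝 1) := by
  have := tendsto_coeff_zero E₄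
  rwa [EisensteinSeries.E_qExpansion_coeff_zero _ ⟨2, rfl⟩] at this

theorem tendsto_E6 : Tendsto (⇑E₆) atImInfty (𝓝 1) := by
  have := tendsto_coeff_zero E₆
  rwa [EisensteinSeries.E_qExpansion_coeff_zero _ ⟨3, rfl⟩] at this

/-- The subspace `π * LF (w - v)` of `ℍ → ℂ`. -/
def mulSub (π : ℍ → ℂ) (u : ℤ) : Submodule ℂ (ℍ → ℂ) :=
  (LF u).map (LinearMap.mulLeft ℂ π)

theorem mem_mulSub {π : ℍ → ℂ} {u : ℤ} {r : ℍ → ℂ} :
    r ∈ mulSub π u ↔ ∃ s ∈ LF u, r = π * s := by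
  unfold mulSub
  rw [Submodule.mem_map]
  constructor
  · rintro ⟨s, hs, rfl⟩
    exact ⟨s, hs, rfl⟩
  · rintro ⟨s, hs, rfl⟩
    exact ⟨s, hs, rfl⟩

theorem mulSub_le {π : ℍ → ℂ} {v w : ℤ} (hπ : π ∈ LF v) : mulSub π (w - v) ≤ LF w := by
  intro r hr
  obtain ⟨s, hs, rfl⟩ := mem_mulSub.mp hr
  exact mul_mem' hπ hs (by ring)

theorem finrank_mulSub {π : ℍ → ℂ} {v : ℤ} (hπ : π ∈ LF v) (hπ0 : π ≠ 0) (u : ℤ) :
    Module.finrank ℂ (mulSub π u) = Module.finrank ℂ (LF u) := by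
  have hinj : Function.Injective ((LinearMap.mulLeft ℂ π).domRestrict (LF u)) := by
    rw [← LinearMap.ker_eq_bot, LinearMap.ker_eq_bot']
    intro s hs
    have h1 : π * (s : ℍ → ℂ) = 0 := hs
    rcases (UpperHalfPlane.mul_eq_zero_iff (mdiff_of_mem hπ) (mdiff_of_mem s.2)).mp h1 with h | h
    · exact absurd h hπ0
    · exact Subtype.ext h
  have hrange : LinearMap.range ((LinearMap.mulLeft ℂ π).domRestrict (LF u)) = mulSub π u := by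
    unfold mulSub
    rw [LinearMap.range_domRestrict]
  rw [← hrange]
  exact LinearMap.finrank_range_of_inj hinj

/-- If the dimensions agree, everything is a multiple of `π`. -/
theorem eq_mul_of_finrank_eq {v w : ℤ} {π : ℍ → ℂ} (hπ : π ∈ LF v) (hπ0 : π ≠ 0)
    (h : Module.finrank ℂ (LF w) = Module.finrank ℂ (LF (w - v)))
    (r : ℍ → ℂ) (hr : r ∈ LF w) : ∃ s ∈ LF (w - v), r = π * s := by
  have heq : mulSub π (w - v) = LF w :=
    Submodule.eq_of_le_of_finrank_eq (mulSub_le hπ) (by rw [finrank_mulSub hπ hπ0, h])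
  exact mem_mulSub.mp (heq ▸ hr)

/-- The forms of weight `w` vanishing at `z₀`. -/
def vanSub (z₀ : ℍ) (w : ℤ) : Submodule ℂ (ℍ → ℂ) :=
  LF w ⊓ LinearMap.ker (LinearMap.proj z₀ : (ℍ → ℂ) →ₗ[ℂ] ℂ)

theorem mem_vanSub {z₀ : ℍ} {w : ℤ} {r : ℍ → ℂ} : r ∈ vanSub z₀ w ↔ r ∈ LF w ∧ r z₀ = 0 := by
  unfold vanSub
  simp [Submodule.mem_inf]

/-- If the codimension is at most one and some form does not vanish at `z₀`, the forms vanishing
at `z₀` are the multiples of `π`. -/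
theorem eq_mul_of_finrank_le {z₀ : ℍ} {v w : ℤ} {π : ℍ → ℂ} (hπ : π ∈ LF v) (hπ0 : π ≠ 0)
    (hz : π z₀ = 0)
    (h : Module.finrank ℂ (LF w) ≤ Module.finrank ℂ (LF (w - v)) + 1)
    (hne : ∃ r ∈ LF w, r z₀ ≠ 0)
    (r : ℍ → ℂ) (hr : r ∈ LF w) (hr0 : r z₀ = 0) : ∃ s ∈ LF (w - v), r = π * s := by
  have hle : mulSub π (w - v) ≤ vanSub z₀ w := by
    intro t ht
    refine mem_vanSub.mpr ⟨mulSub_le hπ ht, ?_⟩
    obtain ⟨s, -, rfl⟩ := mem_mulSub.mp ht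
    simp [hz]
  have hlt : vanSub z₀ w < LF w := by
    refine lt_of_le_of_ne inf_le_left ?_
    intro heq
    obtain ⟨t, ht, ht0⟩ := hne
    exact ht0 (mem_vanSub.mp (heq ▸ ht)).2
  have hfin : Module.finrank ℂ (vanSub z₀ w) < Module.finrank ℂ (LF w) :=
    Submodule.finrank_lt_finrank_of_lt hlt
  have : FiniteDimensional ℂ (vanSub z₀ w) :=
    Submodule.finiteDimensional_of_le (inf_le_left : vanSub z₀ w ≤ LF w)
  have heq : mulSub π (w - v) = vanSub z₀ w :=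
    Submodule.eq_of_le_of_finrank_le hle (by rw [finrank_mulSub hπ hπ0]; omega)
  exact mem_mulSub.mp (heq ▸ mem_vanSub.mpr ⟨hr, hr0⟩)

/-- A function with a nonzero limit at `i∞` is not identically zero. -/
theorem ne_zero_of_tendsto {π : ℍ → ℂ} {c : ℂ} (hc : c ≠ 0) (h : Tendsto π atImInfty (𝓝 c)) :
    π ≠ 0 := by
  rintro rfl
  exact hc (tendsto_nhds_unique h tendsto_const_nhds)

theorem E4_cube_sub_E6_sq_ne_zero (z : ℍ) : E₄ z ^ 3 - E₆ z ^ 2 ≠ 0 := by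
  intro h
  have h1 := ModularForm.discriminant_eq_E₄_cube_sub_E₆_sq z
  rw [h, zero_div] at h1
  exact ModularForm.discriminant_ne_zero z h1

theorem exists_eq_one {z₀ : ℍ} {w : ℤ} (h : ∃ r ∈ LF w, r z₀ ≠ 0) : ∃ r ∈ LF w, r z₀ = 1 := by
  obtain ⟨r, hr, hr0⟩ := h
  refine ⟨(r z₀)⁻¹ • r, (LF w).smul_mem _ hr, ?_⟩
  simp [hr0]

/-- Monomials `E₄ ^ a * E₆ ^ b`. -/
theorem monomial_mem (a b : ℕ) : (⇑E₄ : ℍ → ℂ) ^ a * (⇑E₆ : ℍ → ℂ) ^ b ∈ LF (4 * a + 6 * b) :=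
  mul_mem' (pow_mem (coe_mem 4 E₄) a) (pow_mem (coe_mem 6 E₆) b) (by ring)

theorem exists_ne_zero_E4 {z₀ : ℍ} (h4 : E₄ z₀ ≠ 0) {w : ℤ} (hw : w % 4 = 0) (h0 : 0 ≤ w) :
    ∃ r ∈ LF w, r z₀ ≠ 0 := by
  refine ⟨(⇑E₄ : ℍ → ℂ) ^ (w / 4).toNat * (⇑E₆ : ℍ → ℂ) ^ 0, ?_, ?_⟩
  · have := monomial_mem (w / 4).toNat 0
    have h : (4 * ((w / 4).toNat : ℤ) + 6 * ((0 : ℕ) : ℤ)) = w := by omega
    rwa [h] at this
  · simp [h4]

theorem exists_ne_zero_E6 {z₀ : ℍ} (h6 : E₆ z₀ ≠ 0) {w : ℤ} (hw : w % 6 = 0) (h0 : 0 ≤ w) :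
    ∃ r ∈ LF w, r z₀ ≠ 0 := by
  refine ⟨(⇑E₄ : ℍ → ℂ) ^ 0 * (⇑E₆ : ℍ → ℂ) ^ (w / 6).toNat, ?_, ?_⟩
  · have := monomial_mem 0 (w / 6).toNat
    have h : (4 * ((0 : ℕ) : ℤ) + 6 * ((w / 6).toNat : ℤ)) = w := by omega
    rwa [h] at this
  · simp [h6]

theorem exists_ne_zero_generic {z₀ : ℍ} (h4 : E₄ z₀ ≠ 0) (h6 : E₆ z₀ ≠ 0) {w : ℤ}
    (hw : w % 2 = 0) (h0 : 0 ≤ w) (h2 : w ≠ 2) : ∃ r ∈ LF w, r z₀ ≠ 0 := by
  rcases (by omega : w % 4 = 0 ∨ (w % 4 = 2 ∧ 6 ≤ w)) with h | ⟨h, h6'⟩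
  · exact exists_ne_zero_E4 h4 h h0
  · refine ⟨(⇑E₄ : ℍ → ℂ) ^ ((w - 6) / 4).toNat * (⇑E₆ : ℍ → ℂ) ^ 1, ?_, ?_⟩
    · have := monomial_mem ((w - 6) / 4).toNat 1
      have h : (4 * ((((w - 6) / 4).toNat : ℕ) : ℤ) + 6 * ((1 : ℕ) : ℤ)) = w := by omega
      rwa [h] at this
    · simp [h4, h6]

theorem pointAlg_E4 {z₀ : ℍ} (h4 : E₄ z₀ = 0) : IsPointAlg z₀ 6 4 ⇑E₄ := by
  have h6 : E₆ z₀ ≠ 0 := by
    intro h
    have := E4_cube_sub_E6_sq_ne_zero z₀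
    simp [h4, h] at this
  have hmem : (⇑E₄ : ℍ → ℂ) ∈ LF 4 := coe_mem 4 E₄
  have hne : (⇑E₄ : ℍ → ℂ) ≠ 0 := ne_zero_of_tendsto one_ne_zero tendsto_E4
  have key : ∀ w : ℤ, ¬ (w % 6 = 0 ∧ 0 ≤ w) → ∀ r ∈ LF w, ∃ s ∈ LF (w - 4), r = ⇑E₄ * s := by
    intro w hw r hr
    refine eq_mul_of_finrank_eq hmem hne ?_ r hr
    rw [finrank_LF_eq, finrank_LF_eq, dLO_sub_four w, if_neg hw, add_zero]
  refine ⟨Or.inr (Or.inr rfl), hmem, h4, ⟨1, one_ne_zero, tendsto_E4⟩, ?_, ?_, ?_⟩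
  · intro w r hr hr0
    by_cases hw : w % 6 = 0 ∧ 0 ≤ w
    · refine eq_mul_of_finrank_le hmem hne h4 ?_ (exists_ne_zero_E6 h6 hw.1 hw.2) r hr hr0
      rw [finrank_LF_eq, finrank_LF_eq, dLO_sub_four w, if_pos hw]
    · exact key w hw r hr
  · intro w r hr hr0
    by_contra hw
    obtain ⟨s, -, rfl⟩ := key w (fun h => hw (Int.dvd_of_emod_eq_zero h.1)) r hr
    simp [h4] at hr0
  · intro w hw hw4
    exact exists_eq_one (exists_ne_zero_E6 h6 (Int.emod_eq_zero_of_dvd hw) (by omega))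

theorem pointAlg_E6 {z₀ : ℍ} (h6 : E₆ z₀ = 0) : IsPointAlg z₀ 4 6 ⇑E₆ := by
  have h4 : E₄ z₀ ≠ 0 := by
    intro h
    have := E4_cube_sub_E6_sq_ne_zero z₀
    simp [h6, h] at this
  have hmem : (⇑E₆ : ℍ → ℂ) ∈ LF 6 := coe_mem 6 E₆
  have hne : (⇑E₆ : ℍ → ℂ) ≠ 0 := ne_zero_of_tendsto one_ne_zero tendsto_E6
  have key : ∀ w : ℤ, ¬ (w % 4 = 0 ∧ 0 ≤ w) → ∀ r ∈ LF w, ∃ s ∈ LF (w - 6), r = ⇑E₆ * s := by
    intro w hw r hr
    refine eq_mul_of_finrank_eq hmem hne ?_ r hr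
    rw [finrank_LF_eq, finrank_LF_eq, dLO_sub_six w, if_neg hw, add_zero]
  refine ⟨Or.inr (Or.inl rfl), hmem, h6, ⟨1, one_ne_zero, tendsto_E6⟩, ?_, ?_, ?_⟩
  · intro w r hr hr0
    by_cases hw : w % 4 = 0 ∧ 0 ≤ w
    · refine eq_mul_of_finrank_le hmem hne h6 ?_ (exists_ne_zero_E4 h4 hw.1 hw.2) r hr hr0
      rw [finrank_LF_eq, finrank_LF_eq, dLO_sub_six w, if_pos hw]
    · exact key w hw r hr
  · intro w r hr hr0
    by_contra hw
    obtain ⟨s, -, rfl⟩ := key w (fun h => hw (Int.dvd_of_emod_eq_zero h.1)) r hr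
    simp [h6] at hr0
  · intro w hw hw4
    exact exists_eq_one (exists_ne_zero_E4 h4 (Int.emod_eq_zero_of_dvd hw) (by omega))

theorem pointAlg_generic {z₀ : ℍ} (h4 : E₄ z₀ ≠ 0) (h6 : E₆ z₀ ≠ 0) :
    IsPointAlg z₀ 2 12 (fun z => E₆ z₀ ^ 2 * E₄ z ^ 3 - E₄ z₀ ^ 3 * E₆ z ^ 2) := by
  set π : ℍ → ℂ := fun z => E₆ z₀ ^ 2 * E₄ z ^ 3 - E₄ z₀ ^ 3 * E₆ z ^ 2 with hπ
  have hπeq : π = (E₆ z₀ ^ 2) • ((⇑E₄ : ℍ → ℂ) ^ 3 * (⇑E₆ : ℍ → ℂ) ^ 0) -
      (E₄ z₀ ^ 3) • ((⇑E₄ : ℍ → ℂ) ^ 0 * (⇑E₆ : ℍ → ℂ) ^ 2) := by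
    funext z
    simp [hπ]
  have hmem : π ∈ LF 12 := by
    rw [hπeq]
    refine (LF 12).sub_mem ((LF 12).smul_mem _ ?_) ((LF 12).smul_mem _ ?_)
    · exact monomial_mem 3 0
    · exact monomial_mem 0 2
  have hz : π z₀ = 0 := by
    simp only [hπ]
    ring
  have hc : E₆ z₀ ^ 2 - E₄ z₀ ^ 3 ≠ 0 := by
    intro h
    apply E4_cube_sub_E6_sq_ne_zero z₀
    linear_combination -h
  have hlim : Tendsto π atImInfty (𝓝 (E₆ z₀ ^ 2 - E₄ z₀ ^ 3)) := by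
    have h1 : Tendsto (fun z => E₆ z₀ ^ 2 * E₄ z ^ 3 - E₄ z₀ ^ 3 * E₆ z ^ 2) atImInfty
        (𝓝 (E₆ z₀ ^ 2 * 1 ^ 3 - E₄ z₀ ^ 3 * 1 ^ 2)) :=
      ((tendsto_E4.pow 3).const_mul _).sub ((tendsto_E6.pow 2).const_mul _)
    simpa using h1
  have hne : π ≠ 0 := ne_zero_of_tendsto hc hlim
  have key : ∀ w : ℤ, ¬ (w % 2 = 0 ∧ 0 ≤ w ∧ w ≠ 2) → ∀ r ∈ LF w,
      ∃ s ∈ LF (w - 12), r = π * s := by
    intro w hw r hr
    refine eq_mul_of_finrank_eq hmem hne ?_ r hr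
    rw [finrank_LF_eq, finrank_LF_eq, dLO_sub_twelve w, if_neg hw, add_zero]
  refine ⟨Or.inl rfl, hmem, hz, ⟨_, hc, hlim⟩, ?_, ?_, ?_⟩
  · intro w r hr hr0
    by_cases hw : w % 2 = 0 ∧ 0 ≤ w ∧ w ≠ 2
    · refine eq_mul_of_finrank_le hmem hne hz ?_
        (exists_ne_zero_generic h4 h6 hw.1 hw.2.1 hw.2.2) r hr hr0
      rw [finrank_LF_eq, finrank_LF_eq, dLO_sub_twelve w, if_pos hw]
    · exact key w hw r hr
  · intro w r hr hr0
    by_contra hw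
    obtain ⟨s, -, rfl⟩ := key w (fun h => hw (Int.dvd_of_emod_eq_zero h.1)) r hr
    simp [hz] at hr0
  · intro w hw hw4
    exact exists_eq_one
      (exists_ne_zero_generic h4 h6 (Int.emod_eq_zero_of_dvd hw) (by omega) (by omega))

end PointAlg

theorem exists_pointAlg (z₀ : ℍ) :
    (E₄ z₀ = 0 ∧ IsPointAlg z₀ 6 4 ⇑E₄) ∨ (E₆ z₀ = 0 ∧ IsPointAlg z₀ 4 6 ⇑E₆) ∨
      (E₄ z₀ ≠ 0 ∧ E₆ z₀ ≠ 0 ∧
        IsPointAlg z₀ 2 12 (fun z => E₆ z₀ ^ 2 * E₄ z ^ 3 - E₄ z₀ ^ 3 * E₆ z ^ 2)) := by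
  by_cases h4 : E₄ z₀ = 0
  · exact Or.inl ⟨h4, PointAlg.pointAlg_E4 h4⟩
  by_cases h6 : E₆ z₀ = 0
  · exact Or.inr (Or.inl ⟨h6, PointAlg.pointAlg_E6 h6⟩)
  · exact Or.inr (Or.inr ⟨h4, h6, PointAlg.pointAlg_generic h4 h6⟩)

end Fermat.Agent.S20
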